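import Mathlib.NumberTheory.NumberField.Discriminant.Basic
import Mathlib.NumberTheory.NumberField.Norm

/-!
# Oriented bases of the ideals of an imaginary quadratic field

`K` is an imaginary quadratic field of discriminant `d`, `σ : K → ℂ` one of the two embeddings and
`I` a non-zero ideal of the ring of integers. Then `I = ℤ β + ℤ α` with
`Im (σ β * conj (σ α)) = N(I) √|d| / 2`. So `τ = σ β / σ α` is in the upper half plane,
and the norm of `x = m β + n α` is `N(I) (√|d| / 2) ‖m τ + n‖² / Im τ`.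
-/

namespace Fermat.Agent.Cor.Kron

open NumberField Module ComplexConjugate

variable {K : Type*} [Field K] [NumberField K]

open scoped Classical in
/-- The two embeddings of an imaginary quadratic field. -/
theorem univ_embeddings [IsTotallyComplex K] (h2 : finrank ℚ K = 2) (σ : K →+* ℂ) :
    (Finset.univ : Finset (K →+* ℂ)) = {σ, ComplexEmbedding.conjugate σ} := by
  classical
  have hne : σ ≠ ComplexEmbedding.conjugate σ := by
    intro h
    have h1 : ComplexEmbedding.IsReal σ := by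
      rw [ComplexEmbedding.isReal_iff]; exact h.symm
    have h3 := IsTotallyComplex.isComplex (InfinitePlace.mk σ)
    exact (InfinitePlace.not_isReal_iff_isComplex.mpr h3) (InfinitePlace.isReal_mk_iff.mpr h1)
  symm
  apply Finset.eq_of_subset_of_card_le (Finset.subset_univ _)
  rw [Finset.card_univ, Embeddings.card, h2, Finset.card_pair hne]

theorem trace_eq [IsTotallyComplex K] (h2 : finrank ℚ K = 2) (σ : K →+* ℂ) (x : K) :
    ((Algebra.trace ℚ K x : ℚ) : ℂ) = σ x + conj (σ x) := by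
  classical
  have h := trace_eq_sum_embeddings (K := ℚ) (L := K) ℂ (x := x)
  have hne : σ ≠ ComplexEmbedding.conjugate σ := by
    intro h
    have h1 : ComplexEmbedding.IsReal σ := by
      rw [ComplexEmbedding.isReal_iff]; exact h.symm
    have h3 := IsTotallyComplex.isComplex (InfinitePlace.mk σ)
    exact (InfinitePlace.not_isReal_iff_isComplex.mpr h3) (InfinitePlace.isReal_mk_iff.mpr h1)
  rw [eq_ratCast] at h
  rw [h, ← Fintype.sum_equiv (RingHom.equivRatAlgHom (R := K) (S := ℂ)) (fun τ => τ x)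
    (fun τ => τ x) (fun τ => rfl), univ_embeddings h2 σ, Finset.sum_pair hne]
  rfl

theorem norm_eq [IsTotallyComplex K] (h2 : finrank ℚ K = 2) (σ : K →+* ℂ) (x : K) :
    ((Algebra.norm ℚ x : ℚ) : ℝ) = ‖σ x‖ ^ 2 := by
  classical
  have h := Algebra.norm_eq_prod_embeddings ℚ (L := K) ℂ x
  have hne : σ ≠ ComplexEmbedding.conjugate σ := by
    intro h
    have h1 : ComplexEmbedding.IsReal σ := by
      rw [ComplexEmbedding.isReal_iff]; exact h.symm
    have h3 := IsTotallyComplex.isComplex (InfinitePlace.mk σ)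
    exact (InfinitePlace.not_isReal_iff_isComplex.mpr h3) (InfinitePlace.isReal_mk_iff.mpr h1)
  rw [eq_ratCast] at h
  rw [← Fintype.prod_equiv (RingHom.equivRatAlgHom (R := K) (S := ℂ)) (fun τ => τ x)
    (fun τ => τ x) (fun τ => rfl), univ_embeddings h2 σ, Finset.prod_pair hne] at h
  have h4 : ((Algebra.norm ℚ x : ℚ) : ℂ) = ((‖σ x‖ ^ 2 : ℝ) : ℂ) := by
    rw [h]
    rw [ComplexEmbedding.conjugate_coe_eq, Complex.mul_conj, Complex.normSq_eq_norm_sq]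
  exact_mod_cast h4

/-- The discriminant through the area of a fundamental parallelogram. -/
theorem discr_eq_area [IsTotallyComplex K] (h2 : finrank ℚ K = 2) (σ : K →+* ℂ)
    (b : Basis (Fin 2) ℤ (𝓞 K)) :
    (discr K : ℝ) = -(4 * (σ (b 1) * conj (σ (b 0))).im ^ 2) := by
  have h : ((discr K : ℤ) : ℂ) = ((-(4 * (σ (b 1) * conj (σ (b 0))).im ^ 2) : ℝ) : ℂ) := by
    have ht (i j : Fin 2) : ((Algebra.traceMatrix ℤ b i j : ℤ) : ℂ)
        = σ (b i) * σ (b j) + conj (σ (b i)) * conj (σ (b j)) := by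
      rw [Algebra.traceMatrix_apply, Algebra.traceForm_apply]
      have h3 : ((Algebra.trace ℤ (𝓞 K) (b i * b j) : ℤ) : ℚ)
          = Algebra.trace ℚ K ((b i * b j : 𝓞 K) : K) := Algebra.coe_trace_int _
      have h4 := trace_eq h2 σ ((b i * b j : 𝓞 K) : K)
      rw [← h3] at h4
      rw [Rat.cast_intCast] at h4
      rw [h4]
      push_cast
      simp only [map_mul]
    rw [← discr_eq_discr K b, Algebra.discr_def, Matrix.det_fin_two]
    push_cast
    rw [ht, ht, ht, ht]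
    apply Complex.ext
    · simp [pow_two]
      ring
    · simp [pow_two]
      ring
  exact_mod_cast h

theorem area_basis [IsTotallyComplex K] (h2 : finrank ℚ K = 2) (σ : K →+* ℂ)
    (b : Basis (Fin 2) ℤ (𝓞 K)) :
    |(σ (b 1) * conj (σ (b 0))).im| = √|(discr K : ℝ)| / 2 := by
  have h := discr_eq_area h2 σ b
  have h1 : |(discr K : ℝ)| = (2 * |(σ (b 1) * conj (σ (b 0))).im|) ^ 2 := by
    rw [h, abs_neg, abs_of_nonneg (by positivity), mul_pow, sq_abs]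
    ring
  rw [h1, Real.sqrt_sq (by positivity)]
  ring

/-- The area of a fundamental parallelogram of an ideal. -/
theorem area_ideal [IsTotallyComplex K] (h2 : finrank ℚ K = 2) (σ : K →+* ℂ)
    {I : Ideal (𝓞 K)} (bI : Basis (Fin 2) ℤ I) :
    |(σ (bI 1 : 𝓞 K) * conj (σ (bI 0 : 𝓞 K))).im| = Ideal.absNorm I * √|(discr K : ℝ)| / 2 := by
  have hr : finrank ℤ (𝓞 K) = 2 := by rw [RingOfIntegers.rank, h2]
  let b : Basis (Fin 2) ℤ (𝓞 K) := finBasisOfFinrankEq ℤ (𝓞 K) hr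
  have hdet := Ideal.natAbs_det_basis_change b I bI
  have hc (j : Fin 2) : (σ ((bI j : 𝓞 K) : K)) = (b.repr (bI j : 𝓞 K) 0 : ℂ) * σ (b 0)
      + (b.repr (bI j : 𝓞 K) 1 : ℂ) * σ (b 1) := by
    have h := b.sum_repr (bI j : 𝓞 K)
    rw [Fin.sum_univ_two] at h
    conv_lhs => rw [← h]
    simp [zsmul_eq_mul]
  rw [Basis.det_apply, Matrix.det_fin_two] at hdet
  simp only [Basis.toMatrix_apply, Function.comp_apply] at hdet
  have h3 : (σ (bI 1 : 𝓞 K) * conj (σ (bI 0 : 𝓞 K))).im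
      = ((b.repr (bI 0 : 𝓞 K) 0 * b.repr (bI 1 : 𝓞 K) 1
        - b.repr (bI 1 : 𝓞 K) 0 * b.repr (bI 0 : 𝓞 K) 1 : ℤ) : ℝ)
        * (σ (b 1) * conj (σ (b 0))).im := by
    rw [hc 0, hc 1]
    simp
    ring
  rw [h3, abs_mul, area_basis h2 σ b, ← hdet, mul_div_assoc]
  congr 1
  rw [← Int.cast_abs, Int.abs_eq_natAbs]
  simp

/-- An oriented basis of an ideal. -/
theorem exists_basis [IsTotallyComplex K] (h2 : finrank ℚ K = 2) (σ : K →+* ℂ)
    {I : Ideal (𝓞 K)} (hI : I ≠ ⊥) : ∃ bI : Basis (Fin 2) ℤ I,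
      (σ (bI 0 : 𝓞 K) * conj (σ (bI 1 : 𝓞 K))).im
        = Ideal.absNorm I * √|(discr K : ℝ)| / 2 := by
  have hr : finrank ℤ (𝓞 K) = 2 := by rw [RingOfIntegers.rank, h2]
  let b : Basis (Fin 2) ℤ (𝓞 K) := finBasisOfFinrankEq ℤ (𝓞 K) hr
  let bI : Basis (Fin 2) ℤ I := Ideal.selfBasis b I hI
  have h := area_ideal h2 σ bI
  have hs : (σ (bI 0 : 𝓞 K) * conj (σ (bI 1 : 𝓞 K))).im
      = -(σ (bI 1 : 𝓞 K) * conj (σ (bI 0 : 𝓞 K))).im := by
    simp
    ring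
  rcases le_total 0 (σ (bI 1 : 𝓞 K) * conj (σ (bI 0 : 𝓞 K))).im with h0 | h0
  · refine ⟨bI.reindex (Equiv.swap 0 1), ?_⟩
    rw [abs_of_nonneg h0] at h
    rw [Basis.reindex_apply, Basis.reindex_apply, Equiv.symm_swap, Equiv.swap_apply_left,
      Equiv.swap_apply_right, h]
  · refine ⟨bI, ?_⟩
    rw [abs_of_nonpos h0] at h
    rw [hs, h]

/-- Coordinates on an ideal of an imaginary quadratic field, with a point `τ` of the upper half
plane: `e : ℤ × ℤ ≃ I` and the norm is `N(I) (√|d| / 2) ‖m τ + n‖² / Im τ`. -/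
theorem exists_equiv [IsTotallyComplex K] (h2 : finrank ℚ K = 2) (σ : K →+* ℂ)
    {I : Ideal (𝓞 K)} (hI : I ≠ ⊥) : ∃ (α β : 𝓞 K) (e : (ℤ × ℤ) ≃ₗ[ℤ] I),
      (∀ p, (e p : 𝓞 K) = p.1 * β + p.2 * α) ∧ α ≠ 0 ∧ 0 < (σ β / σ α).im ∧
      (σ β * conj (σ α)).im = Ideal.absNorm I * √|(discr K : ℝ)| / 2 ∧
      ∀ p : ℤ × ℤ, (σ β / σ α).im / ‖(p.1 : ℂ) * (σ β / σ α) + p.2‖ ^ 2
        = √|(discr K : ℝ)| / 2 * (Ideal.absNorm I / |(Algebra.norm ℤ (e p : 𝓞 K) : ℝ)|) := by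
  obtain ⟨bI, hb⟩ := exists_basis h2 σ hI
  have hd : (0 : ℝ) < √|(discr K : ℝ)| := by
    have := discr_ne_zero K
    positivity
  have hN : (0 : ℝ) < Ideal.absNorm I := by
    have : Ideal.absNorm I ≠ 0 := by rwa [Ne, Ideal.absNorm_eq_zero_iff]
    positivity
  have hα : (bI 1 : 𝓞 K) ≠ 0 := by
    intro h
    exact bI.ne_zero 1 (Subtype.ext h)
  have hσα : σ (bI 1 : 𝓞 K) ≠ 0 := by simpa using hα
  have him : (σ (bI 0 : 𝓞 K) / σ (bI 1 : 𝓞 K)).im
      = (σ (bI 0 : 𝓞 K) * conj (σ (bI 1 : 𝓞 K))).im / ‖σ (bI 1 : 𝓞 K)‖ ^ 2 := by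
    rw [div_eq_mul_inv, Complex.inv_def, ← mul_assoc, Complex.im_mul_ofReal,
      Complex.normSq_eq_norm_sq, div_eq_mul_inv]
  have hp : 0 < ‖σ (bI 1 : 𝓞 K)‖ := norm_pos_iff.mpr hσα
  refine ⟨bI 1, bI 0, (LinearEquiv.finTwoArrow ℤ ℤ).symm.trans bI.equivFun.symm, ?_, hα, ?_, hb,
    ?_⟩
  · intro p
    simp [Basis.equivFun_symm_apply, Fin.sum_univ_two, zsmul_eq_mul]
  · rw [him, hb]
    positivity
  · intro p
    have he : (((LinearEquiv.finTwoArrow ℤ ℤ).symm.trans bI.equivFun.symm p : I) : 𝓞 K)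
        = p.1 * (bI 0 : 𝓞 K) + p.2 * (bI 1 : 𝓞 K) := by
      simp [Basis.equivFun_symm_apply, Fin.sum_univ_two, zsmul_eq_mul]
    have hn : |(Algebra.norm ℤ (((LinearEquiv.finTwoArrow ℤ ℤ).symm.trans
        bI.equivFun.symm p : I) : 𝓞 K) : ℝ)|
        = ‖σ (bI 1 : 𝓞 K)‖ ^ 2 *
          ‖(p.1 : ℂ) * (σ (bI 0 : 𝓞 K) / σ (bI 1 : 𝓞 K)) + p.2‖ ^ 2 := by
      have h1 := norm_eq h2 σ (((LinearEquiv.finTwoArrow ℤ ℤ).symm.trans
        bI.equivFun.symm p : I) : 𝓞 K)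
      rw [← Algebra.coe_norm_int, Rat.cast_intCast] at h1
      rw [h1, abs_of_nonneg (by positivity), ← mul_pow, ← norm_mul, he]
      congr 2
      push_cast
      simp only [map_add, map_mul, map_intCast]
      field_simp
    rw [hn, him, hb]
    rcases eq_or_ne ‖(p.1 : ℂ) * (σ (bI 0 : 𝓞 K) / σ (bI 1 : 𝓞 K)) + p.2‖ 0 with h0 | h0
    · rw [h0]; simp
    · field_simp

/-- The partial zeta function of an ideal as an Eisenstein series. -/
theorem exists_tsum [IsTotallyComplex K] (h2 : finrank ℚ K = 2) (σ : K →+* ℂ)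
    {I : Ideal (𝓞 K)} (hI : I ≠ ⊥) : ∃ α ∈ I, ∃ β ∈ I, α ≠ 0 ∧ 0 < (σ β / σ α).im ∧
      (∀ x, x ∈ I ↔ ∃ m n : ℤ, x = m * β + n * α) ∧
      ∀ s : ℝ, s ≠ 0 → ∑' p : ℤ × ℤ, ((σ β / σ α).im / ‖(p.1 : ℂ) * (σ β / σ α) + p.2‖ ^ 2) ^ s
        = (√|(discr K : ℝ)| / 2) ^ s * (Ideal.absNorm I : ℝ) ^ s *
          ∑' x : I, |(Algebra.norm ℤ (x : 𝓞 K) : ℝ)| ^ (-s) := by
  obtain ⟨α, β, e, he, hα, h0, -, h⟩ := exists_equiv h2 σ hI
  have hαe : α = (e (0, 1) : 𝓞 K) := by simp [he]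
  have hβe : β = (e (1, 0) : 𝓞 K) := by simp [he]
  refine ⟨α, hαe ▸ (e (0, 1)).2, β, hβe ▸ (e (1, 0)).2, hα, h0, fun x => ⟨fun hx => ?_, ?_⟩,
    fun s hs => ?_⟩
  · refine ⟨(e.symm ⟨x, hx⟩).1, (e.symm ⟨x, hx⟩).2, ?_⟩
    rw [← he, e.apply_symm_apply]
  · rintro ⟨m, n, rfl⟩
    rw [← he (m, n)]
    exact (e (m, n)).2
  · simp_rw [h]
    rw [← tsum_mul_left, ← e.toEquiv.tsum_eq]
    refine tsum_congr fun p => ?_
    simp only [LinearEquiv.coe_toEquiv]
    rw [div_eq_mul_inv (Ideal.absNorm I : ℝ), ← mul_assoc, Real.mul_rpow (by positivity)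
      (by positivity), Real.mul_rpow (by positivity) (by positivity), Real.inv_rpow (abs_nonneg _),
      Real.rpow_neg (abs_nonneg _)]

end Fermat.Agent.Cor.Kron
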