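import Fermat.Agent.Corollaries.Kron.Classes

/-!
# The point of the upper half plane of the principal class

`isTau_one`: `K` imaginary quadratic of discriminant `d`, `t` an integer with `4 ∣ t² + |d|`: then
`(t + √(-|d|)) / 2` is the quotient of an oriented `ℤ`-basis of the ring of integers.
-/

set_option autoImplicit false

noncomputable section

namespace Fermat.Agent.Cor.Kron

open NumberField Module Fermat.Agent.Classic.Zeta
open scoped nonZeroDivisors ComplexConjugate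

universe u

variable {K : Type u} [Field K] [NumberField K]

/-- the basis after a base change -/
theorem toLinearEquiv_apply {M : Type*} [AddCommGroup M] (b : Basis (Fin 2) ℤ M)
    (A : Matrix (Fin 2) (Fin 2) ℤ) (hA : IsUnit A.det) (i : Fin 2) :
    b.map (Matrix.toLinearEquiv b A hA) i = A 0 i • b 0 + A 1 i • b 1 := by
  rw [Basis.map_apply, Matrix.toLinearEquiv_apply, Matrix.toLin_self, Fin.sum_univ_two]

theorem two_re_eq (h2 : finrank ℚ K = 2) {φ : K →+* ℂ} (hφ : ¬ ComplexEmbedding.IsReal φ)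
    (x : 𝓞 K) : ∃ t : ℤ, 2 * (φ x).re = t := by
  classical
  obtain ⟨e, h0, h1⟩ := exists_embeddings h2 hφ
  have h := trace_eq_sum_embeddings ℂ (K := ℚ) (x := (x : K))
  rw [← e.sum_comp, Fin.sum_univ_two, h0, h1, Complex.add_conj, ← Algebra.coe_trace_int] at h
  refine ⟨Algebra.trace ℤ (𝓞 K) x, ?_⟩
  have h3 : (((Algebra.trace ℤ (𝓞 K) x : ℤ) : ℝ) : ℂ) = ((2 * (φ x).re : ℝ) : ℂ) := by
    rw [← h]
    simp
  exact_mod_cast h3.symm

theorem norm_sq_eq_int (h2 : finrank ℚ K = 2) {φ : K →+* ℂ} (hφ : ¬ ComplexEmbedding.IsReal φ)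
    (x : 𝓞 K) : ∃ n : ℤ, ‖φ x‖ ^ 2 = n := by
  refine ⟨|Algebra.norm ℤ x|, ?_⟩
  rw [← abs_norm_eq h2 hφ, ← Algebra.coe_norm_int]
  push_cast
  rfl

/-- **The principal class.** -/
theorem isTau_one (h2 : finrank ℚ K = 2) {φ : K →+* ℂ} (hφ : ¬ ComplexEmbedding.IsReal φ)
    {t : ℤ} (ht : 4 ∣ t ^ 2 + |discr K|) :
    IsTau φ 1 ((t + √|(discr K : ℝ)| * Complex.I) / 2) := by
  classical
  have hd : (0 : ℝ) < |(discr K : ℝ)| := by
    rw [abs_pos]
    exact_mod_cast discr_ne_zero K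
  have hc : Fintype.card (Module.Free.ChooseBasisIndex ℤ
      ((1 : (FractionalIdeal (𝓞 K)⁰ K)ˣ) : FractionalIdeal (𝓞 K)⁰ K)) = 2 := by
    rw [← Module.finrank_eq_card_chooseBasisIndex, fractionalIdeal_rank, RingOfIntegers.rank, h2]
  let b : Basis (Fin 2) ℤ ((1 : (FractionalIdeal (𝓞 K)⁰ K)ˣ) : FractionalIdeal (𝓞 K)⁰ K) :=
    (fractionalIdealBasis K ((1 : (FractionalIdeal (𝓞 K)⁰ K)ˣ) :
      FractionalIdeal (𝓞 K)⁰ K)).reindex (Fintype.equivFinOfCardEq hc)
  have hint : ∀ x : ((1 : (FractionalIdeal (𝓞 K)⁰ K)ˣ) : FractionalIdeal (𝓞 K)⁰ K),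
      ∃ y : 𝓞 K, (y : K) = x := by
    intro x
    have hx : (x : K) ∈ (1 : FractionalIdeal (𝓞 K)⁰ K) := x.2
    exact (FractionalIdeal.mem_one_iff _).mp hx
  have hone : (1 : K) ∈ ((1 : (FractionalIdeal (𝓞 K)⁰ K)ˣ) : FractionalIdeal (𝓞 K)⁰ K) := by
    rw [Units.val_one]
    exact FractionalIdeal.one_mem_one _
  set e : ((1 : (FractionalIdeal (𝓞 K)⁰ K)ˣ) : FractionalIdeal (𝓞 K)⁰ K) := ⟨1, hone⟩ with he
  have hrep : b.repr e 0 • b 0 + b.repr e 1 • b 1 = e := by
    have := b.sum_repr e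
    rwa [Fin.sum_univ_two] at this
  set m := b.repr e 0 with hm
  set n := b.repr e 1 with hn
  have hcop : IsCoprime m n := by
    rw [Int.isCoprime_iff_gcd_eq_one]
    obtain ⟨m', hm'⟩ : (Int.gcd m n : ℤ) ∣ m := Int.gcd_dvd_left ..
    obtain ⟨n', hn'⟩ : (Int.gcd m n : ℤ) ∣ n := Int.gcd_dvd_right ..
    set g : ℤ := (Int.gcd m n : ℤ) with hg
    obtain ⟨y, hy⟩ := hint (m' • b 0 + n' • b 1)
    have h3 : e = g • (m' • b 0 + n' • b 1) := by
      rw [← hrep, smul_add, smul_smul, smul_smul, ← hm', ← hn']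
    have h4 : (1 : K) = (g : K) * (y : K) := by
      have h5 : ((e : _) : K) = ((g • (m' • b 0 + n' • b 1) : _) : K) := by rw [← h3]
      rw [hy]
      rw [he] at h5
      simp only [smul_add] at h5
      simp at h5 ⊢
      rw [mul_add]
      exact h5
    have h6 : (1 : 𝓞 K) = (algebraMap ℤ (𝓞 K) g) * y := by
      apply RingOfIntegers.ext
      simpa using h4
    have h7 := congrArg (Algebra.norm ℤ) h6
    rw [map_one, map_mul, Algebra.norm_algebraMap, RingOfIntegers.rank, h2] at h7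
    have h8 : g ∣ 1 := ⟨g * Algebra.norm ℤ y, by rw [h7]; ring⟩
    have h9 : g.natAbs = 1 := Int.isUnit_iff_natAbs_eq.mp (isUnit_of_dvd_one h8)
    rw [hg] at h9
    simpa using h9
  obtain ⟨u, v, huv⟩ := hcop
  have hA : IsUnit (!![v, m; -u, n] : Matrix (Fin 2) (Fin 2) ℤ).det := by
    rw [Matrix.det_fin_two_of]
    have : v * n - m * -u = 1 := by linear_combination huv
    rw [this]
    exact isUnit_one
  set b1 := b.map (Matrix.toLinearEquiv b !![v, m; -u, n] hA) with hb1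
  have hb11 : b1 1 = e := by
    rw [hb1, toLinearEquiv_apply]
    exact hrep
  -- the sign
  obtain ⟨b2, hb21, him⟩ : ∃ b2 : Basis (Fin 2) ℤ
      ((1 : (FractionalIdeal (𝓞 K)⁰ K)ˣ) : FractionalIdeal (𝓞 K)⁰ K),
      b2 1 = e ∧ (φ (b2 0 : K)).im = √|(discr K : ℝ)| / 2 := by
    have h3 := im_mul_conj_sq h2 hφ _ b1
    rw [hb11, he] at h3
    have hnF : nF ((1 : (FractionalIdeal (𝓞 K)⁰ K)ˣ) : FractionalIdeal (𝓞 K)⁰ K) = 1 := by
      rw [Units.val_one, nF]
      simp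
    simp only [map_one, mul_one, hnF, one_pow, one_mul] at h3
    have h4 : (2 * (φ (b1 0 : K)).im) ^ 2 = √|(discr K : ℝ)| ^ 2 := by
      rw [Real.sq_sqrt hd.le, ← h3]
      ring
    rcases sq_eq_sq_iff_eq_or_eq_neg.mp h4 with h5 | h5
    · exact ⟨b1, hb11, by linarith⟩
    · refine ⟨b1.unitsSMul ![-1, 1], ?_, ?_⟩
      · rw [Basis.unitsSMul_apply, hb11]
        simp
      · rw [Basis.unitsSMul_apply]
        have h6 : (((![-1, 1] : Fin 2 → ℤˣ) 0 • b1 0 :
            ((1 : (FractionalIdeal (𝓞 K)⁰ K)ˣ) : FractionalIdeal (𝓞 K)⁰ K)) : K) =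
            -(b1 0 : K) := by
          simp [Units.smul_def]
        rw [h6, map_neg, Complex.neg_im]
        linarith
  -- the real part
  obtain ⟨y, hy⟩ := hint (b2 0)
  obtain ⟨s, hs⟩ := two_re_eq h2 hφ y
  obtain ⟨N, hN⟩ := norm_sq_eq_int h2 hφ y
  rw [hy] at hs hN
  have h3 : s ^ 2 + |discr K| = 4 * N := by
    have h4 : (s : ℝ) ^ 2 + |(discr K : ℝ)| = 4 * N := by
      rw [← hs, ← hN, ← Complex.normSq_eq_norm_sq, Complex.normSq_apply, him]
      have h5 := Real.sq_sqrt hd.le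
      linear_combination (-1) * h5
    exact_mod_cast h4
  obtain ⟨k, hk⟩ : (2 : ℤ) ∣ t - s := by
    have h4 : (4 : ℤ) ∣ t ^ 2 - s ^ 2 := by
      have : t ^ 2 - s ^ 2 = (t ^ 2 + |discr K|) - 4 * N := by rw [← h3]; ring
      rw [this]
      exact dvd_sub ht (Dvd.intro _ rfl)
    by_contra hcon
    have h5 : ¬ (2 : ℤ) ∣ t + s := fun h => hcon (by
      have := dvd_sub h (Dvd.intro s rfl : (2 : ℤ) ∣ 2 * s)
      have e1 : t + s - 2 * s = t - s := by ring
      rwa [e1] at this)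
    have h6 : (2 : ℤ) ∣ (t - s) * (t + s) := by
      have e1 : (t - s) * (t + s) = t ^ 2 - s ^ 2 := by ring
      rw [e1]
      exact (by norm_num : (2 : ℤ) ∣ 4).trans h4
    rcases Int.prime_two.dvd_or_dvd h6 with h | h
    · exact hcon h
    · exact h5 h
  have hB : IsUnit (!![1, 0; k, 1] : Matrix (Fin 2) (Fin 2) ℤ).det := by
    rw [Matrix.det_fin_two_of]
    simp
  set b3 := b2.map (Matrix.toLinearEquiv b2 !![1, 0; k, 1] hB) with hb3
  have hb31 : (b3 1 : K) = 1 := by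
    have : b3 1 = e := by
      rw [hb3, toLinearEquiv_apply, ← hb21]
      simp
    rw [this]
  have hb30 : (b3 0 : K) = (b2 0 : K) + k := by
    have : b3 0 = b2 0 + k • b2 1 := by
      rw [hb3, toLinearEquiv_apply]
      simp
    rw [this, hb21, he]
    simp
  have hτ : (φ (b3 0 : K) / φ (b3 1 : K)) = (t + √|(discr K : ℝ)| * Complex.I) / 2 := by
    rw [hb30, hb31, map_one, div_one, map_add, map_intCast]
    have hks : (t : ℝ) = s + 2 * k := by
      have : t = s + 2 * k := by linarith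
      exact_mod_cast this
    apply Complex.ext
    · rw [Complex.add_re, Complex.intCast_re]
      have e1 : (((t : ℂ) + √|(discr K : ℝ)| * Complex.I) / 2).re = t / 2 := by
        simp
      rw [e1, hks]
      linarith
    · rw [Complex.add_im, Complex.intCast_im, him]
      simp
  refine ⟨?_, 1, b3, map_one _, hτ.symm⟩
  have e1 : (((t : ℂ) + √|(discr K : ℝ)| * Complex.I) / 2).im = √|(discr K : ℝ)| / 2 := by
    simp
  rw [e1]
  have := Real.sqrt_pos.mpr hd
  positivity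

end Fermat.Agent.Cor.Kron

end
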