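import Fermat.Agent.Corollaries.Kron.ChowlaSelberg
import Fermat.Agent.Corollaries.Kron.PrincTau

/-!
# Values of the Dedekind eta function

* `chowla_selberg_one`: the Chowla-Selberg formula for the imaginary quadratic fields of class
  number one;
* `norm_eta_I`: `|η(i)| = Γ(1/4) / (2 π^(3/4))`;
* `norm_eta_omega`: `|η((1 + √-3) / 2)| = 3^(1/8) Γ(1/3)^(3/2) / (2 π)`.
-/

set_option autoImplicit false

noncomputable section

namespace Fermat.Agent.Cor.Kron

open NumberField Module Fermat.Agent.Classic.Zeta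
open scoped nonZeroDivisors ComplexConjugate

universe u

variable {K : Type u} [Field K] [NumberField K]

/-- **The Chowla-Selberg formula for class number one.** -/
theorem chowla_selberg_one (h2 : finrank ℚ K = 2) {φ : K →+* ℂ}
    (hφ : ¬ ComplexEmbedding.IsReal φ) (h1 : classNumber K = 1) {t : ℤ}
    (ht : 4 ∣ t ^ 2 + |discr K|) :
    √|(discr K : ℝ)| / 2 *
      ‖ModularForm.eta ((t + √|(discr K : ℝ)| * Complex.I) / 2)‖ ^ 4 =
      (4 * Real.pi * √|(discr K : ℝ)|)⁻¹ *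
        ∏ a ∈ Finset.Ioo 0 (discr K).natAbs, Real.Gamma (a / (discr K).natAbs) ^
          (((Units.torsionOrder K / 2 : ℕ) : ℤ) * Diri.kron (discr K) a) := by
  have hsub : Subsingleton (ClassGroup (𝓞 K)) := by
    rw [← Fintype.card_le_one_iff_subsingleton]
    exact le_of_eq h1
  have h3 := chowla_selberg h2 hφ
    (τ := fun _ => (t + √|(discr K : ℝ)| * Complex.I) / 2) fun C => by
      rw [Subsingleton.elim C⁻¹ 1]
      exact isTau_one h2 hφ ht
  rw [h1, pow_one, Fintype.prod_subsingleton _ 1] at h3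
  rw [← h3]
  congr 1
  simp

theorem nrComplexPlaces_eq_one (h2 : finrank ℚ K = 2) {φ : K →+* ℂ}
    (hφ : ¬ ComplexEmbedding.IsReal φ) : InfinitePlace.nrComplexPlaces K = 1 := by
  classical
  have h1 := InfinitePlace.card_add_two_mul_card_eq_rank K
  have h3 : 0 < InfinitePlace.nrComplexPlaces K := by
    have : Nonempty {w : InfinitePlace K // w.IsComplex} :=
      ⟨⟨InfinitePlace.mk φ, (InfinitePlace.isComplex_mk_iff).mpr hφ⟩⟩
    exact Fintype.card_pos
  omega

/-- imaginary quadratic fields of discriminant `> -9` have class number one (Minkowski) -/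
theorem classNumber_eq_one_of_lt (h2 : finrank ℚ K = 2) {φ : K →+* ℂ}
    (hφ : ¬ ComplexEmbedding.IsReal φ) (hd : |discr K| < 9) : classNumber K = 1 := by
  rw [classNumber_eq_one_iff]
  apply RingOfIntegers.isPrincipalIdealRing_of_abs_discr_lt
  rw [h2, nrComplexPlaces_eq_one h2 hφ]
  have h9 : ((|discr K| : ℤ) : ℝ) < 9 := by exact_mod_cast hd
  refine lt_trans h9 ?_
  have h3 : (9 : ℝ) = (2 * (3 / 4) ^ 1 * ((2 : ℕ) ^ 2 / (2 : ℕ).factorial)) ^ 2 := by
    norm_num [Nat.factorial]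
  rw [h3]
  gcongr
  · exact Real.pi_gt_three

theorem not_isReal_of_discr_neg (hd : discr K < 0) (h2 : finrank ℚ K = 2) (φ : K →+* ℂ) :
    ¬ ComplexEmbedding.IsReal φ := by
  classical
  intro hφ
  have h1 := InfinitePlace.card_add_two_mul_card_eq_rank K
  have h3 : 0 < InfinitePlace.nrRealPlaces K := by
    have : Nonempty {w : InfinitePlace K // w.IsReal} :=
      ⟨⟨InfinitePlace.mk φ, (InfinitePlace.isReal_mk_iff).mpr hφ⟩⟩
    exact Fintype.card_pos
  have h4 : InfinitePlace.nrComplexPlaces K = 0 := by omega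
  have h5 := NumberField.sign_discr K
  rw [h4, pow_zero] at h5
  rw [Int.sign_eq_one_iff_pos] at h5
  omega

theorem gamma_three_quarters : Real.Gamma (3 / 4) = Real.pi * √2 / Real.Gamma (1 / 4) := by
  have h := Real.Gamma_mul_Gamma_one_sub (1 / 4)
  have h0 : Real.Gamma (1 / 4) ≠ 0 := (Real.Gamma_pos_of_pos (by norm_num)).ne'
  rw [show (1 : ℝ) - 1 / 4 = 3 / 4 by norm_num, show Real.pi * (1 / 4) = Real.pi / 4 by ring,
    Real.sin_pi_div_four] at h
  rw [eq_div_iff h0, mul_comm, h]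
  have h2 : √2 * √2 = (2 : ℝ) := Real.mul_self_sqrt (by norm_num)
  have h3 : √2 ≠ (0 : ℝ) := by positivity
  field_simp
  linear_combination (-1) * h2

theorem gamma_two_thirds : Real.Gamma (2 / 3) = 2 * Real.pi / (√3 * Real.Gamma (1 / 3)) := by
  have h := Real.Gamma_mul_Gamma_one_sub (1 / 3)
  have h0 : Real.Gamma (1 / 3) ≠ 0 := (Real.Gamma_pos_of_pos (by norm_num)).ne'
  have h3 : √3 ≠ (0 : ℝ) := by positivity
  rw [show (1 : ℝ) - 1 / 3 = 2 / 3 by norm_num, show Real.pi * (1 / 3) = Real.pi / 3 by ring,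
    Real.sin_pi_div_three] at h
  rw [eq_div_iff (mul_ne_zero h3 h0)]
  have h4 : Real.Gamma (2 / 3) * (√3 * Real.Gamma (1 / 3)) =
      √3 * (Real.Gamma (1 / 3) * Real.Gamma (2 / 3)) := by ring
  rw [h4, h]
  field_simp

/-- **`|η(i)| = Γ(1/4) / (2 π^(3/4))`** -/
theorem norm_eta_I :
    ‖ModularForm.eta Complex.I‖ = Real.Gamma (1 / 4) / (2 * Real.pi ^ (3 / 4 : ℝ)) := by
  have hG : 0 < Real.Gamma (1 / 4) := Real.Gamma_pos_of_pos (by norm_num)
  let K := CyclotomicField 4 ℚ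
  have hcyc : IsCyclotomicExtension {4} ℚ K := CyclotomicField.isCyclotomicExtension 4 ℚ
  have h2 : finrank ℚ K = 2 := by
    rw [IsCyclotomicExtension.Rat.finrank 4 K]
    decide
  have hd : discr K = -4 := by
    have : IsCyclotomicExtension {2 ^ 2} ℚ K := hcyc
    have h := IsCyclotomicExtension.Rat.discr_prime_pow 2 2 K
    rw [h]
    have : Nat.totient (2 ^ 2) = 2 := by decide
    rw [this]
    norm_num
  obtain ⟨φ⟩ : Nonempty (K →+* ℂ) := inferInstance
  have hφ := not_isReal_of_discr_neg (by rw [hd]; norm_num) h2 φ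
  have hcl : classNumber K = 1 := classNumber_eq_one_of_lt h2 hφ (by rw [hd]; norm_num)
  have hw : Units.torsionOrder K = 4 := by
    rw [IsCyclotomicExtension.Rat.torsionOrder_eq (n := 4) (K := K), if_pos (by decide)]
  have h := chowla_selberg_one h2 hφ hcl (t := 0) (by rw [hd]; norm_num)
  rw [hd, hw] at h
  have hs : √|((-4 : ℤ) : ℝ)| = 2 := by
    push_cast
    rw [abs_neg, abs_of_pos (by norm_num), show (4 : ℝ) = 2 ^ 2 by norm_num,
      Real.sqrt_sq (by norm_num)]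
  rw [hs] at h
  have hτ : ((((0 : ℤ) : ℂ) + ((2 : ℝ) : ℂ) * Complex.I) / 2) = Complex.I := by
    push_cast
    ring
  have hIoo : Finset.Ioo 0 ((-4 : ℤ)).natAbs = {1, 2, 3} := by decide
  have k1 : Diri.kron (-4) 1 = 1 := by
    rw [Diri.kron_odd _ (by decide)]
    norm_num
  have k2 : Diri.kron (-4) 2 = 0 := by
    rw [Diri.kron_two]
    decide
  have k3 : Diri.kron (-4) 3 = -1 := by
    rw [Diri.kron_odd _ (by decide)]
    norm_num
  rw [hτ, hIoo, Finset.prod_insert (by decide), Finset.prod_insert (by decide),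
    Finset.prod_singleton, k1, k2, k3] at h
  have hn : (((-4 : ℤ).natAbs : ℕ) : ℝ) = 4 := by norm_num
  rw [hn] at h
  norm_num at h
  rw [gamma_three_quarters] at h
  have hpi : (0 : ℝ) < Real.pi := Real.pi_pos
  have hp : (Real.pi ^ (3 / 4 : ℝ)) ^ 4 = Real.pi ^ 3 := by
    rw [← Real.rpow_natCast (Real.pi ^ (3 / 4 : ℝ)) 4, ← Real.rpow_mul hpi.le,
      ← Real.rpow_natCast Real.pi 3]
    norm_num
  have h5 : √2 ^ 2 = (2 : ℝ) := Real.sq_sqrt (by norm_num)
  refine (pow_left_inj₀ (norm_nonneg _) (by positivity) (by norm_num : (4 : ℕ) ≠ 0)).mp ?_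
  rw [div_pow, mul_pow, hp, h, div_pow, mul_pow, h5]
  field_simp
  norm_num

/-- **`|η((1 + √-3) / 2)| = 3^(1/8) Γ(1/3)^(3/2) / (2 π)`** -/
theorem norm_eta_omega :
    ‖ModularForm.eta ((1 + √3 * Complex.I) / 2)‖ =
      3 ^ (1 / 8 : ℝ) * Real.Gamma (1 / 3) ^ (3 / 2 : ℝ) / (2 * Real.pi) := by
  have hG : 0 < Real.Gamma (1 / 3) := Real.Gamma_pos_of_pos (by norm_num)
  let K := CyclotomicField 3 ℚ
  have hcyc : IsCyclotomicExtension {3} ℚ K := CyclotomicField.isCyclotomicExtension 3 ℚ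
  have h2 : finrank ℚ K = 2 := by
    rw [IsCyclotomicExtension.Rat.finrank 3 K]
    decide
  have hd : discr K = -3 := by
    have : Fact (Nat.Prime 3) := ⟨Nat.prime_three⟩
    rw [IsCyclotomicExtension.Rat.discr_prime 3 K]
    norm_num
  obtain ⟨φ⟩ : Nonempty (K →+* ℂ) := inferInstance
  have hφ := not_isReal_of_discr_neg (by rw [hd]; norm_num) h2 φ
  have hcl : classNumber K = 1 := classNumber_eq_one_of_lt h2 hφ (by rw [hd]; norm_num)
  have hw : Units.torsionOrder K = 6 := by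
    rw [IsCyclotomicExtension.Rat.torsionOrder_eq (n := 3) (K := K), if_neg (by decide)]
  have h := chowla_selberg_one h2 hφ hcl (t := 1) (by rw [hd]; norm_num)
  rw [hd, hw] at h
  have hs : |((-3 : ℤ) : ℝ)| = 3 := by
    push_cast
    rw [abs_neg, abs_of_pos (by norm_num)]
  rw [hs] at h
  have hIoo : Finset.Ioo 0 ((-3 : ℤ)).natAbs = {1, 2} := by decide
  have k1 : Diri.kron (-3) 1 = 1 := by
    rw [Diri.kron_odd _ (by decide)]
    norm_num
  have k2 : Diri.kron (-3) 2 = -1 := by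
    rw [Diri.kron_two]
    decide
  rw [hIoo, Finset.prod_insert (by decide), Finset.prod_singleton, k1, k2] at h
  have hn : (((-3 : ℤ).natAbs : ℕ) : ℝ) = 3 := by norm_num
  rw [hn] at h
  norm_num at h
  rw [gamma_two_thirds] at h
  have hpi : (0 : ℝ) < Real.pi := Real.pi_pos
  have h3 : √3 ^ 2 = (3 : ℝ) := Real.sq_sqrt (by norm_num)
  have h30 : (0 : ℝ) < √3 := by positivity
  have hp : ((3 : ℝ) ^ (1 / 8 : ℝ)) ^ 4 = √3 := by
    rw [← Real.rpow_natCast ((3 : ℝ) ^ (1 / 8 : ℝ)) 4, ← Real.rpow_mul (by norm_num),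
      Real.sqrt_eq_rpow]
    norm_num
  have hp2 : (Real.Gamma (1 / 3) ^ (3 / 2 : ℝ)) ^ 4 = Real.Gamma (1 / 3) ^ 6 := by
    rw [← Real.rpow_natCast (Real.Gamma (1 / 3) ^ (3 / 2 : ℝ)) 4, ← Real.rpow_mul hG.le,
      ← Real.rpow_natCast (Real.Gamma (1 / 3)) 6]
    norm_num
  refine (pow_left_inj₀ (norm_nonneg _) (by positivity) (by norm_num : (4 : ℕ) ≠ 0)).mp ?_
  rw [div_pow, mul_pow, mul_pow, hp, hp2]
  set X := ‖ModularForm.eta ((1 + √3 * Complex.I) / 2)‖ ^ 4 with hX
  have hX2 : X = 2 / √3 * (√3 / 2 * X) := by field_simp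
  rw [hX2, h]
  field_simp
  norm_num

end Fermat.Agent.Cor.Kron

end
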