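import Fermat.Agent.Corollaries.Kron.Lim

/-!
# The modularity of the Dedekind eta function from Kronecker's limit formula

`norm_eta_smul`: `|η((a τ + b) / (c τ + d))|² = |c τ + d| |η(τ)|²` for `a d - b c = 1`: the sum
`∑ (y / |m τ + n|²)^s` is invariant under `SL₂(ℤ)`, hence the constant term at `s = 1` is.
-/

set_option autoImplicit false

noncomputable section

open Filter Topology Complex

namespace Fermat.Agent.Cor.Kron

variable {τ : ℂ} {a b c d : ℤ}

theorem denom_ne_zero (hτ : 0 < τ.im) (h : a * d - b * c = 1) : (c : ℂ) * τ + d ≠ 0 := by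
  intro h0
  have h1 : (c : ℝ) * τ.im = 0 := by
    have := congrArg Complex.im h0
    simpa using this
  have hc : c = 0 := by
    rcases mul_eq_zero.mp h1 with h2 | h2
    · exact_mod_cast h2
    · exact absurd h2 hτ.ne'
  rw [hc] at h0 h
  have hd : d = 0 := by
    have : (d : ℂ) = 0 := by simpa using h0
    exact_mod_cast this
  rw [hd] at h
  norm_num at h

/-- the imaginary part of `(a τ + b) / (c τ + d)` -/
theorem im_smul (hτ : 0 < τ.im) (h : a * d - b * c = 1) :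
    (((a : ℂ) * τ + b) / (c * τ + d)).im = τ.im / ‖(c : ℂ) * τ + d‖ ^ 2 := by
  have h0 := denom_ne_zero hτ h
  have hn : 0 < normSq ((c : ℂ) * τ + d) := normSq_pos.mpr h0
  rw [← normSq_eq_norm_sq, div_im, ← sub_div]
  congr 1
  have h2 : (a : ℝ) * d - b * c = 1 := by exact_mod_cast h
  simp only [add_im, mul_im, intCast_re, intCast_im, zero_mul, add_zero, add_re, mul_re, sub_zero]
  linear_combination τ.im * h2

theorem im_smul_pos (hτ : 0 < τ.im) (h : a * d - b * c = 1) :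
    0 < (((a : ℂ) * τ + b) / (c * τ + d)).im := by
  rw [im_smul hτ h]
  have h0 := norm_pos_iff.mpr (denom_ne_zero hτ h)
  positivity

/-- the term of the Epstein zeta function at the image of `τ` -/
theorem KS_smul (hτ : 0 < τ.im) (h : a * d - b * c = 1) (s : ℝ) (m n : ℤ) :
    KS (((a : ℂ) * τ + b) / (c * τ + d)) s (m, n) = KS τ s (m * a + n * c, m * b + n * d) := by
  have h0 := denom_ne_zero hτ h
  have hn : ‖(c : ℂ) * τ + d‖ ≠ 0 := norm_ne_zero_iff.mpr h0
  rw [KS, KS, im_smul hτ h]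
  congr 1
  have h1 : (m : ℂ) * (((a : ℂ) * τ + b) / (c * τ + d)) + n =
      (((m * a + n * c : ℤ) : ℂ) * τ + ((m * b + n * d : ℤ) : ℂ)) / (c * τ + d) := by
    rw [← mul_div_assoc, div_add' _ _ _ h0]
    congr 1
    push_cast
    ring
  rw [h1, norm_div, div_pow]
  by_cases h2 : ‖((m * a + n * c : ℤ) : ℂ) * τ + ((m * b + n * d : ℤ) : ℂ)‖ = 0
  · rw [h2]
    simp
  · field_simp

/-- the action of `SL₂(ℤ)` on `ℤ × ℤ` -/
def actEquiv (h : a * d - b * c = 1) : ℤ × ℤ ≃ ℤ × ℤ where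
  toFun p := (p.1 * a + p.2 * c, p.1 * b + p.2 * d)
  invFun p := (p.1 * d - p.2 * c, p.2 * a - p.1 * b)
  left_inv p := by
    apply Prod.ext
    · simp only
      linear_combination p.1 * h
    · simp only
      linear_combination p.2 * h
  right_inv p := by
    apply Prod.ext
    · simp only
      linear_combination p.1 * h
    · simp only
      linear_combination p.2 * h

theorem tsum_KS_smul (hτ : 0 < τ.im) (h : a * d - b * c = 1) (s : ℝ) :
    ∑' p : ℤ × ℤ, KS (((a : ℂ) * τ + b) / (c * τ + d)) s p = ∑' p : ℤ × ℤ, KS τ s p := by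
  rw [← (actEquiv h).tsum_eq (KS τ s)]
  exact tsum_congr fun p => KS_smul hτ h s p.1 p.2

theorem tendsto_tsum_KS (hτ : 0 < τ.im) :
    Tendsto (fun s : ℝ => (∑' p : ℤ × ℤ, KS τ s p) - Real.pi / (s - 1)) (𝓝[>] 1)
      (𝓝 (2 * Real.pi * (Real.eulerMascheroniConstant - Real.log 2 -
        Real.log (√τ.im * ‖ModularForm.eta τ‖ ^ 2)))) := by
  refine (kronecker_limit hτ).congr' ?_
  filter_upwards [eventually_mem] with s hs
  rw [tsum_subtype hτ hs.1, tsum_KS hτ hs.1]

/-- **`√(im γτ) |η(γτ)|² = √(im τ) |η(τ)|²`** -/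
theorem sqrt_im_mul_norm_eta_sq (hτ : 0 < τ.im) (h : a * d - b * c = 1) :
    √(((a : ℂ) * τ + b) / (c * τ + d)).im *
      ‖ModularForm.eta (((a : ℂ) * τ + b) / (c * τ + d))‖ ^ 2 =
      √τ.im * ‖ModularForm.eta τ‖ ^ 2 := by
  have hτ' := im_smul_pos hτ h
  have h1 := tendsto_tsum_KS hτ
  have h2 := tendsto_tsum_KS hτ'
  simp only [tsum_KS_smul hτ h] at h2
  have h3 := tendsto_nhds_unique h1 h2
  have hpi := Real.pi_pos
  have pos : ∀ {z : ℂ}, 0 < z.im → 0 < √z.im * ‖ModularForm.eta z‖ ^ 2 := fun hz => by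
    have := norm_pos_iff.mpr (ModularForm.eta_ne_zero hz)
    have := Real.sqrt_pos.mpr hz
    positivity
  refine Real.log_injOn_pos (pos hτ') (pos hτ) ?_
  have h4 : 2 * Real.pi ≠ 0 := by positivity
  have h5 := mul_left_cancel₀ h4 h3
  linarith

/-- **The transformation of the absolute value of the eta function**:
`|η((a τ + b) / (c τ + d))|² = |c τ + d| |η(τ)|²` for `a d - b c = 1`. -/
theorem norm_eta_smul (hτ : 0 < τ.im) (h : a * d - b * c = 1) :
    ‖ModularForm.eta (((a : ℂ) * τ + b) / (c * τ + d))‖ ^ 2 =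
      ‖(c : ℂ) * τ + d‖ * ‖ModularForm.eta τ‖ ^ 2 := by
  have h0 := norm_pos_iff.mpr (denom_ne_zero hτ h)
  have h1 := sqrt_im_mul_norm_eta_sq hτ h
  rw [im_smul hτ h, Real.sqrt_div hτ.le, Real.sqrt_sq h0.le] at h1
  have h2 := Real.sqrt_pos.mpr hτ
  generalize ‖ModularForm.eta (((a : ℂ) * τ + b) / (c * τ + d))‖ = E at h1 ⊢
  field_simp at h1
  exact h1

/-- `|η(-1/τ)|² = |τ| |η(τ)|²` -/
theorem norm_eta_neg_inv (hτ : 0 < τ.im) :
    ‖ModularForm.eta (-1 / τ)‖ ^ 2 = ‖τ‖ * ‖ModularForm.eta τ‖ ^ 2 := by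
  have h := norm_eta_smul (a := 0) (b := -1) (c := 1) (d := 0) hτ (by norm_num)
  simpa using h

end Fermat.Agent.Cor.Kron

end
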