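import Mathlib

/-!
# Kronecker's limit formula: the asymptotic term

`tendsto_asym`: for `y > 0`, with `ζ(2 s - 1) = ∑ 1 / m ^ (2 s - 1)`,
`2 y ^ (1 - s) √π Γ(s - 1/2) / Γ(s) ζ(2 s - 1) - π / (s - 1) → 2 π (γ - log 2) - π log y`
for `s → 1+`.
-/

set_option autoImplicit false

noncomputable section

namespace Fermat.Agent.Cor.Kron

open Filter Topology

/-- The factor of `ζ(2 s - 1)`. -/
def gFac (y s : ℝ) : ℝ :=
  2 * y ^ (1 - s) * (√Real.pi * Real.Gamma (s - 1 / 2) / Real.Gamma s)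

theorem gFac_one (y : ℝ) : gFac y 1 = 2 * Real.pi := by
  unfold gFac
  rw [sub_self, Real.rpow_zero, show (1 : ℝ) - 1 / 2 = 1 / 2 by norm_num,
    Real.Gamma_one_half_eq, Real.Gamma_one, Real.mul_self_sqrt Real.pi_pos.le]
  ring

theorem hasDerivAt_gFac {y : ℝ} (hy : 0 < y) :
    HasDerivAt (gFac y) (2 * Real.pi * (-Real.log y - 2 * Real.log 2)) 1 := by
  have h1 : HasDerivAt (fun s : ℝ => y ^ (1 - s)) (-Real.log y) 1 := by
    have h := ((hasDerivAt_id (1 : ℝ)).const_sub 1).const_rpow hy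
    simpa using h
  have h2 : HasDerivAt (fun s : ℝ => Real.Gamma (s - 1 / 2))
      (-√Real.pi * (Real.eulerMascheroniConstant + 2 * Real.log 2)) 1 := by
    have h := Real.hasDerivAt_Gamma_one_half
    have h' : HasDerivAt Real.Gamma
        (-√Real.pi * (Real.eulerMascheroniConstant + 2 * Real.log 2)) ((1 : ℝ) - 1 / 2) := by
      rw [show (1 : ℝ) - 1 / 2 = 1 / 2 by norm_num]
      exact h
    exact h'.comp_sub_const 1 (1 / 2)
  have h3 := Real.hasDerivAt_Gamma_one
  have h4 := ((h1.const_mul 2).mul ((h2.const_mul √Real.pi).div h3 (by rw [Real.Gamma_one]; exact one_ne_zero)))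
  refine h4.congr_deriv ?_
  simp only [Pi.div_apply]
  rw [sub_self, Real.rpow_zero, show (1 : ℝ) - 1 / 2 = 1 / 2 by norm_num,
    Real.Gamma_one_half_eq, Real.Gamma_one]
  have h5 : √Real.pi * √Real.pi = Real.pi := Real.mul_self_sqrt Real.pi_pos.le
  linear_combination (-2 * Real.log y - 4 * Real.log 2) * h5

/-- `ζ(2 s - 1) - 1 / (2 (s - 1)) → γ`. -/
theorem tendsto_zeta :
    Tendsto (fun s : ℝ => (∑' m : ℕ, 1 / ((m : ℝ) + 1) ^ (2 * s - 1)) - 1 / (2 * (s - 1)))
      (𝓝[>] 1) (𝓝 Real.eulerMascheroniConstant) := by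
  have h1 := tendsto_riemannZeta_sub_one_div
  have h2 : Tendsto (fun s : ℝ => ((2 * s - 1 : ℝ) : ℂ)) (𝓝[>] 1) (𝓝[≠] 1) := by
    apply tendsto_nhdsWithin_of_tendsto_nhds_of_eventually_within
    · have h : Continuous fun s : ℝ => ((2 * s - 1 : ℝ) : ℂ) := by fun_prop
      have h' := (h.tendsto 1).mono_left (nhdsWithin_le_nhds (s := Set.Ioi 1))
      have h1' : ((2 * 1 - 1 : ℝ) : ℂ) = 1 := by norm_num
      rwa [h1'] at h'
    · filter_upwards [self_mem_nhdsWithin] with s hs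
      have hs' : (1 : ℝ) < s := hs
      intro h
      have h' : ((2 * s - 1 : ℝ) : ℂ) = ((1 : ℝ) : ℂ) := by rw [Complex.ofReal_one]; exact h
      have := Complex.ofReal_injective h'
      linarith
  have h3 := Complex.continuous_re.continuousAt.tendsto.comp (h1.comp h2)
  rw [Complex.ofReal_re] at h3
  refine h3.congr' ?_
  filter_upwards [self_mem_nhdsWithin] with s hs
  have hs' : (1 : ℝ) < s := hs
  have h4 : riemannZeta ((2 * s - 1 : ℝ) : ℂ) =
      ((∑' m : ℕ, 1 / ((m : ℝ) + 1) ^ (2 * s - 1) : ℝ) : ℂ) := by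
    rw [zeta_eq_tsum_one_div_nat_add_one_cpow (by rw [Complex.ofReal_re]; linarith),
      Complex.ofReal_tsum]
    refine tsum_congr fun m => ?_
    rw [Complex.ofReal_div, Complex.ofReal_one, Complex.ofReal_cpow (by positivity)]
    push_cast
    rfl
  simp only [Function.comp_apply]
  rw [h4, ← Complex.ofReal_one, ← Complex.ofReal_sub, ← Complex.ofReal_div, ← Complex.ofReal_sub,
    Complex.ofReal_re]
  congr 2
  ring

/-- **The asymptotic term of Kronecker's limit formula.** -/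
theorem tendsto_asym {y : ℝ} (hy : 0 < y) :
    Tendsto (fun s : ℝ => 2 * y ^ (1 - s) * (√Real.pi * Real.Gamma (s - 1 / 2) / Real.Gamma s) *
        (∑' m : ℕ, 1 / ((m : ℝ) + 1) ^ (2 * s - 1)) - Real.pi / (s - 1)) (𝓝[>] 1)
      (𝓝 (2 * Real.pi * (Real.eulerMascheroniConstant - Real.log 2) - Real.pi * Real.log y)) := by
  have hd := hasDerivAt_gFac hy
  have h1 : Tendsto (gFac y) (𝓝[>] 1) (𝓝 (2 * Real.pi)) := by
    rw [← gFac_one y]
    exact hd.continuousAt.tendsto.mono_left nhdsWithin_le_nhds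
  have h2 : Tendsto (fun s : ℝ => (gFac y s - gFac y 1) / (s - 1)) (𝓝[>] 1)
      (𝓝 (2 * Real.pi * (-Real.log y - 2 * Real.log 2))) := by
    have h := hasDerivAt_iff_tendsto_slope.mp hd
    have h' := h.mono_left (nhdsWithin_mono (1 : ℝ) (fun s (hs : s ∈ Set.Ioi 1) => ne_of_gt hs))
    refine h'.congr fun s => ?_
    rw [slope_def_field]
  have h3 := (h1.mul tendsto_zeta).add (h2.const_mul (1 / 2))
  have h4 : 2 * Real.pi * Real.eulerMascheroniConstant +
      1 / 2 * (2 * Real.pi * (-Real.log y - 2 * Real.log 2)) =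
      2 * Real.pi * (Real.eulerMascheroniConstant - Real.log 2) - Real.pi * Real.log y := by ring
  rw [h4] at h3
  refine h3.congr' ?_
  filter_upwards [self_mem_nhdsWithin] with s hs
  have hs' : (1 : ℝ) < s := hs
  have h5 : s - 1 ≠ 0 := by linarith [hs']
  rw [gFac_one]
  change gFac y s * _ + _ = gFac y s * _ - _
  field_simp
  ring

end Fermat.Agent.Cor.Kron
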