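import Mathlib

/-!
# Lerch's formula

`deriv_hurwitzZeta_zero`: `ζ'(0, a) = log Γ(a) - log (2 π) / 2` for `0 < a ≤ 1` (Lerch 1894), and
`deriv_LFunction_zero`: `L'(0, χ) = - log N L(0, χ) + ∑ χ(a) log Γ(a / N)` for every nontrivial
Dirichlet character.
-/

set_option autoImplicit false

noncomputable section

open Filter Topology Complex Finset

namespace Fermat.Agent.Cor.Kron

/-- `(n + a)^(-s) - (n + 1)^(-s) - (1 - a) s (n + 1)^(-s - 1)` -/
def lT (a : ℝ) (n : ℕ) (s : ℂ) : ℂ :=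
  ((n + a : ℝ) : ℂ) ^ (-s) - ((n + 1 : ℝ) : ℂ) ^ (-s) -
    (1 - a) * s * ((n + 1 : ℝ) : ℂ) ^ (-s - 1)

theorem hasDerivAt_cpow_real {t : ℝ} (ht : 0 < t) (w : ℂ) :
    HasDerivAt (fun u : ℝ => (u : ℂ) ^ w) (w * (t : ℂ) ^ (w - 1)) t := by
  have h := ((hasDerivAt_id (t : ℂ)).cpow_const (c := w) (Or.inl (by simpa using ht)))
  simpa using h.comp_ofReal

/-- the domain -/
def lU : Set ℂ := {s : ℂ | -(1 / 2) < s.re} ∩ Metric.ball 0 3

theorem isOpen_lU : IsOpen lU :=
  (isOpen_lt continuous_const continuous_re).inter Metric.isOpen_ball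

theorem isPreconnected_lU : IsPreconnected lU :=
  ((convex_halfSpace_re_gt _).inter (convex_ball _ _)).isPreconnected

theorem rpow_le_add {t σ : ℝ} (ht : 0 < t) (h1 : -(1 / 2) < σ) (h2 : σ < 3) :
    t ^ (-σ - 2) ≤ t ^ (-(3 / 2) : ℝ) + t ^ (-5 : ℝ) := by
  rcases le_total 1 t with h | h
  · have := Real.rpow_le_rpow_of_exponent_le h (show -σ - 2 ≤ -(3 / 2) by linarith)
    have h3 := Real.rpow_nonneg ht.le (-5)
    linarith
  · have := Real.rpow_le_rpow_of_exponent_ge ht h (show -5 ≤ -σ - 2 by linarith)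
    have h3 := Real.rpow_nonneg ht.le (-(3 / 2))
    linarith

theorem norm_cpow_sub_le {t₀ x : ℝ} (h0 : 0 < t₀) (hx : x ≤ t₀ + 1) {s : ℂ}
    (hs : -(1 / 2) < s.re) {t : ℝ} (ht : t ∈ Set.Icc t₀ x) :
    ‖(x : ℂ) ^ (-s - 1) - (t : ℂ) ^ (-s - 1)‖ ≤ ‖s + 1‖ * t₀ ^ (-s.re - 2) := by
  have h := Convex.norm_image_sub_le_of_norm_hasDerivWithin_le (𝕜 := ℝ)
    (f := fun u : ℝ => (u : ℂ) ^ (-s - 1)) (f' := fun u : ℝ => (-s - 1) * (u : ℂ) ^ (-s - 1 - 1))
    (s := Set.Icc t₀ x) (C := ‖s + 1‖ * t₀ ^ (-s.re - 2)) (x := t) (y := x)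
    (fun u hu => (hasDerivAt_cpow_real (h0.trans_le hu.1) _).hasDerivWithinAt)
    (fun u hu => ?_) (convex_Icc _ _) ht ⟨ht.1.trans ht.2, le_rfl⟩
  · refine h.trans ?_
    have h1 : ‖x - t‖ ≤ 1 := by
      rw [Real.norm_eq_abs, abs_le]
      constructor <;> linarith [ht.1, ht.2]
    exact mul_le_of_le_one_right (by positivity) h1
  · have hu0 : 0 < u := h0.trans_le hu.1
    rw [norm_mul, show -s - 1 = -(s + 1) by ring, norm_neg,
      Complex.norm_cpow_eq_rpow_re_of_pos hu0]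
    refine mul_le_mul_of_nonneg_left ?_ (norm_nonneg _)
    have h1 : (-(s + 1) - 1).re = -s.re - 2 := by
      simp only [sub_re, neg_re, add_re, one_re]
      ring
    rw [h1]
    exact Real.rpow_le_rpow_of_nonpos h0 hu.1 (by linarith)

theorem norm_lT_le {a : ℝ} (h0 : 0 < a) (h1 : a ≤ 1) (n : ℕ) {s : ℂ} (hs : s ∈ lU) :
    ‖lT a n s‖ ≤ 12 * (((n : ℝ) + a) ^ (-(3 / 2) : ℝ) + ((n : ℝ) + a) ^ (-5 : ℝ)) := by
  have hs1 : -(1 / 2) < s.re := hs.1
  have hs2 : ‖s‖ < 3 := by simpa using hs.2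
  have hn : (0 : ℝ) < (n : ℝ) + a := by positivity
  have hx : (n : ℝ) + 1 ≤ (n : ℝ) + a + 1 := by linarith
  have hle : (n : ℝ) + a ≤ (n : ℝ) + 1 := by linarith
  have h := Convex.norm_image_sub_le_of_norm_hasDerivWithin_le (𝕜 := ℝ)
    (f := fun u : ℝ => (u : ℂ) ^ (-s) + s * ((n + 1 : ℝ) : ℂ) ^ (-s - 1) * u)
    (f' := fun u : ℝ => (-s) * (u : ℂ) ^ (-s - 1) + s * ((n + 1 : ℝ) : ℂ) ^ (-s - 1))
    (s := Set.Icc ((n : ℝ) + a) ((n : ℝ) + 1))
    (C := 3 * (4 * (((n : ℝ) + a) ^ (-(3 / 2) : ℝ) + ((n : ℝ) + a) ^ (-5 : ℝ))))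
    (x := (n : ℝ) + 1) (y := (n : ℝ) + a)
    (fun u hu => ?_) (fun u hu => ?_) (convex_Icc _ _) ⟨hle, le_rfl⟩ ⟨le_rfl, hle⟩
  · have h2 : ‖((n : ℝ) + a) - ((n : ℝ) + 1)‖ ≤ 1 := by
      rw [Real.norm_eq_abs, abs_le]
      constructor <;> linarith
    have h3 : lT a n s = (((n : ℝ) + a : ℝ) : ℂ) ^ (-s) + s * ((n + 1 : ℝ) : ℂ) ^ (-s - 1) *
        (((n : ℝ) + a : ℝ) : ℂ) - ((((n : ℝ) + 1 : ℝ) : ℂ) ^ (-s) +
        s * ((n + 1 : ℝ) : ℂ) ^ (-s - 1) * (((n : ℝ) + 1 : ℝ) : ℂ)) := by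
      rw [lT]
      push_cast
      ring
    rw [h3]
    refine (h.trans (mul_le_of_le_one_right (by positivity) h2)).trans (le_of_eq ?_)
    ring
  · have h2 := (hasDerivAt_cpow_real (hn.trans_le hu.1) (-s)).add
      (((hasDerivAt_id u).ofReal_comp).const_mul (s * ((n + 1 : ℝ) : ℂ) ^ (-s - 1)))
    simp only [ofReal_one, mul_one] at h2
    exact h2.hasDerivWithinAt
  · have h2 := norm_cpow_sub_le hn hx hs1 hu
    rw [show -s * (u : ℂ) ^ (-s - 1) + s * ((n + 1 : ℝ) : ℂ) ^ (-s - 1) =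
      s * (((n + 1 : ℝ) : ℂ) ^ (-s - 1) - (u : ℂ) ^ (-s - 1)) by ring, norm_mul]
    have h3 : ‖s + 1‖ ≤ 4 := (norm_add_le _ _).trans (by rw [norm_one]; linarith)
    have h4 : s.re < 3 := (le_abs_self _).trans_lt ((abs_re_le_norm s).trans_lt hs2)
    refine mul_le_mul hs2.le (h2.trans ?_) (norm_nonneg _) (by norm_num)
    exact mul_le_mul h3 (rpow_le_add hn hs1 h4) (Real.rpow_nonneg hn.le _) (by norm_num)

theorem summable_bd {a : ℝ} (h0 : 0 < a) : Summable fun n : ℕ =>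
    12 * (((n : ℝ) + a) ^ (-(3 / 2) : ℝ) + ((n : ℝ) + a) ^ (-5 : ℝ)) := by
  have h : ∀ p : ℝ, 1 < p → Summable fun n : ℕ => ((n : ℝ) + a) ^ (-p) := by
    intro p hp
    have := (Real.summable_one_div_nat_add_rpow a p).mpr hp
    refine this.congr fun n => ?_
    rw [abs_of_pos (by positivity), Real.rpow_neg (by positivity), one_div]
  exact ((h _ (by norm_num)).add (h _ (by norm_num))).mul_left 12

theorem differentiable_cpow_neg {x : ℝ} (hx : 0 < x) (c : ℂ) :
    Differentiable ℂ fun s : ℂ => (x : ℂ) ^ (-s - c) := by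
  intro s
  have hx0 : (x : ℂ) ≠ 0 := by exact_mod_cast hx.ne'
  exact ((differentiableAt_id.neg).sub_const c).const_cpow (Or.inl hx0)

theorem differentiable_lT {a : ℝ} (h0 : 0 < a) (n : ℕ) : Differentiable ℂ (lT a n) := by
  have hn : (0 : ℝ) < (n : ℝ) + a := by positivity
  have hn1 : (0 : ℝ) < (n : ℝ) + 1 := by positivity
  have h1 := differentiable_cpow_neg hn 0
  have h2 := differentiable_cpow_neg hn1 0
  have h3 := differentiable_cpow_neg hn1 1
  simp only [sub_zero] at h1 h2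
  exact (h1.sub h2).sub (((differentiable_const _).mul differentiable_id).mul h3)

theorem hasDerivAt_cpow_neg {x : ℝ} (hx : 0 < x) (c : ℂ) (s : ℂ) :
    HasDerivAt (fun s : ℂ => (x : ℂ) ^ (-s - c)) (-((x : ℂ) ^ (-s - c) * Real.log x)) s := by
  have hx0 : (x : ℂ) ≠ 0 := by exact_mod_cast hx.ne'
  have h := ((hasDerivAt_id s).neg.sub_const c).const_cpow (c := (x : ℂ)) (Or.inl hx0)
  have h' : HasDerivAt (fun s : ℂ => (x : ℂ) ^ (-s - c))
      ((x : ℂ) ^ (-s - c) * Complex.log x * -1) s := h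
  rwa [← Complex.ofReal_log hx.le, mul_neg_one] at h'

theorem deriv_lT {a : ℝ} (h0 : 0 < a) (n : ℕ) : deriv (lT a n) 0 =
    ((Real.log (n + 1) - Real.log (n + a) - (1 - a) / (n + 1) : ℝ) : ℂ) := by
  have hn : (0 : ℝ) < (n : ℝ) + a := by positivity
  have hn1 : (0 : ℝ) < (n : ℝ) + 1 := by positivity
  have h1 := hasDerivAt_cpow_neg hn 0 0
  have h2 := hasDerivAt_cpow_neg hn1 0 0
  have h3 := hasDerivAt_cpow_neg hn1 1 0
  have h4 := (h1.sub h2).sub (((hasDerivAt_id (0 : ℂ)).const_mul (1 - (a : ℂ))).mul h3)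
  simp only [sub_zero, neg_zero, cpow_zero, one_mul, id_eq, mul_zero, zero_mul, add_zero,
    mul_one, zero_sub] at h4
  have h5 : HasDerivAt (lT a n) (-(Real.log (n + a) : ℂ) - -(Real.log (n + 1) : ℂ) -
      (1 - a) * (((n : ℝ) + 1 : ℝ) : ℂ) ^ (-1 : ℂ)) 0 := h4
  rw [h5.deriv, cpow_neg_one]
  push_cast
  ring

/-- the sum of the derivatives -/
theorem tendsto_deriv {a : ℝ} (h0 : 0 < a) :
    Tendsto (fun n : ℕ => ∑ m ∈ range (n + 1),
      (Real.log (m + 1) - Real.log (m + a) - (1 - a) / (m + 1))) atTop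
      (𝓝 (Real.log (Real.Gamma a) - (1 - a) * Real.eulerMascheroniConstant)) := by
  have h1 := Real.BohrMollerup.tendsto_log_gamma h0
  have h2 := (Real.tendsto_harmonic_sub_log.comp (tendsto_add_atTop_nat 1)).const_mul (1 - a)
  have h3 : Tendsto (fun n : ℕ => a * (Real.log (n + 1) - Real.log n)) atTop (𝓝 (a * 0)) :=
    (Real.tendsto_log_nat_add_one_sub_log).const_mul a
  have h4 := (h1.sub h2).add h3
  rw [mul_zero, add_zero] at h4
  refine h4.congr fun n => ?_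
  simp only [Function.comp_apply]
  rw [sum_sub_distrib, sum_sub_distrib, Real.BohrMollerup.logGammaSeq]
  have h5 : ∑ m ∈ range (n + 1), Real.log ((m : ℝ) + 1) = Real.log (n.factorial) + Real.log (n + 1) := by
    rw [← Real.log_mul (by positivity) (by positivity)]
    rw [← Real.log_prod (fun i _ => by positivity)]
    congr 1
    rw [← Finset.prod_range_add_one_eq_factorial]
    push_cast
    rw [prod_range_succ]
  have h6 : ∑ m ∈ range (n + 1), (1 - a) / ((m : ℝ) + 1) = (1 - a) * (harmonic (n + 1) : ℝ) := by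
    rw [harmonic, Rat.cast_sum, mul_sum]
    refine sum_congr rfl fun i _ => ?_
    push_cast
    rw [div_eq_mul_inv]
  have h7 : ∑ m ∈ range (n + 1), Real.log ((m : ℝ) + a) = ∑ m ∈ range (n + 1), Real.log (a + m) :=
    sum_congr rfl fun i _ => by rw [add_comm]
  rw [h5, h6, h7]
  push_cast
  ring

/-- the sum of the `lT` -/
def lF (a : ℝ) (s : ℂ) : ℂ := ∑' n : ℕ, lT a n s

theorem differentiableOn_lF {a : ℝ} (h0 : 0 < a) (h1 : a ≤ 1) : DifferentiableOn ℂ (lF a) lU :=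
  differentiableOn_tsum_of_summable_norm (summable_bd h0)
    (fun n => (differentiable_lT h0 n).differentiableOn) isOpen_lU
    fun n _ hs => norm_lT_le h0 h1 n hs

theorem zero_mem_lU : (0 : ℂ) ∈ lU := by
  constructor
  · simp
  · simp

theorem two_mem_lU : (2 : ℂ) ∈ lU := by
  constructor
  · norm_num
  · simp
    norm_num

theorem deriv_lF {a : ℝ} (h0 : 0 < a) (h1 : a ≤ 1) : deriv (lF a) 0 =
    ((Real.log (Real.Gamma a) - (1 - a) * Real.eulerMascheroniConstant : ℝ) : ℂ) := by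
  have h := hasSum_deriv_of_summable_norm (summable_bd h0)
    (fun n => (differentiable_lT h0 n).differentiableOn) isOpen_lU
    (fun n _ hs => norm_lT_le h0 h1 n hs) zero_mem_lU
  simp only [deriv_lT h0] at h
  have h2 := (h.tendsto_sum_nat.comp (tendsto_add_atTop_nat 1))
  have h3 := (continuous_ofReal.tendsto _).comp (tendsto_deriv h0)
  refine tendsto_nhds_unique h2 ?_
  refine h3.congr fun n => ?_
  simp only [Function.comp_apply]
  push_cast
  rfl

/-- the analytic continuation of `ζ(s, a) - ζ(s)` near `0` -/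
theorem hurwitz_eq {a : ℝ} (h0 : 0 < a) (h1 : a ≤ 1) {s : ℂ} (hs : s ∈ lU) :
    HurwitzZeta.hurwitzZeta (a : UnitAddCircle) s - HurwitzZeta.hurwitzZeta 0 s =
      lF a s + (1 - a) * riemannZeta₁ (s + 1) := by
  have hA : AnalyticOnNhd ℂ (fun s : ℂ => HurwitzZeta.hurwitzZeta (a : UnitAddCircle) s -
      HurwitzZeta.hurwitzZeta 0 s) lU :=
    (HurwitzZeta.differentiable_hurwitzZeta_sub_hurwitzZeta _ _).differentiableOn.analyticOnNhd
      isOpen_lU
  have hB : AnalyticOnNhd ℂ (fun s : ℂ => lF a s + (1 - a) * riemannZeta₁ (s + 1)) lU := by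
    refine DifferentiableOn.analyticOnNhd ?_ isOpen_lU
    refine (differentiableOn_lF h0 h1).add ?_
    have := differentiable_riemannZeta₁
    fun_prop
  refine hA.eqOn_of_preconnected_of_eventuallyEq hB isPreconnected_lU two_mem_lU ?_ hs
  have hev : ∀ᶠ s : ℂ in 𝓝 2, 1 < s.re :=
    (isOpen_lt continuous_const continuous_re).mem_nhds (by simp)
  filter_upwards [hev] with s hs
  have e1 := HurwitzZeta.hasSum_hurwitzZeta_of_one_lt_re (a := a) ⟨h0.le, h1⟩ hs
  have e2 := HurwitzZeta.hasSum_hurwitzZeta_of_one_lt_re (a := 1) ⟨zero_le_one, le_rfl⟩ hs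
  have e3 : riemannZeta₁ (s + 1) = s * riemannZeta (s + 1) := by
    have hs0 : s ≠ 0 := by
      rintro rfl
      norm_num at hs
    rw [riemannZeta_eq_inv_sub_mul (s := s + 1) (by simpa using hs0), add_sub_cancel_right,
      ← mul_assoc, mul_inv_cancel₀ hs0, one_mul]
  have hs1 : 1 < (s + 1).re := by
    rw [add_re, one_re]
    linarith
  have e4 : HasSum (fun n : ℕ => 1 / ((n : ℂ) + 1) ^ (s + 1)) (riemannZeta (s + 1)) := by
    rw [zeta_eq_tsum_one_div_nat_add_one_cpow hs1]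
    have := HurwitzZeta.hasSum_hurwitzZeta_of_one_lt_re (a := 1) ⟨zero_le_one, le_rfl⟩ hs1
    have h5 : Summable (fun n : ℕ => 1 / ((n : ℂ) + 1) ^ (s + 1)) := by
      simpa using this.summable
    exact h5.hasSum
  have e5 : ((1 : ℝ) : UnitAddCircle) = 0 := by
    have := AddCircle.coe_period (1 : ℝ)
    exact this
  rw [e5] at e2
  have e6 := (e1.sub e2).sub (e4.mul_left ((1 - a) * s))
  have e7 : lF a s = _ := (e6.congr_fun ?_).tsum_eq
  · rw [e7, e3]
    ring
  · intro n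
    rw [lT]
    have hn : ((n : ℂ) + a) ≠ 0 := by
      have : (0 : ℝ) < (n : ℝ) + a := by positivity
      exact_mod_cast this.ne'
    have hn1 : ((n : ℂ) + 1) ≠ 0 := by
      have : (0 : ℝ) < (n : ℝ) + 1 := by positivity
      exact_mod_cast this.ne'
    push_cast
    rw [cpow_neg, cpow_neg, show -s - 1 = -(s + 1) by ring, cpow_neg, one_div, one_div, one_div]

/-- **Lerch's formula** `ζ'(0, a) = log Γ(a) - log (2 π) / 2` -/
theorem deriv_hurwitzZeta_zero {a : ℝ} (h0 : 0 < a) (h1 : a ≤ 1) :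
    deriv (HurwitzZeta.hurwitzZeta (a : UnitAddCircle)) 0 =
      ((Real.log (Real.Gamma a) - Real.log (2 * Real.pi) / 2 : ℝ) : ℂ) := by
  have hd1 := (HurwitzZeta.differentiableAt_hurwitzZeta (a : UnitAddCircle) (s := 0) zero_ne_one)
  have hd0 := (HurwitzZeta.differentiableAt_hurwitzZeta 0 (s := 0) zero_ne_one)
  have h2 : deriv (fun s : ℂ => HurwitzZeta.hurwitzZeta (a : UnitAddCircle) s -
      HurwitzZeta.hurwitzZeta 0 s) 0 =
      deriv (fun s : ℂ => lF a s + (1 - a) * riemannZeta₁ (s + 1)) 0 := by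
    refine Filter.EventuallyEq.deriv_eq ?_
    filter_upwards [isOpen_lU.mem_nhds zero_mem_lU] with s hs
    exact hurwitz_eq h0 h1 hs
  have h3 : HasDerivAt (fun s : ℂ => lF a s + (1 - a) * riemannZeta₁ (s + 1))
      (deriv (lF a) 0 + (1 - a) * Real.eulerMascheroniConstant) 0 := by
    refine HasDerivAt.add ?_ ?_
    · exact ((differentiableOn_lF h0 h1).differentiableAt
        (isOpen_lU.mem_nhds zero_mem_lU)).hasDerivAt
    · have h4 : HasDerivAt riemannZeta₁ (Real.eulerMascheroniConstant : ℂ) (0 + 1) := by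
        rw [← deriv_riemannZeta₁_one, zero_add]
        exact (differentiable_riemannZeta₁ 1).hasDerivAt
      have h5 := (h4.comp_add_const 0 1).const_mul ((1 : ℂ) - a)
      exact h5
  rw [h3.deriv, deriv_lF h0 h1] at h2
  have h6 : deriv (fun s : ℂ => HurwitzZeta.hurwitzZeta (a : UnitAddCircle) s -
      HurwitzZeta.hurwitzZeta 0 s) 0 = deriv (HurwitzZeta.hurwitzZeta (a : UnitAddCircle)) 0 -
      deriv riemannZeta 0 := by
    rw [deriv_fun_sub hd1 hd0, HurwitzZeta.hurwitzZeta_zero]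
  rw [h6, deriv_riemannZeta_zero] at h2
  have h7 : (Complex.log (2 * Real.pi)) = ((Real.log (2 * Real.pi) : ℝ) : ℂ) := by
    rw [Complex.ofReal_log (by positivity)]
    push_cast
    rfl
  rw [h7] at h2
  push_cast at h2 ⊢
  linear_combination h2

open ZMod in
/-- `L'(0, Φ)` for a function `Φ` on `ℤ / N` with sum `0` -/
theorem deriv_ZMod_LFunction_zero {N : ℕ} [NeZero N] {Φ : ZMod N → ℂ} (hΦ : ∑ j, Φ j = 0) :
    deriv (ZMod.LFunction Φ) 0 = -Real.log N * ZMod.LFunction Φ 0 +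
      ∑ j : ZMod N, Φ j * Real.log (Real.Gamma (j.val / N)) := by
  have hN : (0 : ℝ) < N := Nat.cast_pos.mpr (NeZero.pos N)
  have hder : ∀ j : ZMod N, HasDerivAt (HurwitzZeta.hurwitzZeta (toAddCircle j))
      ((Real.log (Real.Gamma (j.val / N)) - Real.log (2 * Real.pi) / 2 : ℝ) : ℂ) 0 := by
    intro j
    have h1 := (HurwitzZeta.differentiableAt_hurwitzZeta (toAddCircle j) (s := 0)
      zero_ne_one).hasDerivAt
    have h2 : deriv (HurwitzZeta.hurwitzZeta (toAddCircle j)) 0 =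
        ((Real.log (Real.Gamma (j.val / N)) - Real.log (2 * Real.pi) / 2 : ℝ) : ℂ) := by
      by_cases hj : j = 0
      · subst hj
        have h3 := deriv_hurwitzZeta_zero (a := 1) one_pos le_rfl
        have e5 : ((1 : ℝ) : UnitAddCircle) = 0 := by
          have := AddCircle.coe_period (1 : ℝ)
          exact this
        rw [e5] at h3
        rw [map_zero, h3]
        simp
      · rw [toAddCircle_apply]
        refine deriv_hurwitzZeta_zero ?_ ?_
        · have : 0 < j.val := Nat.pos_of_ne_zero fun h => hj ((ZMod.val_eq_zero j).mp h)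
          positivity
        · rw [div_le_one hN]
          exact_mod_cast (ZMod.val_lt j).le
    rwa [h2] at h1
  have h1 : HasDerivAt (fun s : ℂ => ∑ j : ZMod N, Φ j * HurwitzZeta.hurwitzZeta (toAddCircle j) s)
      (∑ j : ZMod N, Φ j *
        ((Real.log (Real.Gamma (j.val / N)) - Real.log (2 * Real.pi) / 2 : ℝ) : ℂ)) 0 :=
    HasDerivAt.fun_sum fun j _ => (hder j).const_mul (Φ j)
  have h2 := hasDerivAt_cpow_neg hN 0 0
  simp only [sub_zero, neg_zero, cpow_zero, one_mul] at h2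
  have h3 := h2.mul h1
  have h4 : deriv (ZMod.LFunction Φ) 0 = _ := h3.deriv
  rw [h4]
  have h5 : ∑ j : ZMod N, Φ j *
        ((Real.log (Real.Gamma (j.val / N)) - Real.log (2 * Real.pi) / 2 : ℝ) : ℂ) =
      ∑ j : ZMod N, Φ j * Real.log (Real.Gamma (j.val / N)) := by
    have h6 : ∀ j : ZMod N, Φ j *
        ((Real.log (Real.Gamma (j.val / N)) - Real.log (2 * Real.pi) / 2 : ℝ) : ℂ) =
        Φ j * Real.log (Real.Gamma (j.val / N)) - Φ j * (Real.log (2 * Real.pi) / 2) := by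
      intro j
      push_cast
      ring
    simp only [h6]
    rw [sum_sub_distrib, ← sum_mul, hΦ, zero_mul, sub_zero]
  rw [h5, ZMod.LFunction]
  simp

/-- **The derivative of a Dirichlet L-function at `0`**:
`L'(0, χ) = - log N L(0, χ) + ∑ χ(a) log Γ(a / N)`. -/
theorem deriv_LFunction_zero {N : ℕ} [NeZero N] {χ : DirichletCharacter ℂ N} (hχ : χ ≠ 1) :
    deriv χ.LFunction 0 = -Real.log N * χ.LFunction 0 +
      ∑ a ∈ range N, χ (a : ZMod N) * Real.log (Real.Gamma (a / N)) := by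
  have h := deriv_ZMod_LFunction_zero (Φ := fun j => χ j) (χ.sum_eq_zero_of_ne_one hχ)
  have h2 : ∑ j : ZMod N, χ j * Real.log (Real.Gamma (j.val / N)) =
      ∑ a ∈ range N, χ (a : ZMod N) * Real.log (Real.Gamma (a / N)) := by
    refine Finset.sum_bij (fun j _ => j.val) (fun j _ => mem_range.mpr (ZMod.val_lt j))
      (fun i _ j _ hij => ZMod.val_injective N hij)
      (fun b hb => ⟨(b : ZMod N), mem_univ _, ZMod.val_cast_of_lt (mem_range.mp hb)⟩)
      fun j _ => ?_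
    rw [ZMod.natCast_zmod_val]
  rw [← h2]
  exact h

end Fermat.Agent.Cor.Kron

end
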