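import Mathlib

/-!
# The logarithmic derivatives of an odd Dirichlet L-function at `0` and at `1`

`logDeriv_add`: `L'/L(1, χ⁻¹) + L'/L(0, χ) = γ + log (2 π / N)` for every primitive odd Dirichlet
character modulo `N`, from the functional equation.
-/

set_option autoImplicit false

noncomputable section

open Filter Topology Complex

namespace Fermat.Agent.Cor.Kron

open Real in
/-- `Gammaℝ' (2) = - (log π + γ) / (2 π)` -/
theorem hasDerivAt_Gammaℝ_two : HasDerivAt Gammaℝ
    (-((Real.log Real.pi : ℂ) + Real.eulerMascheroniConstant) / (2 * Real.pi)) 2 := by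
  have hpi : (Real.pi : ℂ) ≠ 0 := by exact_mod_cast Real.pi_ne_zero
  have h1 : HasDerivAt (fun s : ℂ => (Real.pi : ℂ) ^ (-s / 2))
      ((Real.pi : ℂ) ^ (-(2 : ℂ) / 2) * Complex.log Real.pi * (-1 / 2)) 2 :=
    (((hasDerivAt_id (2 : ℂ)).neg).div_const 2).const_cpow (Or.inl hpi)
  have h2 : HasDerivAt (fun s : ℂ => Complex.Gamma (s / 2))
      (-(Real.eulerMascheroniConstant : ℂ) * (1 / 2)) 2 := by
    have h3 : HasDerivAt Complex.Gamma (-(Real.eulerMascheroniConstant : ℂ)) ((2 : ℂ) / 2) := by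
      rw [div_self two_ne_zero]
      exact Complex.hasDerivAt_Gamma_one
    exact HasDerivAt.comp (h₂ := Complex.Gamma) (h := fun s : ℂ => s / 2) 2 h3
      ((hasDerivAt_id (2 : ℂ)).div_const 2)
  have h4 := h1.mul h2
  have h5 : HasDerivAt Gammaℝ ((Real.pi : ℂ) ^ (-(2 : ℂ) / 2) * Complex.log Real.pi * (-1 / 2) *
      Complex.Gamma (2 / 2) + (Real.pi : ℂ) ^ (-(2 : ℂ) / 2) *
      (-(Real.eulerMascheroniConstant : ℂ) * (1 / 2))) 2 := h4
  have h6 : (Real.pi : ℂ) ^ (-(2 : ℂ) / 2) = 1 / Real.pi := by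
    rw [show (-(2 : ℂ) / 2) = -1 by norm_num, cpow_neg_one, one_div]
  rw [h6, div_self two_ne_zero, Complex.Gamma_one] at h5
  convert h5 using 1
  rw [Complex.ofReal_log Real.pi_pos.le]
  field_simp
  ring

theorem Gammaℝ_two : Gammaℝ 2 = 1 / Real.pi := by
  rw [Gammaℝ_def, div_self two_ne_zero, Complex.Gamma_one, neg_div, div_self two_ne_zero,
    cpow_neg_one, mul_one, one_div]

variable {N : ℕ} [NeZero N] {χ : DirichletCharacter ℂ N}

omit [NeZero N] in
theorem ne_one_of_odd (ho : χ.Odd) : χ ≠ 1 := by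
  rintro rfl
  have h : (1 : DirichletCharacter ℂ N) (-1) = -1 := ho
  rw [MulChar.one_apply (isUnit_one.neg)] at h
  norm_num at h

omit [NeZero N] in
theorem odd_inv (ho : χ.Odd) : (χ⁻¹).Odd := by
  have h : χ (-1) = -1 := ho
  have h1 : (χ⁻¹ * χ) (-1 : ZMod N) = 1 := by
    rw [inv_mul_cancel, MulChar.one_apply (isUnit_one.neg)]
  rw [MulChar.mul_apply, h] at h1
  show χ⁻¹ (-1) = -1
  linear_combination -h1

theorem completed_eq (ho : χ.Odd) {s : ℂ} (hs : 0 < (s + 1).re) :
    χ.completedLFunction s = Gammaℝ (s + 1) * χ.LFunction s := by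
  have hN : N ≠ 1 := by
    rintro rfl
    exact ne_one_of_odd ho (DirichletCharacter.level_one χ)
  rw [χ.LFunction_eq_completed_div_gammaFactor s (Or.inr hN), ho.gammaFactor_def,
    mul_div_cancel₀ _ (Gammaℝ_ne_zero_of_re_pos hs)]

theorem hasDerivAt_completed (ho : χ.Odd) {s G : ℂ} (hs : 0 < (s + 1).re)
    (hG : HasDerivAt Gammaℝ G (s + 1)) :
    HasDerivAt χ.completedLFunction
      (G * χ.LFunction s + Gammaℝ (s + 1) * deriv χ.LFunction s) s := by
  have h1 := (hG.comp_add_const s 1).mul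
    ((χ.differentiable_LFunction (ne_one_of_odd ho)) s).hasDerivAt
  refine h1.congr_of_eventuallyEq ?_
  have h2 : ∀ᶠ z : ℂ in 𝓝 s, 0 < (z + 1).re := by
    have : IsOpen {z : ℂ | 0 < (z + 1).re} :=
      isOpen_lt continuous_const (continuous_re.comp (continuous_id.add continuous_const))
    exact this.mem_nhds hs
  filter_upwards [h2] with z hz
  exact completed_eq ho hz

/-- **`L'/L(1, χ⁻¹) + L'/L(0, χ) = γ + log (2 π / N)`** for a primitive odd character -/
theorem logDeriv_add (hp : χ.IsPrimitive) (ho : χ.Odd) (h0 : χ.LFunction 0 ≠ 0)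
    (h1 : χ⁻¹.LFunction 1 ≠ 0) :
    deriv χ⁻¹.LFunction 1 / χ⁻¹.LFunction 1 + deriv χ.LFunction 0 / χ.LFunction 0 =
      ((Real.eulerMascheroniConstant + Real.log (2 * Real.pi / N) : ℝ) : ℂ) := by
  have hN : (N : ℂ) ≠ 0 := Nat.cast_ne_zero.mpr (NeZero.ne N)
  have hNr : (0 : ℝ) < N := Nat.cast_pos.mpr (NeZero.pos N)
  have hpi : (Real.pi : ℂ) ≠ 0 := by exact_mod_cast Real.pi_ne_zero
  have hd0 := hasDerivAt_completed ho (s := 0) (by simp)
    (G := -((Real.eulerMascheroniConstant : ℂ) + Complex.log (4 * Real.pi)) / 2)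
    (by rw [zero_add]; exact hasDerivAt_Gammaℝ_one)
  have hd1 := hasDerivAt_completed (odd_inv ho) (s := 1) (by simp)
    (G := -((Real.log Real.pi : ℂ) + Real.eulerMascheroniConstant) / (2 * Real.pi))
    (by rw [one_add_one_eq_two]; exact hasDerivAt_Gammaℝ_two)
  have e0 := completed_eq ho (s := 0) (by simp)
  have e1 := completed_eq (odd_inv ho) (s := 1) (by simp)
  rw [zero_add, Gammaℝ_one, one_mul] at e0
  rw [one_add_one_eq_two, Gammaℝ_two] at e1
  rw [zero_add, Gammaℝ_one, one_mul] at hd0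
  rw [one_add_one_eq_two, Gammaℝ_two] at hd1
  have hL : HasDerivAt (fun s : ℂ => χ.completedLFunction (1 - s))
      (-(-((Real.eulerMascheroniConstant : ℂ) + Complex.log (4 * Real.pi)) / 2 * χ.LFunction 0 +
        deriv χ.LFunction 0)) 1 := by
    have h2 : HasDerivAt χ.completedLFunction
        (-((Real.eulerMascheroniConstant : ℂ) + Complex.log (4 * Real.pi)) / 2 * χ.LFunction 0 +
        deriv χ.LFunction 0) (1 - 1) := by
      rw [sub_self]
      exact hd0
    exact h2.comp_const_sub 1 1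
  have hW : HasDerivAt (fun s : ℂ => (N : ℂ) ^ (s - 1 / 2) * χ.rootNumber)
      ((N : ℂ) ^ ((1 : ℂ) - 1 / 2) * Complex.log N * 1 * χ.rootNumber) 1 :=
    ((((hasDerivAt_id (1 : ℂ)).sub_const (1 / 2)).const_cpow (Or.inl hN))).mul_const _
  have hR := hW.mul hd1
  have hfe : (fun s : ℂ => χ.completedLFunction (1 - s)) =
      (fun s : ℂ => (N : ℂ) ^ (s - 1 / 2) * χ.rootNumber) * χ⁻¹.completedLFunction := by
    funext s
    exact hp.completedLFunction_one_sub s
  rw [hfe] at hL
  have h3 := hL.unique hR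
  have h4 := hp.completedLFunction_one_sub 1
  rw [sub_self, e0, e1] at h4
  rw [e1] at h3
  set W : ℂ := (N : ℂ) ^ ((1 : ℂ) - 1 / 2) * χ.rootNumber with hWdef
  have hW0 : W ≠ 0 := by
    intro h
    rw [h, zero_mul] at h4
    exact h0 h4
  have hlog1 : Complex.log (4 * Real.pi) = ((Real.log (4 * Real.pi) : ℝ) : ℂ) := by
    rw [Complex.ofReal_log (by positivity)]
    push_cast
    rfl
  have hlog2 : Complex.log N = ((Real.log N : ℝ) : ℂ) := by
    rw [Complex.ofReal_log hNr.le]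
    push_cast
    rfl
  have h5 : Real.log (2 * Real.pi / N) = (Real.log (4 * Real.pi) + Real.log Real.pi) / 2 -
      Real.log N := by
    have e4 : (4 : ℝ) = 2 ^ 2 := by norm_num
    rw [Real.log_div (by positivity) hNr.ne', Real.log_mul two_ne_zero Real.pi_ne_zero,
      Real.log_mul (by norm_num) Real.pi_ne_zero, e4, Real.log_pow]
    push_cast
    ring
  rw [hlog1, hlog2] at h3
  rw [h5]
  push_cast
  rw [hlog2]
  have h6 : (N : ℂ) ^ ((1 : ℂ) - 1 / 2) * (Real.log N : ℂ) * 1 * χ.rootNumber = W * Real.log N := by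
    rw [hWdef]
    ring
  rw [h6] at h3
  have h7 : χ.LFunction 0 = W * (1 / Real.pi * χ⁻¹.LFunction 1) := h4
  have hL0 : deriv χ.LFunction 0 / χ.LFunction 0 = deriv χ.LFunction 0 * Real.pi /
      (W * χ⁻¹.LFunction 1) := by
    rw [h7]
    field_simp
  rw [h7] at h3
  rw [hL0]
  field_simp
  field_simp at h3
  linear_combination (-1) * h3

end Fermat.Agent.Cor.Kron

end
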