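import Fermat.Agent.Corollaries.ZetaK.LFun
import Mathlib.NumberTheory.Harmonic.ZetaAsymp
import Mathlib.NumberTheory.LSeries.DirichletContinuation

/-!
# Chowla - Selberg, (N): the constant term of `ζ(s) L(s, χ)` at `s = 1`

`ζ(s) L(s, χ) = L(1, χ) / (s - 1) + (γ L(1, χ) + L'(1, χ)) + o(1)`, `χ ≠ 1` a Dirichlet character; the
zeta function of a number field is the sum of the zeta functions of its ideal classes, and so the
constant terms of the latter add up to `γ L(1, χ) + L'(1, χ)` if `ζ_K(s) = ζ(s) L(s, χ)`.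
-/

set_option autoImplicit false

open Filter Topology NumberField Fermat.Agent.Classic.Zeta
open scoped Classical

namespace Fermat.Agent.Cor.Kron

section Dirichlet

variable {N : ℕ} [NeZero N] {χ : DirichletCharacter ℂ N}

/-- **The constant term of `ζ(s) L(s, χ)` at `1`.** -/
theorem tendsto_zeta_mul_LFunction (hχ : χ ≠ 1) :
    Tendsto (fun s : ℂ => riemannZeta s * χ.LFunction s - χ.LFunction 1 / (s - 1)) (𝓝[≠] 1)
      (𝓝 (Real.eulerMascheroniConstant * χ.LFunction 1 + deriv χ.LFunction 1)) := by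
  have hL : Differentiable ℂ χ.LFunction := DirichletCharacter.differentiable_LFunction hχ
  have h1 := tendsto_riemannZeta_sub_one_div
  have h2 : Tendsto χ.LFunction (𝓝[≠] 1) (𝓝 (χ.LFunction 1)) :=
    (hL.continuous.tendsto 1).mono_left nhdsWithin_le_nhds
  have h3 : Tendsto (slope χ.LFunction 1) (𝓝[≠] 1) (𝓝 (deriv χ.LFunction 1)) :=
    hasDerivAt_iff_tendsto_slope.mp (hL 1).hasDerivAt
  refine ((h1.mul h2).add h3).congr' ?_
  filter_upwards [self_mem_nhdsWithin] with s hs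
  have hs' : s - 1 ≠ 0 := sub_ne_zero.mpr hs
  rw [slope_def_field]
  field_simp
  ring

theorem ofReal_ne_one {s : ℝ} (hs : 1 < s) : (s : ℂ) ≠ 1 := by
  have h : s ≠ 1 := hs.ne'
  exact_mod_cast h

theorem tendsto_ofReal_one : Tendsto (fun s : ℝ => (s : ℂ)) (𝓝[>] 1) (𝓝[≠] 1) := by
  refine tendsto_nhdsWithin_of_tendsto_nhds_of_eventually_within _ ?_ ?_
  · exact (Complex.continuous_ofReal.tendsto' 1 1 Complex.ofReal_one).mono_left nhdsWithin_le_nhds
  · filter_upwards [self_mem_nhdsWithin] with s hs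
    exact Set.mem_compl_singleton_iff.mpr (ofReal_ne_one (Set.mem_Ioi.mp hs))

/-- The constant term at `1` along the real axis. -/
theorem tendsto_zeta_mul_LFunction_real (hχ : χ ≠ 1) :
    Tendsto (fun s : ℝ => riemannZeta s * χ.LFunction s - χ.LFunction 1 / ((s : ℂ) - 1)) (𝓝[>] 1)
      (𝓝 (Real.eulerMascheroniConstant * χ.LFunction 1 + deriv χ.LFunction 1)) :=
  (tendsto_zeta_mul_LFunction hχ).comp tendsto_ofReal_one

end Dirichlet

universe u

variable {K : Type u} [Field K] [NumberField K]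

section Field

variable {N : ℕ} [NeZero N] {χ : DirichletCharacter ℂ N}

/-- **(N)** The constant term of the zeta function of `K` at `1` if `ζ_K(s) = ζ(s) L(s, χ)`. -/
theorem tendsto_zetaK_sub (hχ : χ ≠ 1)
    (hz : ∀ s : ℂ, s ≠ 1 → zetaK K s = riemannZeta s * χ.LFunction s) :
    Tendsto (fun s : ℝ => zetaK K s - χ.LFunction 1 / ((s : ℂ) - 1)) (𝓝[>] 1)
      (𝓝 (Real.eulerMascheroniConstant * χ.LFunction 1 + deriv χ.LFunction 1)) := by
  refine (tendsto_zeta_mul_LFunction_real hχ).congr' ?_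
  filter_upwards [self_mem_nhdsWithin] with s hs
  rw [hz s (ofReal_ne_one (Set.mem_Ioi.mp hs))]

/-- The zeta function of `K` is the sum of the zeta functions of the ideal classes, `Re s > 1`. -/
theorem zetaK_eq_sum {s : ℂ} (hs : 1 < s.re) :
    zetaK K s = ∑ C : ClassGroup (𝓞 K), zcK C s := by
  rw [zetaK, LF_eq _ hs]
  simp only [one_mul]

theorem zetaK_eq_sum_real {s : ℝ} (hs : 1 < s) :
    zetaK K s = ∑ C : ClassGroup (𝓞 K), zcK C s :=
  zetaK_eq_sum (by rwa [Complex.ofReal_re])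

/-- The sum over the classes of `ζ(s, C) = κ / (s - 1) + A(C) + o(1)`. -/
theorem tendsto_zetaK_sub_sum {κ : ℂ} {A : ClassGroup (𝓞 K) → ℂ}
    (hA : ∀ C, Tendsto (fun s : ℝ => zcK C s - κ / ((s : ℂ) - 1)) (𝓝[>] 1) (𝓝 (A C))) :
    Tendsto (fun s : ℝ => zetaK K s - Fintype.card (ClassGroup (𝓞 K)) * κ / ((s : ℂ) - 1)) (𝓝[>] 1)
      (𝓝 (∑ C, A C)) := by
  refine (tendsto_finsetSum Finset.univ fun C _ => hA C).congr' ?_
  filter_upwards [self_mem_nhdsWithin] with s hs
  rw [zetaK_eq_sum_real (Set.mem_Ioi.mp hs), Finset.sum_sub_distrib, Finset.sum_const,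
    Finset.card_univ, nsmul_eq_mul, mul_div_assoc]

theorem tendsto_sub_one : Tendsto (fun s : ℝ => (s : ℂ) - 1) (𝓝[>] 1) (𝓝 0) := by
  have h : Continuous fun s : ℝ => (s : ℂ) - 1 := Complex.continuous_ofReal.sub continuous_const
  exact (h.tendsto' 1 0 (by simp)).mono_left nhdsWithin_le_nhds

/-- If `a / (s - 1) + b + o(1) = c / (s - 1) + d + o(1)` then `a = c` and `b = d`. -/
theorem residue_const_unique {Z : ℝ → ℂ} {a b c d : ℂ}
    (h1 : Tendsto (fun s : ℝ => Z s - a / ((s : ℂ) - 1)) (𝓝[>] 1) (𝓝 b))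
    (h2 : Tendsto (fun s : ℝ => Z s - c / ((s : ℂ) - 1)) (𝓝[>] 1) (𝓝 d)) : a = c ∧ b = d := by
  have hac : a = c := by
    have h3 := (h1.sub h2).mul tendsto_sub_one
    rw [mul_zero] at h3
    have h4 : Tendsto (fun _ : ℝ => c - a) (𝓝[>] (1 : ℝ)) (𝓝 0) := by
      refine h3.congr' ?_
      filter_upwards [self_mem_nhdsWithin] with s hs
      have hs' : (s : ℂ) - 1 ≠ 0 := sub_ne_zero.mpr (ofReal_ne_one (Set.mem_Ioi.mp hs))
      field_simp
      ring
    exact (sub_eq_zero.mp (tendsto_nhds_unique h4 tendsto_const_nhds).symm).symm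
  subst hac
  exact ⟨rfl, tendsto_nhds_unique h1 h2⟩

/-- **The constant terms of the classes.** If `ζ_K(s) = ζ(s) L(s, χ)` and the zeta function of every
ideal class is `κ / (s - 1) + A(C) + o(1)` then `L(1, χ) = h κ` and
`∑ A(C) = γ L(1, χ) + L'(1, χ)`. -/
theorem sum_const_eq (hχ : χ ≠ 1)
    (hz : ∀ s : ℂ, s ≠ 1 → zetaK K s = riemannZeta s * χ.LFunction s) {κ : ℂ}
    {A : ClassGroup (𝓞 K) → ℂ}
    (hA : ∀ C, Tendsto (fun s : ℝ => zcK C s - κ / ((s : ℂ) - 1)) (𝓝[>] 1) (𝓝 (A C))) :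
    Fintype.card (ClassGroup (𝓞 K)) * κ = χ.LFunction 1 ∧
      ∑ C, A C = Real.eulerMascheroniConstant * χ.LFunction 1 + deriv χ.LFunction 1 :=
  residue_const_unique (tendsto_zetaK_sub_sum hA) (tendsto_zetaK_sub hχ hz)

end Field

end Fermat.Agent.Cor.Kron
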