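import Fermat.Agent.Corollaries.Kron.Classes
import Fermat.Agent.Corollaries.Kron.Lerch
import Fermat.Agent.Corollaries.Kron.LogDer
import Fermat.Agent.Corollaries.Kron.QuadConst
import Fermat.Agent.Corollaries.ZetaK.ZetaOne
import Fermat.Agent.Corollaries.Diri.Kron

/-!
# The Chowla-Selberg formula

`K` imaginary quadratic of discriminant `d`, class number `h`, `w` roots of unity, `(d/a)` the
Kronecker symbol. For an ideal class `C` let `τ_C` be the quotient of an oriented `ℤ`-basis of a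
fractional ideal in `C`. Then (Lerch 1897, Chowla and Selberg 1949)

`∏_C Im τ_C |η(τ_C)|⁴ = (4 π √|d|)^(-h) ∏_{0 < a < |d|} Γ(a / |d|)^(w (d/a) / 2)`.
-/

set_option autoImplicit false

noncomputable section

namespace Fermat.Agent.Cor.Kron

open NumberField Module Fermat.Agent.Classic.Zeta Filter Topology
open scoped nonZeroDivisors

universe u

variable {K : Type u} [Field K] [NumberField K]

section Char

variable {N : ℕ} [NeZero N] {χ : DirichletCharacter ℂ N}

/-- the value `L(0, χ) = 2 h / w` -/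
theorem LFunction_zero_eq (h2 : finrank ℚ K = 2) {φ : K →+* ℂ}
    (hφ : ¬ ComplexEmbedding.IsReal φ)
    (hz : ∀ s : ℂ, s ≠ 1 → zetaK K s = riemannZeta s * χ.LFunction s) :
    χ.LFunction 0 = 2 * (classNumber K : ℂ) / (Units.torsionOrder K : ℂ) := by
  have h1 := hz 0 zero_ne_one
  rw [zetaK_zero K (rank_eq_zero h2 hφ), riemannZeta_zero] at h1
  linear_combination (2 : ℂ) * h1

/-- `L(1, χ) = h κ` and the constant term of the Dedekind zeta function. -/
theorem const_eq (h2 : finrank ℚ K = 2) {φ : K →+* ℂ} (hφ : ¬ ComplexEmbedding.IsReal φ)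
    {τ : ClassGroup (𝓞 K) → ℂ} (hτ : ∀ C, IsTau φ C⁻¹ (τ C)) (hχ : χ ≠ 1)
    (hz : ∀ s : ℂ, s ≠ 1 → zetaK K s = riemannZeta s * χ.LFunction s) :
    (classNumber K : ℂ) * kap K = χ.LFunction 1 ∧
      (kap K : ℂ) * (classNumber K * (cst K : ℂ) - ((∑ C, leta (τ C) : ℝ) : ℂ)) =
        Real.eulerMascheroniConstant * χ.LFunction 1 + deriv χ.LFunction 1 := by
  have h1 := tendsto_zetaK h2 hφ hτ
  have h3 := residue_const_unique (Z := fun s : ℝ => zetaK K s)
    (a := (classNumber K : ℂ) * kap K)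
    (b := (kap K : ℂ) * (classNumber K * (cst K : ℂ) - ((∑ C, leta (τ C) : ℝ) : ℂ)))
    ?_ (tendsto_zetaK_sub hχ hz)
  · exact h3
  · have e : (kap K : ℂ) * (classNumber K * (cst K : ℂ) - ((∑ C, leta (τ C) : ℝ) : ℂ)) =
        ((kap K * (classNumber K * cst K - ∑ C, leta (τ C)) : ℝ) : ℂ) := by
      push_cast
      ring
    rw [e]
    refine h1.congr fun s => ?_
    push_cast
    ring

/-- **The Chowla-Selberg formula**, for the character of `K`. -/
theorem chowla_selberg_of (h2 : finrank ℚ K = 2) {φ : K →+* ℂ}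
    (hφ : ¬ ComplexEmbedding.IsReal φ) {τ : ClassGroup (𝓞 K) → ℂ}
    (hτ : ∀ C, IsTau φ C⁻¹ (τ C)) (hN : N = (discr K).natAbs) (hp : χ.IsPrimitive)
    (ho : χ.Odd) (hsq : χ ^ 2 = 1)
    (hz : ∀ s : ℂ, s ≠ 1 → zetaK K s = riemannZeta s * χ.LFunction s) :
    ((∑ C, leta (τ C) : ℝ) : ℂ) =
      -((classNumber K * Real.log (4 * Real.pi * √|(discr K : ℝ)|) : ℝ) : ℂ) +
        (Units.torsionOrder K : ℂ) / 2 *
          ∑ a ∈ Finset.range N, χ a * ((Real.log (Real.Gamma (a / N)) : ℝ) : ℂ) := by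
  have hχ : χ ≠ 1 := ne_one_of_odd ho
  have hinv : χ⁻¹ = χ := by
    rw [inv_eq_iff_mul_eq_one, ← sq, hsq]
  have hh : (classNumber K : ℂ) ≠ 0 := Nat.cast_ne_zero.mpr (classNumber_pos K).ne'
  have hw : (Units.torsionOrder K : ℂ) ≠ 0 :=
    Nat.cast_ne_zero.mpr (Units.torsionOrder_pos K).ne'
  have hwr : (0 : ℝ) < Units.torsionOrder K := Nat.cast_pos.mpr (Units.torsionOrder_pos K)
  have hNr : (0 : ℝ) < N := Nat.cast_pos.mpr (NeZero.pos N)
  have hd : |(discr K : ℝ)| = N := by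
    rw [hN, Nat.cast_natAbs]
    push_cast
    rfl
  have hk : (kap K : ℂ) ≠ 0 := by
    rw [Complex.ofReal_ne_zero, kap]
    have := discr_pos' (K := K)
    positivity
  obtain ⟨hL1, hc⟩ := const_eq h2 hφ hτ hχ hz
  have hL0 := LFunction_zero_eq h2 hφ hz
  have h10 : χ.LFunction 1 ≠ 0 := by
    rw [← hL1]
    exact mul_ne_zero hh hk
  have h00 : χ.LFunction 0 ≠ 0 := by
    rw [hL0]
    exact div_ne_zero (mul_ne_zero two_ne_zero hh) hw
  have hlog := logDeriv_add hp ho h00 (by rwa [hinv])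
  rw [hinv] at hlog
  have hler := deriv_LFunction_zero hχ
  set S : ℂ := ∑ a ∈ Finset.range N, χ a * ((Real.log (Real.Gamma (a / N)) : ℝ) : ℂ) with hS
  set T : ℂ := ((∑ C, leta (τ C) : ℝ) : ℂ) with hT
  have e1 : deriv χ.LFunction 1 / χ.LFunction 1 =
      (cst K : ℂ) - Real.eulerMascheroniConstant - T / classNumber K := by
    have : deriv χ.LFunction 1 = (kap K : ℂ) * (classNumber K * (cst K : ℂ) - T) -
        Real.eulerMascheroniConstant * χ.LFunction 1 := by
      rw [hc]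
      ring
    rw [this, ← hL1]
    field_simp
    ring
  have e2 : deriv χ.LFunction 0 / χ.LFunction 0 =
      -(Real.log N : ℂ) + S * Units.torsionOrder K / (2 * classNumber K) := by
    rw [hler, add_div, mul_div_assoc, div_self h00, mul_one, hL0]
    congr 1
    field_simp
  rw [e1, e2] at hlog
  have e3 : Real.log (2 * Real.pi / N) = Real.log 2 + Real.log Real.pi - Real.log N := by
    rw [Real.log_div (by positivity) hNr.ne', Real.log_mul two_ne_zero Real.pi_ne_zero]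
  have e4 : Real.log (4 * Real.pi * √|(discr K : ℝ)|) =
      2 * Real.log 2 + Real.log Real.pi + Real.log N / 2 := by
    have e5 : (4 : ℝ) = 2 ^ 2 := by norm_num
    rw [hd, Real.log_mul (by positivity) (Real.sqrt_ne_zero'.mpr hNr),
      Real.log_mul (by norm_num) Real.pi_ne_zero, Real.log_sqrt hNr.le, e5, Real.log_pow]
    push_cast
    ring
  rw [e4]
  rw [e3, cst, hd] at hlog
  push_cast at hlog ⊢
  field_simp at hlog ⊢
  linear_combination -hlog

end Char

theorem gamma_pos {a n : ℕ} (ha : a ∈ Finset.Ioo 0 n) : 0 < Real.Gamma (a / n) := by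
  rw [Finset.mem_Ioo] at ha
  have h1 : (0 : ℝ) < a := Nat.cast_pos.mpr ha.1
  have h2 : (0 : ℝ) < n := Nat.cast_pos.mpr (ha.1.trans ha.2)
  exact Real.Gamma_pos_of_pos (div_pos h1 h2)

/-- **The Chowla-Selberg formula**: `K` imaginary quadratic of discriminant `d`,
`∑_C log (Im τ_C |η(τ_C)|⁴) = - h log (4 π √|d|) + w / 2 ∑ (d/a) log Γ(a / |d|)`. -/
theorem chowla_selberg_log (h2 : finrank ℚ K = 2) {φ : K →+* ℂ}
    (hφ : ¬ ComplexEmbedding.IsReal φ) {τ : ClassGroup (𝓞 K) → ℂ}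
    (hτ : ∀ C, IsTau φ C⁻¹ (τ C)) :
    ∑ C, Real.log ((τ C).im * ‖ModularForm.eta (τ C)‖ ^ 4) =
      -(classNumber K * Real.log (4 * Real.pi * √|(discr K : ℝ)|)) +
        (Units.torsionOrder K : ℝ) / 2 * ∑ a ∈ Finset.Ioo 0 (discr K).natAbs,
          (Diri.kron (discr K) a : ℝ) * Real.log (Real.Gamma (a / (discr K).natAbs)) := by
  classical
  obtain ⟨N, hN0, χ, hN, hp, h1, hsq, hz, -, hev, hk⟩ := Diri.exists_kronecker_character h2
  have hc : InfinitePlace.nrComplexPlaces K ≠ 0 := by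
    have : Nonempty {w : InfinitePlace K // w.IsComplex} :=
      ⟨⟨InfinitePlace.mk φ, (InfinitePlace.isComplex_mk_iff).mpr hφ⟩⟩
    exact Fintype.card_ne_zero
  have ho : χ.Odd := by
    rcases χ.even_or_odd with h | h
    · exact absurd (hev.mp h) hc
    · exact h
  have h := chowla_selberg_of h2 hφ hτ hN hp ho hsq hz
  have e1 : ∑ a ∈ Finset.range N, χ a * ((Real.log (Real.Gamma (a / N)) : ℝ) : ℂ) =
      ((∑ a ∈ Finset.Ioo 0 (discr K).natAbs,
        (Diri.kron (discr K) a : ℝ) * Real.log (Real.Gamma (a / (discr K).natAbs)) : ℝ) : ℂ) := by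
    rw [← hN]
    have h3 : Finset.range N = insert 0 (Finset.Ioo 0 N) := by
      ext a
      have := NeZero.pos N
      simp only [Finset.mem_range, Finset.mem_insert, Finset.mem_Ioo]
      omega
    rw [h3, Finset.sum_insert (by simp)]
    rw [Nat.cast_zero (R := ℝ), zero_div, Real.Gamma_zero, Real.log_zero, Complex.ofReal_zero,
      mul_zero, zero_add, Complex.ofReal_sum]
    refine Finset.sum_congr rfl fun a ha => ?_
    rw [hk a (Finset.mem_Ioo.mp ha).1.ne']
    push_cast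
    rfl
  rw [e1] at h
  have h4 : ((∑ C, leta (τ C) : ℝ) : ℂ) =
      ((-(classNumber K * Real.log (4 * Real.pi * √|(discr K : ℝ)|)) +
        (Units.torsionOrder K : ℝ) / 2 * ∑ a ∈ Finset.Ioo 0 (discr K).natAbs,
          (Diri.kron (discr K) a : ℝ) *
            Real.log (Real.Gamma (a / (discr K).natAbs)) : ℝ) : ℂ) := by
    rw [h]
    push_cast
    ring
  exact Complex.ofReal_injective h4

/-- **The Chowla-Selberg formula** (Lerch 1897, Chowla and Selberg 1949): `K` imaginary quadratic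
of discriminant `d`, class number `h`, `w` roots of unity,
`∏_C Im τ_C |η(τ_C)|⁴ = (4 π √|d|)^(-h) ∏_{0 < a < |d|} Γ(a / |d|)^((w / 2) (d/a))`. -/
theorem chowla_selberg (h2 : finrank ℚ K = 2) {φ : K →+* ℂ}
    (hφ : ¬ ComplexEmbedding.IsReal φ) {τ : ClassGroup (𝓞 K) → ℂ}
    (hτ : ∀ C, IsTau φ C⁻¹ (τ C)) :
    ∏ C, (τ C).im * ‖ModularForm.eta (τ C)‖ ^ 4 =
      ((4 * Real.pi * √|(discr K : ℝ)|) ^ classNumber K)⁻¹ *
        ∏ a ∈ Finset.Ioo 0 (discr K).natAbs, Real.Gamma (a / (discr K).natAbs) ^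
          (((Units.torsionOrder K / 2 : ℕ) : ℤ) * Diri.kron (discr K) a) := by
  have h := chowla_selberg_log h2 hφ hτ
  have hpos : ∀ C, 0 < (τ C).im * ‖ModularForm.eta (τ C)‖ ^ 4 := fun C => by
    have h3 := (hτ C).1
    have h4 : 0 < ‖ModularForm.eta (τ C)‖ := norm_pos_iff.mpr (ModularForm.eta_ne_zero h3)
    positivity
  have hB : 0 < 4 * Real.pi * √|(discr K : ℝ)| := by
    have := discr_pos' (K := K)
    positivity
  have hw : ((Units.torsionOrder K / 2 : ℕ) : ℝ) = (Units.torsionOrder K : ℝ) / 2 :=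
    Nat.cast_div_charZero (Units.even_torsionOrder K).two_dvd
  refine Real.log_injOn_pos (Set.mem_Ioi.mpr (Finset.prod_pos fun C _ => hpos C))
    (Set.mem_Ioi.mpr (mul_pos (inv_pos.mpr (pow_pos hB _)) (Finset.prod_pos fun a ha =>
      zpow_pos (gamma_pos ha) _))) ?_
  rw [Real.log_prod fun C _ => (hpos C).ne', h, Real.log_mul (inv_ne_zero (pow_ne_zero _ hB.ne'))
    (Finset.prod_ne_zero_iff.mpr fun a ha => (zpow_pos (gamma_pos ha) _).ne'), Real.log_inv,
    Real.log_pow, Real.log_prod fun a ha => (zpow_pos (gamma_pos ha) _).ne', Finset.mul_sum]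
  congr 1
  refine Finset.sum_congr rfl fun a _ => ?_
  rw [Real.log_zpow, Int.cast_mul, Int.cast_natCast, hw]
  ring

/-- There is such a family `τ`. -/
theorem exists_chowla_selberg (h2 : finrank ℚ K = 2) {φ : K →+* ℂ}
    (hφ : ¬ ComplexEmbedding.IsReal φ) :
    ∃ τ : ClassGroup (𝓞 K) → ℂ, (∀ C, IsTau φ C⁻¹ (τ C)) ∧
      ∏ C, (τ C).im * ‖ModularForm.eta (τ C)‖ ^ 4 =
        ((4 * Real.pi * √|(discr K : ℝ)|) ^ classNumber K)⁻¹ *
          ∏ a ∈ Finset.Ioo 0 (discr K).natAbs, Real.Gamma (a / (discr K).natAbs) ^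
            (((Units.torsionOrder K / 2 : ℕ) : ℤ) * Diri.kron (discr K) a) := by
  choose τ hτ using fun C : ClassGroup (𝓞 K) => exists_isTau h2 hφ C⁻¹
  exact ⟨τ, hτ, chowla_selberg h2 hφ hτ⟩

/-- `|d| > 4`: `w = 2`. -/
theorem chowla_selberg_of_four_lt (h2 : finrank ℚ K = 2) {φ : K →+* ℂ}
    (hφ : ¬ ComplexEmbedding.IsReal φ) {τ : ClassGroup (𝓞 K) → ℂ}
    (hτ : ∀ C, IsTau φ C⁻¹ (τ C)) (h4 : 4 < (discr K).natAbs) :
    ∏ C, (τ C).im * ‖ModularForm.eta (τ C)‖ ^ 4 =
      ((4 * Real.pi * √|(discr K : ℝ)|) ^ classNumber K)⁻¹ *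
        ∏ a ∈ Finset.Ioo 0 (discr K).natAbs, Real.Gamma (a / (discr K).natAbs) ^
          Diri.kron (discr K) a := by
  have h := chowla_selberg h2 hφ hτ
  have hw : Units.torsionOrder K = 2 := Diri.torsionOrder_eq_two h2 h4
  rw [h, hw]
  simp

end Fermat.Agent.Cor.Kron

end
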