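import Mathlib

/-!
# The logarithm of the Dedekind eta function

`-4 π log |η(τ)| = π² y / 3 + 4 π ∑_{m ≥ 1} (1 / m) Re ∑_{r ≥ 1} q^{m r}`, `τ = x + i y`,
`q = e^{2 π i τ}`: the double series of Kronecker's limit formula.
-/

set_option autoImplicit false

noncomputable section

namespace Fermat.Agent.Cor.Kron

open Complex

/-- the double series `q^{(m + 1)(r + 1)}` converges absolutely -/
theorem summable_pow_mul {q : ℂ} (hq : ‖q‖ < 1) :
    Summable fun p : ℕ × ℕ => (1 / ((p.1 : ℂ) + 1)) * q ^ ((p.1 + 1) * (p.2 + 1)) := by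
  have h1 : Summable fun m : ℕ => ‖q‖ ^ m := summable_geometric_of_lt_one (norm_nonneg _) hq
  have h2 : Summable fun p : ℕ × ℕ => ‖q‖ ^ p.1 * ‖q‖ ^ p.2 :=
    h1.mul_of_nonneg h1 (fun m => by positivity) (fun m => by positivity)
  refine Summable.of_norm_bounded h2 fun p => ?_
  rw [norm_mul, norm_pow, ← pow_add]
  have h3 : ‖(1 / ((p.1 : ℂ) + 1))‖ ≤ 1 := by
    rw [norm_div, norm_one]
    have h4 : ‖((p.1 : ℂ) + 1)‖ = (p.1 : ℝ) + 1 := by
      rw [← Nat.cast_succ, norm_natCast]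
      push_cast
      ring
    rw [h4, div_le_one (by positivity)]
    have : (0 : ℝ) ≤ p.1 := Nat.cast_nonneg _
    linarith
  have h4 : ‖q‖ ^ ((p.1 + 1) * (p.2 + 1)) ≤ ‖q‖ ^ (p.1 + p.2) :=
    pow_le_pow_of_le_one (norm_nonneg _) hq.le (by nlinarith)
  calc ‖(1 / ((p.1 : ℂ) + 1))‖ * ‖q‖ ^ ((p.1 + 1) * (p.2 + 1))
      ≤ 1 * ‖q‖ ^ (p.1 + p.2) := mul_le_mul h3 h4 (by positivity) zero_le_one
    _ = _ := one_mul _

/-- the same double series, real parts -/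
theorem summable_re {q : ℂ} (hq : ‖q‖ < 1) :
    Summable fun p : ℕ × ℕ => ((1 / ((p.1 : ℂ) + 1)) * q ^ ((p.1 + 1) * (p.2 + 1))).re :=
  (Complex.hasSum_re (summable_pow_mul hq).hasSum).summable

lemma norm_pow_lt_one {q : ℂ} (hq : ‖q‖ < 1) (m : ℕ) : ‖q ^ (m + 1)‖ < 1 := by
  rw [norm_pow]
  exact pow_lt_one₀ (norm_nonneg _) hq (by omega)

lemma summable_geom {q : ℂ} (hq : ‖q‖ < 1) : Summable fun r : ℕ => q ^ (r + 1) := by
  have := (summable_geometric_of_norm_lt_one hq)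
  exact (summable_nat_add_iff 1).mpr this

/-- the inner sum over `r` -/
theorem hasSum_inner_right {q : ℂ} (hq : ‖q‖ < 1) (m : ℕ) :
    HasSum (fun r : ℕ => ((1 / ((m : ℂ) + 1)) * q ^ ((m + 1) * (r + 1))).re)
      (1 / ((m : ℝ) + 1) * (∑' r : ℕ, (q ^ (m + 1)) ^ (r + 1)).re) := by
  have h1 := (summable_geom (norm_pow_lt_one hq m)).hasSum.mul_left (1 / ((m : ℂ) + 1))
  have h2 := Complex.hasSum_re h1
  have h3 : ((1 / ((m : ℂ) + 1)) * ∑' r : ℕ, (q ^ (m + 1)) ^ (r + 1)).re =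
      1 / ((m : ℝ) + 1) * (∑' r : ℕ, (q ^ (m + 1)) ^ (r + 1)).re := by
    have h4 : (1 / ((m : ℂ) + 1)) = ((1 / ((m : ℝ) + 1) : ℝ) : ℂ) := by push_cast; rfl
    rw [h4, Complex.re_ofReal_mul]
  rw [h3] at h2
  have h5 : (fun r : ℕ => ((1 / ((m : ℂ) + 1)) * q ^ ((m + 1) * (r + 1))).re) =
      fun r : ℕ => ((1 / ((m : ℂ) + 1)) * (q ^ (m + 1)) ^ (r + 1)).re := by
    funext r
    rw [pow_mul]
  rw [h5]
  exact h2

/-- the inner sum over `m` -/
theorem hasSum_inner_left {q : ℂ} (hq : ‖q‖ < 1) (r : ℕ) :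
    HasSum (fun m : ℕ => ((1 / ((m : ℂ) + 1)) * q ^ ((m + 1) * (r + 1))).re)
      (-Real.log ‖1 - q ^ (r + 1)‖) := by
  have h1 := Complex.hasSum_re (Complex.hasSum_taylorSeries_neg_log' (norm_pow_lt_one hq r))
  rw [Complex.neg_re, Complex.log_re] at h1
  have h5 : (fun m : ℕ => ((1 / ((m : ℂ) + 1)) * q ^ ((m + 1) * (r + 1))).re) =
      fun m : ℕ => ((q ^ (r + 1)) ^ (m + 1) / ((m : ℂ) + 1)).re := by
    funext m
    rw [← pow_mul, mul_comm (m + 1) (r + 1)]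
    congr 1
    ring
  rw [h5]
  exact h1

/-- `∑_m (1 / m) Re ∑_r q^{m r} = - ∑_r log |1 - q^r|`, with convergence of the outer series -/
theorem hasSum_outer {q : ℂ} (hq : ‖q‖ < 1) :
    HasSum (fun m : ℕ => 1 / ((m : ℝ) + 1) * (∑' r : ℕ, (q ^ (m + 1)) ^ (r + 1)).re)
      (-∑' r : ℕ, Real.log ‖1 - q ^ (r + 1)‖) := by
  have h := summable_re hq
  have h1 := h.hasSum.prod_fiberwise fun m => hasSum_inner_right hq m
  have h2 := ((Equiv.prodComm ℕ ℕ).hasSum_iff.mpr h.hasSum).prod_fiberwise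
    (g := fun r => -Real.log ‖1 - q ^ (r + 1)‖) fun r => hasSum_inner_left hq r
  have h3 : (-∑' r : ℕ, Real.log ‖1 - q ^ (r + 1)‖) =
      ∑' p : ℕ × ℕ, ((1 / ((p.1 : ℂ) + 1)) * q ^ ((p.1 + 1) * (p.2 + 1))).re := by
    rw [← tsum_neg]
    exact h2.tsum_eq
  rw [h3]
  exact h1

/-- `log |∏ (1 - q^r)| = ∑ log |1 - q^r|` -/
theorem log_norm_tprod {q : ℂ} (hq : ‖q‖ < 1) :
    Real.log ‖∏' n : ℕ, (1 - q ^ (n + 1))‖ = ∑' n : ℕ, Real.log ‖1 - q ^ (n + 1)‖ := by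
  have h1 : Summable fun n : ℕ => Complex.log (1 - q ^ (n + 1)) := by
    have h2 : Summable fun n : ℕ => -q ^ (n + 1) := (summable_geom hq).neg
    have h3 := Complex.summable_log_one_add_of_summable h2.norm.of_norm
    simpa only [← sub_eq_add_neg] using h3
  have h0 : ∀ n : ℕ, 1 - q ^ (n + 1) ≠ 0 := by
    intro n h
    have h2 : q ^ (n + 1) = 1 := (sub_eq_zero.mp h).symm
    have h3 := norm_pow_lt_one hq n
    rw [h2, norm_one] at h3
    exact lt_irrefl _ h3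
  have h2 := Complex.cexp_tsum_eq_tprod h0 h1
  rw [← h2, Complex.norm_exp, Real.log_exp, Complex.re_tsum h1]
  simp only [Complex.log_re]

/-- **The logarithm of the eta function** as the double series of Kronecker's limit formula. -/
theorem hasSum_eta {τ : ℂ} (hτ : 0 < τ.im) :
    HasSum (fun m : ℕ => 1 / ((m : ℝ) + 1) *
      (∑' r : ℕ, cexp (2 * Real.pi * I * ((m + 1) * τ)) ^ (r + 1)).re)
      (-Real.log ‖ModularForm.eta τ‖ - Real.pi * τ.im / 12) := by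
  set q : ℂ := cexp (2 * Real.pi * I * τ) with hqdef
  have hnorm : ‖q‖ = Real.exp (-(2 * Real.pi * τ.im)) := by
    rw [hqdef, Complex.norm_exp]
    congr 1
    simp
  have hq : ‖q‖ < 1 := by
    rw [hnorm, Real.exp_lt_one_iff]
    have := Real.pi_pos
    have : 0 < 2 * Real.pi * τ.im := by positivity
    linarith
  have hpow : ∀ m : ℕ, cexp (2 * Real.pi * I * ((m + 1) * τ)) = q ^ (m + 1) := by
    intro m
    rw [hqdef, ← Complex.exp_nat_mul]
    congr 1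
    push_cast
    ring
  have h1 := hasSum_outer hq
  have heta : ModularForm.eta τ =
      Function.Periodic.qParam 24 τ * ∏' n : ℕ, (1 - q ^ (n + 1)) := by
    rw [ModularForm.eta]
    congr 1
    exact tprod_congr fun n => by rw [ModularForm.eta_q_eq_pow]
  have hq24 : Real.log ‖Function.Periodic.qParam 24 τ‖ = -(Real.pi * τ.im / 12) := by
    rw [Function.Periodic.norm_qParam, Real.log_exp]
    ring
  have hne : ∏' n : ℕ, (1 - q ^ (n + 1)) ≠ 0 := by
    have := ModularForm.eta_ne_zero (z := τ) hτ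
    rw [heta] at this
    exact right_ne_zero_of_mul this
  have h2 : Real.log ‖ModularForm.eta τ‖ =
      -(Real.pi * τ.im / 12) + ∑' n : ℕ, Real.log ‖1 - q ^ (n + 1)‖ := by
    rw [heta, norm_mul, Real.log_mul (norm_ne_zero_iff.mpr (Function.Periodic.qParam_ne_zero τ))
      (norm_ne_zero_iff.mpr hne), hq24, log_norm_tprod hq]
  have h3 : -Real.log ‖ModularForm.eta τ‖ - Real.pi * τ.im / 12 =
      -∑' r : ℕ, Real.log ‖1 - q ^ (r + 1)‖ := by
    rw [h2]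
    ring
  rw [h3]
  simpa only [hpow] using h1

theorem summable_eta {τ : ℂ} (hτ : 0 < τ.im) :
    Summable fun m : ℕ => 1 / ((m : ℝ) + 1) *
      (∑' r : ℕ, cexp (2 * Real.pi * I * ((m + 1) * τ)) ^ (r + 1)).re :=
  (hasSum_eta hτ).summable

/-- **The logarithm of the eta function**, the form used in Kronecker's limit formula. -/
theorem sum_eta {τ : ℂ} (hτ : 0 < τ.im) :
    Real.pi ^ 2 * τ.im / 3 + 4 * Real.pi * ∑' m : ℕ, 1 / ((m : ℝ) + 1) *
      (∑' r : ℕ, cexp (2 * Real.pi * I * ((m + 1) * τ)) ^ (r + 1)).re =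
      -(4 * Real.pi * Real.log ‖ModularForm.eta τ‖) := by
  rw [(hasSum_eta hτ).tsum_eq]
  ring

end Fermat.Agent.Cor.Kron
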