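import Mathlib

/-!
# Kronecker's limit formula: the integral

`integral_eq`: `∫ (t² + b²)^(-s) dt = √π Γ(s - 1/2) / Γ(s) b^(1 - 2 s)` for real `s > 1/2`, `b > 0`,
by Fubini's theorem for `u^(s-1) exp (-(t² + b²) u)`.
-/

set_option autoImplicit false

noncomputable section

open Real Filter Topology Set MeasureTheory

namespace Fermat.Agent.Cor.Kron

/-- the function `u^(s-1) exp (-(t² + b²) u)` of `(t, u)` -/
def ker (s b : ℝ) (p : ℝ × ℝ) : ℝ := p.2 ^ (s - 1) * rexp (-((p.1 ^ 2 + b ^ 2) * p.2))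

theorem measurable_ker (s b : ℝ) : Measurable (ker s b) := by
  unfold ker
  exact (measurable_snd.pow_const (s - 1)).mul (by fun_prop)

theorem ker_eq (s b t u : ℝ) :
    ker s b (t, u) = u ^ (s - 1) * rexp (-(b ^ 2 * u)) * rexp (-u * t ^ 2) := by
  rw [ker, mul_assoc, ← Real.exp_add]
  congr 2
  ring

theorem integral_ker_left {s b u : ℝ} (hu : 0 < u) :
    ∫ t : ℝ, ker s b (t, u) = √π * (u ^ (s - 1 / 2 - 1) * rexp (-(b ^ 2 * u))) := by
  simp only [ker_eq]
  rw [integral_const_mul, integral_gaussian, sqrt_div pi_pos.le]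
  have h : u ^ (s - 1) = u ^ (s - 1 / 2 - 1) * √u := by
    rw [sqrt_eq_rpow, ← rpow_add hu]
    congr 1
    ring
  have hu0 : √u ≠ 0 := (sqrt_pos.mpr hu).ne'
  rw [h]
  field_simp

theorem integrableOn_gam {a r : ℝ} (ha : 0 < a) (hr : 0 < r) :
    IntegrableOn (fun u : ℝ => u ^ (a - 1) * rexp (-(r * u))) (Ioi 0) := by
  have h := integrableOn_rpow_mul_exp_neg_mul_rpow (s := a - 1) (p := 1) (by linarith) one_pos hr
  refine h.congr_fun (fun u _ => ?_) measurableSet_Ioi
  simp only [rpow_one, neg_mul]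

theorem integrable_ker {s b : ℝ} (hs : 1 / 2 < s) (hb : 0 < b) :
    Integrable (ker s b) (volume.prod (volume.restrict (Ioi 0))) := by
  rw [integrable_prod_iff' (measurable_ker s b).aestronglyMeasurable]
  constructor
  · refine (ae_restrict_iff' measurableSet_Ioi).mpr (ae_of_all _ fun u hu => ?_)
    simp only [ker_eq]
    exact (integrable_exp_neg_mul_sq hu).const_mul _
  · have h := (integrableOn_gam (a := s - 1 / 2) (r := b ^ 2) (by linarith)
      (by positivity)).const_mul √π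
    refine IntegrableOn.congr_fun h (fun u hu => ?_) measurableSet_Ioi
    rw [← integral_ker_left hu]
    refine integral_congr_ae (ae_of_all _ fun t => ?_)
    have hu' : (0 : ℝ) ≤ u := (mem_Ioi.mp hu).le
    simp only [ker]
    rw [norm_of_nonneg (mul_nonneg (rpow_nonneg hu' _) (exp_pos _).le)]

theorem integral_ker_right {s b : ℝ} (hs : 1 / 2 < s) (hb : 0 < b) (t : ℝ) :
    ∫ u in Ioi (0 : ℝ), ker s b (t, u) = Gamma s * (t ^ 2 + b ^ 2) ^ (-s) := by
  have h0 : 0 < t ^ 2 + b ^ 2 := by positivity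
  simp only [ker]
  rw [integral_rpow_mul_exp_neg_mul_Ioi (by linarith) h0, one_div, inv_rpow h0.le,
    ← rpow_neg h0.le, mul_comm]

/-- `(t² + b²)^(-s)` is integrable for `s > 1/2`. -/
theorem integrable_sq_add {s b : ℝ} (hs : 1 / 2 < s) (hb : 0 < b) :
    Integrable (fun t : ℝ => (t ^ 2 + b ^ 2) ^ (-s)) := by
  have h := (integrable_ker hs hb).integral_prod_left
  have hG : Gamma s ≠ 0 := (Gamma_pos_of_pos (by linarith)).ne'
  simp only [integral_ker_right hs hb] at h
  refine (h.const_mul (Gamma s)⁻¹).congr (ae_of_all _ fun t => ?_)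
  show (Gamma s)⁻¹ * (Gamma s * (t ^ 2 + b ^ 2) ^ (-s)) = _
  rw [inv_mul_cancel_left₀ hG]

/-- **The integral** of `(t² + b²)^(-s)`. -/
theorem integral_eq {s b : ℝ} (hs : 1 / 2 < s) (hb : 0 < b) :
    ∫ t : ℝ, (t ^ 2 + b ^ 2) ^ (-s) =
      √π * Real.Gamma (s - 1 / 2) / Real.Gamma s * b ^ (1 - 2 * s) := by
  have hG : Gamma s ≠ 0 := (Gamma_pos_of_pos (by linarith)).ne'
  have h1 : ∫ t : ℝ, ∫ u in Ioi (0 : ℝ), ker s b (t, u) =
      ∫ u in Ioi (0 : ℝ), ∫ t : ℝ, ker s b (t, u) :=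
    integral_integral_swap (integrable_ker hs hb)
  simp only [integral_ker_right hs hb] at h1
  rw [integral_const_mul, setIntegral_congr_fun measurableSet_Ioi
    (fun u hu => integral_ker_left (s := s) (b := b) hu), integral_const_mul,
    integral_rpow_mul_exp_neg_mul_Ioi (a := s - 1 / 2) (r := b ^ 2) (by linarith)
      (by positivity)] at h1
  have h2 : (1 / b ^ 2) ^ (s - 1 / 2) = b ^ (1 - 2 * s) := by
    rw [one_div, inv_rpow (by positivity), ← rpow_natCast b 2, ← rpow_mul hb.le,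
      ← rpow_neg hb.le]
    congr 1
    push_cast
    ring
  rw [h2] at h1
  rw [eq_div_of_mul_eq hG ((mul_comm _ _).trans h1)]
  ring

end Fermat.Agent.Cor.Kron

end
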