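import Mathlib.Analysis.SumIntegralComparisons
import Mathlib.Analysis.SpecialFunctions.JapaneseBracket
import Mathlib.MeasureTheory.Integral.IntegralEqImproper
import Mathlib.MeasureTheory.Measure.Lebesgue.Integral
import Mathlib.Topology.Algebra.InfiniteSum.NatInt
import Mathlib.Tactic

/-!
# Kronecker's limit formula, (B2): sums and integrals of `(t ^ 2 + b ^ 2) ^ (-s)`

For an integrable even function `f ≥ 0` on the real line which is antitone on `[0, ∞)` the sum of
`f (n + a)` over the integers `n` differs from the integral of `f` by at most `2 f(0)`.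
-/

set_option autoImplicit false

open MeasureTheory Set Filter Topology

namespace Fermat.Agent.Cor.Kron

section General

variable {f : ℝ → ℝ}

/-- Comparison of the sum with the integral on a half line. -/
theorem half_sum (hf0 : ∀ t, 0 ≤ f t) (hanti : AntitoneOn f (Ici 0)) (hint : Integrable f) {c : ℝ}
    (hc : 0 ≤ c) : Summable (fun k : ℕ => f (c + k)) ∧ ∫ t in Ioi c, f t ≤ ∑' k : ℕ, f (c + k) ∧
      ∑' k : ℕ, f (c + k) ≤ f c + ∫ t in Ioi c, f t := by
  have hA : ∀ N : ℕ, AntitoneOn f (Icc c (c + N)) := fun N =>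
    hanti.mono fun t ht => mem_Ici.mpr (hc.trans ht.1)
  have hlim : Tendsto (fun N : ℕ => ∫ t in c..c + N, f t) atTop (𝓝 (∫ t in Ioi c, f t)) :=
    intervalIntegral_tendsto_integral_Ioi c hint.integrableOn
      (tendsto_atTop_add_const_left _ _ tendsto_natCast_atTop_atTop)
  have hle : ∀ N : ℕ, ∫ t in c..c + N, f t ≤ ∫ t in Ioi c, f t := fun N => by
    rw [intervalIntegral.integral_of_le (by linarith [N.cast_nonneg (α := ℝ)])]
    exact setIntegral_mono_set hint.integrableOn (Eventually.of_forall hf0)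
      (Ioc_subset_Ioi_self).eventuallyLE
  have hs1 : Summable (fun k : ℕ => f (c + ((k + 1 : ℕ) : ℝ))) := by
    refine summable_of_sum_range_le (c := ∫ t in Ioi c, f t) (fun k => hf0 _) fun N => ?_
    exact (AntitoneOn.sum_le_integral (hA N)).trans (hle N)
  have hs : Summable (fun k : ℕ => f (c + k)) :=
    (summable_nat_add_iff 1).mp hs1
  refine ⟨hs, ?_, ?_⟩
  · refine le_of_tendsto_of_tendsto' hlim hs.hasSum.tendsto_sum_nat fun N => ?_
    exact AntitoneOn.integral_le_sum (hA N)
  · rw [hs.tsum_eq_zero_add, Nat.cast_zero, add_zero]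
    refine add_le_add_right ?_ _
    exact hs1.tsum_le_of_sum_range_le fun N => (AntitoneOn.sum_le_integral (hA N)).trans (hle N)

/-- **Sums and integrals of even unimodal functions.** -/
theorem sum_int (hf0 : ∀ t, 0 ≤ f t) (hanti : AntitoneOn f (Ici 0)) (hint : Integrable f)
    (heven : ∀ t, f (-t) = f t) (a : ℝ) :
    Summable (fun n : ℤ => f (n + a)) ∧ |∑' n : ℤ, f (n + a) - ∫ t, f t| ≤ 2 * f 0 := by
  have hM : ∀ t, f t ≤ f 0 := fun t => by
    rcases le_total 0 t with h | h
    · exact hanti self_mem_Ici h h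
    · rw [← heven]
      exact hanti self_mem_Ici (mem_Ici.mpr (neg_nonneg.mpr h)) (neg_nonneg.mpr h)
  -- the integral over the line
  have hI : ∫ t, f t = 2 * ∫ t in Ioi (0 : ℝ), f t := by
    rw [← integral_comp_abs]
    refine integral_congr_ae (Eventually.of_forall fun t => ?_)
    rcases abs_choice t with h | h
    · simp only [h]
    · simp only [h, heven]
  have hIc : ∀ c : ℝ, 0 ≤ c → (∫ t in Ioi (0 : ℝ), f t) - c * f 0 ≤ ∫ t in Ioi c, f t ∧
      ∫ t in Ioi c, f t ≤ ∫ t in Ioi (0 : ℝ), f t := by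
    intro c hc
    have hu : ∫ t in Ioi (0 : ℝ), f t = (∫ t in Ioc 0 c, f t) + ∫ t in Ioi c, f t := by
      rw [← Ioc_union_Ioi_eq_Ioi hc]
      exact setIntegral_union (Ioc_disjoint_Ioi le_rfl) measurableSet_Ioi hint.integrableOn
        hint.integrableOn
    have h1 : 0 ≤ ∫ t in Ioc 0 c, f t := integral_nonneg hf0
    have h2 : ∫ t in Ioc 0 c, f t ≤ c * f 0 := by
      calc ∫ t in Ioc 0 c, f t ≤ ∫ _ in Ioc 0 c, f 0 :=
            setIntegral_mono hint.integrableOn (by simp) hM
        _ = c * f 0 := by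
            rw [setIntegral_const, Measure.real, Real.volume_Ioc, sub_zero,
              ENNReal.toReal_ofReal hc, smul_eq_mul]
    constructor <;> linarith
  -- the shift
  set n₀ : ℤ := ⌈-a⌉ with hn₀
  set a' : ℝ := n₀ + a with ha'
  have h0 : 0 ≤ a' := by
    have := Int.le_ceil (-a)
    rw [ha']
    linarith
  have h1 : a' ≤ 1 := by
    have := Int.ceil_lt_add_one (-a)
    rw [ha']
    linarith
  obtain ⟨s1, l1, u1⟩ := half_sum hf0 hanti hint h0
  obtain ⟨s2, l2, u2⟩ := half_sum hf0 hanti hint (sub_nonneg.mpr h1)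
  have hs : HasSum (fun n : ℤ => f (n + a')) (∑' k : ℕ, f (a' + k) + ∑' k : ℕ, f (1 - a' + k)) := by
    refine HasSum.of_nat_of_neg_add_one ?_ ?_
    · convert s1.hasSum using 2 with k
      rw [Int.cast_natCast, add_comm]
    · convert s2.hasSum using 2 with k
      rw [← heven]
      congr 1
      push_cast
      ring
  have hs' : HasSum (fun n : ℤ => f (n + a))
      (∑' k : ℕ, f (a' + k) + ∑' k : ℕ, f (1 - a' + k)) := by
    rw [← (Equiv.addRight n₀).hasSum_iff]
    convert hs using 2 with n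
    simp only [Function.comp_apply, Equiv.coe_addRight]
    congr 1
    rw [ha']
    push_cast
    ring
  refine ⟨hs'.summable, ?_⟩
  rw [hs'.tsum_eq, hI, abs_le]
  obtain ⟨v1, w1⟩ := hIc a' h0
  obtain ⟨v2, w2⟩ := hIc (1 - a') (sub_nonneg.mpr h1)
  have e1 := hM a'
  have e2 := hM (1 - a')
  have e3 := hf0 0
  constructor
  · nlinarith
  · linarith

end General

variable {s b : ℝ}

theorem antitoneOn_kernel (hs : 0 ≤ s) (hb : 0 < b) :
    AntitoneOn (fun t : ℝ => (t ^ 2 + b ^ 2) ^ (-s)) (Ici 0) := by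
  intro x hx y _ hxy
  have hx0 : (0 : ℝ) ≤ x := hx
  exact Real.rpow_le_rpow_of_nonpos (by positivity) (by gcongr) (neg_nonpos.mpr hs)

theorem integrable_kernel (hs : 1 / 2 < s) (hb : 0 < b) :
    Integrable (fun t : ℝ => (t ^ 2 + b ^ 2) ^ (-s)) := by
  have h1 : Integrable (fun x : ℝ => ((1 : ℝ) + ‖x‖ ^ 2) ^ (-(2 * s) / 2)) :=
    integrable_rpow_neg_one_add_norm_sq (by
      rw [Module.finrank_self]
      push_cast
      linarith)
  have h2 := (h1.comp_div hb.ne').const_mul ((b ^ 2) ^ (-s))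
  refine h2.congr (Eventually.of_forall fun t => ?_)
  simp only
  rw [show -(2 * s) / 2 = -s by ring, ← Real.mul_rpow (by positivity) (by positivity),
    Real.norm_eq_abs, sq_abs]
  congr 1
  field_simp
  ring

theorem summable_sq (hs : 1 / 2 < s) (hb : 0 < b) (a : ℝ) :
    Summable fun n : ℤ => ((n + a) ^ 2 + b ^ 2) ^ (-s) :=
  (sum_int (f := fun t : ℝ => (t ^ 2 + b ^ 2) ^ (-s)) (fun t => by positivity)
    (antitoneOn_kernel (by linarith) hb) (integrable_kernel hs hb)
    (fun t => by simp only [neg_sq]) a).1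

/-- **(B2)** The sum of `((n + a) ^ 2 + b ^ 2) ^ (-s)` over the integers is the integral up to
`2 (b ^ 2) ^ (-s)`. -/
theorem abs_sum_sub_le (hs : 1 / 2 < s) (hb : 0 < b) (a : ℝ) :
    |∑' n : ℤ, ((n + a) ^ 2 + b ^ 2) ^ (-s) - ∫ t : ℝ, (t ^ 2 + b ^ 2) ^ (-s)| ≤
      2 * (b ^ 2) ^ (-s) := by
  have h := (sum_int (f := fun t : ℝ => (t ^ 2 + b ^ 2) ^ (-s)) (fun t => by positivity)
    (antitoneOn_kernel (by linarith) hb) (integrable_kernel hs hb)
    (fun t => by simp only [neg_sq]) a).2
  simpa only [ne_eq, OfNat.ofNat_ne_zero, not_false_eq_true, zero_pow, zero_add] using h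

end Fermat.Agent.Cor.Kron
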