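import Fermat.Agent.Corollaries.Kron.Cot
import Fermat.Agent.Corollaries.Kron.Int
import Fermat.Agent.Corollaries.Kron.Int2
import Fermat.Agent.Corollaries.Kron.Asym
import Fermat.Agent.Corollaries.Kron.EtaLog

/-!
# Kronecker's limit formula

For `τ` in the upper half plane, `y = im τ`, and `s → 1+`,

`∑_{(m, n) ≠ (0, 0)} y^s / |m τ + n|^(2 s) - π / (s - 1) → 2 π (γ - log 2 - log (√y |η(τ)|²))`

(`kronecker_limit`; `γ` is the Euler-Mascheroni constant, `η` the Dedekind eta function).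

The rows `m ≥ 1` are compared with the integrals `∫ (t² + b²)^(-s) dt` (`Kron/Int.lean`,
`Kron/Int2.lean`: the difference is at most `2 b^(-2 s)`, so that dominated convergence applies to
the sum over `m`); the value at `s = 1` of a row is given by the partial fractions of the
cotangent (`Kron/Cot.lean`); the sum of the integrals is a multiple of `ζ(2 s - 1)`
(`Kron/Asym.lean`), and the double sum over `m` and the powers of `q` is the logarithm of `η`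
(`Kron/EtaLog.lean`).
-/

set_option autoImplicit false

noncomputable section

open Filter Topology Complex

namespace Fermat.Agent.Cor.Kron

/-- `∑_n ((n + a)² + b²)^(-s) - ∫ (t² + b²)^(-s) dt` -/
def JJ (a b s : ℝ) : ℝ :=
  ∑' n : ℤ, ((n + a) ^ 2 + b ^ 2) ^ (-s) - ∫ t : ℝ, (t ^ 2 + b ^ 2) ^ (-s)

theorem abs_JJ_le {a b s : ℝ} (hs : 1 / 2 < s) (hb : 0 < b) : |JJ a b s| ≤ 2 * (b ^ 2) ^ (-s) :=
  abs_sum_sub_le hs hb a

/-- `A^(-s) ≤ A^(-1) + A^(-2)` for `1 ≤ s ≤ 2` -/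
theorem rpow_neg_le {A s : ℝ} (hA : 0 < A) (h1 : 1 ≤ s) (h2 : s ≤ 2) :
    A ^ (-s) ≤ A ^ (-1 : ℝ) + A ^ (-2 : ℝ) := by
  rcases le_total 1 A with h | h
  · have := Real.rpow_le_rpow_of_exponent_le h (neg_le_neg h1)
    have h3 := Real.rpow_nonneg hA.le (-2)
    linarith
  · have := Real.rpow_le_rpow_of_exponent_ge hA h (neg_le_neg h2)
    have h3 := Real.rpow_nonneg hA.le (-1)
    linarith

theorem sq_add_sq_pos {b : ℝ} (hb : 0 < b) (u : ℝ) : 0 < u ^ 2 + b ^ 2 := by positivity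

theorem eventually_mem : ∀ᶠ s : ℝ in 𝓝[>] 1, 1 < s ∧ s < 2 := by
  filter_upwards [Ioo_mem_nhdsGT (show (1 : ℝ) < 2 by norm_num)] with s hs
  exact hs

theorem tendsto_S (a : ℝ) {b : ℝ} (hb : 0 < b) :
    Tendsto (fun s : ℝ => ∑' n : ℤ, (((n : ℝ) + a) ^ 2 + b ^ 2) ^ (-s)) (𝓝[>] 1)
      (𝓝 (∑' n : ℤ, (((n : ℝ) + a) ^ 2 + b ^ 2) ^ (-1 : ℝ))) := by
  refine tendsto_tsum_of_dominated_convergence
    (bound := fun n : ℤ => (((n : ℝ) + a) ^ 2 + b ^ 2) ^ (-1 : ℝ) +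
      (((n : ℝ) + a) ^ 2 + b ^ 2) ^ (-2 : ℝ))
    ((summable_sq (by norm_num) hb a).add (summable_sq (by norm_num) hb a)) (fun n => ?_) ?_
  · have h : Tendsto (fun s : ℝ => -s) (𝓝[>] 1) (𝓝 (-1)) :=
      (continuous_neg.tendsto 1).mono_left nhdsWithin_le_nhds
    exact tendsto_const_nhds.rpow h (Or.inl (sq_add_sq_pos hb _).ne')
  · filter_upwards [eventually_mem] with s hs n
    rw [Real.norm_eq_abs, abs_of_nonneg (Real.rpow_nonneg (sq_add_sq_pos hb _).le _)]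
    exact rpow_neg_le (sq_add_sq_pos hb _) hs.1.le hs.2.le

theorem tendsto_I {b : ℝ} (hb : 0 < b) :
    Tendsto (fun s : ℝ => ∫ t : ℝ, (t ^ 2 + b ^ 2) ^ (-s)) (𝓝[>] 1) (𝓝 (Real.pi / b)) := by
  have h1 : Tendsto (fun s : ℝ => √Real.pi * Real.Gamma (s - 1 / 2) / Real.Gamma s *
      b ^ (1 - 2 * s)) (𝓝[>] 1) (𝓝 (√Real.pi * Real.Gamma (1 - 1 / 2) / Real.Gamma 1 *
      b ^ (1 - 2 * (1 : ℝ)))) := by
    refine Tendsto.mul (Tendsto.div (Tendsto.mul tendsto_const_nhds ?_) ?_ ?_) ?_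
    · have h2 : ContinuousAt Real.Gamma (1 - 1 / 2 : ℝ) :=
        (Real.differentiableAt_Gamma fun m => by
          have : (0 : ℝ) ≤ m := Nat.cast_nonneg m
          intro h
          norm_num at h
          linarith).continuousAt
      have h3 : Tendsto (fun s : ℝ => s - 1 / 2) (𝓝[>] 1) (𝓝 (1 - 1 / 2)) :=
        ((continuous_sub_right (1 / 2 : ℝ)).tendsto 1).mono_left nhdsWithin_le_nhds
      exact h2.tendsto.comp h3
    · have h2 : ContinuousAt Real.Gamma (1 : ℝ) :=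
        (Real.differentiableAt_Gamma fun m => by
          have : (0 : ℝ) ≤ m := Nat.cast_nonneg m
          intro h
          linarith).continuousAt
      exact h2.tendsto.mono_left nhdsWithin_le_nhds
    · rw [Real.Gamma_one]
      exact one_ne_zero
    · have h3 : Tendsto (fun s : ℝ => 1 - 2 * s) (𝓝[>] 1) (𝓝 (1 - 2 * 1)) :=
        ((continuous_const.sub (continuous_const.mul continuous_id)).tendsto 1).mono_left
          nhdsWithin_le_nhds
      exact tendsto_const_nhds.rpow h3 (Or.inl hb.ne')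
  have h4 : √Real.pi * Real.Gamma (1 - 1 / 2) / Real.Gamma 1 * b ^ (1 - 2 * (1 : ℝ)) =
      Real.pi / b := by
    rw [show (1 - 1 / 2 : ℝ) = 1 / 2 by norm_num, Real.Gamma_one_half_eq, Real.Gamma_one, div_one,
      Real.mul_self_sqrt Real.pi_pos.le, show (1 - 2 * (1 : ℝ)) = -1 by norm_num,
      Real.rpow_neg_one, div_eq_mul_inv]
  rw [h4] at h1
  refine h1.congr' ?_
  filter_upwards [eventually_mem] with s hs
  exact (integral_eq (by linarith [hs.1]) hb).symm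

/-- the value of `JJ` at `1`, from the partial fractions of the cotangent -/
theorem tendsto_JJ {z : ℂ} (hz : 0 < z.im) :
    Tendsto (fun s : ℝ => JJ z.re z.im s) (𝓝[>] 1)
      (𝓝 (2 * Real.pi / z.im * (∑' r : ℕ, cexp (2 * Real.pi * I * z) ^ (r + 1)).re)) := by
  have h1 := (tendsto_S z.re hz).sub (tendsto_I hz)
  have h2 : ∑' n : ℤ, (((n : ℝ) + z.re) ^ 2 + z.im ^ 2) ^ (-1 : ℝ) - Real.pi / z.im =
      2 * Real.pi / z.im * (∑' r : ℕ, cexp (2 * Real.pi * I * z) ^ (r + 1)).re := by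
    have h3 := (hasSum_inv_normSq hz).tsum_eq
    have h4 : ∀ n : ℤ, (((n : ℝ) + z.re) ^ 2 + z.im ^ 2) ^ (-1 : ℝ) =
        1 / ‖(n : ℂ) + z‖ ^ 2 := by
      intro n
      rw [Real.rpow_neg_one, ← Complex.normSq_eq_norm_sq, Complex.normSq_apply, one_div]
      simp only [add_re, intCast_re, add_im, intCast_im, zero_add]
      ring_nf
    simp only [h4]
    rw [h3]
    ring
  rw [h2] at h1
  exact h1

/-! ### The sum over `m` -/

variable {τ : ℂ}

theorem mul_im' (m : ℕ) : (((m : ℂ) + 1) * τ).im = ((m : ℝ) + 1) * τ.im := by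
  simp [Complex.mul_im]

theorem mul_re' (m : ℕ) : (((m : ℂ) + 1) * τ).re = ((m : ℝ) + 1) * τ.re := by
  simp [Complex.mul_re]

theorem summable_bound (hτ : 0 < τ.im) (k : ℝ) (hk : 1 ≤ k) :
    Summable fun m : ℕ => ((((m : ℝ) + 1) * τ.im) ^ 2) ^ (-k) := by
  have h1 : Summable fun m : ℕ => 1 / ((m : ℝ) + 1) ^ (2 * k) := by
    have := (Real.summable_one_div_nat_add_rpow 1 (2 * k)).mpr (by linarith)
    refine this.congr fun m => ?_
    rw [abs_of_pos (by positivity)]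
  refine (h1.mul_left ((τ.im ^ 2) ^ (-k))).congr fun m => ?_
  have hm : (0 : ℝ) < (m : ℝ) + 1 := by positivity
  rw [mul_pow, Real.mul_rpow (by positivity) (by positivity), mul_comm, one_div,
    ← Real.rpow_neg hm.le]
  congr 1
  rw [← Real.rpow_natCast, ← Real.rpow_mul hm.le]
  congr 1
  push_cast
  ring

theorem tendsto_sum_JJ (hτ : 0 < τ.im) :
    Tendsto (fun s : ℝ => ∑' m : ℕ, JJ (((m : ℝ) + 1) * τ.re) (((m : ℝ) + 1) * τ.im) s) (𝓝[>] 1)
      (𝓝 (∑' m : ℕ, 2 * Real.pi / (((m : ℝ) + 1) * τ.im) *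
        (∑' r : ℕ, cexp (2 * Real.pi * I * ((m + 1) * τ)) ^ (r + 1)).re)) := by
  refine tendsto_tsum_of_dominated_convergence
    (bound := fun m : ℕ => 2 * (((((m : ℝ) + 1) * τ.im) ^ 2) ^ (-1 : ℝ) +
      ((((m : ℝ) + 1) * τ.im) ^ 2) ^ (-2 : ℝ)))
    (((summable_bound hτ 1 le_rfl).add (summable_bound hτ 2 one_le_two)).mul_left 2)
    (fun m => ?_) ?_
  · have hz : 0 < (((m : ℂ) + 1) * τ).im := by
      rw [mul_im']
      positivity
    have h := tendsto_JJ hz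
    rw [mul_im', mul_re'] at h
    exact h
  · filter_upwards [eventually_mem] with s hs m
    have hb : 0 < ((m : ℝ) + 1) * τ.im := by positivity
    refine (abs_JJ_le (by linarith [hs.1]) hb).trans ?_
    refine mul_le_mul_of_nonneg_left ?_ two_pos.le
    exact rpow_neg_le (by positivity) hs.1.le hs.2.le

/-! ### The row `m = 0` -/

/-- `∑_{n ≥ 1} n^(-s)` -/
def ZZ (s : ℝ) : ℝ := ∑' n : ℕ, 1 / ((n : ℝ) + 1) ^ s

theorem summable_ZZ {s : ℝ} (hs : 1 < s) : Summable fun n : ℕ => 1 / ((n : ℝ) + 1) ^ s := by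
  have := (Real.summable_one_div_nat_add_rpow 1 s).mpr hs
  refine this.congr fun m => ?_
  rw [abs_of_pos (by positivity)]

theorem ZZ_two : ZZ 2 = Real.pi ^ 2 / 6 := by
  have h1 := hasSum_zeta_two.tsum_eq
  rw [ZZ, ← h1, hasSum_zeta_two.summable.tsum_eq_zero_add]
  simp only [Nat.cast_zero, ne_eq, OfNat.ofNat_ne_zero, not_false_eq_true, zero_pow, div_zero,
    zero_add]
  refine tsum_congr fun n => ?_
  rw [show (2 : ℝ) = ((2 : ℕ) : ℝ) by norm_num, Real.rpow_natCast]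
  push_cast
  rfl

theorem tendsto_ZZ : Tendsto (fun s : ℝ => ZZ (2 * s)) (𝓝[>] 1) (𝓝 (ZZ 2)) := by
  refine tendsto_tsum_of_dominated_convergence (bound := fun n : ℕ => 1 / ((n : ℝ) + 1) ^ (2 : ℝ))
    (summable_ZZ one_lt_two) (fun n => ?_) ?_
  · have hn : (0 : ℝ) < (n : ℝ) + 1 := by positivity
    have h3 : Tendsto (fun s : ℝ => 2 * s) (𝓝[>] 1) (𝓝 2) := by
      have h : Continuous fun s : ℝ => 2 * s := by fun_prop
      have h' := (h.tendsto 1).mono_left (nhdsWithin_le_nhds (s := Set.Ioi 1))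
      rwa [mul_one] at h'
    exact tendsto_const_nhds.div (tendsto_const_nhds.rpow h3 (Or.inl hn.ne'))
      (Real.rpow_pos_of_pos hn _).ne'
  · filter_upwards [eventually_mem] with s hs n
    have hn : (1 : ℝ) ≤ (n : ℝ) + 1 := by
      have := Nat.cast_nonneg (α := ℝ) n
      linarith
    rw [Real.norm_eq_abs, abs_of_nonneg (by positivity)]
    exact one_div_le_one_div_of_le (by positivity)
      (Real.rpow_le_rpow_of_exponent_le hn (by linarith [hs.1]))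

/-! ### The Epstein zeta function -/

/-- the term `(y / |mτ + n|²)^s` -/
def KS (τ : ℂ) (s : ℝ) (p : ℤ × ℤ) : ℝ := (τ.im / ‖(p.1 : ℂ) * τ + p.2‖ ^ 2) ^ s

theorem norm_sq_eq (m n : ℤ) : ‖(m : ℂ) * τ + n‖ ^ 2 =
    ((n : ℝ) + m * τ.re) ^ 2 + (m * τ.im) ^ 2 := by
  rw [← Complex.normSq_eq_norm_sq, Complex.normSq_apply]
  simp only [add_re, intCast_re, add_im, intCast_im, add_zero, mul_re, mul_im, zero_mul, sub_zero]
  ring

theorem KS_eq (hτ : 0 < τ.im) (s : ℝ) (m n : ℤ) : KS τ s (m, n) =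
    τ.im ^ s * (((n : ℝ) + m * τ.re) ^ 2 + (m * τ.im) ^ 2) ^ (-s) := by
  rw [KS, norm_sq_eq, Real.div_rpow hτ.le (by positivity), Real.rpow_neg (by positivity),
    div_eq_mul_inv]

theorem KS_nonneg (hτ : 0 < τ.im) (s : ℝ) (p : ℤ × ℤ) : 0 ≤ KS τ s p :=
  Real.rpow_nonneg (div_nonneg hτ.le (by positivity)) _

theorem KS_neg (s : ℝ) (m n : ℤ) : KS τ s (-m, -n) = KS τ s (m, n) := by
  rw [KS, KS]
  congr 3
  rw [← norm_neg]
  congr 1
  push_cast
  ring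

/-- a row -/
def KR (τ : ℂ) (s : ℝ) (m : ℤ) : ℝ := ∑' n : ℤ, KS τ s (m, n)

theorem KR_neg (s : ℝ) (m : ℤ) : KR τ s (-m) = KR τ s m := by
  rw [KR, KR, ← (Equiv.neg ℤ).tsum_eq]
  exact tsum_congr fun n => KS_neg s m n

theorem summable_row_pos (hτ : 0 < τ.im) {s : ℝ} (hs : 1 / 2 < s) (m : ℕ) :
    Summable fun n : ℤ => KS τ s (((m : ℤ) + 1), n) := by
  have hb : 0 < ((m : ℝ) + 1) * τ.im := by positivity
  refine ((summable_sq hs hb (((m : ℝ) + 1) * τ.re)).mul_left (τ.im ^ s)).congr fun n => ?_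
  rw [KS_eq hτ]
  push_cast
  rfl

theorem KR_pos (hτ : 0 < τ.im) {s : ℝ} (hs : 1 / 2 < s) (m : ℕ) :
    KR τ s ((m : ℤ) + 1) = τ.im ^ s * (JJ (((m : ℝ) + 1) * τ.re) (((m : ℝ) + 1) * τ.im) s +
      √Real.pi * Real.Gamma (s - 1 / 2) / Real.Gamma s *
        (((m : ℝ) + 1) * τ.im) ^ (1 - 2 * s)) := by
  have hb : 0 < ((m : ℝ) + 1) * τ.im := by positivity
  rw [JJ, integral_eq hs hb, sub_add_cancel, ← tsum_mul_left, KR]
  refine tsum_congr fun n => ?_
  rw [KS_eq hτ]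
  push_cast
  rfl

theorem summable_JJ (hτ : 0 < τ.im) {s : ℝ} (hs : 1 < s) :
    Summable fun m : ℕ => JJ (((m : ℝ) + 1) * τ.re) (((m : ℝ) + 1) * τ.im) s := by
  refine Summable.of_norm_bounded ((summable_bound hτ s hs.le).mul_left 2) fun m => ?_
  rw [Real.norm_eq_abs]
  exact abs_JJ_le (by linarith) (by positivity)

theorem term_I (hτ : 0 < τ.im) (s : ℝ) (m : ℕ) :
    (((m : ℝ) + 1) * τ.im) ^ (1 - 2 * s) =
      τ.im ^ (1 - 2 * s) * (1 / ((m : ℝ) + 1) ^ (2 * s - 1)) := by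
  have hm : (0 : ℝ) < (m : ℝ) + 1 := by positivity
  rw [Real.mul_rpow hm.le hτ.le, mul_comm, one_div, ← Real.rpow_neg hm.le, neg_sub]

theorem rpow_combine (hτ : 0 < τ.im) (s : ℝ) :
    τ.im ^ s * τ.im ^ (1 - 2 * s) = τ.im ^ (1 - s) := by
  rw [← Real.rpow_add hτ]
  congr 1
  ring

theorem hasSum_KR_pos (hτ : 0 < τ.im) {s : ℝ} (hs : 1 < s) :
    HasSum (fun m : ℕ => KR τ s ((m : ℤ) + 1))
      (τ.im ^ s * (∑' m : ℕ, JJ (((m : ℝ) + 1) * τ.re) (((m : ℝ) + 1) * τ.im) s) +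
        τ.im ^ (1 - s) * (√Real.pi * Real.Gamma (s - 1 / 2) / Real.Gamma s) * ZZ (2 * s - 1)) := by
  have h1 := (summable_JJ hτ hs).hasSum.mul_left (τ.im ^ s)
  have h2 := (summable_ZZ (s := 2 * s - 1) (by linarith)).hasSum.mul_left
    (τ.im ^ (1 - s) * (√Real.pi * Real.Gamma (s - 1 / 2) / Real.Gamma s))
  have h3 : (fun m : ℕ => KR τ s ((m : ℤ) + 1)) = fun m : ℕ =>
      τ.im ^ s * JJ (((m : ℝ) + 1) * τ.re) (((m : ℝ) + 1) * τ.im) s +
      τ.im ^ (1 - s) * (√Real.pi * Real.Gamma (s - 1 / 2) / Real.Gamma s) *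
        (1 / ((m : ℝ) + 1) ^ (2 * s - 1)) := by
    funext m
    rw [KR_pos hτ (by linarith) m, term_I hτ, ← rpow_combine hτ s, mul_add]
    generalize √Real.pi * Real.Gamma (s - 1 / 2) / Real.Gamma s = c
    generalize τ.im ^ (1 - 2 * s) = d
    generalize 1 / ((m : ℝ) + 1) ^ (2 * s - 1) = e
    generalize JJ (((m : ℝ) + 1) * τ.re) (((m : ℝ) + 1) * τ.im) s = f
    generalize τ.im ^ s = g
    ring
  rw [h3]
  exact h1.add h2

/-! ### The row `m = 0` -/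

theorem KS_zero_zero {s : ℝ} (hs : 0 < s) : KS τ s (0, 0) = 0 := by
  rw [KS]
  simp [Real.zero_rpow hs.ne']

theorem KS_zero_pos (hτ : 0 < τ.im) (s : ℝ) (n : ℕ) :
    KS τ s (0, (n : ℤ) + 1) = τ.im ^ s * (1 / ((n : ℝ) + 1) ^ (2 * s)) := by
  have hn : (0 : ℝ) < (n : ℝ) + 1 := by positivity
  rw [KS_eq hτ]
  congr 1
  push_cast
  rw [zero_mul, zero_mul, add_zero, zero_pow two_ne_zero, add_zero, one_div,
    ← Real.rpow_neg hn.le, ← Real.rpow_natCast, ← Real.rpow_mul hn.le]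
  congr 1
  push_cast
  ring

theorem summable_row_zero (hτ : 0 < τ.im) {s : ℝ} (hs : 1 / 2 < s) :
    Summable fun n : ℤ => KS τ s (0, n) := by
  have h : Summable fun n : ℕ => KS τ s (0, (n : ℤ) + 1) := by
    refine ((summable_ZZ (s := 2 * s) (by linarith)).mul_left (τ.im ^ s)).congr fun n => ?_
    rw [KS_zero_pos hτ]
  refine Summable.of_add_one_of_neg_add_one (by exact_mod_cast h) ?_
  refine h.congr fun n => ?_
  rw [← KS_neg, neg_zero]

theorem KR_zero (hτ : 0 < τ.im) {s : ℝ} (hs : 1 / 2 < s) :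
    KR τ s 0 = 2 * τ.im ^ s * ZZ (2 * s) := by
  have h : HasSum (fun n : ℕ => KS τ s (0, (n : ℤ) + 1)) (τ.im ^ s * ZZ (2 * s)) := by
    have := (summable_ZZ (s := 2 * s) (by linarith)).hasSum.mul_left (τ.im ^ s)
    refine this.congr_fun ?_
    intro n
    rw [KS_zero_pos hτ]
  have h' : HasSum (fun n : ℕ => KS τ s (0, -((n : ℤ) + 1))) (τ.im ^ s * ZZ (2 * s)) := by
    convert h using 2 with n
    rw [← KS_neg, neg_zero, neg_neg]
  have h2 := (HasSum.of_add_one_of_neg_add_one (f := fun n : ℤ => KS τ s (0, n)) h h').tsum_eq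
  rw [KR, h2, KS_zero_zero (by linarith)]
  ring

/-! ### All rows -/

theorem summable_row (hτ : 0 < τ.im) {s : ℝ} (hs : 1 / 2 < s) (m : ℤ) :
    Summable fun n : ℤ => KS τ s (m, n) := by
  rcases lt_trichotomy m 0 with h | h | h
  · obtain ⟨k, rfl⟩ : ∃ k : ℕ, m = -((k : ℤ) + 1) := ⟨(-m - 1).toNat, by omega⟩
    have h1 := summable_row_pos hτ hs k
    rw [← (Equiv.neg ℤ).summable_iff] at h1
    refine h1.congr fun n => ?_
    rw [Function.comp_apply, Equiv.neg_apply, ← KS_neg, neg_neg]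
  · subst h
    exact summable_row_zero hτ hs
  · obtain ⟨k, rfl⟩ : ∃ k : ℕ, m = (k : ℤ) + 1 := ⟨(m - 1).toNat, by omega⟩
    exact summable_row_pos hτ hs k

/-- the contribution of the rows `m ≥ 1` -/
def AA (τ : ℂ) (s : ℝ) : ℝ :=
  τ.im ^ s * (∑' m : ℕ, JJ (((m : ℝ) + 1) * τ.re) (((m : ℝ) + 1) * τ.im) s) +
    τ.im ^ (1 - s) * (√Real.pi * Real.Gamma (s - 1 / 2) / Real.Gamma s) * ZZ (2 * s - 1)

theorem hasSum_KR (hτ : 0 < τ.im) {s : ℝ} (hs : 1 < s) :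
    HasSum (KR τ s) (AA τ s + KR τ s 0 + AA τ s) := by
  have h := hasSum_KR_pos hτ hs
  refine HasSum.of_add_one_of_neg_add_one h ?_
  simp only [KR_neg]
  exact h

theorem summable_KS (hτ : 0 < τ.im) {s : ℝ} (hs : 1 < s) : Summable (KS τ s) :=
  (summable_prod_of_nonneg (KS_nonneg hτ s)).mpr
    ⟨fun m => summable_row hτ (by linarith) m, (hasSum_KR hτ hs).summable⟩

theorem tsum_KS (hτ : 0 < τ.im) {s : ℝ} (hs : 1 < s) :
    ∑' p : ℤ × ℤ, KS τ s p = 2 * AA τ s + 2 * τ.im ^ s * ZZ (2 * s) := by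
  rw [(summable_KS hτ hs).tsum_prod]
  have h := (hasSum_KR hτ hs).tsum_eq
  rw [KR_zero hτ (by linarith)] at h
  simp only [KR] at h
  rw [h]
  ring

theorem tsum_subtype (hτ : 0 < τ.im) {s : ℝ} (hs : 1 < s) :
    ∑' p : {p : ℤ × ℤ // p ≠ 0}, (τ.im / ‖(p.1.1 : ℂ) * τ + p.1.2‖ ^ 2) ^ s =
      2 * AA τ s + 2 * τ.im ^ s * ZZ (2 * s) := by
  rw [← tsum_KS hτ hs]
  refine tsum_subtype_eq_of_support_subset (f := KS τ s) (s := {p : ℤ × ℤ | p ≠ 0}) ?_
  intro p hp h0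
  subst h0
  exact hp (KS_zero_zero (by linarith))

/-- the sum in Kronecker's limit formula converges absolutely for `s > 1` -/
theorem summable_subtype (hτ : 0 < τ.im) {s : ℝ} (hs : 1 < s) :
    Summable fun p : {p : ℤ × ℤ // p ≠ 0} => (τ.im / ‖(p.1.1 : ℂ) * τ + p.1.2‖ ^ 2) ^ s :=
  (summable_KS hτ hs).subtype {p : ℤ × ℤ | p ≠ 0}

theorem tendsto_rpow_im (hτ : 0 < τ.im) :
    Tendsto (fun s : ℝ => τ.im ^ s) (𝓝[>] 1) (𝓝 τ.im) := by
  have h : Tendsto (fun s : ℝ => τ.im ^ s) (𝓝[>] 1) (𝓝 (τ.im ^ (1 : ℝ))) :=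
    tendsto_const_nhds.rpow (tendsto_id.mono_left nhdsWithin_le_nhds) (Or.inl hτ.ne')
  rwa [Real.rpow_one] at h

theorem log_sqrt_mul (hτ : 0 < τ.im) (h : ModularForm.eta τ ≠ 0) :
    Real.log (√τ.im * ‖ModularForm.eta τ‖ ^ 2) =
      Real.log τ.im / 2 + 2 * Real.log ‖ModularForm.eta τ‖ := by
  have h1 : ‖ModularForm.eta τ‖ ≠ 0 := norm_ne_zero_iff.mpr h
  rw [Real.log_mul (Real.sqrt_pos.mpr hτ).ne' (pow_ne_zero _ h1), Real.log_sqrt hτ.le,
    Real.log_pow]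
  push_cast
  ring

/-- **Kronecker's limit formula** (1863): for `τ` in the upper half plane, `y = im τ`,
`∑_{(m, n) ≠ (0, 0)} y^s / |m τ + n|^(2 s) - π / (s - 1) → 2 π (γ - log 2 - log (√y |η(τ)|²))`
for `s → 1+`. -/
theorem kronecker_limit (hτ : 0 < τ.im) :
    Tendsto (fun s : ℝ =>
      (∑' p : {p : ℤ × ℤ // p ≠ 0}, (τ.im / ‖(p.1.1 : ℂ) * τ + p.1.2‖ ^ 2) ^ s) -
        Real.pi / (s - 1)) (𝓝[>] 1)
      (𝓝 (2 * Real.pi * (Real.eulerMascheroniConstant - Real.log 2 -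
        Real.log (√τ.im * ‖ModularForm.eta τ‖ ^ 2)))) := by
  have h1 := ((tendsto_rpow_im hτ).mul (tendsto_sum_JJ hτ)).const_mul 2
  have h2 := ((tendsto_rpow_im hτ).mul tendsto_ZZ).const_mul 2
  have h3 := tendsto_asym hτ
  have h4 := (h1.add h2).add h3
  have hη : ModularForm.eta τ ≠ 0 := by
    exact ModularForm.eta_ne_zero hτ
  have h5 : 2 * (τ.im * ∑' m : ℕ, 2 * Real.pi / (((m : ℝ) + 1) * τ.im) *
        (∑' r : ℕ, cexp (2 * Real.pi * I * ((m + 1) * τ)) ^ (r + 1)).re) + 2 * (τ.im * ZZ 2) +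
      (2 * Real.pi * (Real.eulerMascheroniConstant - Real.log 2) - Real.pi * Real.log τ.im) =
      2 * Real.pi * (Real.eulerMascheroniConstant - Real.log 2 -
        Real.log (√τ.im * ‖ModularForm.eta τ‖ ^ 2)) := by
    have h6 := sum_eta hτ
    have h7 : 2 * (τ.im * ∑' m : ℕ, 2 * Real.pi / (((m : ℝ) + 1) * τ.im) *
        (∑' r : ℕ, cexp (2 * Real.pi * I * ((m + 1) * τ)) ^ (r + 1)).re) =
        4 * Real.pi * ∑' m : ℕ, 1 / ((m : ℝ) + 1) *
        (∑' r : ℕ, cexp (2 * Real.pi * I * ((m + 1) * τ)) ^ (r + 1)).re := by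
      rw [← tsum_mul_left, ← tsum_mul_left, ← tsum_mul_left]
      refine tsum_congr fun m => ?_
      have hm : (0 : ℝ) < (m : ℝ) + 1 := by positivity
      field_simp
      ring
    rw [h7, ZZ_two, log_sqrt_mul hτ hη]
    linear_combination h6
  rw [h5] at h4
  refine h4.congr' ?_
  filter_upwards [eventually_mem] with s hs
  rw [tsum_subtype hτ hs.1, AA]
  simp only [ZZ]
  ring

end Fermat.Agent.Cor.Kron

end
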