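import Fermat.Agent.Corollaries.Kron.Epstein
import Fermat.Agent.Corollaries.Kron.Lim
import Fermat.Agent.Corollaries.ZetaK.NonVan

/-!
# Kronecker's limit formula for the ideal classes of an imaginary quadratic field

`K` imaginary quadratic of discriminant `d`, `w` roots of unity, `κ = 2 π / (w √|d|)`. For an ideal
class `C` let `τ = x + i y` be the quotient of an oriented `ℤ`-basis of a fractional ideal in `C⁻¹`.
Then

* `tendsto_zcK`: `ζ(s, C) - κ / (s - 1) → κ (2 γ - log 2 - log |d| / 2 - log (y |η(τ)|⁴))`;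
* `LK_one`: `L(1, χ) = - κ ∑_C χ(C) log (y_C |η(τ_C)|⁴)` for every character `χ ≠ 1` of the class
  group;
* `tendsto_zetaK`: the constant term of the Dedekind zeta function.
-/

set_option autoImplicit false

noncomputable section

namespace Fermat.Agent.Cor.Kron

open NumberField Module Fermat.Agent.Classic.Zeta Filter Topology
open scoped nonZeroDivisors ComplexConjugate

universe u

variable {K : Type u} [Field K] [NumberField K]

/-- `τ` is the quotient of an oriented basis of a fractional ideal in the class `C`. -/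
def IsTau (φ : K →+* ℂ) (C : ClassGroup (𝓞 K)) (τ : ℂ) : Prop :=
  0 < τ.im ∧ ∃ (𝔟 : (FractionalIdeal (𝓞 K)⁰ K)ˣ)
    (b : Basis (Fin 2) ℤ (𝔟 : FractionalIdeal (𝓞 K)⁰ K)),
    ClassGroup.mk K 𝔟 = C ∧ τ = φ (b 0 : K) / φ (b 1 : K)

/-- every class contains a fractional ideal with an oriented basis -/
theorem exists_isTau (h2 : finrank ℚ K = 2) {φ : K →+* ℂ} (hφ : ¬ ComplexEmbedding.IsReal φ)
    (C : ClassGroup (𝓞 K)) : ∃ τ, IsTau φ C τ := by
  classical
  obtain ⟨𝔟, h𝔟⟩ := exists_mk_eq C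
  have hc : Fintype.card (Module.Free.ChooseBasisIndex ℤ
      (𝔟 : FractionalIdeal (𝓞 K)⁰ K)) = 2 := by
    rw [← Module.finrank_eq_card_chooseBasisIndex, fractionalIdeal_rank, RingOfIntegers.rank, h2]
  let b : Basis (Fin 2) ℤ (𝔟 : FractionalIdeal (𝓞 K)⁰ K) :=
    (fractionalIdealBasis K (𝔟 : FractionalIdeal (𝓞 K)⁰ K)).reindex (Fintype.equivFinOfCardEq hc)
  have hd : (0 : ℝ) < |(discr K : ℝ)| := by
    rw [abs_pos]
    exact_mod_cast discr_ne_zero K
  have key : ∀ b : Basis (Fin 2) ℤ (𝔟 : FractionalIdeal (𝓞 K)⁰ K),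
      (φ (b 0 : K) / φ (b 1 : K)).im ≠ 0 := by
    intro b h0
    have h := im_mul_conj_sq h2 hφ _ b
    have h3 : 0 < nF (𝔟 : FractionalIdeal (𝓞 K)⁰ K) ^ 2 * |(discr K : ℝ)| := by
      have := nF_pos 𝔟.ne_zero
      positivity
    have h4 : (φ (b 0 : K) * conj (φ (b 1 : K))).im = 0 := by
      by_cases hb : φ (b 1 : K) = 0
      · rw [hb, (starRingEnd ℂ).map_zero, mul_zero, Complex.zero_im]
      · have h5 : φ (b 0 : K) * conj (φ (b 1 : K)) =
            ((‖φ (b 1 : K)‖ ^ 2 : ℝ) : ℂ) * (φ (b 0 : K) / φ (b 1 : K)) := by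
          have h6 : ((‖φ (b 1 : K)‖ ^ 2 : ℝ) : ℂ) = φ (b 1 : K) * conj (φ (b 1 : K)) := by
            rw [Complex.mul_conj, Complex.normSq_eq_norm_sq]
          rw [h6]
          field_simp
        rw [h5, Complex.im_ofReal_mul, h0, mul_zero]
    rw [h4] at h
    rw [← h] at h3
    norm_num at h3
  rcases lt_or_gt_of_ne (key b) with h | h
  · refine ⟨_, ?_, 𝔟, b.reindex (Equiv.swap 0 1), h𝔟, rfl⟩
    simp only [Basis.reindex_apply, Equiv.symm_swap, Equiv.swap_apply_left,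
      Equiv.swap_apply_right]
    rw [← inv_div, Complex.inv_im]
    exact div_pos (neg_pos.mpr h) (Complex.normSq_pos.mpr fun h0 => by
      rw [h0, Complex.zero_im] at h
      exact lt_irrefl _ h)
  · exact ⟨_, h, 𝔟, b, h𝔟, rfl⟩

variable (K) in
/-- `κ = 2 π / (w √|d|)` -/
def kap : ℝ := 2 * Real.pi / (Units.torsionOrder K * √|(discr K : ℝ)|)

variable (K) in
/-- `2 γ - log 2 - log |d| / 2` -/
def cst : ℝ := 2 * Real.eulerMascheroniConstant - Real.log 2 - Real.log |(discr K : ℝ)| / 2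

/-- `log (y |η(τ)|⁴)` -/
def leta (τ : ℂ) : ℝ := Real.log (τ.im * ‖ModularForm.eta τ‖ ^ 4)

theorem discr_pos' : (0 : ℝ) < √|(discr K : ℝ)| := by
  rw [Real.sqrt_pos, abs_pos]
  exact_mod_cast discr_ne_zero K

theorem tendsto_slope_rpow {q : ℝ} (hq : 0 < q) :
    Tendsto (fun s : ℝ => (q ^ s - q) / (s - 1)) (𝓝[>] 1) (𝓝 (q * Real.log q)) := by
  have h := (Real.hasStrictDerivAt_const_rpow hq 1).hasDerivAt
  rw [Real.rpow_one] at h
  have h1 := (hasDerivAt_iff_tendsto_slope.mp h).mono_left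
    (nhdsWithin_mono (1 : ℝ) (fun x (hx : 1 < x) => (ne_of_gt hx)))
  refine h1.congr fun s => ?_
  rw [slope_def_field, Real.rpow_one]

/-- **Kronecker's limit formula for an ideal class** of an imaginary quadratic field. -/
theorem tendsto_zR (h2 : finrank ℚ K = 2) {φ : K →+* ℂ} (hφ : ¬ ComplexEmbedding.IsReal φ)
    {C : ClassGroup (𝓞 K)} {τ : ℂ} (hτ : IsTau φ C⁻¹ τ) :
    Tendsto (fun s : ℝ => zR C s - kap K / (s - 1)) (𝓝[>] 1)
      (𝓝 (kap K * (cst K - leta τ))) := by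
  obtain ⟨him, 𝔟, b, hC, hτb⟩ := hτ
  have hCC : (ClassGroup.mk K 𝔟)⁻¹ = C := by rw [hC, inv_inv]
  have hw : (0 : ℝ) < Units.torsionOrder K := by exact_mod_cast Units.torsionOrder_pos K
  have hd := discr_pos' (K := K)
  set D : ℝ := √|(discr K : ℝ)| with hD
  set w : ℝ := (Units.torsionOrder K : ℝ) with hwdef
  have hkap : kap K = 2 * Real.pi / (w * D) := rfl
  have hq : 0 < 2 / D := by positivity
  have hη : ModularForm.eta τ ≠ 0 := ModularForm.eta_ne_zero him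
  have hη' : 0 < ‖ModularForm.eta τ‖ := norm_pos_iff.mpr hη
  have h1 := kronecker_limit him
  have h3 : Tendsto (fun s : ℝ => (2 / D) ^ s) (𝓝[>] 1) (𝓝 (2 / D)) := by
    have h : Tendsto (fun s : ℝ => (2 / D) ^ s) (𝓝[>] 1) (𝓝 ((2 / D) ^ (1 : ℝ))) :=
      tendsto_const_nhds.rpow (tendsto_id.mono_left nhdsWithin_le_nhds) (Or.inl hq.ne')
    rwa [Real.rpow_one] at h
  have h4 := ((h3.mul h1).add ((tendsto_slope_rpow hq).const_mul Real.pi)).const_mul w⁻¹
  have h5 : w⁻¹ * (2 / D * (2 * Real.pi * (Real.eulerMascheroniConstant - Real.log 2 -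
      Real.log (√τ.im * ‖ModularForm.eta τ‖ ^ 2))) + Real.pi * (2 / D * Real.log (2 / D))) =
      kap K * (cst K - leta τ) := by
    have e1 : Real.log (2 / D) = Real.log 2 - Real.log |(discr K : ℝ)| / 2 := by
      rw [Real.log_div two_ne_zero hd.ne', hD, Real.log_sqrt (abs_nonneg _)]
    have e2 : Real.log (τ.im * ‖ModularForm.eta τ‖ ^ 4) =
        Real.log τ.im + 4 * Real.log ‖ModularForm.eta τ‖ := by
      rw [Real.log_mul him.ne' (pow_ne_zero _ hη'.ne'), Real.log_pow]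
      push_cast
      ring
    rw [e1, log_sqrt_mul him hη, hkap, cst, leta, e2]
    field_simp
    ring
  rw [h5] at h4
  refine h4.congr' ?_
  filter_upwards [self_mem_nhdsWithin] with s hs
  have hs1 : (1 : ℝ) < s := hs
  have hs0 : s - 1 ≠ 0 := (sub_pos.mpr hs1).ne'
  have h6 := (hasSum_epstein h2 hφ 𝔟 b hτb him hs1).tsum_eq
  have h7 := tsum_subtype him hs1
  have h8 := tsum_KS him hs1
  rw [← h8] at h7
  rw [h7]
  have h9 : ∑' p : ℤ × ℤ, KS τ s p = w * ((D / 2) ^ s * zR C s) := by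
    rw [← hCC]
    exact h6
  rw [h9, hkap]
  have h10 : (2 / D) ^ s * (D / 2) ^ s = 1 := by
    rw [← Real.mul_rpow hq.le (by positivity)]
    have : 2 / D * (D / 2) = 1 := by field_simp
    rw [this, Real.one_rpow]
  have h11 : w⁻¹ * ((2 / D) ^ s * (w * ((D / 2) ^ s * zR C s) - Real.pi / (s - 1)) +
      Real.pi * (((2 / D) ^ s - 2 / D) / (s - 1))) =
      (2 / D) ^ s * (D / 2) ^ s * zR C s - w⁻¹ * Real.pi * (2 / D) / (s - 1) := by
    field_simp
    ring
  rw [h11, h10, one_mul]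
  congr 1
  field_simp

/-- **Kronecker's limit formula for an ideal class**: the partial zeta function. -/
theorem tendsto_zcK (h2 : finrank ℚ K = 2) {φ : K →+* ℂ} (hφ : ¬ ComplexEmbedding.IsReal φ)
    {C : ClassGroup (𝓞 K)} {τ : ℂ} (hτ : IsTau φ C⁻¹ τ) :
    Tendsto (fun s : ℝ => zcK C (s : ℂ) - ((kap K / (s - 1) : ℝ) : ℂ)) (𝓝[>] 1)
      (𝓝 ((kap K * (cst K - leta τ) : ℝ) : ℂ)) := by
  have h := (Complex.continuous_ofReal.tendsto _).comp (tendsto_zR h2 hφ hτ)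
  refine h.congr fun s => ?_
  simp only [Function.comp_apply]
  rw [Complex.ofReal_sub, zcK_ofReal]

/-- class functions: the constant term of `LF f` at `s = 1` -/
theorem tendsto_LF_sub (h2 : finrank ℚ K = 2) {φ : K →+* ℂ} (hφ : ¬ ComplexEmbedding.IsReal φ)
    {τ : ClassGroup (𝓞 K) → ℂ} (hτ : ∀ C, IsTau φ C⁻¹ (τ C)) (f : ClassGroup (𝓞 K) → ℂ) :
    Tendsto (fun s : ℝ => LF f (s : ℂ) - (∑ C, f C) * ((kap K / (s - 1) : ℝ) : ℂ)) (𝓝[>] 1)
      (𝓝 (∑ C, f C * ((kap K * (cst K - leta (τ C)) : ℝ) : ℂ))) := by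
  have h := tendsto_finsetSum (Finset.univ : Finset (ClassGroup (𝓞 K))) fun C _ =>
    (tendsto_zcK h2 hφ (hτ C)).const_mul (f C)
  refine h.congr' ?_
  filter_upwards [self_mem_nhdsWithin] with s hs
  have hs1 : 1 < ((s : ℝ) : ℂ).re := hs
  rw [LF_eq f hs1, Finset.sum_mul, ← Finset.sum_sub_distrib]
  exact Finset.sum_congr rfl fun C _ => by ring

/-- class functions with sum zero -/
theorem LF_one (h2 : finrank ℚ K = 2) {φ : K →+* ℂ} (hφ : ¬ ComplexEmbedding.IsReal φ)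
    {τ : ClassGroup (𝓞 K) → ℂ} (hτ : ∀ C, IsTau φ C⁻¹ (τ C)) {f : ClassGroup (𝓞 K) → ℂ}
    (hf : ∑ C, f C = 0) :
    LF f 1 = -(kap K : ℂ) * ∑ C, f C * (leta (τ C) : ℂ) := by
  have h1 := tendsto_LF_sub h2 hφ hτ f
  simp only [hf, zero_mul, sub_zero] at h1
  have hcont : Continuous (LF f) := (differentiable_LF hf).continuous
  have h3 : Tendsto (fun s : ℝ => LF f (s : ℂ)) (𝓝[>] 1) (𝓝 (LF f ((1 : ℝ) : ℂ))) :=
    ((hcont.comp Complex.continuous_ofReal).tendsto 1).mono_left nhdsWithin_le_nhds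
  have h4 := tendsto_nhds_unique h3 h1
  rw [Complex.ofReal_one] at h4
  rw [h4]
  have h5 : ∀ C, f C * ((kap K * (cst K - leta (τ C)) : ℝ) : ℂ) =
      (kap K * cst K : ℂ) * f C + -(kap K : ℂ) * (f C * (leta (τ C) : ℂ)) := by
    intro C
    push_cast
    ring
  simp only [h5]
  rw [Finset.sum_add_distrib, ← Finset.mul_sum, ← Finset.mul_sum, hf, mul_zero, zero_add]

/-- **The value `L(1, χ)`** of the L-function of a non-trivial character of the class group of an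
imaginary quadratic field (Kronecker): `L(1, χ) = - κ ∑_C χ(C) log (y_C |η(τ_C)|⁴)`. -/
theorem LK_one (h2 : finrank ℚ K = 2) {φ : K →+* ℂ} (hφ : ¬ ComplexEmbedding.IsReal φ)
    {τ : ClassGroup (𝓞 K) → ℂ} (hτ : ∀ C, IsTau φ C⁻¹ (τ C)) {χ : ClassGroup (𝓞 K) →* ℂˣ}
    (hχ : χ ≠ 1) :
    LK χ 1 = -((2 * Real.pi / (Units.torsionOrder K * √|(discr K : ℝ)|) : ℝ) : ℂ) *
      ∑ C, ((χ C : ℂˣ) : ℂ) *
        ((Real.log ((τ C).im * ‖ModularForm.eta (τ C)‖ ^ 4) : ℝ) : ℂ) :=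
  LF_one h2 hφ hτ (sum_char_eq_zero hχ)

/-- **The constant term of the Dedekind zeta function** of an imaginary quadratic field. -/
theorem tendsto_zetaK (h2 : finrank ℚ K = 2) {φ : K →+* ℂ} (hφ : ¬ ComplexEmbedding.IsReal φ)
    {τ : ClassGroup (𝓞 K) → ℂ} (hτ : ∀ C, IsTau φ C⁻¹ (τ C)) :
    Tendsto (fun s : ℝ => zetaK K (s : ℂ) - ((classNumber K * kap K / (s - 1) : ℝ) : ℂ)) (𝓝[>] 1)
      (𝓝 ((kap K * (classNumber K * cst K - ∑ C, leta (τ C)) : ℝ) : ℂ)) := by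
  have h := tendsto_LF_sub h2 hφ hτ fun _ => 1
  have hcard : ∑ _C : ClassGroup (𝓞 K), (1 : ℂ) = (classNumber K : ℂ) := by
    rw [Finset.sum_const, nsmul_eq_mul, mul_one, Finset.card_univ]
    rfl
  rw [hcard] at h
  have h3 : ∑ C, (1 : ℂ) * ((kap K * (cst K - leta (τ C)) : ℝ) : ℂ) =
      ((kap K * (classNumber K * cst K - ∑ C, leta (τ C)) : ℝ) : ℂ) := by
    simp only [one_mul]
    rw [← Complex.ofReal_sum, ← Finset.mul_sum, Finset.sum_sub_distrib, Finset.sum_const,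
      nsmul_eq_mul, Finset.card_univ]
    rfl
  rw [h3] at h
  refine h.congr fun s => ?_
  rw [zetaK]
  push_cast
  ring

end Fermat.Agent.Cor.Kron
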