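import Fermat.Agent.Corollaries.Kron.ChowlaSelberg

/-!
# The average height of the elliptic curves with complex multiplication

`K` imaginary quadratic of discriminant `d`, `χ = (d / ·)` the Kronecker character, `τ_C` the
quotient of an oriented basis of a fractional ideal in the ideal class `C`. In terms of
`archHeight τ = - (1/12) log (|Δ(τ)| (Im τ)⁶)`, `Δ = η²⁴`, the Chowla-Selberg formula becomes

`(1/h) ∑_C archHeight τ_C = - (1/2) L'(0, χ) / L(0, χ) - (1/4) log |d| + (1/2) log (4 π)`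

(`average_archHeight`), and Kronecker's limit formula becomes

`(1/h) ∑_C log (Im τ_C |η(τ_C)|⁴) = γ - log 2 - (1/2) log |d| - L'(1, χ) / L(1, χ)`

(`sum_log_eta_eq_one`), a formula for the Euler-Kronecker constant `γ + L'(1, χ) / L(1, χ)` of `K`.
-/

set_option autoImplicit false

noncomputable section

namespace Fermat.Agent.Cor.Kron

open NumberField Module Fermat.Agent.Classic.Zeta

universe u

variable {K : Type u} [Field K] [NumberField K]

/-- `- (1/12) log (|Δ(τ)| (Im τ)⁶)`, `Δ = η²⁴` -/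
def archHeight (τ : ℂ) : ℝ := -(1 / 12) * Real.log (‖ModularForm.eta τ ^ 24‖ * τ.im ^ 6)

theorem archHeight_eq (τ : ℂ) : archHeight τ = -(1 / 2) * leta τ := by
  have h : ‖ModularForm.eta τ ^ 24‖ * τ.im ^ 6 = (τ.im * ‖ModularForm.eta τ‖ ^ 4) ^ 6 := by
    rw [norm_pow]
    ring
  rw [archHeight, leta, h, Real.log_pow]
  push_cast
  ring

/-- the Kronecker character is determined by its values -/
theorem eq_of_kron {d : ℤ} {N : ℕ} [NeZero N] {χ ψ : DirichletCharacter ℂ N}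
    (hχ : ∀ a : ℕ, a ≠ 0 → χ a = ((Diri.kron d a : ℤ) : ℂ))
    (hψ : ∀ a : ℕ, a ≠ 0 → ψ a = ((Diri.kron d a : ℤ) : ℂ)) : χ = ψ := by
  apply MulChar.ext
  intro u
  have h1 : (u : ZMod N) = (((u : ZMod N).val + N : ℕ) : ZMod N) := by
    rw [Nat.cast_add, ZMod.natCast_zmod_val, ZMod.natCast_self, add_zero]
  have h2 : (u : ZMod N).val + N ≠ 0 := by
    have := NeZero.pos N
    omega
  rw [h1, hχ _ h2, hψ _ h2]

section Char

variable {N : ℕ} [NeZero N] {χ : DirichletCharacter ℂ N}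

/-- the properties of the Kronecker character of an imaginary quadratic field -/
theorem kronecker_properties (h2 : finrank ℚ K = 2) {φ : K →+* ℂ}
    (hφ : ¬ ComplexEmbedding.IsReal φ) (hN : N = (discr K).natAbs)
    (hχ : ∀ a : ℕ, a ≠ 0 → χ a = ((Diri.kron (discr K) a : ℤ) : ℂ)) :
    χ.IsPrimitive ∧ χ.Odd ∧ χ ^ 2 = 1 ∧
      ∀ s : ℂ, s ≠ 1 → zetaK K s = riemannZeta s * χ.LFunction s := by
  classical
  obtain ⟨M, hM0, ψ, hM, hp, h1, hsq, hz, -, hev, hk⟩ := Diri.exists_kronecker_character h2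
  have hMN : M = N := hM.trans hN.symm
  subst hMN
  have hc : InfinitePlace.nrComplexPlaces K ≠ 0 := by
    have : Nonempty {w : InfinitePlace K // w.IsComplex} :=
      ⟨⟨InfinitePlace.mk φ, (InfinitePlace.isComplex_mk_iff).mpr hφ⟩⟩
    exact Fintype.card_ne_zero
  have ho : ψ.Odd := by
    rcases ψ.even_or_odd with h | h
    · exact absurd (hev.mp h) hc
    · exact h
  have he : χ = ψ := eq_of_kron hχ hk
  subst he
  exact ⟨hp, ho, hsq, hz⟩

/-- **The Chowla-Selberg formula with the logarithmic derivative at `0`**: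
`∑_C log (Im τ_C |η(τ_C)|⁴) = h (L'(0, χ) / L(0, χ) + (1/2) log |d| - log (4 π))`. -/
theorem sum_log_eta_eq_zero (h2 : finrank ℚ K = 2) {φ : K →+* ℂ}
    (hφ : ¬ ComplexEmbedding.IsReal φ) {τ : ClassGroup (𝓞 K) → ℂ}
    (hτ : ∀ C, IsTau φ C⁻¹ (τ C)) (hN : N = (discr K).natAbs)
    (hχ : ∀ a : ℕ, a ≠ 0 → χ a = ((Diri.kron (discr K) a : ℤ) : ℂ)) :
    ((∑ C, Real.log ((τ C).im * ‖ModularForm.eta (τ C)‖ ^ 4) : ℝ) : ℂ) =
      classNumber K * (deriv χ.LFunction 0 / χ.LFunction 0 +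
        ((Real.log |(discr K : ℝ)| / 2 - Real.log (4 * Real.pi) : ℝ) : ℂ)) := by
  obtain ⟨hp, ho, hsq, hz⟩ := kronecker_properties h2 hφ hN hχ
  have h := chowla_selberg_of h2 hφ hτ hN hp ho hsq hz
  have hL0 := LFunction_zero_eq h2 hφ hz
  have hler := deriv_LFunction_zero (ne_one_of_odd ho)
  have hh : (classNumber K : ℂ) ≠ 0 := Nat.cast_ne_zero.mpr (classNumber_pos K).ne'
  have hw : (Units.torsionOrder K : ℂ) ≠ 0 :=
    Nat.cast_ne_zero.mpr (Units.torsionOrder_pos K).ne'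
  have h00 : χ.LFunction 0 ≠ 0 := by
    rw [hL0]
    exact div_ne_zero (mul_ne_zero two_ne_zero hh) hw
  have hNr : (0 : ℝ) < N := Nat.cast_pos.mpr (NeZero.pos N)
  have hd : |(discr K : ℝ)| = N := by
    rw [hN, Nat.cast_natAbs]
    push_cast
    rfl
  set S : ℂ := ∑ a ∈ Finset.range N, χ a * ((Real.log (Real.Gamma (a / N)) : ℝ) : ℂ) with hS
  have e2 : deriv χ.LFunction 0 / χ.LFunction 0 =
      -(Real.log N : ℂ) + S * Units.torsionOrder K / (2 * classNumber K) := by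
    rw [hler, add_div, mul_div_assoc, div_self h00, mul_one, hL0]
    congr 1
    field_simp
  have e4 : Real.log (4 * Real.pi * √|(discr K : ℝ)|) =
      Real.log (4 * Real.pi) + Real.log N / 2 := by
    rw [hd, Real.log_mul (by positivity) (Real.sqrt_ne_zero'.mpr hNr), Real.log_sqrt hNr.le]
  have e5 : ((∑ C, Real.log ((τ C).im * ‖ModularForm.eta (τ C)‖ ^ 4) : ℝ) : ℂ) =
      ((∑ C, leta (τ C) : ℝ) : ℂ) := rfl
  rw [e5, h, e2, e4, hd]
  push_cast
  field_simp
  ring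

/-- **Kronecker's limit formula with the logarithmic derivative at `1`**:
`∑_C log (Im τ_C |η(τ_C)|⁴) = h (γ - log 2 - (1/2) log |d| - L'(1, χ) / L(1, χ))`. -/
theorem sum_log_eta_eq_one (h2 : finrank ℚ K = 2) {φ : K →+* ℂ}
    (hφ : ¬ ComplexEmbedding.IsReal φ) {τ : ClassGroup (𝓞 K) → ℂ}
    (hτ : ∀ C, IsTau φ C⁻¹ (τ C)) (hN : N = (discr K).natAbs)
    (hχ : ∀ a : ℕ, a ≠ 0 → χ a = ((Diri.kron (discr K) a : ℤ) : ℂ)) :
    ((∑ C, Real.log ((τ C).im * ‖ModularForm.eta (τ C)‖ ^ 4) : ℝ) : ℂ) =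
      classNumber K * (((Real.eulerMascheroniConstant - Real.log 2 -
        Real.log |(discr K : ℝ)| / 2 : ℝ) : ℂ) - deriv χ.LFunction 1 / χ.LFunction 1) := by
  obtain ⟨hp, ho, hsq, hz⟩ := kronecker_properties h2 hφ hN hχ
  obtain ⟨hL1, hc⟩ := const_eq h2 hφ hτ (ne_one_of_odd ho) hz
  have hh : (classNumber K : ℂ) ≠ 0 := Nat.cast_ne_zero.mpr (classNumber_pos K).ne'
  have hwr : (0 : ℝ) < Units.torsionOrder K := Nat.cast_pos.mpr (Units.torsionOrder_pos K)
  have hk : (kap K : ℂ) ≠ 0 := by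
    rw [Complex.ofReal_ne_zero, kap]
    have := discr_pos' (K := K)
    positivity
  have e5 : ((∑ C, Real.log ((τ C).im * ‖ModularForm.eta (τ C)‖ ^ 4) : ℝ) : ℂ) =
      ((∑ C, leta (τ C) : ℝ) : ℂ) := rfl
  rw [e5]
  generalize ((∑ C, leta (τ C) : ℝ) : ℂ) = T at hc ⊢
  have e6 : deriv χ.LFunction 1 = (kap K : ℂ) * (classNumber K * (cst K : ℂ) - T) -
      Real.eulerMascheroniConstant * χ.LFunction 1 := by
    rw [hc]
    ring
  rw [e6, ← hL1, cst]
  push_cast
  field_simp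
  ring

/-- **The average height of the elliptic curves with complex multiplication by the ring of integers
of `K`** (the formula of Chowla and Selberg in the form of Colmez):
`(1/h) ∑_C archHeight τ_C = - (1/2) L'(0, χ) / L(0, χ) - (1/4) log |d| + (1/2) log (4 π)`. -/
theorem average_archHeight (h2 : finrank ℚ K = 2) {φ : K →+* ℂ}
    (hφ : ¬ ComplexEmbedding.IsReal φ) {τ : ClassGroup (𝓞 K) → ℂ}
    (hτ : ∀ C, IsTau φ C⁻¹ (τ C)) (hN : N = (discr K).natAbs)
    (hχ : ∀ a : ℕ, a ≠ 0 → χ a = ((Diri.kron (discr K) a : ℤ) : ℂ)) :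
    (((∑ C, archHeight (τ C)) / classNumber K : ℝ) : ℂ) =
      -(1 / 2) * (deriv χ.LFunction 0 / χ.LFunction 0) -
        ((Real.log |(discr K : ℝ)| / 4 - Real.log (4 * Real.pi) / 2 : ℝ) : ℂ) := by
  have hh : (classNumber K : ℂ) ≠ 0 := Nat.cast_ne_zero.mpr (classNumber_pos K).ne'
  have h := sum_log_eta_eq_zero h2 hφ hτ hN hχ
  have e : ∑ C, archHeight (τ C) =
      -(1 / 2) * ∑ C, Real.log ((τ C).im * ‖ModularForm.eta (τ C)‖ ^ 4) := by
    rw [Finset.mul_sum]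
    exact Finset.sum_congr rfl fun C _ => archHeight_eq (τ C)
  rw [e, Complex.ofReal_div, Complex.ofReal_mul, h]
  push_cast
  field_simp
  ring

/-- the average height in terms of `L'(1, χ) / L(1, χ)` -/
theorem average_archHeight_one (h2 : finrank ℚ K = 2) {φ : K →+* ℂ}
    (hφ : ¬ ComplexEmbedding.IsReal φ) {τ : ClassGroup (𝓞 K) → ℂ}
    (hτ : ∀ C, IsTau φ C⁻¹ (τ C)) (hN : N = (discr K).natAbs)
    (hχ : ∀ a : ℕ, a ≠ 0 → χ a = ((Diri.kron (discr K) a : ℤ) : ℂ)) :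
    (((∑ C, archHeight (τ C)) / classNumber K : ℝ) : ℂ) =
      (1 / 2) * (deriv χ.LFunction 1 / χ.LFunction 1) +
        ((Real.log |(discr K : ℝ)| / 4 + Real.log 2 / 2 -
          Real.eulerMascheroniConstant / 2 : ℝ) : ℂ) := by
  have hh : (classNumber K : ℂ) ≠ 0 := Nat.cast_ne_zero.mpr (classNumber_pos K).ne'
  have h := sum_log_eta_eq_one h2 hφ hτ hN hχ
  have e : ∑ C, archHeight (τ C) =
      -(1 / 2) * ∑ C, Real.log ((τ C).im * ‖ModularForm.eta (τ C)‖ ^ 4) := by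
    rw [Finset.mul_sum]
    exact Finset.sum_congr rfl fun C _ => archHeight_eq (τ C)
  rw [e, Complex.ofReal_div, Complex.ofReal_mul, h]
  push_cast
  field_simp
  ring

end Char

end Fermat.Agent.Cor.Kron

end
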