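import Mathlib.Analysis.SpecialFunctions.Trigonometric.Cotangent
import Mathlib.NumberTheory.ModularForms.EisensteinSeries.Summable

/-!
# Kronecker's limit formula, (A): the sum of `1 / |n + z| ^ 2`

For `z` in the upper half plane, `q = e ^ (2 π i z)`:
`∑ 1 / |n + z| ^ 2 = (π / Im z) (1 + 2 Re ∑ q ^ (r + 1))`, from the partial fractions of the cotangent.
-/

set_option autoImplicit false

open Complex

namespace Fermat.Agent.Cor.Kron

theorem one_div_normSq_eq {w : ℂ} (hw : w.im ≠ 0) : 1 / ‖w‖ ^ 2 = -(1 / w).im / w.im := by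
  rw [one_div, one_div, Complex.inv_im, Complex.sq_norm]
  have h : Complex.normSq w ≠ 0 := by
    rw [Ne, Complex.normSq_eq_zero]
    rintro rfl
    exact hw rfl
  field_simp

theorem summable_inv_normSq (z : ℂ) : Summable fun n : ℤ => 1 / ‖(n : ℂ) + z‖ ^ 2 := by
  refine (EisensteinSeries.linear_right_summable z 1 (k := 2) le_rfl).norm.congr fun n => ?_
  rw [norm_inv, norm_zpow, one_div, Int.cast_one, one_mul, add_comm z]
  norm_cast

/-- The norm of `e ^ (2 π i z)` is less than one in the upper half plane. -/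
theorem norm_q_lt_one {z : ℂ} (hz : 0 < z.im) : ‖cexp (2 * Real.pi * I * z)‖ < 1 :=
  UpperHalfPlane.norm_exp_two_pi_I_lt_one ⟨z, hz⟩

/-- **The sum of `1 / |n + z| ^ 2`.** -/
theorem hasSum_inv_normSq {z : ℂ} (hz : 0 < z.im) :
    HasSum (fun n : ℤ => 1 / ‖(n : ℂ) + z‖ ^ 2)
      (Real.pi / z.im * (1 + 2 * (∑' r : ℕ, cexp (2 * Real.pi * I * z) ^ (r + 1)).re)) := by
  have hy : z.im ≠ 0 := hz.ne'
  have hcomp : z ∈ Complex.integerComplement := by
    rintro ⟨n, hn⟩
    apply hy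
    rw [← hn]
    simp
  -- the partial fractions of the cotangent
  have hcot : HasSum (fun n : ℕ => 1 / (z - (n + 1)) + 1 / (z + (n + 1)))
      (Real.pi * cot (Real.pi * z) - 1 / z) := by
    rw [cot_series_rep' hcomp]
    exact (summable_cotTerm hcomp).hasSum
  have him := ((Complex.hasSum_iff _ _).1 hcot).2
  have hsum := summable_inv_normSq z
  have hterm : ∀ n : ℕ, (1 / ‖(((n + 1 : ℕ) : ℤ) : ℂ) + z‖ ^ 2 +
      1 / ‖((-((n + 1 : ℕ) : ℤ) : ℤ) : ℂ) + z‖ ^ 2 : ℝ) =
      -(1 / (z - (n + 1)) + 1 / (z + (n + 1))).im / z.im := by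
    intro n
    have h1 : ((((n + 1 : ℕ) : ℤ) : ℂ) + z).im = z.im := by simp
    have h2 : (((-((n + 1 : ℕ) : ℤ) : ℤ) : ℂ) + z).im = z.im := by simp
    rw [one_div_normSq_eq (by rw [h1]; exact hy), one_div_normSq_eq (by rw [h2]; exact hy), h1, h2,
      Complex.add_im]
    have e1 : (((n + 1 : ℕ) : ℤ) : ℂ) + z = z + (n + 1) := by push_cast; ring
    have e2 : ((-((n + 1 : ℕ) : ℤ) : ℤ) : ℂ) + z = z - (n + 1) := by push_cast; ring
    rw [e1, e2]
    ring
  -- the exponential form of the cotangent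
  have hq : Real.pi * cot (Real.pi * z) =
      Real.pi * I - 2 * Real.pi * I * ∑' n : ℕ, cexp (2 * Real.pi * I * z) ^ n :=
    pi_mul_cot_pi_q_exp ⟨z, hz⟩
  have hS : ∑' n : ℕ, cexp (2 * Real.pi * I * z) ^ n =
      1 + ∑' r : ℕ, cexp (2 * Real.pi * I * z) ^ (r + 1) := by
    rw [(summable_geometric_of_norm_lt_one (norm_q_lt_one hz)).tsum_eq_zero_add, pow_zero]
  rw [hS] at hq
  set S : ℂ := ∑' r : ℕ, cexp (2 * Real.pi * I * z) ^ (r + 1) with hSdef
  have hval : ∑' n : ℤ, 1 / ‖(n : ℂ) + z‖ ^ 2 = Real.pi / z.im * (1 + 2 * S.re) := by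
    have h1 : ∑' n : ℕ, -(1 / (z - (n + 1)) + 1 / (z + (n + 1))).im / z.im =
        -(Real.pi * cot (Real.pi * z) - 1 / z).im / z.im := (him.neg.div_const z.im).tsum_eq
    have h2 := hsum.hasSum.nat_add_neg.tsum_eq
    rw [(hsum.hasSum.nat_add_neg.summable).tsum_eq_zero_add] at h2
    simp only [hterm] at h2
    rw [h1, hq] at h2
    have h3 : ((Real.pi * I - 2 * Real.pi * I * (1 + S) : ℂ) - 1 / z).im =
        -Real.pi - 2 * Real.pi * S.re - (1 / z).im := by
      simp [Complex.sub_im, Complex.mul_im, Complex.mul_re]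
      ring
    rw [h3] at h2
    have h4 := one_div_normSq_eq hy
    simp only [Int.cast_zero, neg_zero, zero_add, CharP.cast_eq_zero] at h2
    rw [h4] at h2
    field_simp at h2 ⊢
    linear_combination -h2
  rw [← hval]
  exact hsum.hasSum

end Fermat.Agent.Cor.Kron
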