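import Mathlib

/-!
# The Fourier series of `1 / |n + z| ^ 2` with a character

`∑ e(n v) / |n + z| ^ 2 = π / y (conj (e(v z)) / (1 - conj (e(z))) + e((1 - v) z) / (1 - e(z)))` for
`0 < v < 1`.
-/

set_option autoImplicit false

open Complex Set Filter Asymptotics

open scoped Real ComplexConjugate

namespace Fermat.Agent.Cor.Kron

namespace Cot2

/-- the function on `[0, 1]` -/
noncomputable def F (z : ℂ) (x : ℝ) : ℂ :=
  cexp (-(2 * π * I * conj z) * x) / (1 - cexp (-(2 * π * I * conj z))) +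
    cexp (2 * π * I * z) * cexp (-(2 * π * I * z) * x) / (1 - cexp (2 * π * I * z))

theorem conj_exp (z : ℂ) : conj (cexp (2 * π * I * z)) = cexp (-(2 * π * I * conj z)) := by
  rw [← Complex.exp_conj]
  congr 1
  simp only [map_mul, conj_I, conj_ofReal, map_ofNat]
  ring

theorem one_sub_ne_zero {z : ℂ} (hz : 0 < z.im) : 1 - cexp (2 * π * I * z) ≠ 0 := by
  intro h
  have h1 : ‖cexp (2 * π * I * z)‖ = 1 := by
    rw [← sub_eq_zero.mp h, norm_one]
  rw [Complex.norm_exp] at h1
  have h2 : (2 * π * I * z).re = -(2 * π * z.im) := by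
    simp [Complex.mul_re, Complex.mul_im]
  rw [h2] at h1
  have h3 : 0 < 2 * π * z.im := by positivity
  have h4 : Real.exp (-(2 * π * z.im)) < 1 := Real.exp_lt_one_iff.mpr (by linarith)
  linarith

theorem one_sub_conj_ne_zero {z : ℂ} (hz : 0 < z.im) : 1 - cexp (-(2 * π * I * conj z)) ≠ 0 := by
  rw [← conj_exp]
  intro h
  apply one_sub_ne_zero hz
  have := congrArg conj h
  simpa using this

theorem continuous_F (z : ℂ) : Continuous (F z) := by
  unfold F
  fun_prop

theorem F_zero_eq {z : ℂ} (hz : 0 < z.im) : F z 0 = F z 1 := by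
  have h1 := one_sub_ne_zero hz
  have h2 := one_sub_conj_ne_zero hz
  have h3 : cexp (2 * π * I * z) * cexp (-(2 * π * I * z)) = 1 := by
    rw [← Complex.exp_add]
    simp
  unfold F
  push_cast
  rw [mul_zero, mul_one, mul_zero, mul_one, h3, Complex.exp_zero]
  field_simp
  ring

theorem coeff_F {z : ℂ} (hz : 0 < z.im) (n : ℤ) :
    fourierCoeffOn zero_lt_one (F z) n = (z.im / π) / (‖(n : ℂ) + z‖ ^ 2 : ℝ) := by
  have h1 := one_sub_ne_zero hz
  have h2 := one_sub_conj_ne_zero hz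
  have hn1 : (n : ℂ) + z ≠ 0 := by
    intro h
    have := congrArg Complex.im h
    simp at this
    exact hz.ne' this
  have hn2 : (n : ℂ) + conj z ≠ 0 := by
    intro h
    apply hn1
    have := congrArg conj h
    simpa using this
  have hpi : (2 * π * I : ℂ) ≠ 0 := Complex.two_pi_I_ne_zero
  have hc1 : -(2 * π * I * ((n : ℂ) + conj z)) ≠ 0 := neg_ne_zero.mpr (mul_ne_zero hpi hn2)
  have hc2 : -(2 * π * I * ((n : ℂ) + z)) ≠ 0 := neg_ne_zero.mpr (mul_ne_zero hpi hn1)
  have hperiod : ∀ c : ℂ, cexp (-(2 * π * I * ((n : ℂ) + c))) = cexp (-(2 * π * I * c)) := by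
    intro c
    have e : -(2 * π * I * ((n : ℂ) + c)) = -(2 * π * I * c) + ((-n : ℤ) : ℂ) * (2 * π * I) := by
      push_cast
      ring
    rw [e, Complex.exp_add, Complex.exp_int_mul_two_pi_mul_I, mul_one]
  rw [fourierCoeffOn_eq_integral]
  have hint : ∀ x : ℝ, (fourier (-n) (x : AddCircle ((1 : ℝ) - 0))) • F z x =
      (1 - cexp (-(2 * π * I * conj z)))⁻¹ * cexp (-(2 * π * I * ((n : ℂ) + conj z)) * x) +
      (cexp (2 * π * I * z) / (1 - cexp (2 * π * I * z))) *
        cexp (-(2 * π * I * ((n : ℂ) + z)) * x) := by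
    intro x
    rw [fourier_coe_apply, smul_eq_mul, F]
    have e0 : 2 * π * I * ((-n : ℤ) : ℂ) * x / (((1 : ℝ) - 0 : ℝ) : ℂ) = -(2 * π * I * n) * x := by
      push_cast
      ring
    rw [e0]
    have e1 : cexp (-(2 * π * I * ((n : ℂ) + conj z)) * x) =
        cexp (-(2 * π * I * n) * x) * cexp (-(2 * π * I * conj z) * x) := by
      rw [← Complex.exp_add]
      congr 1
      ring
    have e2 : cexp (-(2 * π * I * ((n : ℂ) + z)) * x) =
        cexp (-(2 * π * I * n) * x) * cexp (-(2 * π * I * z) * x) := by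
      rw [← Complex.exp_add]
      congr 1
      ring
    rw [e1, e2]
    ring
  simp_rw [hint]
  rw [intervalIntegral.integral_add (Continuous.intervalIntegrable (by fun_prop) _ _)
    (Continuous.intervalIntegrable (by fun_prop) _ _), intervalIntegral.integral_const_mul,
    intervalIntegral.integral_const_mul, integral_exp_mul_complex hc1,
    integral_exp_mul_complex hc2]
  push_cast
  rw [mul_one, mul_zero, mul_one, mul_zero, Complex.exp_zero, hperiod, hperiod]
  have h3 : cexp (2 * π * I * z) * cexp (-(2 * π * I * z)) = 1 := by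
    rw [← Complex.exp_add]
    simp
  have hI : (I : ℂ) ≠ 0 := I_ne_zero
  have hπ : (π : ℂ) ≠ 0 := by exact_mod_cast Real.pi_ne_zero
  have t1 : (1 - cexp (-(2 * π * I * conj z)))⁻¹ * ((cexp (-(2 * π * I * conj z)) - 1) /
      -(2 * π * I * ((n : ℂ) + conj z))) = 1 / (2 * π * I * ((n : ℂ) + conj z)) := by
    field_simp
    ring
  have t2 : cexp (2 * π * I * z) / (1 - cexp (2 * π * I * z)) * ((cexp (-(2 * π * I * z)) - 1) /
      -(2 * π * I * ((n : ℂ) + z))) = -(1 / (2 * π * I * ((n : ℂ) + z))) := by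
    have e : cexp (2 * π * I * z) / (1 - cexp (2 * π * I * z)) * ((cexp (-(2 * π * I * z)) - 1) /
        -(2 * π * I * ((n : ℂ) + z))) =
        (cexp (2 * π * I * z) * cexp (-(2 * π * I * z)) - cexp (2 * π * I * z)) /
          ((1 - cexp (2 * π * I * z)) * -(2 * π * I * ((n : ℂ) + z))) := by
      field_simp
    rw [e, h3]
    field_simp
  rw [t1, t2]
  have hns : (((‖(n : ℂ) + z‖ : ℝ) : ℂ)) ^ 2 = ((n : ℂ) + z) * ((n : ℂ) + conj z) := by
    have := Complex.mul_conj' ((n : ℂ) + z)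
    rw [← this]
    simp
  rw [hns]
  have him : z - conj z = 2 * I * z.im := by
    rw [Complex.sub_conj]
    push_cast
    ring
  have hz' : (z.im : ℂ) = (z - conj z) / (2 * I) := by
    rw [him]
    field_simp
  rw [hz']
  rw [sub_zero, div_one, one_smul]
  field_simp
  ring

theorem summable_norm {z : ℂ} (hz : 0 < z.im) :
    Summable fun n : ℤ => (z.im / π : ℂ) / (‖(n : ℂ) + z‖ ^ 2 : ℝ) := by
  simp_rw [div_eq_mul_inv ((z.im : ℂ) / π)]
  refine Summable.mul_left _ ?_
  have h1 : Summable fun n : ℤ => 1 / (n : ℝ) ^ 2 := Real.summable_one_div_int_pow.mpr one_lt_two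
  refine Summable.of_norm ?_
  refine summable_of_isBigO h1 ?_
  refine IsBigO.of_bound (2 + 2 * z.re ^ 2 / z.im ^ 2) ?_
  filter_upwards [eventually_cofinite_ne (0 : ℤ)] with n hn
  have hn' : (0 : ℝ) < (n : ℝ) ^ 2 := by positivity
  have hns : ‖(n : ℂ) + z‖ ^ 2 = ((n : ℝ) + z.re) ^ 2 + z.im ^ 2 := by
    rw [← Complex.normSq_eq_norm_sq, Complex.normSq_apply]
    simp
    ring
  rw [norm_norm, norm_inv, Complex.norm_real, hns]
  have hpos : 0 < ((n : ℝ) + z.re) ^ 2 + z.im ^ 2 := by positivity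
  rw [Real.norm_of_nonneg hpos.le, Real.norm_of_nonneg (by positivity), mul_one_div,
    inv_eq_one_div, div_le_div_iff₀ hpos hn', one_mul]
  have h2 : (n : ℝ) ^ 2 ≤ 2 * ((n : ℝ) + z.re) ^ 2 + 2 * z.re ^ 2 := by
    nlinarith [sq_nonneg ((n : ℝ) + 2 * z.re)]
  have h3 : 2 * z.re ^ 2 / z.im ^ 2 * z.im ^ 2 = 2 * z.re ^ 2 := by
    field_simp
  have h4 : 0 ≤ 2 * z.re ^ 2 / z.im ^ 2 * ((n : ℝ) + z.re) ^ 2 := by positivity
  have h5 : 0 ≤ z.im ^ 2 := by positivity
  nlinarith

end Cot2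

open Cot2

/-- **(A)** the Fourier series of `1 / |n + z| ^ 2` -/
theorem hasSum_char {z : ℂ} (hz : 0 < z.im) {v : ℝ} (h0 : 0 < v) (h1 : v < 1) :
    HasSum (fun n : ℤ => Complex.exp (2 * π * I * (n * v)) / (‖(n : ℂ) + z‖ ^ 2 : ℝ))
      (π / z.im * (conj (Complex.exp (2 * π * I * (v * z))) /
        (1 - conj (Complex.exp (2 * π * I * z))) +
        Complex.exp (2 * π * I * ((1 - v) * z)) / (1 - Complex.exp (2 * π * I * z)))) := by
  have hIco : v ∈ Ico (0 : ℝ) (0 + 1) := ⟨h0.le, by linarith⟩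
  let B : C(UnitAddCircle, ℂ) := ContinuousMap.mk (AddCircle.liftIco 1 0 (F z))
    (AddCircle.liftIco_zero_continuous (F_zero_eq hz) (continuous_F z).continuousOn)
  have step1 : ∀ n : ℤ, fourierCoeff B n = (z.im / π : ℂ) / (‖(n : ℂ) + z‖ ^ 2 : ℝ) := by
    intro n
    rw [ContinuousMap.coe_mk, fourierCoeff_liftIco_eq]
    simpa only [zero_add] using! coeff_F hz n
  have step2 := has_pointwise_sum_fourier_series_of_summable
    ((summable_norm hz).congr fun n => (step1 n).symm) (v : UnitAddCircle)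
  simp_rw [step1] at step2
  have hπ : (π : ℂ) ≠ 0 := by exact_mod_cast Real.pi_ne_zero
  have hb : (z.im : ℂ) ≠ 0 := by exact_mod_cast hz.ne'
  convert! step2.mul_left (π / z.im : ℂ) using 2 with n
  · rw [smul_eq_mul, fourier_coe_apply]
    have e : 2 * π * I * (n : ℂ) * v / ((1 : ℝ) : ℂ) = 2 * π * I * (n * v) := by
      push_cast
      ring
    rw [e]
    field_simp
  · have e1 : conj (cexp (2 * π * I * (v * z))) = cexp (-(2 * π * I * conj z) * v) := by
      rw [conj_exp]
      congr 1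
      simp
      ring
    have e2 : cexp (2 * π * I * ((1 - v) * z)) =
        cexp (2 * π * I * z) * cexp (-(2 * π * I * z) * v) := by
      rw [← Complex.exp_add]
      congr 1
      ring
    rw [ContinuousMap.coe_mk, AddCircle.liftIco_coe_apply hIco, F, e1, e2, conj_exp]

end Fermat.Agent.Cor.Kron
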