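import Fermat.Agent.Corollaries.Kron.Lattice

/-!
# The partial zeta functions of an imaginary quadratic field are Epstein zeta functions

`ζ(s, C) = (1 / w) (2 / √|d|)^s ∑_{(m, n) ≠ 0} (y / |m τ + n|²)^s`, for a `ℤ`-basis `b₀, b₁` of a
fractional ideal in the class `C⁻¹`, `τ = x + i y = φ(b₀) / φ(b₁)`.
-/

set_option autoImplicit false

noncomputable section

namespace Fermat.Agent.Cor.Kron

open NumberField Module Fermat.Agent.Classic.Zeta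
open scoped nonZeroDivisors ComplexConjugate

universe u

variable {K : Type u} [Field K] [NumberField K]

/-- the partial zeta function of an ideal class at a real number -/
def zR (C : ClassGroup (𝓞 K)) (s : ℝ) : ℝ :=
  ∑' 𝔞 : {𝔞 : (Ideal (𝓞 K))⁰ // ClassGroup.mk0 𝔞 = C},
    (Ideal.absNorm (𝔞.1 : Ideal (𝓞 K)) : ℝ) ^ (-s)

theorem zcK_ofReal (C : ClassGroup (𝓞 K)) (s : ℝ) : zcK C (s : ℂ) = (zR C s : ℂ) := by
  rw [zcK, zR, Complex.ofReal_tsum]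
  refine tsum_congr fun 𝔞 => ?_
  rw [Complex.ofReal_cpow (Nat.cast_nonneg _)]
  push_cast
  rfl

theorem summable_real {s : ℝ} (hs : 1 < s) (𝔟 : (FractionalIdeal (𝓞 K)⁰ K)ˣ) :
    Summable fun 𝔞 : Cls 𝔟 => (Ideal.absNorm (𝔞.1 : Ideal (𝓞 K)) : ℝ) ^ (-s) :=
  (ClassL.summable_nrm hs).comp_injective Subtype.val_injective

theorem tsum_real (𝔟 : (FractionalIdeal (𝓞 K)⁰ K)ˣ) (s : ℝ) :
    ∑' 𝔞 : Cls 𝔟, (Ideal.absNorm (𝔞.1 : Ideal (𝓞 K)) : ℝ) ^ (-s) =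
      zR (ClassGroup.mk K 𝔟)⁻¹ s := by
  unfold zR
  let e : Cls 𝔟 ≃ {𝔞 : (Ideal (𝓞 K))⁰ // ClassGroup.mk0 𝔞 = (ClassGroup.mk K 𝔟)⁻¹} :=
    Equiv.subtypeEquivRight fun 𝔞 => by rw [mul_eq_one_iff_eq_inv]
  exact e.tsum_eq (fun 𝔞 : {𝔞 : (Ideal (𝓞 K))⁰ // ClassGroup.mk0 𝔞 = (ClassGroup.mk K 𝔟)⁻¹} =>
    (Ideal.absNorm (𝔞.1 : Ideal (𝓞 K)) : ℝ) ^ (-s))

/-- the lattice map -/
def latMap {𝔟 : FractionalIdeal (𝓞 K)⁰ K} (b : Basis (Fin 2) ℤ 𝔟) (p : ℤ × ℤ) : K :=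
  (p.1 : K) * (b 0 : K) + (p.2 : K) * (b 1 : K)

omit [NumberField K] in
theorem latMap_eq {𝔟 : FractionalIdeal (𝓞 K)⁰ K} (b : Basis (Fin 2) ℤ 𝔟) (p : ℤ × ℤ) :
    latMap b p = ((b.equivFun.symm ![p.1, p.2] : 𝔟) : K) := by
  rw [Basis.equivFun_symm_apply, Fin.sum_univ_two, latMap]
  simp

omit [NumberField K] in
theorem latMap_injective {𝔟 : FractionalIdeal (𝓞 K)⁰ K} (b : Basis (Fin 2) ℤ 𝔟) :
    Function.Injective (latMap b) := by
  intro p q h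
  rw [latMap_eq, latMap_eq] at h
  have h1 := b.equivFun.symm.injective (Subtype.ext h)
  exact Prod.ext (congrFun h1 0) (congrFun h1 1)

omit [NumberField K] in
theorem mem_range_latMap {𝔟 : FractionalIdeal (𝓞 K)⁰ K} (b : Basis (Fin 2) ℤ 𝔟) {x : K} :
    x ∈ Set.range (latMap b) ↔ x ∈ 𝔟 := by
  constructor
  · rintro ⟨p, rfl⟩
    rw [latMap_eq]
    exact (b.equivFun.symm ![p.1, p.2]).2
  · intro hx
    refine ⟨(b.equivFun ⟨x, hx⟩ 0, b.equivFun ⟨x, hx⟩ 1), ?_⟩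
    rw [latMap_eq]
    have h : (![b.equivFun ⟨x, hx⟩ 0, b.equivFun ⟨x, hx⟩ 1] : Fin 2 → ℤ) =
        b.equivFun ⟨x, hx⟩ := by
      ext i
      fin_cases i <;> rfl
    rw [h, LinearEquiv.symm_apply_apply]

/-- the elements of a fractional ideal, modulo units -/
def genMap {𝔟 : (FractionalIdeal (𝓞 K)⁰ K)ˣ} (g : Cls 𝔟 → K) (p : Cls 𝔟 × (𝓞 K)ˣ) : K :=
  ((p.2 : 𝓞 K) : K) * g p.1

open scoped Classical in
/-- **The Epstein zeta function of a fractional ideal.** -/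
theorem hasSum_epstein (h2 : finrank ℚ K = 2) {φ : K →+* ℂ} (hφ : ¬ ComplexEmbedding.IsReal φ)
    (𝔟 : (FractionalIdeal (𝓞 K)⁰ K)ˣ) (b : Basis (Fin 2) ℤ (𝔟 : FractionalIdeal (𝓞 K)⁰ K))
    {τ : ℂ} (hτ : τ = φ (b 0 : K) / φ (b 1 : K)) (him : 0 < τ.im) {s : ℝ} (hs : 1 < s) :
    HasSum (fun p : ℤ × ℤ => (τ.im / ‖(p.1 : ℂ) * τ + p.2‖ ^ 2) ^ s)
      (Units.torsionOrder K * ((√|(discr K : ℝ)| / 2) ^ s * zR (ClassGroup.mk K 𝔟)⁻¹ s)) := by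
  obtain ⟨g, hg, hN⟩ := classStmt K 𝔟
  obtain ⟨hw, hfin⟩ := finite_units (rank_eq_zero h2 hφ)
  set c : ℝ := nF (𝔟 : FractionalIdeal (𝓞 K)⁰ K) * √|(discr K : ℝ)| / 2 with hc
  have hb := nF_pos 𝔟.ne_zero
  have hcov : ‖φ (b 1 : K)‖ ^ 2 * τ.im = c := by
    rw [hτ] at him ⊢
    exact norm_sq_mul_im h2 hφ b him
  have hb1 : φ (b 1 : K) ≠ 0 := by
    intro h0
    rw [hτ, h0, div_zero, Complex.zero_im] at him
    exact lt_irrefl _ him
  have hb1' : (b 1 : K) ≠ 0 := fun h0 => hb1 (by rw [h0, map_zero])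
  let f : K → ℝ := fun x =>
    if x ∈ (𝔟 : FractionalIdeal (𝓞 K)⁰ K) then (c / ‖φ x‖ ^ 2) ^ s else 0
  -- the lattice side
  have hL : (fun p : ℤ × ℤ => (τ.im / ‖(p.1 : ℂ) * τ + p.2‖ ^ 2) ^ s) = f ∘ latMap b := by
    funext p
    have h1 : latMap b p ∈ (𝔟 : FractionalIdeal (𝓞 K)⁰ K) := (mem_range_latMap b).mp ⟨p, rfl⟩
    have h3 : φ (latMap b p) = φ (b 1 : K) * ((p.1 : ℂ) * τ + p.2) := by
      rw [latMap, map_add, map_mul, map_mul, map_intCast, map_intCast, hτ]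
      field_simp
    simp only [Function.comp_apply, f, if_pos h1]
    rw [h3, norm_mul, mul_pow, ← hcov,
      mul_div_mul_left _ _ (pow_ne_zero 2 (norm_ne_zero_iff.mpr hb1))]
  have hLf : ∀ x ∉ Set.range (latMap b), f x = 0 := by
    intro x hx
    rw [mem_range_latMap] at hx
    simp only [f, if_neg hx]
  rw [hL, (latMap_injective b).hasSum_iff hLf]
  -- the side of the ideals
  have hGinj : Function.Injective (genMap g) := by
    rintro ⟨i, u⟩ ⟨j, v⟩ h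
    obtain ⟨h3, h4⟩ := hg.inj i j u v h
    exact Prod.ext h3 h4
  have hGf : ∀ x ∉ Set.range (genMap g), f x = 0 := by
    intro x hx
    by_cases h1 : x ∈ (𝔟 : FractionalIdeal (𝓞 K)⁰ K)
    · by_cases h0 : x = 0
      · subst h0
        simp only [f, if_pos h1, map_zero, norm_zero]
        rw [zero_pow two_ne_zero, div_zero, Real.zero_rpow (by linarith)]
      · obtain ⟨i, u, h⟩ := hg.surj x h1 h0
        exact absurd ⟨(i, u), h.symm⟩ hx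
    · simp only [f, if_neg h1]
  rw [← hGinj.hasSum_iff hGf]
  have hfG : f ∘ genMap g = fun p : Cls 𝔟 × (𝓞 K)ˣ =>
      (√|(discr K : ℝ)| / 2) ^ s * (Ideal.absNorm (p.1.1 : Ideal (𝓞 K)) : ℝ) ^ (-s) := by
    funext p
    have h1 : genMap g p ∈ (𝔟 : FractionalIdeal (𝓞 K)⁰ K) := by
      have h := (𝔟 : FractionalIdeal (𝓞 K)⁰ K).1.smul_mem (p.2 : 𝓞 K) (hg.mem p.1)
      rwa [Algebra.smul_def] at h
    have hNp : (0 : ℝ) < (Ideal.absNorm (p.1.1 : Ideal (𝓞 K)) : ℝ) := by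
      exact_mod_cast Ideal.absNorm_pos_of_nonZeroDivisors p.1.1
    have h3 : ‖φ (genMap g p)‖ ^ 2 =
        (Ideal.absNorm (p.1.1 : Ideal (𝓞 K)) : ℝ) * nF (𝔟 : FractionalIdeal (𝓞 K)⁰ K) := by
      rw [← abs_norm_eq h2 hφ, genMap, map_mul, abs_mul, Units.norm, one_mul, hN]
    simp only [Function.comp_apply, f, if_pos h1]
    have h4 : c / ((Ideal.absNorm (p.1.1 : Ideal (𝓞 K)) : ℝ) *
        nF (𝔟 : FractionalIdeal (𝓞 K)⁰ K)) =
        √|(discr K : ℝ)| / 2 * (Ideal.absNorm (p.1.1 : Ideal (𝓞 K)) : ℝ)⁻¹ := by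
      rw [hc]
      field_simp
    rw [h3, h4, Real.mul_rpow (by positivity) (by positivity), Real.inv_rpow hNp.le,
      Real.rpow_neg hNp.le]
  rw [hfG]
  have hsum : Summable fun p : Cls 𝔟 × (𝓞 K)ˣ =>
      (√|(discr K : ℝ)| / 2) ^ s * (Ideal.absNorm (p.1.1 : Ideal (𝓞 K)) : ℝ) ^ (-s) := by
    rw [summable_prod_of_nonneg (fun p => by positivity)]
    refine ⟨fun i => Summable.of_finite, ?_⟩
    simp only [tsum_const, nsmul_eq_mul]
    exact ((summable_real hs 𝔟).mul_left _).mul_left _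
  have h5 := hsum.tsum_prod' fun i => Summable.of_finite
  have h6 := hsum.hasSum
  rw [h5] at h6
  simp only [tsum_const, nsmul_eq_mul, tsum_mul_left] at h6
  rw [hw, tsum_real, mul_left_comm] at h6
  exact h6

end Fermat.Agent.Cor.Kron
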