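import Fermat.Agent.Corollaries.Kron.EtaVal
import Fermat.Agent.Corollaries.Siegel.RabinFin

/-!
# Values of the Dedekind eta function for the fields of class number one

* `norm_eta_of_discr`: `p ≡ 3 mod 4` prime, `p > 3`, `h(-p) = 1`:
  `|η((1 + √-p) / 2)|⁴ = (2 π p)⁻¹ ∏ Γ(a / p)^(a / p)`, the exponent being the Legendre symbol;
* `norm_eta_heegner`: this holds for `p = 7, 11, 19, 43, 67, 163`;
* `norm_eta_sqrt_neg_two`: `|η(√-2)| = √(Γ(1/8) Γ(3/8)) / (2^(11/8) π^(3/4))`.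
-/

set_option autoImplicit false

noncomputable section

namespace Fermat.Agent.Cor.Kron

open NumberField Module Fermat.Agent.Classic.Zeta
open scoped nonZeroDivisors ComplexConjugate

universe u

variable {K : Type u} [Field K] [NumberField K]

/-- `h(-p) = 1` -/
theorem norm_eta_of_discr (h2 : finrank ℚ K = 2) {p : ℕ} [hp : Fact p.Prime] (h4 : p % 4 = 3)
    (h3 : 3 < p) (hd : discr K = -(p : ℤ)) (h1 : classNumber K = 1) :
    ‖ModularForm.eta ((1 + √p * Complex.I) / 2)‖ ^ 4 =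
      (2 * Real.pi * p)⁻¹ * ∏ a ∈ Finset.Ioo 0 p, Real.Gamma (a / p) ^ legendreSym p a := by
  have hp0 : (0 : ℝ) < p := by exact_mod_cast hp.out.pos
  obtain ⟨φ⟩ : Nonempty (K →+* ℂ) := inferInstance
  have hφ := not_isReal_of_discr_neg (by rw [hd]; omega) h2 φ
  have hnat : (discr K).natAbs = p := by rw [hd]; simp
  have hw : Units.torsionOrder K = 2 := Diri.torsionOrder_eq_two h2 (by rw [hnat]; omega)
  have habs : |(discr K : ℝ)| = p := by
    rw [hd]
    push_cast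
    rw [abs_neg, abs_of_pos hp0]
  have h := chowla_selberg_one h2 hφ h1 (t := 1) (by
    rw [hd, abs_neg, abs_of_nonneg (by positivity)]
    omega)
  rw [habs, hnat, hw] at h
  have hk : ∀ a ∈ Finset.Ioo 0 p, Diri.kron (discr K) a = legendreSym p a := by
    obtain ⟨N, hN0, χ, hN, -, hχ, hsq, -, -, -, hk⟩ := Diri.exists_kronecker_character h2
    have hNp : N = p := hN.trans hnat
    subst hNp
    have hleg := Diri.eq_leg hχ hsq (by omega)
    subst hleg
    intro a ha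
    have h5 := hk a (by
      have := (Finset.mem_Ioo.mp ha).1
      omega)
    rw [Diri.leg_natCast] at h5
    exact_mod_cast h5.symm
  have hprod : ∏ a ∈ Finset.Ioo 0 p, Real.Gamma (a / p) ^ (((2 / 2 : ℕ) : ℤ) *
      Diri.kron (discr K) a) = ∏ a ∈ Finset.Ioo 0 p, Real.Gamma (a / p) ^ legendreSym p a := by
    refine Finset.prod_congr rfl fun a ha => ?_
    rw [hk a ha]
    norm_num
  rw [hprod] at h
  have hs : (0 : ℝ) < √p := Real.sqrt_pos.mpr hp0
  have hs2 : √(p : ℝ) * √(p : ℝ) = p := Real.mul_self_sqrt hp0.le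
  set P := ∏ a ∈ Finset.Ioo 0 p, Real.Gamma (a / p) ^ legendreSym p a with hP
  have hτ : (((1 : ℤ) : ℂ) + √(p : ℝ) * Complex.I) / 2 = (1 + √(p : ℝ) * Complex.I) / 2 := by
    push_cast
    rfl
  rw [hτ] at h
  set X := ‖ModularForm.eta ((1 + √(p : ℝ) * Complex.I) / 2)‖ ^ 4 with hX
  have hX2 : X = 2 / √p * (√p / 2 * X) := by field_simp
  have e1 : 2 / √(p : ℝ) * (4 * Real.pi * √(p : ℝ))⁻¹ = 2 / (4 * Real.pi * (√p * √p)) := by
    field_simp
  rw [hX2, h, ← mul_assoc, e1, hs2]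
  congr 1
  field_simp
  norm_num

/-- **`|η((1 + √-p) / 2)|⁴ = (2 π p)⁻¹ ∏ Γ(a / p)^(a / p)`** for `p = 7, 11, 19, 43, 67, 163` (the
exponents are Legendre symbols). -/
theorem norm_eta_heegner {p : ℕ} (hp : p ∈ ({7, 11, 19, 43, 67, 163} : Set ℕ)) :
    ‖ModularForm.eta ((1 + √p * Complex.I) / 2)‖ ^ 4 =
      (2 * Real.pi * p)⁻¹ * ∏ a ∈ Finset.Ioo 0 p, Real.Gamma (a / p) ^ jacobiSym a p := by
  have key : ∀ q : ℕ, 2 ≤ q → p = 4 * q - 1 → p.Prime →
      (1 - 4 * (q : ℤ)) ∈ ({-3, -4, -7, -8, -11, -19, -43, -67, -163} : Set ℤ) →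
      ‖ModularForm.eta ((1 + √p * Complex.I) / 2)‖ ^ 4 =
      (2 * Real.pi * p)⁻¹ * ∏ a ∈ Finset.Ioo 0 p, Real.Gamma (a / p) ^ jacobiSym a p := by
    intro q hq hpq hprime hmem
    have : Fact p.Prime := ⟨hprime⟩
    obtain ⟨K, i1, i2, h2, hd⟩ := Siegel.exists_field_of_squarefree hq
      (by rw [← hpq]; exact hprime.prime.squarefree)
    have h1 := Siegel.classNumber_eq_one h2 (by rw [hd]; exact hmem)
    have h := norm_eta_of_discr h2 (p := p) (by omega) (by omega) (by rw [hd]; omega) h1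
    rw [h]
    congr 1
    refine Finset.prod_congr rfl fun a _ => ?_
    rw [jacobiSym.legendreSym.to_jacobiSym]
  simp only [Set.mem_insert_iff, Set.mem_singleton_iff] at hp
  rcases hp with h | h | h | h | h | h
  · exact key 2 (by norm_num) (by omega) (by rw [h]; norm_num) (by norm_num)
  · exact key 3 (by norm_num) (by omega) (by rw [h]; norm_num) (by norm_num)
  · exact key 5 (by norm_num) (by omega) (by rw [h]; norm_num) (by norm_num)
  · exact key 11 (by norm_num) (by omega) (by rw [h]; norm_num) (by norm_num)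
  · exact key 17 (by norm_num) (by omega) (by rw [h]; norm_num) (by norm_num)
  · exact key 41 (by norm_num) (by omega) (by rw [h]; norm_num) (by norm_num)

/-! ### Discriminant `-8` -/

theorem gamma_eighths : Real.Gamma (5 / 8) * Real.Gamma (7 / 8) =
    4 * Real.pi ^ 2 / (√2 * (Real.Gamma (1 / 8) * Real.Gamma (3 / 8))) := by
  have h1 := Real.Gamma_mul_Gamma_one_sub (1 / 8)
  have h3 := Real.Gamma_mul_Gamma_one_sub (3 / 8)
  have h10 : Real.Gamma (1 / 8) ≠ 0 := (Real.Gamma_pos_of_pos (by norm_num)).ne'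
  have h30 : Real.Gamma (3 / 8) ≠ 0 := (Real.Gamma_pos_of_pos (by norm_num)).ne'
  rw [show (1 : ℝ) - 1 / 8 = 7 / 8 by norm_num] at h1
  rw [show (1 : ℝ) - 3 / 8 = 5 / 8 by norm_num] at h3
  have hs : Real.sin (Real.pi * (1 / 8)) * Real.sin (Real.pi * (3 / 8)) = √2 / 4 := by
    have e : Real.sin (Real.pi * (3 / 8)) = Real.cos (Real.pi * (1 / 8)) := by
      rw [← Real.sin_pi_div_two_sub]
      congr 1
      ring
    have h := Real.sin_two_mul (Real.pi * (1 / 8))
    rw [show 2 * (Real.pi * (1 / 8)) = Real.pi / 4 by ring, Real.sin_pi_div_four] at h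
    rw [e]
    linarith
  have h5 : √2 ≠ (0 : ℝ) := by positivity
  rw [eq_div_iff (mul_ne_zero h5 (mul_ne_zero h10 h30))]
  have h6 : Real.Gamma (5 / 8) * Real.Gamma (7 / 8) * (√2 * (Real.Gamma (1 / 8) *
      Real.Gamma (3 / 8))) = √2 * ((Real.Gamma (1 / 8) * Real.Gamma (7 / 8)) *
      (Real.Gamma (3 / 8) * Real.Gamma (5 / 8))) := by ring
  rw [h6, h1, h3, div_mul_div_comm, hs]
  field_simp

theorem kron_neg_eight_even {a : ℕ} (h0 : a ≠ 0) (h : 2 ∣ a) : Diri.kron (-8) a = 0 := by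
  have h1 : a.factorization 2 ≠ 0 := (Nat.prime_two.factorization_pos_of_dvd h0 h).ne'
  have h2 : ZMod.χ₈ ((-8 : ℤ) : ZMod 8) = 0 := by decide
  rw [Diri.kron, h2, zero_pow h1, zero_mul]

/-- **`|η(√-2)| = √(Γ(1/8) Γ(3/8)) / (2^(11/8) π^(3/4))`** -/
theorem norm_eta_sqrt_neg_two : ‖ModularForm.eta (√2 * Complex.I)‖ =
    √(Real.Gamma (1 / 8) * Real.Gamma (3 / 8)) /
      (2 ^ (11 / 8 : ℝ) * Real.pi ^ (3 / 4 : ℝ)) := by
  have hG : 0 < Real.Gamma (1 / 8) * Real.Gamma (3 / 8) :=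
    mul_pos (Real.Gamma_pos_of_pos (by norm_num)) (Real.Gamma_pos_of_pos (by norm_num))
  have hD : IsFundDiscr ((0 : ℤ) ^ 2 - 4 * 2) := by
    refine Or.inr ⟨-2, by norm_num, by norm_num, ?_⟩
    rw [← Int.squarefree_natAbs]
    exact Nat.prime_two.prime.squarefree
  have hF : Fact (∀ r : ℚ, r ^ 2 ≠ -(((1 : ℤ) : ℚ) * (2 : ℤ)) + -((0 : ℤ) : ℚ) * r) :=
    fact_of_not_isSquare (by
      rw [mul_one]
      exact hD.not_isSquare)
  let K := QF 1 0 2
  have h2 : finrank ℚ K = 2 := QuadraticAlgebra.finrank_eq_two _ _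
  have hd : discr K = -8 := by
    have := Bin.discr_QF hD
    rw [this]
    norm_num
  obtain ⟨φ⟩ : Nonempty (K →+* ℂ) := inferInstance
  have hφ := not_isReal_of_discr_neg (by rw [hd]; norm_num) h2 φ
  have hcl : classNumber K = 1 := classNumber_eq_one_of_lt h2 hφ (by rw [hd]; norm_num)
  have hw : Units.torsionOrder K = 2 := Diri.torsionOrder_eq_two h2 (by rw [hd]; norm_num)
  have h := chowla_selberg_one h2 hφ hcl (t := 0) (by rw [hd]; norm_num)
  rw [hd, hw] at h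
  have hs : √|((-8 : ℤ) : ℝ)| = 2 * √2 := by
    push_cast
    rw [abs_neg, abs_of_pos (by norm_num), show (8 : ℝ) = 2 ^ 2 * 2 by norm_num,
      Real.sqrt_mul (by norm_num), Real.sqrt_sq (by norm_num)]
  rw [hs] at h
  have hτ : ((((0 : ℤ) : ℂ) + ((2 * √2 : ℝ) : ℂ) * Complex.I) / 2) = √2 * Complex.I := by
    push_cast
    ring
  have hIoo : Finset.Ioo 0 ((-8 : ℤ)).natAbs = {1, 2, 3, 4, 5, 6, 7} := by decide
  have kodd : ∀ a : ℕ, Odd a → Diri.kron (-8) a = jacobiSym (-8) a := fun a ha =>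
    Diri.kron_odd _ ha
  have k1 : Diri.kron (-8) 1 = 1 := by
    rw [kodd _ (by decide)]
    norm_num
  have k3 : Diri.kron (-8) 3 = 1 := by
    rw [kodd _ (by decide)]
    norm_num
  have k5 : Diri.kron (-8) 5 = -1 := by
    rw [kodd _ (by decide)]
    norm_num
  have k7 : Diri.kron (-8) 7 = -1 := by
    rw [kodd _ (by decide)]
    norm_num
  have k2 : Diri.kron (-8) 2 = 0 := kron_neg_eight_even (by norm_num) (by norm_num)
  have k4 : Diri.kron (-8) 4 = 0 := kron_neg_eight_even (by norm_num) (by norm_num)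
  have k6 : Diri.kron (-8) 6 = 0 := kron_neg_eight_even (by norm_num) (by norm_num)
  have hn : (((-8 : ℤ).natAbs : ℕ) : ℝ) = 8 := by norm_num
  rw [hτ, hIoo, Finset.prod_insert (by decide), Finset.prod_insert (by decide),
    Finset.prod_insert (by decide), Finset.prod_insert (by decide),
    Finset.prod_insert (by decide), Finset.prod_insert (by decide),
    Finset.prod_singleton, k1, k2, k3, k4, k5, k6, k7, hn] at h
  norm_num at h
  have hpi : (0 : ℝ) < Real.pi := Real.pi_pos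
  have h20 : (0 : ℝ) < √2 := by positivity
  have hg := gamma_eighths
  have hp : (Real.pi ^ (3 / 4 : ℝ)) ^ 4 = Real.pi ^ 3 := by
    rw [← Real.rpow_natCast (Real.pi ^ (3 / 4 : ℝ)) 4, ← Real.rpow_mul hpi.le,
      ← Real.rpow_natCast Real.pi 3]
    norm_num
  have hp2 : ((2 : ℝ) ^ (11 / 8 : ℝ)) ^ 4 = 32 * √2 := by
    rw [← Real.rpow_natCast ((2 : ℝ) ^ (11 / 8 : ℝ)) 4, ← Real.rpow_mul (by norm_num),
      Real.sqrt_eq_rpow, show (32 : ℝ) = 2 ^ (5 : ℝ) by norm_num,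
      ← Real.rpow_add (by norm_num)]
    norm_num
  have hp3 : √(Real.Gamma (1 / 8) * Real.Gamma (3 / 8)) ^ 4 =
      (Real.Gamma (1 / 8) * Real.Gamma (3 / 8)) ^ 2 := by
    rw [show 4 = 2 * 2 by norm_num, pow_mul, Real.sq_sqrt hG.le]
  refine (pow_left_inj₀ (norm_nonneg _) (by positivity) (by norm_num : (4 : ℕ) ≠ 0)).mp ?_
  rw [div_pow, mul_pow, hp, hp2, hp3]
  have h5 : (Real.Gamma (5 / 8))⁻¹ * (Real.Gamma (7 / 8))⁻¹ =
      √2 * (Real.Gamma (1 / 8) * Real.Gamma (3 / 8)) / (4 * Real.pi ^ 2) := by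
    rw [← mul_inv, hg, inv_div]
  set X := ‖ModularForm.eta (√2 * Complex.I)‖ ^ 4 with hX
  have hX2 : X = (√2)⁻¹ * (√2 * X) := by field_simp
  rw [hX2, h, h5]
  field_simp
  norm_num

end Fermat.Agent.Cor.Kron

end
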