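import Fermat.Agent.Corollaries.Kron.FormTau

/-!
# Kronecker's formula for `-15 = 5 · (-3)`

The reduced forms of discriminant `-15` are `x² + x y + 4 y²` and `2 x² + x y + 2 y²`; the golden
ratio is the fundamental unit of discriminant `5`:
`|η((-1 + √-15) / 4)|¹² = (12 + 4 √5) |η((-1 + √-15) / 2)|¹²`.
-/

set_option autoImplicit false

noncomputable section

namespace Fermat.Agent.Cor.Kron

open NumberField Module NumberField.Units
open scoped nonZeroDivisors
open Fermat.Agent.Cor.Diri (kron Frame)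
open Fermat.Agent.Cor.Ray (BForm)

universe u

/-- `h / w = 1 / 6` for the field of discriminant `-3` -/
theorem six_mul_classNumber {F : Type u} [Field F] [NumberField F] (h2 : finrank ℚ F = 2)
    (hd : discr F = -3) : 6 * classNumber F = torsionOrder F := by
  have h := Diri.class_number_kron h2 (by rw [hd]; norm_num)
  rw [hd] at h
  have e1 : kron (-3) 1 = 1 := by
    rw [Diri.kron_odd _ (by decide), jacobiSym.one_right]
  have e2 : kron (-3) 2 = -1 := by
    rw [Diri.kron_two]
    decide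
  have e3 : ∑ a ∈ Finset.range (-3 : ℤ).natAbs, (a : ℤ) * kron (-3) a = -1 := by
    have : (-3 : ℤ).natAbs = 3 := rfl
    rw [this, Finset.sum_range_succ, Finset.sum_range_succ, Finset.sum_range_succ,
      Finset.sum_range_zero]
    push_cast
    rw [e1, e2]
    norm_num
  rw [e3] at h
  have h3 : |(-3 : ℤ)| = 3 := by norm_num
  rw [h3] at h
  have h4 : (6 : ℤ) * classNumber F = torsionOrder F := by linarith
  exact_mod_cast h4

/-- `h R = log ((1 + √5) / 2)` for the field of discriminant `5` -/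
theorem classNumber_mul_regulator_five {F : Type u} [Field F] [NumberField F]
    (h2 : finrank ℚ F = 2) (hd : discr F = 5) :
    (classNumber F : ℝ) * regulator F = Real.log ((1 + √5) / 2) := by
  have h := Diri.class_number_regulator_kron h2 (by rw [hd]; norm_num)
  rw [hd] at h
  have e1 : kron 5 1 = 1 := by
    rw [Diri.kron_odd _ (by decide), jacobiSym.one_right]
  have e2 : kron 5 2 = -1 := by
    rw [Diri.kron_two]
    decide
  have e3 : kron 5 3 = -1 := by
    rw [Diri.kron_odd _ (by decide)]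
    norm_num
  have e4 : kron 5 4 = 1 := by
    have hf : (4 : ℕ).factorization 2 = 2 := by
      rw [show (4 : ℕ) = 2 ^ 2 from rfl, Nat.Prime.factorization_pow Nat.prime_two]
      simp
    rw [Diri.kron, hf]
    have : 4 / 2 ^ 2 = 1 := rfl
    rw [this, jacobiSym.one_right, mul_one]
    decide
  have e5 : (Finset.range (5 : ℤ).natAbs).erase 0 = {1, 2, 3, 4} := by decide
  rw [e5] at h
  have e6 : Real.sin (Real.pi * 4 / 5) = Real.sin (Real.pi / 5) := by
    rw [← Real.sin_pi_sub]
    congr 1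
    ring
  have e7 : Real.sin (Real.pi * 3 / 5) = Real.sin (2 * (Real.pi / 5)) := by
    rw [← Real.sin_pi_sub]
    congr 1
    ring
  have e8 : Real.sin (Real.pi * 2 / 5) = Real.sin (2 * (Real.pi / 5)) := by
    congr 1
    ring
  have e9 : 0 < Real.sin (Real.pi / 5) :=
    Real.sin_pos_of_pos_of_lt_pi (by positivity) (by linarith [Real.pi_pos])
  have h5 : (0 : ℝ) < √5 := by positivity
  have e10 : Real.log (Real.sin (2 * (Real.pi / 5))) =
      Real.log ((1 + √5) / 2) + Real.log (Real.sin (Real.pi / 5)) := by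
    rw [← Real.log_mul (by positivity) e9.ne', Real.sin_two_mul, Real.cos_pi_div_five]
    congr 1
    ring
  rw [h, Finset.sum_insert (by decide), Finset.sum_insert (by decide),
    Finset.sum_insert (by decide), Finset.sum_singleton, e1, e2, e3, e4]
  push_cast
  rw [e6, e7, e8, e10, mul_one]
  ring

section Forms

variable {D : ℤ} (hD : D = -15)

/-- the form `x² + x y + 4 y²` -/
def q₁ : BForm.RForm D :=
  ⟨⟨⟨1, 1, 4⟩, by
    rw [BForm.prim_iff]
    decide, by rw [hD]; simp [BForm.disc], by norm_num⟩, by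
    refine ⟨by norm_num, by norm_num, fun _ => by norm_num⟩⟩

/-- the form `2 x² + x y + 2 y²` -/
def q₂ : BForm.RForm D :=
  ⟨⟨⟨2, 1, 2⟩, by
    rw [BForm.prim_iff]
    decide, by rw [hD]; simp [BForm.disc], by norm_num⟩, by
    refine ⟨by norm_num, by norm_num, fun _ => by norm_num⟩⟩

theorem q_ne : q₁ hD ≠ q₂ hD := fun h => by
  have h3 := congrArg (fun f : BForm.RForm D => f.1.1.a) h
  simp [q₁, q₂] at h3

theorem eq_q (f : BForm.RForm D) : f = q₁ hD ∨ f = q₂ hD := by
  subst hD
  obtain ⟨⟨⟨a, b, c⟩, hp, hd, ha⟩, hr⟩ := f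
  have h3 := BForm.Red.three_mul_sq_le hr
  obtain ⟨h4, h5, h6⟩ := hr
  simp only at h3 h4 h5 h6 ha
  rw [hd] at h3
  simp only [BForm.disc] at hd
  have ha2 : a ≤ 2 := by nlinarith
  rw [abs_le] at h4
  have hb : -2 ≤ b ∧ b ≤ 2 := ⟨by omega, by omega⟩
  obtain ⟨hb1, hb2⟩ := hb
  interval_cases a <;> interval_cases b <;> first | (exfalso; omega) | skip
  all_goals first
    | (have hc : c = 4 := by omega
       subst hc
       exact Or.inl rfl)
    | (have hc : c = 2 := by omega
       subst hc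
       exact Or.inr rfl)
    | (exfalso
       have h7 := h6 (Or.inl (by norm_num))
       omega)

theorem term₁ : √|(D : ℝ)| / (2 * (q₁ hD).1.1.a) * ‖ModularForm.eta (root D (q₁ hD).1.1)‖ ^ 4 =
    √15 / 2 * ‖ModularForm.eta ((-1 + √15 * Complex.I) / 2)‖ ^ 4 := by
  subst hD
  have h : root (-15) (q₁ rfl).1.1 = (-1 + √15 * Complex.I) / 2 := by
    simp [root, q₁]
  rw [h]
  simp [q₁]

theorem term₂ : √|(D : ℝ)| / (2 * (q₂ hD).1.1.a) * ‖ModularForm.eta (root D (q₂ hD).1.1)‖ ^ 4 =
    √15 / 4 * ‖ModularForm.eta ((-1 + √15 * Complex.I) / 4)‖ ^ 4 := by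
  subst hD
  have h : root (-15) (q₂ rfl).1.1 = (-1 + √15 * Complex.I) / 4 := by
    simp only [root, q₂]
    norm_num
  rw [h]
  simp only [q₂]
  norm_num

end Forms

/-- **An example of Kronecker's formula**:
`|η((-1 + √-15) / 4)|¹² = (12 + 4 √5) |η((-1 + √-15) / 2)|¹²`. -/
theorem eta_fifteen : ‖ModularForm.eta ((-1 + √15 * Complex.I) / 4)‖ ^ 12 =
    (12 + 4 * √5) * ‖ModularForm.eta ((-1 + √15 * Complex.I) / 2)‖ ^ 12 := by
  classical
  obtain ⟨K, _, _, -, h2, -, hdK⟩ := Diri.exists_quadratic_field (m := -15)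
    (by rw [← Int.squarefree_natAbs]; decide +kernel) (by norm_num)
  obtain ⟨F₁, _, _, -, h₁, -, hd₁⟩ := Diri.exists_quadratic_field (m := 5)
    (by rw [← Int.squarefree_natAbs]; decide +kernel) (by norm_num)
  obtain ⟨F₂, _, _, -, h₂, -, hd₂⟩ := Diri.exists_quadratic_field (m := -3)
    (by rw [← Int.squarefree_natAbs]; decide +kernel) (by norm_num)
  norm_num at hdK hd₁ hd₂
  obtain ⟨F⟩ := Diri.exists_frame h2
  obtain ⟨e, hne, -, hsum⟩ := kronecker_pell_forms h2 h₁ h₂ (by rw [hd₁]; norm_num)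
    (by rw [hd₂]; norm_num) (by rw [hdK, hd₁, hd₂]; norm_num) (by
      rw [hd₁, hd₂, Int.isCoprime_iff_gcd_eq_one]
      decide) F
  have hneg : discr K < 0 := by rw [hdK]; norm_num
  have hfin : Finite (BForm.RForm (discr K)) := Finite.of_equiv _ (redEquiv F h2 hneg).symm
  have : Fintype (BForm.RForm (discr K)) := Fintype.ofFinite _
  have huniv : (Finset.univ : Finset (BForm.RForm (discr K))) = {q₁ hdK, q₂ hdK} := by
    ext f
    simpa using eq_q hdK f
  rw [finsum_eq_sum_of_fintype, huniv, Finset.sum_pair (q_ne hdK)] at hsum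
  -- the character
  have e1 : e (F.cls (q₁ hdK).1) = 1 := by
    have hC : F.cls (q₁ hdK).1 = 1 := by
      have htop : F.idl (q₁ hdK).1.2.2.1 = ⊤ := by
        rw [Ideal.eq_top_iff_one]
        have h := (F.intCast_mem_idl (q₁ hdK).1.2.2.1 (n := 1)).mpr dvd_rfl
        simpa using h
      show ClassGroup.mk0 ⟨F.idl (q₁ hdK).1.2.2.1, _⟩ = 1
      rw [ClassGroup.mk0_eq_one_iff, htop]
      exact top_isPrincipal
    rw [hC, map_one]
  have e2 : e (F.cls (q₂ hdK).1) = -1 := by
    rcases Int.units_eq_one_or (e (F.cls (q₂ hdK).1)) with h | h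
    · exfalso
      apply hne
      refine MonoidHom.ext fun C => ?_
      obtain ⟨f, rfl⟩ := (redEquiv F h2 hneg).surjective C
      rw [redEquiv_apply]
      rcases eq_q hdK f with rfl | rfl
      · rw [e1]; rfl
      · rw [h]; rfl
    · exact h
  rw [e1, e2] at hsum
  have hr : (4 * (classNumber F₁ : ℝ) * classNumber F₂ * regulator F₁ / torsionOrder F₂) =
      2 / 3 * Real.log ((1 + √5) / 2) := by
    rw [← classNumber_mul_regulator_five h₁ hd₁, ← six_mul_classNumber h₂ hd₂]
    have : (classNumber F₂ : ℝ) ≠ 0 := Nat.cast_ne_zero.mpr (classNumber_pos F₂).ne'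
    push_cast
    field_simp
    ring
  rw [hr] at hsum
  rw [term₁ hdK, term₂ hdK] at hsum
  have p15 : (0 : ℝ) < √15 := by positivity
  have p5 : (0 : ℝ) < √5 := by positivity
  have hX : 0 < ‖ModularForm.eta ((-1 + √15 * Complex.I) / 2)‖ := by
    refine norm_pos_iff.mpr (ModularForm.eta_ne_zero ?_)
    have : ((-1 + √15 * Complex.I) / 2).im = √15 / 2 := by
      simp
    show 0 < Complex.im _
    rw [this]
    positivity
  have hY : 0 < ‖ModularForm.eta ((-1 + √15 * Complex.I) / 4)‖ := by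
    refine norm_pos_iff.mpr (ModularForm.eta_ne_zero ?_)
    have : ((-1 + √15 * Complex.I) / 4).im = √15 / 4 := by
      simp
    show 0 < Complex.im _
    rw [this]
    positivity
  generalize ‖ModularForm.eta ((-1 + √15 * Complex.I) / 2)‖ = X at hsum hX ⊢
  generalize ‖ModularForm.eta ((-1 + √15 * Complex.I) / 4)‖ = Y at hsum hY ⊢
  rw [Real.log_mul (by positivity) (by positivity), Real.log_mul (by positivity) (by positivity),
    Real.log_div p15.ne' (by norm_num), Real.log_div p15.ne' (by norm_num), Real.log_pow,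
    Real.log_pow] at hsum
  have h4 : Real.log 4 = 2 * Real.log 2 := by
    rw [show (4 : ℝ) = 2 ^ 2 by norm_num, Real.log_pow]
    norm_num
  have h8 : (12 + 4 * √5 : ℝ) = 2 ^ 3 * ((1 + √5) / 2) ^ 2 := by
    have : √5 ^ 2 = 5 := Real.sq_sqrt (by norm_num)
    linear_combination (-2 : ℝ) * this
  refine Real.log_injOn_pos (Set.mem_Ioi.mpr (by positivity)) (Set.mem_Ioi.mpr (by positivity)) ?_
  rw [h8, Real.log_mul (by positivity) (by positivity), Real.log_mul (by positivity) (by positivity),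
    Real.log_pow, Real.log_pow, Real.log_pow, Real.log_pow]
  push_cast at hsum ⊢
  rw [h4] at hsum
  norm_num at hsum ⊢
  linarith

end Fermat.Agent.Cor.Kron

end
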