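import Fermat.Agent.Corollaries.Diff.EulerQ
import Fermat.Agent.Corollaries.ZetaK.AbelZeta
import Fermat.Agent.Corollaries.ZetaK.NonVan

/-!
# `L_K(s, χ) = L(s, ψ₁) L(s, ψ₂)` from the Euler factors

`LK_eq_mul_of_one_lt`: if the Euler factors of the `L`-function of a class group character `χ` of a
number field `K` above every prime number `p` are those of `L(s, ψ₁) L(s, ψ₂)` for two Dirichlet
characters `ψ₁, ψ₂`, then `L_K(s, χ) = L(s, ψ₁) L(s, ψ₂)` for `Re s > 1`; `LK_eq_mul`: for all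
complex `s` if `χ, ψ₁, ψ₂ ≠ 1`. `LK_eq_mul_of_local`: the same for a Galois field `K`, with a
hypothesis on the prime ideals above `p`.
-/

set_option autoImplicit false

noncomputable section

namespace Fermat.Agent.Cor.Kron

open NumberField IsDedekindDomain Filter Topology Fermat.Agent.Classic.Zeta
open Fermat.Agent.Cor.Diff (cls nv hasProd_LK)
open scoped nonZeroDivisors

variable {K : Type*} [Field K] [NumberField K]

omit [NumberField K] in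
/-- Every prime ideal contains a prime number. -/
theorem exists_prime_mem (v : HeightOneSpectrum (𝓞 K)) :
    ∃ p : Nat.Primes, ((p : ℕ) : 𝓞 K) ∈ v.asIdeal := by
  have : NeZero v.asIdeal := ⟨v.ne_bot⟩
  have hv := v.isPrime
  refine ⟨⟨_, Nat.absNorm_under_prime v.asIdeal⟩, ?_⟩
  have h1 := Int.absNorm_under_mem v.asIdeal
  simpa using h1

omit [NumberField K] in
/-- The prime number in a prime ideal is unique. -/
theorem prime_mem_unique (v : HeightOneSpectrum (𝓞 K)) {p q : Nat.Primes}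
    (hp : ((p : ℕ) : 𝓞 K) ∈ v.asIdeal) (hq : ((q : ℕ) : 𝓞 K) ∈ v.asIdeal) : p = q := by
  by_contra hne
  have hcop : IsCoprime ((p : ℕ) : ℤ) ((q : ℕ) : ℤ) :=
    Nat.isCoprime_iff_coprime.mpr ((Nat.coprime_primes p.2 q.2).mpr
      (fun h => hne (Subtype.ext h)))
  obtain ⟨a, b, hab⟩ := hcop
  apply v.isPrime.ne_top
  rw [Ideal.eq_top_iff_one]
  have h1 : ((a * (p : ℕ) + b * (q : ℕ) : ℤ) : 𝓞 K) ∈ v.asIdeal := by
    push_cast
    exact v.asIdeal.add_mem (v.asIdeal.mul_mem_left _ hp) (v.asIdeal.mul_mem_left _ hq)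
  rw [hab] at h1
  simpa using h1

omit [NumberField K] in
/-- A product over the places, grouped by the prime numbers. -/
theorem hasProd_group {f : HeightOneSpectrum (𝓞 K) → ℂ} {a : ℂ} (h : HasProd f a)
    (T : Nat.Primes → Finset (HeightOneSpectrum (𝓞 K)))
    (hT : ∀ p v, v ∈ T p ↔ ((p : ℕ) : 𝓞 K) ∈ v.asIdeal) :
    HasProd (fun p : Nat.Primes => ∏ v ∈ T p, f v) a := by
  classical
  choose c hc using exists_prime_mem (K := K)
  have hcT : ∀ v p, v ∈ T p ↔ c v = p := by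
    intro v p
    rw [hT]
    exact ⟨fun h => prime_mem_unique v (hc v) h, fun h => h ▸ hc v⟩
  let e : (Σ p : Nat.Primes, {v : HeightOneSpectrum (𝓞 K) // c v = p}) ≃
      HeightOneSpectrum (𝓞 K) := Equiv.sigmaFiberEquiv c
  have h1 := (e.hasProd_iff (f := f)).mpr h
  have hfin : ∀ p : Nat.Primes, Fintype {v : HeightOneSpectrum (𝓞 K) // c v = p} := fun p =>
    Fintype.subtype (T p) (fun v => hcT v p)
  refine h1.sigma fun p => ?_
  have e1 : ∏ v ∈ T p, f v = ∏ v : {v : HeightOneSpectrum (𝓞 K) // c v = p}, f v.1 :=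
    Finset.prod_subtype _ (fun v => hcT v p) _
  rw [e1]
  exact hasProd_fintype _

/-- The places above `p`. -/
def placesOf (K : Type*) [Field K] [NumberField K] (p : Nat.Primes) :
    Finset (HeightOneSpectrum (𝓞 K)) := (Abel.finite_places (K := K) (p : ℕ) p.2).toFinset

theorem mem_placesOf (p : Nat.Primes) (v : HeightOneSpectrum (𝓞 K)) :
    v ∈ placesOf K p ↔ ((p : ℕ) : 𝓞 K) ∈ v.asIdeal := by
  rw [placesOf, Set.Finite.mem_toFinset, Set.mem_ofPred_eq]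

/-- `L_K(s, χ) = L(s, ψ₁) L(s, ψ₂)` for `Re s > 1` if the Euler factors are equal. -/
theorem LK_eq_mul_of_one_lt (χ : ClassGroup (𝓞 K) →* ℂˣ) {N₁ N₂ : ℕ} [NeZero N₁] [NeZero N₂]
    (ψ₁ : DirichletCharacter ℂ N₁) (ψ₂ : DirichletCharacter ℂ N₂) {s : ℂ} (hs : 1 < s.re)
    (hloc : ∀ p : Nat.Primes, ∏ v ∈ placesOf K p, (1 - (χ (cls v) : ℂ) * nv v s) =
      (1 - ψ₁ p * (p : ℂ) ^ (-s)) * (1 - ψ₂ p * (p : ℂ) ^ (-s))) :
    LK χ s = ψ₁.LFunction s * ψ₂.LFunction s := by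
  have e1 := hasProd_group (hasProd_LK χ hs) (placesOf K) mem_placesOf
  have e2 := (Abel.hasProd_dirichlet ψ₁ hs).mul (Abel.hasProd_dirichlet ψ₂ hs)
  have e3 : (fun p : Nat.Primes => ∏ v ∈ placesOf K p, (1 - (χ (cls v) : ℂ) * nv v s)) =
      fun p : Nat.Primes => (1 - ψ₁ p * (p : ℂ) ^ (-s)) * (1 - ψ₂ p * (p : ℂ) ^ (-s)) :=
    funext hloc
  rw [e3] at e1
  have e4 := e1.unique e2
  rw [← mul_inv] at e4
  exact inv_injective e4

/-- Continuation: an identity `L_K(s, χ) = L(s, ψ₁) L(s, ψ₂)` for `Re s > 1` holds everywhere. -/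
theorem LK_eq_mul_everywhere {χ : ClassGroup (𝓞 K) →* ℂˣ} (hχ : χ ≠ 1) {N₁ N₂ : ℕ} [NeZero N₁]
    [NeZero N₂] {ψ₁ : DirichletCharacter ℂ N₁} {ψ₂ : DirichletCharacter ℂ N₂} (h₁ : ψ₁ ≠ 1)
    (h₂ : ψ₂ ≠ 1) (h : ∀ s : ℂ, 1 < s.re → LK χ s = ψ₁.LFunction s * ψ₂.LFunction s) (s : ℂ) :
    LK χ s = ψ₁.LFunction s * ψ₂.LFunction s := by
  have hd1 : Differentiable ℂ (LK χ) := differentiable_LK hχ
  have hd2 : Differentiable ℂ (fun s : ℂ => ψ₁.LFunction s * ψ₂.LFunction s) :=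
    (DirichletCharacter.differentiable_LFunction h₁).mul
      (DirichletCharacter.differentiable_LFunction h₂)
  have ha1 : AnalyticOnNhd ℂ (LK χ) Set.univ :=
    hd1.differentiableOn.analyticOnNhd isOpen_univ
  have ha2 : AnalyticOnNhd ℂ (fun s : ℂ => ψ₁.LFunction s * ψ₂.LFunction s) Set.univ :=
    hd2.differentiableOn.analyticOnNhd isOpen_univ
  have hev : LK χ =ᶠ[𝓝 (2 : ℂ)] fun s : ℂ => ψ₁.LFunction s * ψ₂.LFunction s := by
    have ho : IsOpen {s : ℂ | 1 < s.re} := isOpen_lt continuous_const Complex.continuous_re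
    filter_upwards [ho.mem_nhds (show (2 : ℂ) ∈ {s : ℂ | 1 < s.re} by simp)] with s hs
    exact h s hs
  exact congrFun (ha1.eq_of_eventuallyEq ha2 hev) s

/-- `L_K(s, χ) = L(s, ψ₁) L(s, ψ₂)` if the Euler factors are equal. -/
theorem LK_eq_mul {χ : ClassGroup (𝓞 K) →* ℂˣ} (hχ : χ ≠ 1) {N₁ N₂ : ℕ} [NeZero N₁] [NeZero N₂]
    {ψ₁ : DirichletCharacter ℂ N₁} {ψ₂ : DirichletCharacter ℂ N₂} (h₁ : ψ₁ ≠ 1) (h₂ : ψ₂ ≠ 1)
    (hloc : ∀ (p : Nat.Primes) (s : ℂ), 1 < s.re →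
      ∏ v ∈ placesOf K p, (1 - (χ (cls v) : ℂ) * nv v s) =
        (1 - ψ₁ p * (p : ℂ) ^ (-s)) * (1 - ψ₂ p * (p : ℂ) ^ (-s))) (s : ℂ) :
    LK χ s = ψ₁.LFunction s * ψ₂.LFunction s :=
  LK_eq_mul_everywhere hχ h₁ h₂
    (fun s hs => LK_eq_mul_of_one_lt χ ψ₁ ψ₂ hs fun p => hloc p s hs) s

/-- The Euler factors in the form of the prime ideals above `p` (`K` Galois over `ℚ`). -/
theorem prod_placesOf_eq [IsGalois ℚ K] (χ : ClassGroup (𝓞 K) →* ℂˣ) (p : Nat.Primes)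
    (hcst : ∀ v w : HeightOneSpectrum (𝓞 K), (p : 𝓞 K) ∈ v.asIdeal → (p : 𝓞 K) ∈ w.asIdeal →
      χ (cls v) = χ (cls w)) (P : (Ideal (𝓞 K))⁰) [(P : Ideal (𝓞 K)).IsPrime]
    [(P : Ideal (𝓞 K)).LiesOver (Ideal.span {((p : ℕ) : ℤ)})] (s : ℂ) :
    ∏ v ∈ placesOf K p, (1 - (χ (cls v) : ℂ) * nv v s) =
      (1 - (χ (ClassGroup.mk0 P) : ℂ) * ((p : ℂ) ^ (-s)) ^ (P : Ideal (𝓞 K)).inertiaDeg ℤ) ^
        ((Ideal.span {((p : ℕ) : ℤ)}).primesOver (𝓞 K)).ncard := by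
  have hp : Fact (p : ℕ).Prime := ⟨p.2⟩
  let w : HeightOneSpectrum (𝓞 K) :=
    ⟨(P : Ideal (𝓞 K)), inferInstance, nonZeroDivisors.coe_ne_zero P⟩
  have hwp : ((p : ℕ) : 𝓞 K) ∈ w.asIdeal := Abel.mem_of_liesOver (P : Ideal (𝓞 K))
  have hcw : cls w = ClassGroup.mk0 P := rfl
  have h4 : ∀ v ∈ placesOf K p, (1 - (χ (cls v) : ℂ) * nv v s) =
      1 - (χ (ClassGroup.mk0 P) : ℂ) *
        ((p : ℂ) ^ (-s)) ^ (P : Ideal (𝓞 K)).inertiaDeg ℤ := by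
    intro v hv
    have hvm := (mem_placesOf p v).mp hv
    have hv' := Abel.liesOver_of_mem p.2 v hvm
    have hvp := v.isPrime
    rw [hcst v w hvm hwp, hcw, nv, ← Ideal.pow_inertiaDeg (p : ℕ) v.asIdeal,
      Ideal.inertiaDeg_eq_of_isGaloisGroup (Ideal.span {((p : ℕ) : ℤ)}) v.asIdeal
        (P : Ideal (𝓞 K)) Gal(K/ℚ),
      Nat.cast_pow, ← Complex.natCast_cpow_natCast_mul, ← Complex.cpow_nat_mul]
  rw [Finset.prod_congr rfl h4, Finset.prod_const]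
  congr 1
  rw [placesOf, ← Set.ncard_eq_toFinset_card _ (Abel.finite_places (K := K) (p : ℕ) p.2),
    Abel.ncard_places (p : ℕ) p.2]

/-- Over every prime number there is a prime ideal. -/
theorem exists_prime_over (K : Type*) [Field K] [NumberField K] (p : Nat.Primes) :
    ∃ P : (Ideal (𝓞 K))⁰, (P : Ideal (𝓞 K)).IsPrime ∧
      (P : Ideal (𝓞 K)).LiesOver (Ideal.span {((p : ℕ) : ℤ)}) := by
  have hp : Fact (p : ℕ).Prime := ⟨p.2⟩
  have hmax : (Ideal.span {((p : ℕ) : ℤ)}).IsMaximal := Int.ideal_span_isMaximal_of_prime (p : ℕ)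
  obtain ⟨P, hP, hPo⟩ := Ideal.exists_maximal_ideal_liesOver_of_isIntegral
    (Ideal.span {((p : ℕ) : ℤ)}) (S := 𝓞 K)
  have hPp := hP.isPrime
  have hPb : P ≠ ⊥ := Ideal.ne_bot_of_liesOver_of_ne_bot
    (p := Ideal.span {((p : ℕ) : ℤ)}) (by simpa using p.2.ne_zero) P
  exact ⟨⟨P, mem_nonZeroDivisors_of_ne_zero hPb⟩, hPp, hPo⟩

/-- `L_K(s, χ) = L(s, ψ₁) L(s, ψ₂)` for `Re s > 1` and a Galois field `K`, from the Euler factors in
the form of the prime ideals above `p`. -/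
theorem LK_eq_mul_of_local_of_one_lt [IsGalois ℚ K] (χ : ClassGroup (𝓞 K) →* ℂˣ)
    {N₁ N₂ : ℕ} [NeZero N₁] [NeZero N₂] (ψ₁ : DirichletCharacter ℂ N₁)
    (ψ₂ : DirichletCharacter ℂ N₂)
    (hloc : ∀ (p : ℕ), p.Prime → ∀ (P : (Ideal (𝓞 K))⁰) [(P : Ideal (𝓞 K)).IsPrime]
      [(P : Ideal (𝓞 K)).LiesOver (Ideal.span {(p : ℤ)})] (T : ℂ),
      (1 - ψ₁ p * T) * (1 - ψ₂ p * T) =
        (1 - (χ (ClassGroup.mk0 P) : ℂ) * T ^ (P : Ideal (𝓞 K)).inertiaDeg ℤ) ^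
          ((Ideal.span {(p : ℤ)}).primesOver (𝓞 K)).ncard)
    (hcst : ∀ (p : ℕ), p.Prime → ∀ v w : HeightOneSpectrum (𝓞 K), (p : 𝓞 K) ∈ v.asIdeal →
      (p : 𝓞 K) ∈ w.asIdeal → χ (cls v) = χ (cls w)) {s : ℂ} (hs : 1 < s.re) :
    LK χ s = ψ₁.LFunction s * ψ₂.LFunction s := by
  refine LK_eq_mul_of_one_lt χ ψ₁ ψ₂ hs fun p => ?_
  obtain ⟨P, hPp, hPo⟩ := exists_prime_over K p
  rw [prod_placesOf_eq χ p (hcst p p.2) P s, hloc p p.2 P]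

/-- `L_K(s, χ) = L(s, ψ₁) L(s, ψ₂)` for a Galois field `K`, from the Euler factors in the form of
the prime ideals above `p`. -/
theorem LK_eq_mul_of_local [IsGalois ℚ K] {χ : ClassGroup (𝓞 K) →* ℂˣ} (hχ : χ ≠ 1)
    {N₁ N₂ : ℕ} [NeZero N₁] [NeZero N₂] {ψ₁ : DirichletCharacter ℂ N₁}
    {ψ₂ : DirichletCharacter ℂ N₂} (h₁ : ψ₁ ≠ 1) (h₂ : ψ₂ ≠ 1)
    (hloc : ∀ (p : ℕ), p.Prime → ∀ (P : (Ideal (𝓞 K))⁰) [(P : Ideal (𝓞 K)).IsPrime]
      [(P : Ideal (𝓞 K)).LiesOver (Ideal.span {(p : ℤ)})] (T : ℂ),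
      (1 - ψ₁ p * T) * (1 - ψ₂ p * T) =
        (1 - (χ (ClassGroup.mk0 P) : ℂ) * T ^ (P : Ideal (𝓞 K)).inertiaDeg ℤ) ^
          ((Ideal.span {(p : ℤ)}).primesOver (𝓞 K)).ncard)
    (hcst : ∀ (p : ℕ), p.Prime → ∀ v w : HeightOneSpectrum (𝓞 K), (p : 𝓞 K) ∈ v.asIdeal →
      (p : 𝓞 K) ∈ w.asIdeal → χ (cls v) = χ (cls w)) (s : ℂ) :
    LK χ s = ψ₁.LFunction s * ψ₂.LFunction s :=
  LK_eq_mul_everywhere hχ h₁ h₂
    (fun _ hs => LK_eq_mul_of_local_of_one_lt χ ψ₁ ψ₂ hloc hcst hs) s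

end Fermat.Agent.Cor.Kron
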