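import Fermat.Agent.Corollaries.Kron.Pell
import Fermat.Agent.Corollaries.Kron.GenusL
import Fermat.Agent.Corollaries.Diff.Split

/-!
# Genus characters: the factorization of the L-function, and Kronecker's formula

`K` imaginary quadratic, `discr K = d₁ d₂` with coprime discriminants `d₁`, `d₂` of quadratic
fields `F₁`, `F₂`.

* `exists_genus`: there is a character `e` of the class group with values `± 1` and
  `e(P) = (d₁/N P) = (d₂/N P)` for the primes `P ∤ d`, and `ζ_{F₁}(s) ζ_{F₂}(s) = ζ(s)² L(s, e)`;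
* `kronecker_pell`: for `d₁ > 0`, the values of Dedekind's `η` at the ideal classes solve Pell's
  equation for `d₁`.
-/

set_option autoImplicit false

noncomputable section

namespace Fermat.Agent.Cor.Kron

open NumberField Module Fermat.Agent.Classic.Zeta Filter Topology NumberField.Units
open NumberField.InfinitePlace
open scoped nonZeroDivisors
open Fermat.Agent.Cor.Diri (kron)

universe u v w

variable {K : Type u} [Field K] [NumberField K]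

/-- `L(s, χ)` on the whole plane, from the half plane `Re s > 1`. -/
theorem LK_eq_all {χ : ClassGroup (𝓞 K) →* ℂˣ} (hχ : χ ≠ 1) {N₁ N₂ : ℕ} [NeZero N₁] [NeZero N₂]
    {ψ₁ : DirichletCharacter ℂ N₁} {ψ₂ : DirichletCharacter ℂ N₂} (hψ₁ : ψ₁ ≠ 1) (hψ₂ : ψ₂ ≠ 1)
    (hL : ∀ s : ℂ, 1 < s.re → LK χ s = ψ₁.LFunction s * ψ₂.LFunction s) (s : ℂ) :
    LK χ s = ψ₁.LFunction s * ψ₂.LFunction s := by
  have hf : Differentiable ℂ (LK χ) := differentiable_LF (sum_char_eq_zero hχ)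
  have hg : Differentiable ℂ fun s : ℂ => ψ₁.LFunction s * ψ₂.LFunction s :=
    (ψ₁.differentiable_LFunction hψ₁).mul (ψ₂.differentiable_LFunction hψ₂)
  have key : ∀ s : ℂ, s ≠ 1 → LK χ s = ψ₁.LFunction s * ψ₂.LFunction s := fun s hs =>
    eq_of_eq_re_gt_one (f := LK χ) (g := fun s : ℂ => ψ₁.LFunction s * ψ₂.LFunction s)
      (fun z _ => hf z) (fun z _ => hg z) hL hs
  have hfg : LK χ = fun s : ℂ => ψ₁.LFunction s * ψ₂.LFunction s :=
    hf.continuous.ext_on (s := {1}ᶜ) (dense_compl_singleton (1 : ℂ)) hg.continuous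
      fun z hz => key z hz
  exact congrFun hfg s

/-- **The genus character of a decomposition `d = d₁ d₂`**, `d₂` odd. -/
theorem exists_genus_of_odd (h2 : finrank ℚ K = 2) {φ : K →+* ℂ}
    (hφ : ¬ ComplexEmbedding.IsReal φ) {F₁ : Type v} [Field F₁] [NumberField F₁] {F₂ : Type w}
    [Field F₂] [NumberField F₂] (h₁ : finrank ℚ F₁ = 2) (h₂ : finrank ℚ F₂ = 2)
    (hd : discr K = discr F₁ * discr F₂) (hcop : IsCoprime (discr F₁) (discr F₂))
    (hodd : Odd (discr F₂)) :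
    ∃ χ : ClassGroup (𝓞 K) →* ℂˣ,
      (∀ I : (Ideal (𝓞 K))⁰,
        IsCoprime (I : Ideal (𝓞 K)) (Ideal.span {(((discr F₂).natAbs : ℕ) : 𝓞 K)}) →
        ((χ (ClassGroup.mk0 I) : ℂˣ) : ℂ) =
          ((jacobiSym (Ideal.absNorm (I : Ideal (𝓞 K))) (discr F₂).natAbs : ℤ) : ℂ)) ∧
      χ ≠ 1 ∧ χ ^ 2 = 1 ∧
      (∀ (p : ℕ), p.Prime → ¬ (p : ℤ) ∣ discr K → ∀ (P : (Ideal (𝓞 K))⁰)
        [(P : Ideal (𝓞 K)).IsPrime] [(P : Ideal (𝓞 K)).LiesOver (Ideal.span {(p : ℤ)})],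
          ((χ (ClassGroup.mk0 P) : ℂˣ) : ℂ) =
            ((kron (discr F₁) p ^ (P : Ideal (𝓞 K)).inertiaDeg ℤ : ℤ) : ℂ) ∧
          ((χ (ClassGroup.mk0 P) : ℂˣ) : ℂ) =
            ((kron (discr F₂) p ^ (P : Ideal (𝓞 K)).inertiaDeg ℤ : ℤ) : ℂ)) ∧
      ∃ (N₁ : ℕ) (_ : NeZero N₁) (ψ₁ : DirichletCharacter ℂ N₁) (N₂ : ℕ) (_ : NeZero N₂)
        (ψ₂ : DirichletCharacter ℂ N₂), (∀ s : ℂ, LK χ s = ψ₁.LFunction s * ψ₂.LFunction s) ∧
        (∀ s : ℂ, s ≠ 1 → zetaK F₁ s = riemannZeta s * ψ₁.LFunction s) ∧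
        (∀ s : ℂ, s ≠ 1 → zetaK F₂ s = riemannZeta s * ψ₂.LFunction s) ∧
        (dedekindZeta_residue F₁ : ℂ) = ψ₁.LFunction 1 ∧
        (dedekindZeta_residue F₂ : ℂ) = ψ₂.LFunction 1 := by
  obtain ⟨N₁, hN₁, ψ₁, -, -, hne₁, -, hz₁, hres₁, -, hk₁⟩ := Diri.exists_kronecker_character h₁
  obtain ⟨N₂, hN₂, ψ₂, -, -, hne₂, -, hz₂, hres₂, -, hk₂⟩ := Diri.exists_kronecker_character h₂
  have h4 : discr F₂ % 4 = 1 := by
    have h := Diri.discr_mod_four h₂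
    rw [Int.odd_iff] at hodd
    omega
  have hsf := squarefree_discr h₂ hodd
  obtain ⟨χ, hχ⟩ := exists_genus_char h2 hφ (D := (discr F₂).natAbs) (Int.natAbs_odd.mpr hodd)
    (by rw [Int.natAbs_dvd, hd]; exact dvd_mul_left _ _)
  have hloc := fun (p : ℕ) (hp : p.Prime) (P : (Ideal (𝓞 K))⁰) [(P : Ideal (𝓞 K)).IsPrime]
    [(P : Ideal (𝓞 K)).LiesOver (Ideal.span {(p : ℤ)})] =>
    genus_local h2 hφ hd h4 hsf hcop hχ hp P
  have hab := Abel.isAbelianGalois_of_finrank_two K h2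
  have hL : ∀ s : ℂ, 1 < s.re → LK χ s = ψ₁.LFunction s * ψ₂.LFunction s := by
    intro s hs
    refine LK_eq_mul_of_local_of_one_lt χ ψ₁ ψ₂ (fun p hp P _ _ T => ?_)
      (fun p hp v w hv hw => ?_) hs
    · rw [hk₁ p hp.ne_zero, hk₂ p hp.ne_zero]
      exact (hloc p hp P).2 T
    · have hp' : Fact p.Prime := ⟨hp⟩
      have hmax : (Ideal.span {(p : ℤ)}).IsMaximal := Int.ideal_span_isMaximal_of_prime p
      have hvp := v.isPrime
      have hwp := w.isPrime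
      have hvo := Abel.liesOver_of_mem hp v hv
      have hwo := Abel.liesOver_of_mem hp w hw
      have hf : v.asIdeal.inertiaDeg ℤ = w.asIdeal.inertiaDeg ℤ :=
        Ideal.inertiaDeg_eq_of_isGaloisGroup (Ideal.span {(p : ℤ)}) v.asIdeal
          w.asIdeal Gal(K/ℚ)
      refine Units.ext ?_
      have e1 := (hloc p hp ⟨v.asIdeal, mem_nonZeroDivisors_of_ne_zero v.ne_bot⟩).1
      have e2 := (hloc p hp ⟨w.asIdeal, mem_nonZeroDivisors_of_ne_zero w.ne_bot⟩).1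
      rw [Diff.cls, Diff.cls, e1, e2, hf]
  have hne : χ ≠ 1 := ne_one_of_LK_eq h2 hφ hne₁ hne₂ hL
  refine ⟨χ, hχ, hne, ?_, ?_, N₁, hN₁, ψ₁, N₂, hN₂, ψ₂, LK_eq_all hne hne₁ hne₂ hL, hz₁, hz₂,
    hres₁, hres₂⟩
  · refine MonoidHom.ext fun C => Units.ext ?_
    obtain ⟨M, hMC, hM⟩ := Ray.exists_coprime_mk0
      (m := Ideal.span {(((discr F₂).natAbs : ℕ) : 𝓞 K)}) C (by
        rw [Ne, Ideal.span_singleton_eq_bot, Nat.cast_eq_zero, Int.natAbs_eq_zero]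
        exact discr_ne_zero F₂)
    rw [MonoidHom.pow_apply, MonoidHom.one_apply, Units.val_pow_eq_pow_val, Units.val_one,
      ← hMC, hχ M hM, sq]
    exact_mod_cast jacobi_sq_eq_one (jacobi_ne_zero hM)
  · intro p hp hpd P _ _
    have hpd₂ : ¬ (p : ℤ) ∣ discr F₂ := fun h => hpd (by rw [hd]; exact Dvd.dvd.mul_left h _)
    have h5 := (hloc p hp P).1
    rw [if_neg hpd₂] at h5
    refine ⟨?_, h5⟩
    rw [h5]
    congr 1
    have hdec := Diri.decomposition h2 hp (P : Ideal (𝓞 K))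
    rw [hd, kron_mul] at hdec
    rcases hdec with ⟨hk, hf, -⟩ | ⟨hk, hf, -⟩ | ⟨hk, -⟩
    · rcases Int.mul_eq_one_iff_eq_one_or_neg_one.mp hk with ⟨h5, h6⟩ | ⟨h5, h6⟩
      · rw [h5, h6]
      · rw [h5, h6]
    · rw [hf]
      rcases Int.mul_eq_neg_one_iff_eq_one_or_neg_one.mp hk with ⟨h5, h6⟩ | ⟨h5, h6⟩
      · rw [h5, h6]
        norm_num
      · rw [h5, h6]
        norm_num
    · exfalso
      rw [← kron_mul, ← hd, Diri.kron_eq_zero_iff h2 hp] at hk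
      exact hpd hk

/-- a quadratic character is given by signs -/
theorem exists_sign {G : Type*} [CommGroup G] {χ : G →* ℂˣ} (h : χ ^ 2 = 1) :
    ∃ e : G →* ℤˣ, ∀ C, ((χ C : ℂˣ) : ℂ) = (((e C : ℤˣ) : ℤ) : ℂ) := by
  classical
  have key : ∀ C, χ C = 1 ∨ χ C = -1 := fun C => by
    have h1 : χ C ^ 2 = 1 := by
      rw [← MonoidHom.pow_apply, h, MonoidHom.one_apply]
    have h3 : (((χ C : ℂˣ) : ℂ)) ^ 2 = 1 := by
      rw [← Units.val_pow_eq_pow_val, h1, Units.val_one]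
    rcases (by simpa using h3 : ((χ C : ℂˣ) : ℂ) = 1 ∨ ((χ C : ℂˣ) : ℂ) = -1) with h4 | h4
    · exact Or.inl (Units.ext h4)
    · exact Or.inr (Units.ext h4)
  have hne : (1 : ℂˣ) ≠ -1 := by
    intro h1
    have h3 := congrArg (fun u : ℂˣ => (u : ℂ)) h1
    simp only [Units.val_one, Units.val_neg] at h3
    norm_num at h3
  refine ⟨{ toFun := fun C => if χ C = 1 then 1 else -1, map_one' := by simp, map_mul' := ?_ },
    fun C => ?_⟩
  · intro C C'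
    rcases key C with h1 | h1 <;> rcases key C' with h3 | h3 <;>
      simp [map_mul, h1, h3, hne.symm]
  · show ((χ C : ℂˣ) : ℂ) = (((if χ C = 1 then 1 else -1 : ℤˣ) : ℤ) : ℂ)
    rcases key C with h1 | h1
    · rw [if_pos h1, h1]
      simp
    · rw [if_neg (by rw [h1]; exact hne.symm), h1]
      simp

/-- a coprime decomposition `d = d₁ d₂` has an odd factor -/
theorem odd_or_odd {a b : ℤ} (h : IsCoprime a b) : Odd a ∨ Odd b := by
  by_contra hne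
  rw [not_or, Int.not_odd_iff_even, Int.not_odd_iff_even] at hne
  have h3 : IsUnit (2 : ℤ) := h.isUnit_of_dvd' hne.1.two_dvd hne.2.two_dvd
  rw [Int.isUnit_iff] at h3
  omega

/-- **The genus character of a decomposition `d = d₁ d₂`** into coprime discriminants, and the
factorization of its `L`-function. -/
theorem exists_genus (h2 : finrank ℚ K = 2) {φ : K →+* ℂ}
    (hφ : ¬ ComplexEmbedding.IsReal φ) {F₁ : Type v} [Field F₁] [NumberField F₁] {F₂ : Type w}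
    [Field F₂] [NumberField F₂] (h₁ : finrank ℚ F₁ = 2) (h₂ : finrank ℚ F₂ = 2)
    (hd : discr K = discr F₁ * discr F₂) (hcop : IsCoprime (discr F₁) (discr F₂)) :
    ∃ e : ClassGroup (𝓞 K) →* ℤˣ, Diff.toC e ≠ 1 ∧
      (∀ (p : ℕ), p.Prime → ¬ (p : ℤ) ∣ discr K → ∀ (P : (Ideal (𝓞 K))⁰)
        [(P : Ideal (𝓞 K)).IsPrime] [(P : Ideal (𝓞 K)).LiesOver (Ideal.span {(p : ℤ)})],
          ((e (ClassGroup.mk0 P) : ℤˣ) : ℤ) =
            kron (discr F₁) p ^ (P : Ideal (𝓞 K)).inertiaDeg ℤ ∧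
          ((e (ClassGroup.mk0 P) : ℤˣ) : ℤ) =
            kron (discr F₂) p ^ (P : Ideal (𝓞 K)).inertiaDeg ℤ) ∧
      (∀ s : ℂ, s ≠ 1 → zetaK F₁ s * zetaK F₂ s = riemannZeta s ^ 2 * LK (Diff.toC e) s) ∧
      LK (Diff.toC e) 1 = (dedekindZeta_residue F₁ : ℂ) * (dedekindZeta_residue F₂ : ℂ) := by
  have toC_eq : ∀ {χ : ClassGroup (𝓞 K) →* ℂˣ} {e : ClassGroup (𝓞 K) →* ℤˣ},
      (∀ C, ((χ C : ℂˣ) : ℂ) = (((e C : ℤˣ) : ℤ) : ℂ)) → Diff.toC e = χ := by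
    intro χ e h
    refine MonoidHom.ext fun C => Units.ext ?_
    rw [h C]
    rfl
  rcases odd_or_odd hcop with hodd | hodd
  · obtain ⟨χ, -, hne, hsq, hp, N₂, hN₂, ψ₂, N₁, hN₁, ψ₁, hL, hz₂, hz₁, hres₂, hres₁⟩ :=
      exists_genus_of_odd h2 hφ h₂ h₁ (by rw [hd, mul_comm]) hcop.symm hodd
    obtain ⟨e, he⟩ := exists_sign hsq
    refine ⟨e, ?_, ?_, ?_, ?_⟩
    · rw [toC_eq he]
      exact hne
    · intro p hp1 hpd P _ _
      have h := hp p hp1 hpd P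
      rw [he] at h
      exact ⟨by exact_mod_cast h.2, by exact_mod_cast h.1⟩
    · intro s hs
      rw [toC_eq he, hL s, hz₁ s hs, hz₂ s hs]
      ring
    · rw [toC_eq he, hL 1, hres₁, hres₂, mul_comm]
  · obtain ⟨χ, -, hne, hsq, hp, N₁, hN₁, ψ₁, N₂, hN₂, ψ₂, hL, hz₁, hz₂, hres₁, hres₂⟩ :=
      exists_genus_of_odd h2 hφ h₁ h₂ hd hcop hodd
    obtain ⟨e, he⟩ := exists_sign hsq
    refine ⟨e, ?_, ?_, ?_, ?_⟩
    · rw [toC_eq he]
      exact hne
    · intro p hp1 hpd P _ _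
      have h := hp p hp1 hpd P
      rw [he] at h
      exact ⟨by exact_mod_cast h.1, by exact_mod_cast h.2⟩
    · intro s hs
      rw [toC_eq he, hL s, hz₁ s hs, hz₂ s hs]
      ring
    · rw [toC_eq he, hL 1, hres₁, hres₂]

/-- **Kronecker's solution of Pell's equation by the eta function** (1863): `K` imaginary
quadratic, `discr K = d₁ d₂`, `d₁ > 0 > d₂` coprime discriminants of the quadratic fields `F₁`,
`F₂`, `e` the genus character: `∏_C (Im τ_C |η(τ_C)|⁴)^(-e(C)) = ε ^ (4 h(F₁) h(F₂) / w(F₂))`,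
`ε = exp R(F₁)` the fundamental unit of `F₁`. -/
theorem kronecker_pell (h2 : finrank ℚ K = 2) {φ : K →+* ℂ}
    (hφ : ¬ ComplexEmbedding.IsReal φ) {F₁ : Type v} [Field F₁] [NumberField F₁] {F₂ : Type w}
    [Field F₂] [NumberField F₂] (h₁ : finrank ℚ F₁ = 2) (h₂ : finrank ℚ F₂ = 2)
    (hd₁ : 0 < discr F₁) (hd₂ : discr F₂ < 0)
    (hd : discr K = discr F₁ * discr F₂) (hcop : IsCoprime (discr F₁) (discr F₂)) :
    ∃ e : ClassGroup (𝓞 K) →* ℤˣ, e ≠ 1 ∧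
      (∀ (p : ℕ), p.Prime → ¬ (p : ℤ) ∣ discr K → ∀ (P : (Ideal (𝓞 K))⁰)
        [(P : Ideal (𝓞 K)).IsPrime] [(P : Ideal (𝓞 K)).LiesOver (Ideal.span {(p : ℤ)})],
          ((e (ClassGroup.mk0 P) : ℤˣ) : ℤ) =
            kron (discr F₁) p ^ (P : Ideal (𝓞 K)).inertiaDeg ℤ) ∧
      (∀ s : ℂ, s ≠ 1 → zetaK F₁ s * zetaK F₂ s = riemannZeta s ^ 2 * LK (Diff.toC e) s) ∧
      ∀ τ : ClassGroup (𝓞 K) → ℂ, (∀ C, IsTau φ C⁻¹ (τ C)) →
        ∑ C, (((e C : ℤˣ) : ℤ) : ℝ) * Real.log ((τ C).im * ‖ModularForm.eta (τ C)‖ ^ 4) =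
          -(4 * classNumber F₁ * classNumber F₂ * regulator F₁ / torsionOrder F₂) ∧
        ∏ C, ((τ C).im * ‖ModularForm.eta (τ C)‖ ^ 4) ^ (-((e C : ℤˣ) : ℤ)) =
          Real.exp (regulator F₁) ^ (4 * classNumber F₁ * classNumber F₂ / torsionOrder F₂ : ℝ) := by
  obtain ⟨e, hne, hp, hz, hL⟩ := exists_genus h2 hφ h₁ h₂ hd hcop
  have hw : torsionOrder K = 2 := by
    refine Diri.torsionOrder_eq_two h2 ?_
    have h3 := abs_discr_gt_two (K := F₁) (by rw [h₁]; norm_num)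
    have h4 := abs_discr_gt_two (K := F₂) (by rw [h₂]; norm_num)
    rw [hd, Int.natAbs_mul]
    rw [Int.abs_eq_natAbs] at h3 h4
    have h5 : 3 ≤ (discr F₁).natAbs := by omega
    have h6 : 3 ≤ (discr F₂).natAbs := by omega
    calc 4 < 3 * 3 := by norm_num
      _ ≤ _ := Nat.mul_le_mul h5 h6
  refine ⟨e, ?_, fun p hp1 hpd P _ _ => (hp p hp1 hpd P).1, hz, fun τ hτ => ?_⟩
  · rintro rfl
    apply hne
    refine MonoidHom.ext fun C => Units.ext ?_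
    simp [Diff.toC]
  · have key : ∑ C, (((e C : ℤˣ) : ℤ) : ℝ) *
        Real.log ((τ C).im * ‖ModularForm.eta (τ C)‖ ^ 4) =
          -(4 * classNumber F₁ * classNumber F₂ * regulator F₁ / torsionOrder F₂) := by
      have h := sum_genus_char h2 hφ hτ hne h₁ h₂ hd₁ hd₂ hd hL
      rw [hw] at h
      have e1 : ∀ C, ((Diff.toC e C : ℂˣ) : ℂ) = ((((e C : ℤˣ) : ℤ) : ℝ) : ℂ) := fun C => by
        simp [Diff.toC]
      simp only [e1, ← Complex.ofReal_mul] at h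
      rw [← Complex.ofReal_sum, ← Complex.ofReal_neg, Complex.ofReal_inj] at h
      rw [h]
      push_cast
      ring
    refine ⟨key, ?_⟩
    have hpos : ∀ C, 0 < (τ C).im * ‖ModularForm.eta (τ C)‖ ^ 4 := fun C => by
      have h3 := (hτ C).1
      have h4 : 0 < ‖ModularForm.eta (τ C)‖ := norm_pos_iff.mpr (ModularForm.eta_ne_zero h3)
      positivity
    refine Real.log_injOn_pos (Set.mem_Ioi.mpr (Finset.prod_pos fun C _ =>
      zpow_pos (hpos C) _)) (Set.mem_Ioi.mpr (Real.rpow_pos_of_pos (Real.exp_pos _) _)) ?_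
    rw [Real.log_prod fun C _ => (zpow_pos (hpos C) _).ne', Real.log_rpow (Real.exp_pos _),
      Real.log_exp]
    have e2 : ∀ C, Real.log (((τ C).im * ‖ModularForm.eta (τ C)‖ ^ 4) ^ (-((e C : ℤˣ) : ℤ))) =
        -((((e C : ℤˣ) : ℤ) : ℝ) * Real.log ((τ C).im * ‖ModularForm.eta (τ C)‖ ^ 4)) := fun C => by
      rw [Real.log_zpow, Int.cast_neg]
      ring
    rw [Finset.sum_congr rfl fun C _ => e2 C, Finset.sum_neg_distrib, key]
    ring

end Fermat.Agent.Cor.Kron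

end
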