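import Fermat.Agent.Corollaries.Kron.ChowlaSelberg
import Fermat.Agent.Corollaries.Kron.Genus
import Fermat.Agent.Corollaries.Diri.FormCount

/-!
# The Chowla-Selberg formula over the reduced forms

`K` imaginary quadratic of discriminant `d`. The ideal `(a, (-b + √d) / 2)` of a primitive positive
form `(a, b, c)` of discriminant `d` has the oriented basis `(-b + √d) / 2, a`. Hence

`∏_{(a, b, c) reduced} √|d| / (2 a) |η((-b + √d) / (2 a))|⁴ =
  (4 π √|d|)^(-h) ∏_{0 < m < |d|} Γ(m / |d|)^(w (d/m) / 2)`.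
-/

set_option autoImplicit false

noncomputable section

namespace Fermat.Agent.Cor.Kron

open NumberField Module Fermat.Agent.Classic.Zeta NumberField.Units
open scoped nonZeroDivisors
open Fermat.Agent.Cor.Diri (kron Frame)
open Fermat.Agent.Cor.Ray (BForm)

universe u v w

variable {K : Type u} [Field K] [NumberField K]

/-- the root of the form `(a, b, c)` in the upper half plane, `d` its discriminant -/
def root (d : ℤ) (f : BForm) : ℂ := (-(f.b : ℂ) + √|(d : ℝ)| * Complex.I) / (2 * f.a)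

theorem root_im (d : ℤ) {f : BForm} : (root d f).im = √|(d : ℝ)| / (2 * f.a) := by
  have h : root d f = (((-(f.b : ℝ)) / (2 * f.a) : ℝ) : ℂ) +
      ((√|(d : ℝ)| / (2 * f.a) : ℝ) : ℂ) * Complex.I := by
    rw [root]
    push_cast
    ring
  rw [h, Complex.add_im, Complex.ofReal_im, Complex.im_ofReal_mul, Complex.I_im, zero_add, mul_one]

/-- an embedding with `√d ↦ i √|d|` -/
theorem exists_phi (F : Frame K) (hd : discr K < 0) : ∃ φ : K →+* ℂ,
    ¬ ComplexEmbedding.IsReal φ ∧ φ (F.δ : K) = √|(discr K : ℝ)| * Complex.I := by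
  obtain ⟨φ₀⟩ : Nonempty (K →+* ℂ) := inferInstance
  have hdR : ((discr K : ℤ) : ℝ) < 0 := by exact_mod_cast hd
  set D : ℝ := √|(discr K : ℝ)| with hD
  have hDpos : 0 < D := discr_pos'
  have hDsq : (D : ℂ) ^ 2 = -((discr K : ℤ) : ℂ) := by
    have : D ^ 2 = -((discr K : ℤ) : ℝ) := by
      rw [hD, Real.sq_sqrt (abs_nonneg _), abs_of_neg hdR]
    exact_mod_cast congrArg (fun x : ℝ => (x : ℂ)) this
  have e1 : (φ₀ (F.δ : K)) ^ 2 = ((discr K : ℤ) : ℂ) := by
    have := congrArg (fun z : 𝓞 K => φ₀ (z : K)) F.sq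
    simpa using this
  have key : ∀ φ : K →+* ℂ, φ (F.δ : K) = D * Complex.I → ¬ ComplexEmbedding.IsReal φ := by
    intro φ h hr
    have h3 := congrArg Complex.im h
    rw [Complex.im_ofReal_mul, Complex.I_im, mul_one] at h3
    have h4 : (starRingEnd ℂ) (φ (F.δ : K)) = φ (F.δ : K) := by
      have := RingHom.congr_fun hr (F.δ : K)
      simpa using this
    rw [Complex.conj_eq_iff_im] at h4
    rw [h4] at h3
    exact hDpos.ne h3
  have h5 : (φ₀ (F.δ : K) - D * Complex.I) * (φ₀ (F.δ : K) + D * Complex.I) = 0 := by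
    linear_combination e1 + hDsq - (D : ℂ) ^ 2 * Complex.I_sq
  rcases mul_eq_zero.mp h5 with h | h
  · exact ⟨φ₀, key φ₀ (sub_eq_zero.mp h), sub_eq_zero.mp h⟩
  · have h6 : ComplexEmbedding.conjugate φ₀ (F.δ : K) = D * Complex.I := by
      rw [ComplexEmbedding.conjugate_coe_eq, eq_neg_of_add_eq_zero_left h, map_neg, map_mul,
        Complex.conj_I, Complex.conj_ofReal]
      ring
    exact ⟨_, key _ h6, h6⟩

/-- **The root of a form belongs to the class of its ideal.** -/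
theorem isTau_form (F : Frame K) {φ : K →+* ℂ}
    (hφ : φ (F.δ : K) = √|(discr K : ℝ)| * Complex.I) (f : BForm.PForm (discr K)) :
    IsTau φ (F.cls f) (root (discr K) f.1) := by
  obtain ⟨f, hp, hf, ha⟩ := f
  have haR : (0 : ℝ) < f.a := by exact_mod_cast ha
  have ha0 : (f.a : 𝓞 K) ≠ 0 := by exact_mod_cast ha.ne'
  refine ⟨?_, FractionalIdeal.mk0 K ⟨F.idl hf, mem_nonZeroDivisors_of_ne_zero
    (F.idl_ne_bot hf ha.ne')⟩, ?_⟩
  · rw [root_im]
    have := discr_pos' (K := K)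
    positivity
  set 𝔟 : (FractionalIdeal (𝓞 K)⁰ K)ˣ := FractionalIdeal.mk0 K ⟨F.idl hf,
    mem_nonZeroDivisors_of_ne_zero (F.idl_ne_bot hf ha.ne')⟩ with h𝔟
  have hmem : ∀ z : K, z ∈ ((𝔟 : FractionalIdeal (𝓞 K)⁰ K) : Submodule (𝓞 K) K) ↔
      ∃ α ∈ F.idl hf, (α : K) = z := by
    intro z
    rw [FractionalIdeal.mem_coe, h𝔟, FractionalIdeal.coe_mk0]
    exact FractionalIdeal.mem_coeIdeal _
  let v0 : ((𝔟 : FractionalIdeal (𝓞 K)⁰ K) : Submodule (𝓞 K) K) :=
    ⟨(F.th hf : K), (hmem _).mpr ⟨F.th hf,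
      Ideal.subset_span (Set.mem_insert_of_mem _ rfl), rfl⟩⟩
  let v1 : ((𝔟 : FractionalIdeal (𝓞 K)⁰ K) : Submodule (𝓞 K) K) :=
    ⟨((f.a : 𝓞 K) : K), (hmem _).mpr ⟨f.a, Ideal.subset_span (Set.mem_insert _ _), rfl⟩⟩
  have h4 : ((f.a : 𝓞 K) : K) = (f.a : K) := by simp
  have hli : LinearIndependent ℤ ![v0, v1] := by
    rw [LinearIndependent.pair_iff]
    intro s t hst
    have h1 : (s : K) * (F.th hf : K) + (t : K) * ((f.a : 𝓞 K) : K) = 0 := by
      have := congrArg (fun z : ((𝔟 : FractionalIdeal (𝓞 K)⁰ K) : Submodule (𝓞 K) K) =>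
        (z : K)) hst
      simpa [v0, v1] using this
    have h3 : ((t * f.a : ℤ) : 𝓞 K) + (s : 𝓞 K) * F.th hf =
        ((0 : ℤ) : 𝓞 K) + ((0 : ℤ) : 𝓞 K) * F.th hf := by
      apply RingOfIntegers.coe_injective
      push_cast
      simp only [zero_mul, add_zero]
      rw [h4] at h1
      simp only [map_intCast]
      linear_combination h1
    obtain ⟨h5, h6⟩ := F.comb_inj hf h3
    exact ⟨h6, (mul_eq_zero.mp h5).resolve_right ha.ne'⟩
  have hsp : ⊤ ≤ Submodule.span ℤ (Set.range ![v0, v1]) := by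
    rintro ⟨z, hz⟩ -
    obtain ⟨α, hα, rfl⟩ := (hmem z).mp hz
    obtain ⟨x, y, hxy⟩ := (F.mem_idl hf).mp hα
    rw [Matrix.range_cons, Matrix.range_cons, Matrix.range_empty, Set.union_empty,
      Set.singleton_union, Submodule.mem_span_pair]
    refine ⟨-y, x, Subtype.ext ?_⟩
    have h7 : (α : K) = (x : K) * f.a - y * (F.th hf : K) := by
      rw [hxy]
      simp
    simp only [v0, v1, h7]
    simp
    ring
  refine ⟨Basis.mk hli hsp, ?_, ?_⟩
  · rw [h𝔟, ClassGroup.mk_mk0]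
    rfl
  · have e0 : ((Basis.mk hli hsp 0 : _) : K) = (F.th hf : K) := by
      rw [Basis.mk_apply]
      rfl
    have e1 : ((Basis.mk hli hsp 1 : _) : K) = ((f.a : 𝓞 K) : K) := by
      rw [Basis.mk_apply]
      rfl
    rw [e0, e1, h4, map_intCast, root, ← hφ]
    have h8 : 2 * φ (F.th hf : K) = -(f.b : ℂ) + φ (F.δ : K) := by
      have h9 := F.two_th hf
      rw [two_mul] at h9
      have := congrArg (fun z : 𝓞 K => φ (z : K)) h9
      rw [two_mul]
      simpa using this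
    rw [← h8]
    have : (f.a : ℂ) ≠ 0 := by exact_mod_cast ha.ne'
    field_simp

/-! ### The reduced forms -/

/-- **The reduced forms and the ideal classes.** -/
def redEquiv (F : Frame K) (h2 : finrank ℚ K = 2) (hd : discr K < 0) :
    BForm.RForm (discr K) ≃ ClassGroup (𝓞 K) :=
  (BForm.quotientEquiv hd).trans (F.classEquiv h2 hd)

theorem redEquiv_apply (F : Frame K) (h2 : finrank ℚ K = 2) (hd : discr K < 0)
    (f : BForm.RForm (discr K)) : redEquiv F h2 hd f = F.cls f.1 := rfl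

theorem isTau_redEquiv (F : Frame K) (h2 : finrank ℚ K = 2) (hd : discr K < 0) {φ : K →+* ℂ}
    (hφ : φ (F.δ : K) = √|(discr K : ℝ)| * Complex.I) (C : ClassGroup (𝓞 K)) :
    IsTau φ C (root (discr K) ((redEquiv F h2 hd).symm C).1.1) := by
  have h := isTau_form F hφ ((redEquiv F h2 hd).symm C).1
  rwa [← redEquiv_apply F h2 hd, Equiv.apply_symm_apply] at h

/-- **The Chowla-Selberg formula over the reduced forms.** -/
theorem chowla_selberg_forms (h2 : finrank ℚ K = 2) (hd : discr K < 0) :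
    ∏ᶠ f : BForm.RForm (discr K), √|(discr K : ℝ)| / (2 * f.1.1.a) *
        ‖ModularForm.eta (root (discr K) f.1.1)‖ ^ 4 =
      ((4 * Real.pi * √|(discr K : ℝ)|) ^ classNumber K)⁻¹ *
        ∏ a ∈ Finset.Ioo 0 (discr K).natAbs, Real.Gamma (a / (discr K).natAbs) ^
          (((torsionOrder K / 2 : ℕ) : ℤ) * kron (discr K) a) := by
  obtain ⟨F⟩ := Diri.exists_frame h2
  obtain ⟨φ, hφ, hδ⟩ := exists_phi F hd
  set E := redEquiv F h2 hd with hE
  have : Finite (BForm.RForm (discr K)) := Finite.of_equiv _ E.symm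
  have : Fintype (BForm.RForm (discr K)) := Fintype.ofFinite _
  have hτ : ∀ C : ClassGroup (𝓞 K), IsTau φ C⁻¹ (root (discr K) (E.symm C⁻¹).1.1) := fun C =>
    isTau_redEquiv F h2 hd hδ C⁻¹
  rw [← chowla_selberg h2 hφ hτ, finprod_eq_prod_of_fintype]
  refine (Fintype.prod_equiv ((Equiv.inv _).trans E.symm) _ _ fun C => ?_).symm
  rw [root_im]
  rfl

/-- **The Chowla-Selberg formula, explicitly**: `d < -4` a fundamental discriminant, `h` the number
of reduced forms `a x² + b x y + c y²` of discriminant `d`: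
`∏ √|d| / (2 a) |η((-b + √d) / (2 a))|⁴ = (4 π √|d|)^(-h) ∏_{0 < m < |d|} Γ(m / |d|)^(d/m)`. -/
theorem chowla_selberg_explicit {m d : ℤ} (hm : Squarefree m) (h0 : m < 0)
    (hmd : d = if m % 4 = 1 then m else 4 * m) (h4 : d < -4) :
    ∏ᶠ f : BForm.RForm d, √|(d : ℝ)| / (2 * f.1.1.a) *
        ‖ModularForm.eta (root d f.1.1)‖ ^ 4 =
      ((4 * Real.pi * √|(d : ℝ)|) ^ BForm.hForm d)⁻¹ *
        ∏ a ∈ Finset.Ioo 0 d.natAbs, Real.Gamma (a / d.natAbs) ^ kron d a := by
  obtain ⟨K, _, _, α, h2, -, hdK⟩ := Diri.exists_quadratic_field hm (by omega)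
  rw [← hmd] at hdK
  have h := chowla_selberg_forms (K := K) h2 (by omega)
  have hw : torsionOrder K = 2 := Diri.torsionOrder_eq_two h2 (by omega)
  rw [Diri.classNumber_eq_hForm h2 (by omega), hw, hdK] at h
  rw [h]
  simp

/-- **Kronecker's solution of Pell's equation, over the reduced forms**: `e(f)` the genus
character of the ideal class of `f`. -/
theorem kronecker_pell_forms (h2 : finrank ℚ K = 2) {F₁ : Type v} [Field F₁] [NumberField F₁]
    {F₂ : Type w} [Field F₂] [NumberField F₂] (h₁ : finrank ℚ F₁ = 2) (h₂ : finrank ℚ F₂ = 2)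
    (hd₁ : 0 < discr F₁) (hd₂ : discr F₂ < 0)
    (hd : discr K = discr F₁ * discr F₂) (hcop : IsCoprime (discr F₁) (discr F₂)) (F : Frame K) :
    ∃ e : ClassGroup (𝓞 K) →* ℤˣ, e ≠ 1 ∧
      (∀ (p : ℕ), p.Prime → ¬ (p : ℤ) ∣ discr K → ∀ (P : (Ideal (𝓞 K))⁰)
        [(P : Ideal (𝓞 K)).IsPrime] [(P : Ideal (𝓞 K)).LiesOver (Ideal.span {(p : ℤ)})],
          ((e (ClassGroup.mk0 P) : ℤˣ) : ℤ) =
            kron (discr F₁) p ^ (P : Ideal (𝓞 K)).inertiaDeg ℤ) ∧
      ∑ᶠ f : BForm.RForm (discr K), (((e (F.cls f.1) : ℤˣ) : ℤ) : ℝ) *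
          Real.log (√|(discr K : ℝ)| / (2 * f.1.1.a) *
            ‖ModularForm.eta (root (discr K) f.1.1)‖ ^ 4) =
        -(4 * classNumber F₁ * classNumber F₂ * regulator F₁ / torsionOrder F₂) := by
  have hdK : discr K < 0 := by
    rw [hd]
    exact mul_neg_of_pos_of_neg hd₁ hd₂
  obtain ⟨φ, hφ, hδ⟩ := exists_phi F hdK
  obtain ⟨e, hne, hp, -, hτ⟩ := kronecker_pell h2 hφ h₁ h₂ hd₁ hd₂ hd hcop
  refine ⟨e, hne, hp, ?_⟩
  set E := redEquiv F h2 hdK with hE
  have : Finite (BForm.RForm (discr K)) := Finite.of_equiv _ E.symm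
  have : Fintype (BForm.RForm (discr K)) := Fintype.ofFinite _
  have h := (hτ (fun C => root (discr K) (E.symm C⁻¹).1.1) fun C =>
    isTau_redEquiv F h2 hdK hδ C⁻¹).1
  rw [← h, finsum_eq_sum_of_fintype]
  refine (Fintype.sum_equiv ((Equiv.inv _).trans E.symm) _ _ fun C => ?_).symm
  have h3 : F.cls (E.symm C⁻¹).1 = C⁻¹ := by
    rw [← redEquiv_apply F h2 hdK, ← hE, Equiv.apply_symm_apply]
  have h4 : (((Equiv.inv (ClassGroup (𝓞 K))).trans E.symm) C) = E.symm C⁻¹ := rfl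
  have h5 : e C⁻¹ = e C := by rw [MonoidHom.map_inv, Int.units_inv_eq_self]
  rw [h4, h3, h5, root_im]

end Fermat.Agent.Cor.Kron

end
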