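import Fermat.Agent.Corollaries.Kron.Lattice
import Fermat.Agent.Corollaries.Ray.Coprime
import Fermat.Agent.Corollaries.Diri.QuadRing

/-!
# Genus characters of an imaginary quadratic field

`K` imaginary quadratic with discriminant `d`, `D` an odd divisor of `d`. The Jacobi symbol
`(N I / D)` of the norm of an ideal `I` prime to `D` depends only on the class of `I`: it is
a character of the class group.
-/

set_option autoImplicit false

noncomputable section

namespace Fermat.Agent.Cor.Kron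

open NumberField Module
open scoped nonZeroDivisors

universe u

variable {K : Type u} [Field K] [NumberField K]

theorem discr_neg (h2 : finrank ℚ K = 2) {φ : K →+* ℂ} (hφ : ¬ ComplexEmbedding.IsReal φ) :
    discr K < 0 := by
  classical
  have h1 := InfinitePlace.card_add_two_mul_card_eq_rank K
  have h3 : 0 < InfinitePlace.nrComplexPlaces K := by
    have : Nonempty {w : InfinitePlace K // w.IsComplex} :=
      ⟨⟨InfinitePlace.mk φ, (InfinitePlace.isComplex_mk_iff).mpr hφ⟩⟩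
    exact Fintype.card_pos
  have h4 : InfinitePlace.nrComplexPlaces K = 1 := by
    rw [h2] at h1
    omega
  have h5 := sign_discr K
  rw [h4, pow_one] at h5
  exact Int.sign_eq_neg_one_iff_neg.mp h5

/-- **The norm form**: `2 α = a + b δ`, `4 N(α) = a² - d b²`. -/
theorem exists_norm_form (h2 : finrank ℚ K = 2) {φ : K →+* ℂ}
    (hφ : ¬ ComplexEmbedding.IsReal φ) :
    ∃ δ : 𝓞 K, δ ^ 2 = ((discr K : ℤ) : 𝓞 K) ∧
      ∀ α : 𝓞 K, ∃ a b : ℤ, 2 * α = (a : 𝓞 K) + b * δ ∧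
        4 * (Ideal.absNorm (Ideal.span {α}) : ℤ) = a ^ 2 - discr K * b ^ 2 := by
  obtain ⟨δ, hδ, hα, -⟩ := Diri.exists_delta (K := K) h2
  refine ⟨δ, hδ, fun α => ?_⟩
  obtain ⟨a, b, hab⟩ := hα α
  refine ⟨a, b, hab, ?_⟩
  have hd := discr_neg h2 hφ
  have hdR : ((discr K : ℤ) : ℝ) < 0 := by exact_mod_cast hd
  have e1 : (φ (δ : K)) ^ 2 = ((discr K : ℤ) : ℂ) := by
    have := congrArg (fun z : 𝓞 K => φ (z : K)) hδ
    simpa using this
  have hre : (φ (δ : K)).re = 0 ∧ (φ (δ : K)).im ^ 2 = -((discr K : ℤ) : ℝ) := by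
    have h3 := congrArg Complex.re e1
    have h4 := congrArg Complex.im e1
    rw [sq, Complex.mul_re, Complex.intCast_re] at h3
    rw [sq, Complex.mul_im, Complex.intCast_im] at h4
    have h5 : (φ (δ : K)).re * (φ (δ : K)).im = 0 := by linarith
    rcases mul_eq_zero.mp h5 with h | h
    · refine ⟨h, ?_⟩
      rw [h] at h3
      linarith
    · exfalso
      rw [h] at h3
      nlinarith [mul_self_nonneg (φ (δ : K)).re]
  have e2 : 2 * φ (α : K) = (a : ℂ) + b * φ (δ : K) := by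
    have h3 := hab
    rw [two_mul] at h3
    have := congrArg (fun z : 𝓞 K => φ (z : K)) h3
    rw [two_mul]
    simpa using this
  have e3 : (4 : ℝ) * ‖φ (α : K)‖ ^ 2 = (a : ℝ) ^ 2 - (discr K : ℤ) * (b : ℝ) ^ 2 := by
    have h3 : ‖2 * φ (α : K)‖ ^ 2 = (a : ℝ) ^ 2 - (discr K : ℤ) * (b : ℝ) ^ 2 := by
      rw [e2, ← Complex.normSq_eq_norm_sq, Complex.normSq_apply]
      simp only [Complex.add_re, Complex.add_im, Complex.mul_re, Complex.mul_im,
        Complex.intCast_re, Complex.intCast_im, hre.1]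
      linear_combination (b : ℝ) ^ 2 * hre.2
    rw [← h3, norm_mul, mul_pow]
    norm_num
  have e4 : ((Ideal.absNorm (Ideal.span {α}) : ℕ) : ℝ) = ‖φ (α : K)‖ ^ 2 := by
    rw [Ideal.absNorm_span_singleton, Nat.cast_natAbs]
    have h3 := abs_norm_eq h2 hφ (α : K)
    rw [← h3, ← Algebra.coe_norm_int]
    push_cast
    rfl
  rw [← e4] at e3
  exact_mod_cast e3

theorem coprime_absNorm {I : Ideal (𝓞 K)} {D : ℕ} (h : IsCoprime I (Ideal.span {(D : 𝓞 K)})) :
    (Ideal.absNorm I).Coprime D := by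
  rw [Nat.coprime_iff_gcd_eq_one]
  by_contra hne
  obtain ⟨p, hp, hpd⟩ := Nat.exists_prime_and_dvd hne
  obtain ⟨P, hP, hPu, hPI⟩ := Ideal.exists_isMaximal_dvd_of_dvd_absNorm' hp I
    (hpd.trans (Nat.gcd_dvd_left _ _))
  have h1 : (p : 𝓞 K) ∈ P := by
    have h3 : (p : ℤ) ∈ P.under ℤ := by
      rw [hPu]
      exact Ideal.mem_span_singleton_self _
    rw [Ideal.mem_comap] at h3
    simpa using h3
  have h4 : Ideal.span {(D : 𝓞 K)} ≤ P := by
    rw [Ideal.span_singleton_le_iff_mem]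
    obtain ⟨c, hc⟩ := hpd.trans (Nat.gcd_dvd_right (Ideal.absNorm I) D)
    rw [hc, Nat.cast_mul]
    exact P.mul_mem_right _ h1
  apply hP.ne_top
  rw [Ideal.isCoprime_iff_sup_eq] at h
  rw [eq_top_iff, ← h]
  exact sup_le (Ideal.dvd_iff_le.mp hPI) h4

/-- the symbol of a principal ideal -/
theorem jacobi_span (h2 : finrank ℚ K = 2) {φ : K →+* ℂ} (hφ : ¬ ComplexEmbedding.IsReal φ)
    {D : ℕ} (hodd : Odd D) (hD : (D : ℤ) ∣ discr K) {α : 𝓞 K}
    (hα : IsCoprime (Ideal.span {α}) (Ideal.span {(D : 𝓞 K)})) :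
    jacobiSym (Ideal.absNorm (Ideal.span {α})) D = 1 := by
  obtain ⟨δ, -, hform⟩ := exists_norm_form h2 hφ
  obtain ⟨a, b, -, hab⟩ := hform α
  set n : ℕ := Ideal.absNorm (Ideal.span {α}) with hn
  have hcop : n.Coprime D := coprime_absNorm hα
  have h1 : jacobiSym (4 * n) D = jacobiSym (a ^ 2) D := by
    refine jacobiSym.mod_left' ?_
    rw [hab]
    obtain ⟨c, hc⟩ := hD
    rw [hc]
    have : a ^ 2 - D * c * b ^ 2 = a ^ 2 + D * (-(c * b ^ 2)) := by ring
    rw [this, Int.add_mul_emod_self_left]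
  have h2' : Int.gcd 2 D = 1 := by
    rw [Int.gcd_eq_natAbs]
    exact (Nat.coprime_two_left).mpr hodd
  have h4 : jacobiSym 4 D = 1 := by
    have e : (4 : ℤ) = 2 ^ 2 := by norm_num
    rw [e]
    exact jacobiSym.sq_one' h2'
  rw [jacobiSym.mul_left, h4, one_mul] at h1
  rw [h1]
  refine jacobiSym.sq_one' ?_
  by_contra hne
  have h5 : jacobiSym (a ^ 2) D = 0 := by
    rw [jacobiSym.pow_left]
    have h6 : jacobiSym a D = 0 := by
      have : NeZero D := ⟨by
        rintro rfl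
        exact absurd hodd (by decide)⟩
      exact jacobiSym.eq_zero_iff_not_coprime.mpr hne
    rw [h6]
    norm_num
  rw [h5] at h1
  have h7 := jacobiSym.ne_zero (a := (n : ℤ)) (b := D) (by
    rw [Int.gcd_natCast_natCast]
    exact hcop)
  exact h7 h1

theorem jacobi_ne_zero {I : Ideal (𝓞 K)} {D : ℕ} (h : IsCoprime I (Ideal.span {(D : 𝓞 K)})) :
    jacobiSym (Ideal.absNorm I) D ≠ 0 :=
  jacobiSym.ne_zero (by
    rw [Int.gcd_natCast_natCast]
    exact coprime_absNorm h)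

/-- the symbol depends only on the ideal class -/
theorem jacobi_eq_of_mk0_eq (h2 : finrank ℚ K = 2) {φ : K →+* ℂ}
    (hφ : ¬ ComplexEmbedding.IsReal φ) {D : ℕ} (hodd : Odd D) (hD : (D : ℤ) ∣ discr K)
    {I I' : (Ideal (𝓞 K))⁰} (hI : IsCoprime (I : Ideal (𝓞 K)) (Ideal.span {(D : 𝓞 K)}))
    (hI' : IsCoprime (I' : Ideal (𝓞 K)) (Ideal.span {(D : 𝓞 K)}))
    (h : ClassGroup.mk0 I = ClassGroup.mk0 I') :
    jacobiSym (Ideal.absNorm (I : Ideal (𝓞 K))) D =
      jacobiSym (Ideal.absNorm (I' : Ideal (𝓞 K))) D := by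
  have hD0 : D ≠ 0 := by
    rintro rfl
    exact absurd hodd (by decide)
  have hm : Ideal.span {(D : 𝓞 K)} ≠ ⊥ := by
    rw [Ne, Ideal.span_singleton_eq_bot, Nat.cast_eq_zero]
    exact hD0
  obtain ⟨J, a, -, hJ, ha, hIJ⟩ := Ray.exists_mul_eq_span hm hI
  have h1 : ClassGroup.mk0 (I' * J) = 1 := by
    rw [map_mul, ← h, ← map_mul, ClassGroup.mk0_eq_one_iff (SetLike.coe_mem (I * J))]
    exact ⟨a, hIJ⟩
  rw [ClassGroup.mk0_eq_one_iff (SetLike.coe_mem (I' * J))] at h1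
  obtain ⟨x, hx⟩ := h1.principal
  have hx' : (I' : Ideal (𝓞 K)) * (J : Ideal (𝓞 K)) = Ideal.span {x} := hx
  have hxc : IsCoprime (Ideal.span {x}) (Ideal.span {(D : 𝓞 K)}) := by
    rw [← hx']
    exact IsCoprime.mul_left hI' hJ
  have e1 := jacobi_span h2 hφ hodd hD ha
  have e2 := jacobi_span h2 hφ hodd hD hxc
  rw [← hIJ, map_mul, Nat.cast_mul, jacobiSym.mul_left] at e1
  rw [← hx', map_mul, Nat.cast_mul, jacobiSym.mul_left, ← e1] at e2
  exact (mul_right_cancel₀ (jacobi_ne_zero hJ) e2).symm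

/-- **(G1) The genus character** of the class group attached to an odd divisor `D` of the
discriminant: `χ([I]) = (N I / D)`. -/
theorem exists_genus_char (h2 : finrank ℚ K = 2) {φ : K →+* ℂ}
    (hφ : ¬ ComplexEmbedding.IsReal φ) {D : ℕ} (hodd : Odd D) (hD : (D : ℤ) ∣ discr K) :
    ∃ χ : ClassGroup (𝓞 K) →* ℂˣ, ∀ I : (Ideal (𝓞 K))⁰,
      IsCoprime (I : Ideal (𝓞 K)) (Ideal.span {(D : 𝓞 K)}) →
        ((χ (ClassGroup.mk0 I) : ℂˣ) : ℂ) =
          ((jacobiSym (Ideal.absNorm (I : Ideal (𝓞 K))) D : ℤ) : ℂ) := by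
  have hD0 : D ≠ 0 := by
    rintro rfl
    exact absurd hodd (by decide)
  have hm : Ideal.span {(D : 𝓞 K)} ≠ ⊥ := by
    rw [Ne, Ideal.span_singleton_eq_bot, Nat.cast_eq_zero]
    exact hD0
  choose M hMC hM using fun C : ClassGroup (𝓞 K) => Ray.exists_coprime_mk0 (m := Ideal.span {(D : 𝓞 K)}) C hm
  let f : ClassGroup (𝓞 K) →* ℂ :=
    { toFun := fun C => ((jacobiSym (Ideal.absNorm (M C : Ideal (𝓞 K))) D : ℤ) : ℂ)
      map_one' := by
        have h1 : jacobiSym (Ideal.absNorm (M 1 : Ideal (𝓞 K))) D =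
            jacobiSym (Ideal.absNorm ((1 : (Ideal (𝓞 K))⁰) : Ideal (𝓞 K))) D :=
          jacobi_eq_of_mk0_eq h2 hφ hodd hD (hM 1) (by
            rw [OneMemClass.coe_one]
            exact isCoprime_one_left) (by rw [hMC, map_one])
        rw [h1]
        simp
      map_mul' := fun C C' => by
        have h1 : jacobiSym (Ideal.absNorm (M (C * C') : Ideal (𝓞 K))) D =
            jacobiSym (Ideal.absNorm ((M C * M C' : (Ideal (𝓞 K))⁰) : Ideal (𝓞 K))) D :=
          jacobi_eq_of_mk0_eq h2 hφ hodd hD (hM _) (by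
            rw [Submonoid.coe_mul]
            exact IsCoprime.mul_left (hM C) (hM C')) (by rw [hMC, map_mul, hMC, hMC])
        rw [h1, Submonoid.coe_mul, map_mul, Nat.cast_mul, jacobiSym.mul_left, Int.cast_mul] }
  refine ⟨f.toHomUnits, fun I hI => ?_⟩
  rw [MonoidHom.coe_toHomUnits]
  show ((jacobiSym (Ideal.absNorm (M (ClassGroup.mk0 I) : Ideal (𝓞 K))) D : ℤ) : ℂ) = _
  rw [jacobi_eq_of_mk0_eq h2 hφ hodd hD (hM _) hI (hMC _)]

end Fermat.Agent.Cor.Kron

end
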