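import Fermat.Agent.Corollaries.Kron.GenusRam
import Fermat.Agent.Corollaries.Diri.Decomp
import Fermat.Agent.Corollaries.Diri.QuadDisc

/-!
# The local factors of genus characters

`K` imaginary quadratic with discriminant `d = d₁ d₂`, `d₂ ≡ 1 mod 4` squarefree, prime to `d₁`;
`χ([I]) = (N I / |d₂|)`. For every prime `p` and every prime `P` over `p` with inertia degree `f`,
`g` the number of primes over `p`:
`(1 - (d₁/p) T) (1 - (d₂/p) T) = (1 - χ(P) T^f)^g`.
-/

set_option autoImplicit false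

noncomputable section

namespace Fermat.Agent.Cor.Kron

open NumberField Module
open scoped nonZeroDivisors
open Fermat.Agent.Cor.Diri (kron)

universe u

variable {K : Type u} [Field K] [NumberField K]

theorem kron_mul (d₁ d₂ : ℤ) (a : ℕ) : kron (d₁ * d₂) a = kron d₁ a * kron d₂ a := by
  unfold Diri.kron
  rw [Int.cast_mul, map_mul, mul_pow, jacobiSym.mul_left]
  ring

/-- reciprocity -/
theorem kron_eq_jacobi {d : ℤ} (h : d % 4 = 1) {p : ℕ} (hp : p.Prime) :
    kron d p = jacobiSym p d.natAbs := by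
  have hd : Odd d.natAbs := by
    rw [Int.natAbs_odd, Int.odd_iff]
    omega
  rcases eq_or_ne p 2 with rfl | hp2
  · rw [Diri.kron_two, Nat.cast_ofNat, jacobiSym.at_two hd]
    rcases Int.natAbs_eq d with h1 | h1
    · conv_lhs => rw [h1]
      rw [Int.cast_natCast]
    · conv_lhs => rw [h1]
      rw [Int.cast_neg, Int.cast_natCast, Diri.chi8_neg]
  · have hpo : Odd p := hp.odd_of_ne_two hp2
    rw [Diri.kron_odd d hpo]
    rcases Int.natAbs_eq d with h1 | h1
    · have h3 : d.natAbs % 4 = 1 := by omega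
      conv_lhs => rw [h1]
      exact jacobiSym.quadratic_reciprocity_one_mod_four h3 hpo
    · have h3 : d.natAbs % 4 = 3 := by omega
      have h5 : jacobiSym d p = jacobiSym (-1) p * jacobiSym (d.natAbs : ℤ) p := by
        conv_lhs => rw [h1, ← neg_one_mul, jacobiSym.mul_left]
      rw [h5, jacobiSym.at_neg_one hpo]
      have h4 : p % 4 = 1 ∨ p % 4 = 3 := by
        rw [Nat.odd_iff] at hpo
        omega
      rcases h4 with h4 | h4
      · rw [ZMod.χ₄_nat_one_mod_four h4, one_mul]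
        exact (jacobiSym.quadratic_reciprocity_one_mod_four h4 hd).symm
      · rw [ZMod.χ₄_nat_three_mod_four h4, jacobiSym.quadratic_reciprocity_three_mod_four h3 h4]
        ring

/-- an odd discriminant of a quadratic field is squarefree -/
theorem squarefree_discr (h2 : finrank ℚ K = 2) (hodd : Odd (discr K)) :
    Squarefree (discr K) := by
  obtain ⟨δ, hδ, hall, -⟩ := Diri.exists_delta (K := K) h2
  obtain ⟨m, f, hmf, hm⟩ := Nat.sq_mul_squarefree (discr K).natAbs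
  have hd0 : (discr K) ≠ 0 := discr_ne_zero K
  have hf0 : f ≠ 0 := by
    rintro rfl
    rw [zero_pow two_ne_zero, zero_mul] at hmf
    exact hd0 (Int.natAbs_eq_zero.mp hmf.symm)
  obtain ⟨μ, hμm, hμ⟩ : ∃ μ : ℤ, μ.natAbs = m ∧ discr K = f ^ 2 * μ := by
    rcases Int.natAbs_eq (discr K) with h | h
    · refine ⟨m, Int.natAbs_natCast m, ?_⟩
      rw [h, ← hmf]
      push_cast
      ring
    · refine ⟨-m, by rw [Int.natAbs_neg, Int.natAbs_natCast], ?_⟩
      rw [h, ← hmf]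
      push_cast
      ring
  have hμs : Squarefree μ := by
    rw [← Int.squarefree_natAbs, hμm]
    exact hm
  have hfK : (f : K) ≠ 0 := Nat.cast_ne_zero.mpr hf0
  have hα : ((δ : K) / f) ^ 2 = (μ : K) := by
    have h3 := congrArg (fun z : 𝓞 K => (z : K)) hδ
    have h4 : (δ : K) ^ 2 = ((discr K : ℤ) : K) := by simpa using h3
    rw [div_pow, h4, hμ]
    push_cast
    field_simp
  have hμ1 : μ ≠ 1 := by
    rintro rfl
    -- then `K = ℚ`
    have h3 : ∃ c : ℤ, (δ : K) = c := by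
      have h4 : ((δ : K) / f - 1) * ((δ : K) / f + 1) = 0 := by
        have : ((δ : K) / f) ^ 2 = 1 := by rw [hα, Int.cast_one]
        linear_combination this
      rcases mul_eq_zero.mp h4 with h5 | h5
      · exact ⟨f, by
          field_simp at h5
          push_cast
          linear_combination h5⟩
      · exact ⟨-f, by
          field_simp at h5
          push_cast
          linear_combination h5⟩
    obtain ⟨c, hc⟩ := h3
    have hc' : δ = (c : 𝓞 K) := RingOfIntegers.coe_injective (by simpa using hc)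
    have hr : finrank ℤ (𝓞 K) = 2 := by rw [RingOfIntegers.rank, h2]
    let b : Basis (Fin 2) ℤ (𝓞 K) := finBasisOfFinrankEq ℤ (𝓞 K) hr
    have hint : ∀ α : 𝓞 K, ∃ n : ℤ, 2 * α = n := fun α => by
      obtain ⟨x, y, hxy⟩ := hall α
      exact ⟨x + y * c, by rw [hxy, hc']; push_cast; ring⟩
    obtain ⟨x, hx⟩ := hint (b 0)
    obtain ⟨y, hy⟩ := hint (b 1)
    have h4 := Fintype.linearIndependent_iff.mp b.linearIndependent ![y, -x] (by
      rw [Fin.sum_univ_two]
      simp only [Matrix.cons_val_zero, Matrix.cons_val_one, zsmul_eq_mul, Int.cast_neg]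
      have h6 : (2 : 𝓞 K) * ((y : 𝓞 K) * b 0 + -(x : 𝓞 K) * b 1) = 0 := by
        linear_combination (y : 𝓞 K) * hx - (x : 𝓞 K) * hy
      exact (mul_eq_zero.mp h6).resolve_left two_ne_zero) 0
    have h5 : y = 0 := h4
    rw [h5, Int.cast_zero] at hy
    exact b.ne_zero 1 ((mul_eq_zero.mp hy).resolve_left two_ne_zero)
  have h5 := Diri.discr_eq_of_sq h2 hμs hμ1 hα
  split_ifs at h5 with h6
  · rw [h5]
    exact hμs
  · exfalso
    rw [h5] at hodd
    exact (Int.not_odd_iff_even.mpr (Even.mul_right (by decide) _)) hodd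

/-- **The local factors of a genus character.** -/
theorem genus_local (h2 : finrank ℚ K = 2) {φ : K →+* ℂ} (hφ : ¬ ComplexEmbedding.IsReal φ)
    {d₁ d₂ : ℤ} (hd : discr K = d₁ * d₂) (h4 : d₂ % 4 = 1) (hsf : Squarefree d₂)
    (hcop : IsCoprime d₁ d₂) {χ : ClassGroup (𝓞 K) →* ℂˣ}
    (hχ : ∀ I : (Ideal (𝓞 K))⁰,
      IsCoprime (I : Ideal (𝓞 K)) (Ideal.span {((d₂.natAbs : ℕ) : 𝓞 K)}) →
        ((χ (ClassGroup.mk0 I) : ℂˣ) : ℂ) =
          ((jacobiSym (Ideal.absNorm (I : Ideal (𝓞 K))) d₂.natAbs : ℤ) : ℂ))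
    {p : ℕ} (hp : p.Prime) (P : (Ideal (𝓞 K))⁰) [hPp : (P : Ideal (𝓞 K)).IsPrime]
    [hPo : (P : Ideal (𝓞 K)).LiesOver (Ideal.span {(p : ℤ)})] :
    ((χ (ClassGroup.mk0 P) : ℂˣ) : ℂ) =
        (if (p : ℤ) ∣ d₂ then ((kron d₁ p : ℤ) : ℂ) else
          ((kron d₂ p ^ (P : Ideal (𝓞 K)).inertiaDeg ℤ : ℤ) : ℂ)) ∧
      ∀ T : ℂ, (1 - ((kron d₁ p : ℤ) : ℂ) * T) * (1 - ((kron d₂ p : ℤ) : ℂ) * T) =
        (1 - ((χ (ClassGroup.mk0 P) : ℂˣ) : ℂ) * T ^ (P : Ideal (𝓞 K)).inertiaDeg ℤ) ^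
          ((Ideal.span {(p : ℤ)}).primesOver (𝓞 K)).ncard := by
  have hN : Ideal.absNorm (P : Ideal (𝓞 K)) = p ^ (P : Ideal (𝓞 K)).inertiaDeg ℤ :=
    (Ideal.pow_inertiaDeg p (P : Ideal (𝓞 K))).symm
  have hdec := Diri.decomposition h2 hp (P : Ideal (𝓞 K))
  rw [hd, kron_mul] at hdec
  have hv1 : ¬ (p : ℤ) ∣ d₂ → ((χ (ClassGroup.mk0 P) : ℂˣ) : ℂ) =
      ((kron d₂ p ^ (P : Ideal (𝓞 K)).inertiaDeg ℤ : ℤ) : ℂ) := by
    intro hpd
    have hco : IsCoprime (P : Ideal (𝓞 K)) (Ideal.span {((d₂.natAbs : ℕ) : 𝓞 K)}) := by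
      have hmax : (P : Ideal (𝓞 K)).IsMaximal :=
        hPp.isMaximal (nonZeroDivisors.coe_ne_zero P)
      rw [Ideal.isCoprime_iff_sup_eq]
      by_contra hne
      have h3 : Ideal.span {((d₂.natAbs : ℕ) : 𝓞 K)} ≤ (P : Ideal (𝓞 K)) := by
        have h4 := hmax.eq_of_le hne le_sup_left
        rw [h4]
        exact le_sup_right
      rw [Ideal.span_singleton_le_iff_mem] at h3
      have h5 := (Diri.intCast_mem_iff (P := (P : Ideal (𝓞 K))) (p := p) (d₂.natAbs : ℤ)).mp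
        (by simpa using h3)
      exact hpd (Int.dvd_natAbs.mp h5)
    rw [hχ P hco, hN, Nat.cast_pow, jacobiSym.pow_left, kron_eq_jacobi h4 hp]
  have hv2 : (p : ℤ) ∣ d₂ → kron d₂ p = 0 ∧ ((P : Ideal (𝓞 K)).inertiaDeg ℤ = 1 →
      ((χ (ClassGroup.mk0 P) : ℂˣ) : ℂ) = ((kron d₁ p : ℤ) : ℂ)) := by
    intro hpd
    have hp2 : p ≠ 2 := by
      rintro rfl
      obtain ⟨c, hc⟩ := hpd
      push_cast at hc
      omega
    refine ⟨?_, fun hf => ?_⟩
    · rw [kron_eq_jacobi h4 hp]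
      have : NeZero d₂.natAbs := ⟨Int.natAbs_ne_zero.mpr hsf.ne_zero⟩
      rw [jacobiSym.eq_zero_iff_not_coprime]
      intro h3
      have h5 : (p : ℤ) ∣ (Int.gcd (p : ℤ) (d₂.natAbs : ℤ) : ℤ) :=
        Int.dvd_coe_gcd dvd_rfl (Int.dvd_natAbs.mpr hpd)
      rw [h3] at h5
      exact hp.one_lt.ne' (by exact_mod_cast Int.eq_one_of_dvd_one (by positivity) h5)
    · rw [hf, pow_one] at hN
      rw [genus_char_ram h2 hφ hd h4 hsf hcop hχ hp hpd hN,
        Diri.kron_odd d₁ (hp.odd_of_ne_two hp2)]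
  rcases hdec with ⟨hk, hf, hg⟩ | ⟨hk, hf, hg⟩ | ⟨hk, hf, hg⟩
  · have hpd : ¬ (p : ℤ) ∣ d₂ := fun h => by
      rw [(hv2 h).1, mul_zero] at hk
      exact zero_ne_one hk
    have hv := hv1 hpd
    rw [if_neg hpd]
    refine ⟨hv, fun T => ?_⟩
    rw [hv, hf, hg, pow_one, pow_one]
    rcases Int.mul_eq_one_iff_eq_one_or_neg_one.mp hk with ⟨h5, h6⟩ | ⟨h5, h6⟩
    · rw [h5, h6]
      ring
    · rw [h5, h6]
      ring
  · have hpd : ¬ (p : ℤ) ∣ d₂ := fun h => by
      rw [(hv2 h).1, mul_zero] at hk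
      norm_num at hk
    have hv := hv1 hpd
    rw [if_neg hpd]
    refine ⟨hv, fun T => ?_⟩
    rw [hv, hf, hg, pow_one]
    rcases Int.mul_eq_neg_one_iff_eq_one_or_neg_one.mp hk with ⟨h5, h6⟩ | ⟨h5, h6⟩
    · rw [h5, h6]
      push_cast
      ring
    · rw [h5, h6]
      push_cast
      ring
  · by_cases hpd : (p : ℤ) ∣ d₂
    · obtain ⟨h5, h6⟩ := hv2 hpd
      rw [if_pos hpd]
      refine ⟨h6 hf, fun T => ?_⟩
      rw [h6 hf, hf, hg, h5]
      push_cast
      ring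
    · have hv := hv1 hpd
      rw [if_neg hpd]
      refine ⟨hv, fun T => ?_⟩
      have hk2 : kron d₂ p ≠ 0 := by
        rw [kron_eq_jacobi h4 hp]
        refine jacobiSym.ne_zero ?_
        rw [← Int.isCoprime_iff_gcd_eq_one, (Nat.prime_iff_prime_int.mp hp).coprime_iff_not_dvd]
        exact fun h => hpd (Int.dvd_natAbs.mp h)
      have hk1 : kron d₁ p = 0 := (mul_eq_zero.mp hk).resolve_right hk2
      rw [hv, hf, hg, hk1, pow_one]
      push_cast
      ring

end Fermat.Agent.Cor.Kron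

end
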