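import Fermat.Agent.Corollaries.Kron.GenusChar

/-!
# Genus characters at the ramified primes

`K` imaginary quadratic with discriminant `d = d₁ d₂`, `d₂ ≡ 1 mod 4` squarefree, prime to `d₁`.
The genus character `χ([I]) = (N I / |d₂|)` takes the value `(d₁ / p)` at the prime ideal of norm
`p`, for `p ∣ d₂`.
-/

set_option autoImplicit false

noncomputable section

namespace Fermat.Agent.Cor.Kron

open NumberField Module
open scoped nonZeroDivisors

universe u

variable {K : Type u} [Field K] [NumberField K]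

theorem jacobi_sq_eq_one {a : ℤ} {b : ℕ} (h : jacobiSym a b ≠ 0) :
    jacobiSym a b * jacobiSym a b = 1 := by
  rcases jacobiSym.trichotomy a b with h1 | h1 | h1
  · exact absurd h1 h
  · rw [h1]; norm_num
  · rw [h1]; norm_num

/-- a form of the law of quadratic reciprocity -/
theorem recip_aux {p : ℕ} {e : ℤ} (h : ((p : ℤ) * e) % 4 = 1) (hcop : Int.gcd e p = 1) :
    jacobiSym (-e) p * jacobiSym p e.natAbs = 1 := by
  have hp2 : p % 2 = 1 := by
    rcases Nat.even_or_odd p with h3 | h3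
    · exfalso
      obtain ⟨c, hc⟩ := h3
      have : ((p : ℤ) * e) = 2 * (c * e) := by
        rw [hc]
        push_cast
        ring
      omega
    · exact Nat.odd_iff.mp h3
  have hp : Odd p := Nat.odd_iff.mpr hp2
  have he : Odd e.natAbs := by
    rw [Int.natAbs_odd]
    by_contra h3
    rw [Int.not_odd_iff_even] at h3
    obtain ⟨c, hc⟩ := h3
    have : ((p : ℤ) * e) = 2 * (p * c) := by
      rw [hc]
      ring
    omega
  have hne : jacobiSym (e.natAbs : ℤ) p ≠ 0 := jacobiSym.ne_zero (by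
    rw [Int.gcd_natCast_natCast]
    simpa [Int.gcd_eq_natAbs] using hcop)
  have hsq := jacobi_sq_eq_one hne
  have hneg : jacobiSym (-1) p = ZMod.χ₄ p := jacobiSym.at_neg_one hp
  have h4 : p % 4 = 1 ∨ p % 4 = 3 := by omega
  rcases h4 with h4 | h4
  · have h5 : jacobiSym (-1) p = 1 := by
      rw [hneg, ZMod.χ₄_nat_one_mod_four h4]
    have h6 : jacobiSym (-e) p = jacobiSym (e.natAbs : ℤ) p := by
      rcases Int.natAbs_eq e with h7 | h7
      · conv_lhs => rw [h7, ← neg_one_mul, jacobiSym.mul_left, h5, one_mul]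
      · conv_lhs => rw [h7, neg_neg]
    rw [h6, jacobiSym.quadratic_reciprocity_one_mod_four h4 he, hsq]
  · have h5 : jacobiSym (-1) p = -1 := by
      rw [hneg, ZMod.χ₄_nat_three_mod_four h4]
    have h8 : e % 4 = 3 := by
      obtain ⟨k, hk⟩ : ∃ k : ℤ, (p : ℤ) = 4 * k + 3 := ⟨(p : ℤ) / 4, by omega⟩
      have h9 : (p : ℤ) * e = 4 * (k * e) + 3 * e := by
        rw [hk]
        ring
      rw [h9] at h
      omega
    rcases Int.natAbs_eq e with h7 | h7
    · have h9 : e.natAbs % 4 = 3 := by omega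
      have h6 : jacobiSym (-e) p = -jacobiSym (e.natAbs : ℤ) p := by
        conv_lhs => rw [h7, ← neg_one_mul, jacobiSym.mul_left, h5]
        ring
      rw [h6, jacobiSym.quadratic_reciprocity_three_mod_four h4 h9]
      linear_combination hsq
    · have h9 : e.natAbs % 4 = 1 := by omega
      have h6 : jacobiSym (-e) p = jacobiSym (e.natAbs : ℤ) p := by
        conv_lhs => rw [h7, neg_neg]
      rw [h6, jacobiSym.quadratic_reciprocity_one_mod_four' hp h9, hsq]

/-- **(G2) The value at the ramified primes.** -/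
theorem genus_char_ram (h2 : finrank ℚ K = 2) {φ : K →+* ℂ} (hφ : ¬ ComplexEmbedding.IsReal φ)
    {d₁ d₂ : ℤ} (hd : discr K = d₁ * d₂) (h4 : d₂ % 4 = 1) (hsf : Squarefree d₂)
    (hcop : IsCoprime d₁ d₂) {χ : ClassGroup (𝓞 K) →* ℂˣ}
    (hχ : ∀ I : (Ideal (𝓞 K))⁰,
      IsCoprime (I : Ideal (𝓞 K)) (Ideal.span {((d₂.natAbs : ℕ) : 𝓞 K)}) →
        ((χ (ClassGroup.mk0 I) : ℂˣ) : ℂ) =
          ((jacobiSym (Ideal.absNorm (I : Ideal (𝓞 K))) d₂.natAbs : ℤ) : ℂ))
    {p : ℕ} (hp : p.Prime) (hpd : (p : ℤ) ∣ d₂) {P : (Ideal (𝓞 K))⁰}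
    (hP : Ideal.absNorm (P : Ideal (𝓞 K)) = p) :
    ((χ (ClassGroup.mk0 P) : ℂˣ) : ℂ) = ((jacobiSym d₁ p : ℤ) : ℂ) := by
  obtain ⟨e, he⟩ := hpd
  have hd20 : d₂ ≠ 0 := hsf.ne_zero
  have hD0 : d₂.natAbs ≠ 0 := Int.natAbs_ne_zero.mpr hd20
  have hm : Ideal.span {((d₂.natAbs : ℕ) : 𝓞 K)} ≠ ⊥ := by
    rw [Ne, Ideal.span_singleton_eq_bot, Nat.cast_eq_zero]
    exact hD0
  obtain ⟨M, hMC, hM⟩ := Ray.exists_coprime_mk0 (m := Ideal.span {((d₂.natAbs : ℕ) : 𝓞 K)})
    (ClassGroup.mk0 P)⁻¹ hm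
  have h1 : ClassGroup.mk0 (P * M) = 1 := by
    rw [map_mul, hMC, mul_inv_cancel]
  rw [ClassGroup.mk0_eq_one_iff (SetLike.coe_mem (P * M))] at h1
  obtain ⟨α, hα⟩ := h1.principal
  have hα' : (P : Ideal (𝓞 K)) * (M : Ideal (𝓞 K)) = Ideal.span {α} := hα
  set m : ℕ := Ideal.absNorm (M : Ideal (𝓞 K)) with hmdef
  have hmD : m.Coprime d₂.natAbs := coprime_absNorm hM
  obtain ⟨δ, -, hform⟩ := exists_norm_form h2 hφ
  obtain ⟨a, b, -, hab⟩ := hform α
  rw [← hα', map_mul, hP, ← hmdef, hd, he] at hab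
  -- the symbols
  have hnat : d₂.natAbs = p * e.natAbs := by
    rw [he, Int.natAbs_mul, Int.natAbs_natCast]
  have hmp : m.Coprime p := by
    rw [hnat] at hmD
    exact Nat.Coprime.coprime_mul_right_right hmD
  have hme : m.Coprime e.natAbs := by
    rw [hnat] at hmD
    exact Nat.Coprime.coprime_mul_left_right hmD
  have hpe : Int.gcd e p = 1 := by
    rw [Int.gcd_comm, ← Int.isCoprime_iff_gcd_eq_one]
    rw [he] at hsf
    exact (isRelPrime_iff_isCoprime).mp (IsRelPrime.of_squarefree_mul hsf)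
  have hodd : Odd d₂.natAbs := by
    rw [Int.natAbs_odd, Int.odd_iff]
    omega
  have hpodd : Odd p := by
    rw [hnat] at hodd
    exact Nat.Odd.of_mul_left hodd
  have heodd : Odd e.natAbs := by
    rw [hnat] at hodd
    exact Nat.Odd.of_mul_right hodd
  have hp0 : (p : ℤ) ≠ 0 := by exact_mod_cast hp.ne_zero
  obtain ⟨a', ha'⟩ : (p : ℤ) ∣ a := by
    have hpr : Prime (p : ℤ) := Nat.prime_iff_prime_int.mp hp
    refine hpr.dvd_of_dvd_pow (n := 2) ⟨4 * m + d₁ * e * b ^ 2, ?_⟩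
    push_cast at hab
    linear_combination -hab
  have hab' : 4 * (m : ℤ) = p * a' ^ 2 - d₁ * e * b ^ 2 := by
    rw [ha'] at hab
    push_cast at hab
    refine mul_left_cancel₀ hp0 ?_
    linear_combination hab
  have j4 : ∀ n : ℕ, Odd n → jacobiSym 4 n = 1 := by
    intro n hn
    have e4 : (4 : ℤ) = 2 ^ 2 := by norm_num
    rw [e4]
    refine jacobiSym.sq_one' ?_
    rw [Int.gcd_eq_natAbs]
    exact (Nat.coprime_two_left).mpr hn
  have s1 : jacobiSym m p = jacobiSym (d₁ * -e) p := by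
    have h5 : jacobiSym (4 * m) p = jacobiSym (d₁ * -e * b ^ 2) p := by
      refine jacobiSym.mod_left' ?_
      rw [hab']
      have : (p : ℤ) * a' ^ 2 - d₁ * e * b ^ 2 = d₁ * -e * b ^ 2 + p * a' ^ 2 := by ring
      rw [this, Int.add_mul_emod_self_left]
    rw [jacobiSym.mul_left, j4 p hpodd, one_mul, jacobiSym.mul_left, jacobiSym.pow_left, sq] at h5
    have hne : jacobiSym b p ≠ 0 := by
      intro h6
      rw [h6, mul_zero, mul_zero] at h5
      exact jacobiSym.ne_zero (by rw [Int.gcd_natCast_natCast]; exact hmp) h5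
    rw [h5, jacobi_sq_eq_one hne, mul_one]
  have s2 : jacobiSym m e.natAbs = jacobiSym p e.natAbs := by
    have h5 : jacobiSym (4 * (p * m : ℕ)) e.natAbs = jacobiSym (a ^ 2) e.natAbs := by
      refine jacobiSym.mod_left' ?_
      rw [hab]
      have hen : ((e.natAbs : ℕ) : ℤ) ∣ e := Int.natAbs_dvd.mpr dvd_rfl
      obtain ⟨c, hc⟩ := hen
      have : a ^ 2 - d₁ * (p * e) * b ^ 2 = a ^ 2 + (e.natAbs : ℤ) * (-(d₁ * p * c * b ^ 2)) := by
        linear_combination (-(d₁ * p * b ^ 2)) * hc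
      rw [this, Int.add_mul_emod_self_left]
    rw [jacobiSym.mul_left, j4 _ heodd, one_mul, jacobiSym.pow_left, sq, Nat.cast_mul,
      jacobiSym.mul_left] at h5
    have hnep : jacobiSym p e.natAbs ≠ 0 := jacobiSym.ne_zero (by
      rw [Int.gcd_natCast_natCast]
      have := hpe
      rw [Int.gcd_comm, Int.gcd_eq_natAbs] at this
      simpa using this)
    have hnem : jacobiSym m e.natAbs ≠ 0 := jacobiSym.ne_zero (by
      rw [Int.gcd_natCast_natCast]
      exact hme)
    have hnea : jacobiSym a e.natAbs ≠ 0 := by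
      intro h6
      rw [h6, mul_zero] at h5
      exact mul_ne_zero hnep hnem h5
    rw [jacobi_sq_eq_one hnea] at h5
    have h7 := jacobi_sq_eq_one hnep
    linear_combination (jacobiSym p e.natAbs) * h5 - (jacobiSym m e.natAbs) * h7
  have hr := recip_aux (p := p) (e := e) (by rw [← he]; exact h4) hpe
  have s3 : jacobiSym m d₂.natAbs = jacobiSym d₁ p := by
    have hpz : p ≠ 0 := hp.ne_zero
    have hez : e.natAbs ≠ 0 := fun h => by
      rw [hnat, h, mul_zero] at hD0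
      exact hD0 rfl
    have : NeZero p := ⟨hpz⟩
    have : NeZero e.natAbs := ⟨hez⟩
    rw [hnat, jacobiSym.mul_right, s1, s2, jacobiSym.mul_left]
    linear_combination (jacobiSym d₁ p) * hr
  -- conclusion
  have hM1 := hχ M hM
  rw [hMC, map_inv, ← hmdef, s3] at hM1
  have hsq : jacobiSym d₁ p * jacobiSym d₁ p = 1 := by
    refine jacobi_sq_eq_one (jacobiSym.ne_zero ?_)
    rw [← Int.isCoprime_iff_gcd_eq_one]
    rw [he] at hcop
    exact IsCoprime.of_mul_right_left hcop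
  have hsqC : ((jacobiSym d₁ p : ℤ) : ℂ) * ((jacobiSym d₁ p : ℤ) : ℂ) = 1 := by
    exact_mod_cast hsq
  have hu : ((χ (ClassGroup.mk0 P) : ℂˣ) : ℂ) ≠ 0 := Units.ne_zero _
  rw [Units.val_inv_eq_inv_val] at hM1
  rw [← inv_inv ((χ (ClassGroup.mk0 P) : ℂˣ) : ℂ), hM1]
  exact inv_eq_of_mul_eq_one_left hsqC

end Fermat.Agent.Cor.Kron

end
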