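import Fermat.Agent.Corollaries.Kron.Colmez
import Fermat.Agent.Corollaries.Kron.EtaMod

/-!
# The heights are positive

`Im τ |η(τ)|⁴ < 1` in the whole upper half plane (`im_mul_norm_eta_lt_one`), so `archHeight τ > 0`
(`archHeight_pos`), and by the formula of Chowla and Selberg

`L'(1, χ) / L(1, χ) > γ - log 2 - (1/2) log |d|` (`logDeriv_one_gt`),
`L'(0, χ) / L(0, χ) < log (4 π) - (1/2) log |d|` (`logDeriv_zero_lt`)

for the Kronecker character `χ` of every imaginary quadratic field of discriminant `d`.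
-/

set_option autoImplicit false

noncomputable section

namespace Fermat.Agent.Cor.Kron

open NumberField Module Fermat.Agent.Classic.Zeta Filter Topology
open scoped MatrixGroups

theorem norm_tprod_one_sub_le {q : ℂ} (hq : ‖q‖ < 1) :
    ‖∏' n : ℕ, (1 - q ^ (n + 1))‖ ≤ Real.exp (‖q‖ / (1 - ‖q‖)) := by
  have hs : Summable fun n : ℕ => ‖q‖ ^ (n + 1) := by
    have := summable_geometric_of_lt_one (norm_nonneg q) hq
    exact (summable_nat_add_iff 1).mpr this
  have ht : ∑' n : ℕ, ‖q‖ ^ (n + 1) = ‖q‖ / (1 - ‖q‖) := by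
    simp_rw [pow_succ']
    rw [tsum_mul_left, tsum_geometric_of_lt_one (norm_nonneg q) hq, div_eq_mul_inv]
  have hm : Multipliable fun n : ℕ => 1 - q ^ (n + 1) := by
    have h2 := multipliable_one_add_of_summable (f := fun n : ℕ => -(q ^ (n + 1))) (by
      simpa only [norm_neg, norm_pow] using hs)
    simpa only [← sub_eq_add_neg] using h2
  have hlim : Tendsto (fun s : Finset ℕ => ∏ n ∈ s, (1 - q ^ (n + 1))) atTop
      (𝓝 (∏' n : ℕ, (1 - q ^ (n + 1)))) := hm.hasProd
  refine le_of_tendsto hlim.norm (Eventually.of_forall fun s => ?_)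
  rw [norm_prod, ← ht]
  calc ∏ n ∈ s, ‖1 - q ^ (n + 1)‖ ≤ ∏ n ∈ s, Real.exp (‖q‖ ^ (n + 1)) := by
        refine Finset.prod_le_prod (fun n _ => norm_nonneg _) fun n _ => ?_
        have h1 : ‖1 - q ^ (n + 1)‖ ≤ 1 + ‖q‖ ^ (n + 1) := by
          have := norm_sub_le (1 : ℂ) (q ^ (n + 1))
          rwa [norm_one, norm_pow] at this
        have h2 := Real.add_one_le_exp (‖q‖ ^ (n + 1))
        linarith
    _ = Real.exp (∑ n ∈ s, ‖q‖ ^ (n + 1)) := (Real.exp_sum _ _).symm
    _ ≤ Real.exp (∑' n : ℕ, ‖q‖ ^ (n + 1)) := by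
        refine Real.exp_le_exp.mpr (hs.sum_le_tsum s fun n _ => by positivity)

/-- `|η(z)| ≤ e^{- π y / 12} e^{r / (1 - r)}`, `r = e^{- 2 π y}` -/
theorem norm_eta_le {z : ℂ} (hz : 0 < z.im) : ‖ModularForm.eta z‖ ≤
    Real.exp (-(Real.pi * z.im / 12)) * Real.exp (Real.exp (-(2 * Real.pi * z.im)) /
      (1 - Real.exp (-(2 * Real.pi * z.im)))) := by
  have hq : ‖Function.Periodic.qParam 1 z‖ = Real.exp (-(2 * Real.pi * z.im)) := by
    rw [Function.Periodic.norm_qParam]
    congr 1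
    ring
  have h24 : ‖Function.Periodic.qParam 24 z‖ = Real.exp (-(Real.pi * z.im / 12)) := by
    rw [Function.Periodic.norm_qParam]
    congr 1
    ring
  have hlt : ‖Function.Periodic.qParam 1 z‖ < 1 := by
    rw [hq, Real.exp_lt_one_iff]
    have := Real.pi_pos
    have : 0 < 2 * Real.pi * z.im := by positivity
    linarith
  have h := norm_tprod_one_sub_le hlt
  rw [hq] at h
  rw [ModularForm.eta, norm_mul, h24]
  exact mul_le_mul_of_nonneg_left h (Real.exp_pos _).le

theorem im_mul_norm_eta_lt_one_of_fd {z : ℂ} (h0 : 0 < z.im) (hz : 3 ≤ 4 * z.im ^ 2) :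
    z.im * ‖ModularForm.eta z‖ ^ 4 < 1 := by
  have hpi := Real.pi_gt_three
  have hy : (43 / 50 : ℝ) < z.im := by nlinarith
  have h1 := norm_eta_le h0
  generalize z.im = y at *
  set r := Real.exp (-(2 * Real.pi * y)) with hr
  have hr0 : 0 < r := Real.exp_pos _
  have hr1 : r < 1 / 6 := by
    have h2 := Real.add_one_le_exp (2 * Real.pi * y)
    have h3 : 5 < 2 * Real.pi * y := by nlinarith
    rw [hr, Real.exp_neg, inv_eq_one_div]
    exact one_div_lt_one_div_of_lt (by norm_num) (by linarith)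
  have h2 : r / (1 - r) ≤ 1 / 4 := by
    rw [div_le_div_iff₀ (by linarith) (by norm_num)]
    linarith
  have h3 : ‖ModularForm.eta z‖ ^ 4 ≤ Real.exp (1 - Real.pi * y / 3) := by
    have h4 : ‖ModularForm.eta z‖ ≤ Real.exp (1 / 4 - Real.pi * y / 12) := by
      refine h1.trans ?_
      rw [← Real.exp_add]
      exact Real.exp_le_exp.mpr (by linarith)
    have h5 := pow_le_pow_left₀ (norm_nonneg _) h4 4
    rw [← Real.exp_nat_mul] at h5
    refine h5.trans (le_of_eq ?_)
    congr 1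
    push_cast
    ring
  have h4 := Real.add_one_le_exp (Real.pi * y / 3 - 1)
  rw [sub_add_cancel] at h4
  have h5 : Real.exp (Real.pi * y / 3 - 1) * Real.exp (1 - Real.pi * y / 3) = 1 := by
    rw [← Real.exp_add, show Real.pi * y / 3 - 1 + (1 - Real.pi * y / 3) = 0 by ring, Real.exp_zero]
  have he := Real.exp_pos (1 - Real.pi * y / 3)
  have h6 : Real.pi * y / 3 * Real.exp (1 - Real.pi * y / 3) ≤ 1 :=
    (mul_le_mul_of_nonneg_right h4 he.le).trans h5.le
  have h7 : y * ‖ModularForm.eta z‖ ^ 4 ≤ y * Real.exp (1 - Real.pi * y / 3) :=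
    mul_le_mul_of_nonneg_left h3 h0.le
  have h8 : y * Real.exp (1 - Real.pi * y / 3) <
      Real.pi * y / 3 * Real.exp (1 - Real.pi * y / 3) := by
    refine mul_lt_mul_of_pos_right ?_ he
    nlinarith
  linarith

/-- **`Im τ |η(τ)|⁴ < 1`** in the upper half plane -/
theorem im_mul_norm_eta_lt_one {z : ℂ} (hz : 0 < z.im) :
    z.im * ‖ModularForm.eta z‖ ^ 4 < 1 := by
  obtain ⟨g, hg⟩ := ModularGroup.exists_smul_mem_fd (⟨z, hz⟩ : UpperHalfPlane)
  have h3 := ModularGroup.three_le_four_mul_im_sq_of_mem_fd hg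
  have hdet : g 0 0 * g 1 1 - g 0 1 * g 1 0 = 1 := by
    have := g.det_coe
    rwa [Matrix.det_fin_two] at this
  have h := sqrt_im_mul_norm_eta_sq hz hdet
  have e : ((g • (⟨z, hz⟩ : UpperHalfPlane) : UpperHalfPlane) : ℂ) =
      (((g 0 0 : ℤ) : ℂ) * z + ((g 0 1 : ℤ) : ℂ)) / (((g 1 0 : ℤ) : ℂ) * z + ((g 1 1 : ℤ) : ℂ)) := by
    rw [UpperHalfPlane.specialLinearGroup_apply]
    simp
  rw [← e] at h
  have h4 := im_mul_norm_eta_lt_one_of_fd (g • (⟨z, hz⟩ : UpperHalfPlane)).im_pos h3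
  have hsq : ∀ {w : ℂ}, 0 < w.im → (√w.im * ‖ModularForm.eta w‖ ^ 2) ^ 2 =
      w.im * ‖ModularForm.eta w‖ ^ 4 := fun hw => by
    rw [mul_pow, Real.sq_sqrt hw.le]
    ring
  rw [← hsq hz, ← h]
  refine lt_of_eq_of_lt (hsq (g • (⟨z, hz⟩ : UpperHalfPlane)).im_pos) h4

theorem leta_neg {τ : ℂ} (h : 0 < τ.im) : leta τ < 0 := by
  refine Real.log_neg ?_ (im_mul_norm_eta_lt_one h)
  have := norm_pos_iff.mpr (ModularForm.eta_ne_zero h)
  positivity

/-- **`- (1/12) log (|Δ(τ)| (Im τ)⁶) > 0`** in the upper half plane -/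
theorem archHeight_pos {τ : ℂ} (h : 0 < τ.im) : 0 < archHeight τ := by
  rw [archHeight_eq]
  have := leta_neg h
  linarith

universe u

section Char

variable {K : Type u} [Field K] [NumberField K] {N : ℕ} [NeZero N] {χ : DirichletCharacter ℂ N}

/-- **`L'(1, χ) / L(1, χ)` is real and greater than `γ - log 2 - (1/2) log |d|`**, for the Kronecker
character of every imaginary quadratic field of discriminant `d`. -/
theorem logDeriv_one_gt (h2 : finrank ℚ K = 2) {φ : K →+* ℂ}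
    (hφ : ¬ ComplexEmbedding.IsReal φ) (hN : N = (discr K).natAbs)
    (hχ : ∀ a : ℕ, a ≠ 0 → χ a = ((Diri.kron (discr K) a : ℤ) : ℂ)) :
    ∃ r : ℝ, deriv χ.LFunction 1 / χ.LFunction 1 = r ∧
      Real.eulerMascheroniConstant - Real.log 2 - Real.log |(discr K : ℝ)| / 2 < r := by
  choose τ hτ using fun C : ClassGroup (𝓞 K) => exists_isTau h2 hφ C⁻¹
  have h := sum_log_eta_eq_one h2 hφ hτ hN hχ
  have hh : (0 : ℝ) < classNumber K := Nat.cast_pos.mpr (classNumber_pos K)
  have hh' : (classNumber K : ℂ) ≠ 0 := Nat.cast_ne_zero.mpr (classNumber_pos K).ne'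
  set T : ℝ := ∑ C, Real.log ((τ C).im * ‖ModularForm.eta (τ C)‖ ^ 4) with hT
  have hT0 : T < 0 := by
    refine Finset.sum_neg (fun C _ => leta_neg (hτ C).1) ?_
    exact Finset.univ_nonempty
  refine ⟨Real.eulerMascheroniConstant - Real.log 2 - Real.log |(discr K : ℝ)| / 2 -
    T / classNumber K, ?_, ?_⟩
  · rw [Complex.ofReal_sub, Complex.ofReal_div, h]
    push_cast
    field_simp
    ring
  · have : T / classNumber K < 0 := div_neg_of_neg_of_pos hT0 hh
    linarith

/-- **`L'(0, χ) / L(0, χ)` is real and less than `log (4 π) - (1/2) log |d|`**. -/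
theorem logDeriv_zero_lt (h2 : finrank ℚ K = 2) {φ : K →+* ℂ}
    (hφ : ¬ ComplexEmbedding.IsReal φ) (hN : N = (discr K).natAbs)
    (hχ : ∀ a : ℕ, a ≠ 0 → χ a = ((Diri.kron (discr K) a : ℤ) : ℂ)) :
    ∃ r : ℝ, deriv χ.LFunction 0 / χ.LFunction 0 = r ∧
      r < Real.log (4 * Real.pi) - Real.log |(discr K : ℝ)| / 2 := by
  choose τ hτ using fun C : ClassGroup (𝓞 K) => exists_isTau h2 hφ C⁻¹
  have h := sum_log_eta_eq_zero h2 hφ hτ hN hχ
  have hh : (0 : ℝ) < classNumber K := Nat.cast_pos.mpr (classNumber_pos K)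
  have hh' : (classNumber K : ℂ) ≠ 0 := Nat.cast_ne_zero.mpr (classNumber_pos K).ne'
  set T : ℝ := ∑ C, Real.log ((τ C).im * ‖ModularForm.eta (τ C)‖ ^ 4) with hT
  have hT0 : T < 0 := by
    refine Finset.sum_neg (fun C _ => leta_neg (hτ C).1) ?_
    exact Finset.univ_nonempty
  refine ⟨T / classNumber K + Real.log (4 * Real.pi) - Real.log |(discr K : ℝ)| / 2, ?_, ?_⟩
  · rw [Complex.ofReal_sub, Complex.ofReal_add, Complex.ofReal_div, h]
    push_cast
    field_simp
    ring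
  · have : T / classNumber K < 0 := div_neg_of_neg_of_pos hT0 hh
    linarith

/-- the average height is positive -/
theorem average_archHeight_pos {τ : ClassGroup (𝓞 K) → ℂ} (h : ∀ C, 0 < (τ C).im) :
    0 < (∑ C, archHeight (τ C)) / classNumber K :=
  div_pos (Finset.sum_pos (fun C _ => archHeight_pos (h C)) Finset.univ_nonempty)
    (Nat.cast_pos.mpr (classNumber_pos K))

end Char

end Fermat.Agent.Cor.Kron

end
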