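import Fermat.Agent.Classic.Zeta.Classes
import Fermat.Agent.Classic.Zeta.Main

/-!
# Fractional ideals of imaginary quadratic fields as lattices in `ℂ`

`K` imaginary quadratic, `φ : K → ℂ` an embedding, `𝔟` a fractional ideal with `ℤ`-basis `(b₀, b₁)`
and `τ = φ(b₀) / φ(b₁)` in the upper half plane.
-/

set_option autoImplicit false

noncomputable section

namespace Fermat.Agent.Cor.Kron

open NumberField Module Fermat.Agent.Classic.Zeta
open scoped nonZeroDivisors ComplexConjugate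

universe u

variable {K : Type u} [Field K] [NumberField K]

/-- the two embeddings of an imaginary quadratic field -/
theorem exists_embeddings (h2 : finrank ℚ K = 2) {φ : K →+* ℂ} (hφ : ¬ ComplexEmbedding.IsReal φ) :
    ∃ e : Fin 2 ≃ (K →ₐ[ℚ] ℂ), (∀ x, e 0 x = φ x) ∧ ∀ x, e 1 x = conj (φ x) := by
  classical
  let f : Fin 2 → (K →ₐ[ℚ] ℂ) :=
    ![φ.toRatAlgHom, (ComplexEmbedding.conjugate φ).toRatAlgHom]
  have h0 : ∀ x, f 0 x = φ x := fun x => rfl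
  have h1 : ∀ x, f 1 x = conj (φ x) := fun x => rfl
  have hinj : Function.Injective f := by
    have hne : f 0 ≠ f 1 := by
      intro h
      apply hφ
      rw [ComplexEmbedding.isReal_iff]
      ext x
      rw [ComplexEmbedding.conjugate_coe_eq, ← h1, ← h, h0]
    intro i j hij
    fin_cases i <;> fin_cases j
    · rfl
    · exact absurd hij hne
    · exact absurd hij.symm hne
    · rfl
  have hcard : Fintype.card (Fin 2) = Fintype.card (K →ₐ[ℚ] ℂ) := by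
    rw [AlgHom.card, h2, Fintype.card_fin]
  exact ⟨Equiv.ofBijective f ((Fintype.bijective_iff_injective_and_card f).mpr ⟨hinj, hcard⟩),
    h0, h1⟩

/-- the norm -/
theorem abs_norm_eq (h2 : finrank ℚ K = 2) {φ : K →+* ℂ} (hφ : ¬ ComplexEmbedding.IsReal φ)
    (x : K) : ((|Algebra.norm ℚ x| : ℚ) : ℝ) = ‖φ x‖ ^ 2 := by
  classical
  obtain ⟨e, h0, h1⟩ := exists_embeddings h2 hφ
  have h := Algebra.norm_eq_prod_embeddings ℚ ℂ x
  rw [← e.prod_comp, Fin.prod_univ_two, h0, h1, Complex.mul_conj, Complex.normSq_eq_norm_sq] at h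
  have h3 : ((Algebra.norm ℚ x : ℚ) : ℝ) = ‖φ x‖ ^ 2 := by
    have h4 : (((Algebra.norm ℚ x : ℚ) : ℝ) : ℂ) = ((‖φ x‖ ^ 2 : ℝ) : ℂ) := by
      rw [← h]
      simp
    exact_mod_cast h4
  rw [Rat.cast_abs, h3, abs_of_nonneg (by positivity)]

/-- the discriminant of a fractional ideal -/
theorem discr_basis (𝔟 : FractionalIdeal (𝓞 K)⁰ K) (h2 : finrank ℚ K = 2)
    (b : Basis (Fin 2) ℤ 𝔟) :
    Algebra.discr ℚ (fun i => (b i : K)) = (FractionalIdeal.absNorm 𝔟) ^ 2 * discr K := by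
  classical
  have hc : Fintype.card (Module.Free.ChooseBasisIndex ℤ (𝓞 K)) = 2 := by
    rw [← Module.finrank_eq_card_chooseBasisIndex, RingOfIntegers.rank, h2]
  let c : Basis (Fin 2) ℤ (𝓞 K) :=
    (RingOfIntegers.basis K).reindex (Fintype.equivFinOfCardEq hc)
  have hdet := FractionalIdeal.abs_det_basis_change (K := K) c 𝔟 b
  set c' := c.localizationLocalization ℚ ℤ⁰ K with hc'
  have h1 : Algebra.discr ℚ c' = (discr K : ℚ) := by
    have h3 := Algebra.discr_localizationLocalization ℤ ℤ⁰ K c (Rₘ := ℚ)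
    rw [hc', h3, NumberField.discr_eq_discr]
    rfl
  have h4 := Algebra.discr_of_matrix_vecMul (A := ℚ) c' (c'.toMatrix fun i => (b i : K))
  rw [Basis.toMatrix_map_vecMul, h1] at h4
  rw [h4, ← hdet, sq_abs]
  rfl

/-- the covolume of `φ(𝔟)` -/
theorem im_mul_conj_sq (h2 : finrank ℚ K = 2) {φ : K →+* ℂ} (hφ : ¬ ComplexEmbedding.IsReal φ)
    (𝔟 : FractionalIdeal (𝓞 K)⁰ K) (b : Basis (Fin 2) ℤ 𝔟) :
    4 * (φ (b 0 : K) * conj (φ (b 1 : K))).im ^ 2 = nF 𝔟 ^ 2 * |(discr K : ℝ)| := by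
  classical
  obtain ⟨e, h0, h1⟩ := exists_embeddings h2 hφ
  have hd := Algebra.discr_eq_det_embeddingsMatrixReindex_pow_two ℚ ℂ
    (fun i => (b i : K)) e
  rw [discr_basis 𝔟 h2, Matrix.det_fin_two] at hd
  have hM : ∀ i j, Algebra.embeddingsMatrixReindex ℚ ℂ (fun i => (b i : K)) e i j =
      e j (b i : K) := fun i j => rfl
  rw [hM, hM, hM, hM, h0, h0, h1, h1] at hd
  set z := φ (b 0 : K) with hz
  set w := φ (b 1 : K) with hw
  have h3 : z * conj w - conj z * w = ((2 * (z * conj w).im : ℝ) : ℂ) * Complex.I := by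
    apply Complex.ext
    · simp
    · simp
      ring
  have h4 : (z * conj w - conj z * w) ^ 2 = ((-(4 * (z * conj w).im ^ 2) : ℝ) : ℂ) := by
    rw [h3, mul_pow, Complex.I_sq]
    push_cast
    ring
  rw [h4] at hd
  have h5 : ((nF 𝔟 ^ 2 * (discr K : ℝ) : ℝ) : ℂ) = ((-(4 * (z * conj w).im ^ 2) : ℝ) : ℂ) := by
    rw [← hd, nF]
    simp
  have h6 : nF 𝔟 ^ 2 * (discr K : ℝ) = -(4 * (z * conj w).im ^ 2) := by exact_mod_cast h5
  have h7 : |nF 𝔟 ^ 2 * (discr K : ℝ)| = 4 * (z * conj w).im ^ 2 := by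
    rw [h6, abs_neg, abs_of_nonneg (by positivity)]
  rw [← h7, abs_mul, abs_of_nonneg (sq_nonneg (nF 𝔟))]

/-- `|φ(b₁)|² Im τ = N(𝔟) √|d| / 2` -/
theorem norm_sq_mul_im (h2 : finrank ℚ K = 2) {φ : K →+* ℂ} (hφ : ¬ ComplexEmbedding.IsReal φ)
    {𝔟 : FractionalIdeal (𝓞 K)⁰ K} (b : Basis (Fin 2) ℤ 𝔟)
    (him : 0 < (φ (b 0 : K) / φ (b 1 : K)).im) :
    ‖φ (b 1 : K)‖ ^ 2 * (φ (b 0 : K) / φ (b 1 : K)).im = nF 𝔟 * √|(discr K : ℝ)| / 2 := by
  have h := im_mul_conj_sq h2 hφ 𝔟 b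
  have hb1 : φ (b 1 : K) ≠ 0 := by
    intro h0
    rw [h0, div_zero, Complex.zero_im] at him
    exact lt_irrefl _ him
  have h3 : φ (b 0 : K) * conj (φ (b 1 : K)) =
      ((‖φ (b 1 : K)‖ ^ 2 : ℝ) : ℂ) * (φ (b 0 : K) / φ (b 1 : K)) := by
    have h4 : ((‖φ (b 1 : K)‖ ^ 2 : ℝ) : ℂ) = φ (b 1 : K) * conj (φ (b 1 : K)) := by
      rw [Complex.mul_conj, Complex.normSq_eq_norm_sq]
    rw [h4]
    field_simp
  have h5 : (φ (b 0 : K) * conj (φ (b 1 : K))).im =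
      ‖φ (b 1 : K)‖ ^ 2 * (φ (b 0 : K) / φ (b 1 : K)).im := by
    rw [h3, Complex.im_ofReal_mul]
  rw [h5] at h
  have h6 : 0 ≤ nF 𝔟 := by
    rw [nF]
    exact_mod_cast FractionalIdeal.absNorm_nonneg 𝔟
  have h7 : 0 ≤ ‖φ (b 1 : K)‖ ^ 2 * (φ (b 0 : K) / φ (b 1 : K)).im := by positivity
  have h8 : (2 * (‖φ (b 1 : K)‖ ^ 2 * (φ (b 0 : K) / φ (b 1 : K)).im)) ^ 2 =
      (nF 𝔟 * √|(discr K : ℝ)|) ^ 2 := by
    rw [mul_pow, mul_pow (nF 𝔟), Real.sq_sqrt (abs_nonneg _), ← h]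
    ring
  have h9 := (sq_eq_sq₀ (by positivity) (by positivity)).mp h8
  linarith

/-! ### The units -/

/-- all units are roots of unity -/
theorem rank_eq_zero (h2 : finrank ℚ K = 2) {φ : K →+* ℂ} (hφ : ¬ ComplexEmbedding.IsReal φ) :
    Units.rank K = 0 := by
  classical
  have h1 := InfinitePlace.card_add_two_mul_card_eq_rank K
  have h3 : 0 < InfinitePlace.nrComplexPlaces K := by
    have : Nonempty {w : InfinitePlace K // w.IsComplex} :=
      ⟨⟨InfinitePlace.mk φ, (InfinitePlace.isComplex_mk_iff).mpr hφ⟩⟩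
    exact Fintype.card_pos
  have h4 := InfinitePlace.card_eq_nrRealPlaces_add_nrComplexPlaces K
  rw [h2] at h1
  rw [Units.rank, h4]
  omega

theorem finite_units (h : Units.rank K = 0) : Nat.card (𝓞 K)ˣ = Units.torsionOrder K ∧
    Finite (𝓞 K)ˣ := by
  have htop : Units.torsion K = ⊤ := by
    rw [eq_top_iff]
    intro x _
    obtain ⟨⟨ζ, e⟩, h1, -⟩ := Units.exist_unique_eq_mul_prod K x
    have : IsEmpty (Fin (Units.rank K)) := by rw [h]; infer_instance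
    rw [h1]
    simp
  have e : Units.torsion K ≃ (𝓞 K)ˣ := by
    rw [htop]
    exact (Subgroup.topEquiv (G := (𝓞 K)ˣ)).toEquiv
  refine ⟨?_, Finite.of_equiv _ e⟩
  rw [← Nat.card_congr e, Units.torsionOrder]

end Fermat.Agent.Cor.Kron
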