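import Mathlib

/-!
# The logarithm of the Siegel product

`∑_{m ≥ 1} (1 / m) Re ((p ^ m + (q / p) ^ m) / (1 - q ^ m)) =
- log |(1 - p) ∏_{n ≥ 1} (1 - q ^ n p) (1 - q ^ n / p)|` for `|q| < |p| < 1`.
-/

set_option autoImplicit false

open Complex

namespace Fermat.Agent.Cor.Kron

namespace SiegelProd

theorem norm_mul_lt_one {c q : ℂ} (hc : ‖c‖ < 1) (hq : ‖q‖ < 1) (n : ℕ) : ‖q ^ n * c‖ < 1 := by
  rw [norm_mul, norm_pow]
  calc ‖q‖ ^ n * ‖c‖ ≤ 1 * ‖c‖ :=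
        mul_le_mul_of_nonneg_right (pow_le_one₀ (norm_nonneg _) hq.le) (norm_nonneg _)
    _ < 1 := by rw [one_mul]; exact hc

theorem one_sub_ne {c : ℂ} (hc : ‖c‖ < 1) : 1 - c ≠ 0 := by
  intro h
  rw [← sub_eq_zero.mp h, norm_one] at hc
  exact lt_irrefl _ hc

theorem summable_double {c q : ℂ} (hc : ‖c‖ < 1) (hq : ‖q‖ < 1) :
    Summable fun x : ℕ × ℕ => (q ^ x.2 * c) ^ (x.1 + 1) / ((x.1 : ℂ) + 1) := by
  have h1 : Summable fun m : ℕ => ‖c‖ ^ m := summable_geometric_of_lt_one (norm_nonneg _) hc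
  have h1' : Summable fun m : ℕ => ‖q‖ ^ m := summable_geometric_of_lt_one (norm_nonneg _) hq
  have h2 : Summable fun p : ℕ × ℕ => ‖c‖ ^ p.1 * ‖q‖ ^ p.2 :=
    h1.mul_of_nonneg h1' (fun m => by positivity) (fun m => by positivity)
  refine Summable.of_norm_bounded h2 fun x => ?_
  have h4 : ‖((x.1 : ℂ) + 1)‖ = (x.1 : ℝ) + 1 := by
    rw [← Nat.cast_succ, norm_natCast]
    push_cast
    ring
  rw [norm_div, h4, norm_pow, norm_mul, norm_pow, mul_pow, ← pow_mul]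
  have h5 : ‖q‖ ^ (x.2 * (x.1 + 1)) ≤ ‖q‖ ^ x.2 :=
    pow_le_pow_of_le_one (norm_nonneg _) hq.le (by nlinarith)
  have h6 : ‖c‖ ^ (x.1 + 1) ≤ ‖c‖ ^ x.1 :=
    pow_le_pow_of_le_one (norm_nonneg _) hc.le (Nat.le_succ _)
  have h7 : (1 : ℝ) ≤ (x.1 : ℝ) + 1 := by
    have : (0 : ℝ) ≤ x.1 := Nat.cast_nonneg _
    linarith
  calc ‖q‖ ^ (x.2 * (x.1 + 1)) * ‖c‖ ^ (x.1 + 1) / ((x.1 : ℝ) + 1) ≤
      ‖q‖ ^ (x.2 * (x.1 + 1)) * ‖c‖ ^ (x.1 + 1) := div_le_self (by positivity) h7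
    _ ≤ ‖q‖ ^ x.2 * ‖c‖ ^ x.1 := mul_le_mul h5 h6 (by positivity) (by positivity)
    _ = _ := mul_comm _ _

/-- one factor -/
theorem hasSum_one {c q : ℂ} (hc : ‖c‖ < 1) (hq : ‖q‖ < 1) :
    HasSum (fun m : ℕ => 1 / ((m : ℝ) + 1) * (c ^ (m + 1) / (1 - q ^ (m + 1))).re)
      (-∑' n : ℕ, Real.log ‖1 - q ^ n * c‖) ∧
    Summable fun n : ℕ => Real.log ‖1 - q ^ n * c‖ := by
  have h := Complex.hasSum_re (summable_double hc hq).hasSum
  have hm : ∀ m : ℕ, HasSum (fun n : ℕ => ((q ^ n * c) ^ (m + 1) / ((m : ℂ) + 1)).re)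
      (1 / ((m : ℝ) + 1) * (c ^ (m + 1) / (1 - q ^ (m + 1))).re) := by
    intro m
    have hqm : ‖q ^ (m + 1)‖ < 1 := by
      rw [norm_pow]
      exact pow_lt_one₀ (norm_nonneg _) hq (by omega)
    have h1 := ((hasSum_geometric_of_norm_lt_one hqm).mul_left (c ^ (m + 1))).mul_left
      (1 / ((m : ℂ) + 1))
    have h2 := Complex.hasSum_re h1
    have h3 : (1 / ((m : ℂ) + 1) * (c ^ (m + 1) * (1 - q ^ (m + 1))⁻¹)).re =
        1 / ((m : ℝ) + 1) * (c ^ (m + 1) / (1 - q ^ (m + 1))).re := by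
      have h4 : (1 / ((m : ℂ) + 1)) = ((1 / ((m : ℝ) + 1) : ℝ) : ℂ) := by push_cast; rfl
      rw [h4, Complex.re_ofReal_mul, div_eq_mul_inv (c ^ (m + 1))]
    rw [h3] at h2
    have h5 : (fun n : ℕ => ((q ^ n * c) ^ (m + 1) / ((m : ℂ) + 1)).re) =
        fun n : ℕ => (1 / ((m : ℂ) + 1) * (c ^ (m + 1) * (q ^ (m + 1)) ^ n)).re := by
      funext n
      congr 1
      rw [mul_pow, ← pow_mul, ← pow_mul, mul_comm n]
      ring
    rw [h5]
    exact h2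
  have hn : ∀ n : ℕ, HasSum (fun m : ℕ => ((q ^ n * c) ^ (m + 1) / ((m : ℂ) + 1)).re)
      (-Real.log ‖1 - q ^ n * c‖) := by
    intro n
    have h1 := Complex.hasSum_re (Complex.hasSum_taylorSeries_neg_log' (norm_mul_lt_one hc hq n))
    rwa [Complex.neg_re, Complex.log_re] at h1
  have h1 := h.prod_fiberwise hm
  have h2 := ((Equiv.prodComm ℕ ℕ).hasSum_iff.mpr h).prod_fiberwise
    (g := fun n => -Real.log ‖1 - q ^ n * c‖) fun n => hn n
  refine ⟨?_, ?_⟩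
  · rw [← tsum_neg, h2.tsum_eq]
    exact h1
  · simpa using h2.summable.neg

/-- the logarithm of a product -/
theorem log_norm_tprod_one_sub {u : ℕ → ℂ} (hu : Summable u) (h0 : ∀ n, 1 - u n ≠ 0) :
    Multipliable (fun n => 1 - u n) ∧ ∏' n, (1 - u n) ≠ 0 ∧
      Real.log ‖∏' n, (1 - u n)‖ = ∑' n, Real.log ‖1 - u n‖ := by
  have h1 : Summable fun n => Complex.log (1 - u n) := by
    simpa only [← sub_eq_add_neg] using Complex.summable_log_one_add_of_summable hu.neg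
  have h2 := Complex.cexp_tsum_eq_tprod h0 h1
  refine ⟨Complex.multipliable_of_summable_log h1, ?_, ?_⟩
  · rw [← h2]
    exact Complex.exp_ne_zero _
  · rw [← h2, Complex.norm_exp, Real.log_exp, Complex.re_tsum h1]
    simp only [Complex.log_re]

end SiegelProd

open SiegelProd

/-- **(E)** the logarithm of the Siegel product -/
theorem sum_siegel {p q : ℂ} (hq : ‖q‖ < 1) (hp : ‖p‖ < 1) (hqp : ‖q‖ < ‖p‖) :
    HasSum (fun m : ℕ => 1 / ((m : ℝ) + 1) * (p ^ (m + 1) / (1 - q ^ (m + 1)) +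
      (q / p) ^ (m + 1) / (1 - q ^ (m + 1))).re)
      (-Real.log ‖(1 - p) * ∏' n : ℕ, ((1 - q ^ (n + 1) * p) * (1 - q ^ (n + 1) / p))‖) := by
  have hp0 : 0 < ‖p‖ := (norm_nonneg q).trans_lt hqp
  have hc : ‖q / p‖ < 1 := by
    rw [norm_div, div_lt_one hp0]
    exact hqp
  have hpne : p ≠ 0 := norm_pos_iff.mp hp0
  have e : ∀ n : ℕ, q ^ (n + 1) / p = q ^ n * (q / p) := by
    intro n
    rw [pow_succ]
    ring
  obtain ⟨h1, s1⟩ := hasSum_one hp hq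
  obtain ⟨h2, s2⟩ := hasSum_one hc hq
  have hsum : Summable fun n : ℕ => q ^ n := summable_geometric_of_norm_lt_one hq
  have hA := log_norm_tprod_one_sub (u := fun n => q ^ (n + 1) * p)
    (((summable_nat_add_iff 1).mpr hsum).mul_right p)
    fun n => one_sub_ne (norm_mul_lt_one hp hq (n + 1))
  have hB := log_norm_tprod_one_sub (u := fun n => q ^ n * (q / p)) (hsum.mul_right (q / p))
    fun n => one_sub_ne (norm_mul_lt_one hc hq n)
  have h3 : Real.log ‖(1 - p) * ∏' n : ℕ, ((1 - q ^ (n + 1) * p) * (1 - q ^ (n + 1) / p))‖ =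
      ∑' n : ℕ, Real.log ‖1 - q ^ n * p‖ + ∑' n : ℕ, Real.log ‖1 - q ^ n * (q / p)‖ := by
    simp_rw [e]
    rw [Multipliable.tprod_mul hA.1 hB.1, norm_mul, norm_mul,
      Real.log_mul (norm_ne_zero_iff.mpr (one_sub_ne hp))
        (mul_ne_zero (norm_ne_zero_iff.mpr hA.2.1) (norm_ne_zero_iff.mpr hB.2.1)),
      Real.log_mul (norm_ne_zero_iff.mpr hA.2.1) (norm_ne_zero_iff.mpr hB.2.1), hA.2.2, hB.2.2,
      s1.tsum_eq_zero_add, pow_zero, one_mul, add_assoc]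
  rw [h3, neg_add]
  have h4 : (fun m : ℕ => 1 / ((m : ℝ) + 1) * (p ^ (m + 1) / (1 - q ^ (m + 1)) +
      (q / p) ^ (m + 1) / (1 - q ^ (m + 1))).re) = fun m : ℕ =>
      1 / ((m : ℝ) + 1) * (p ^ (m + 1) / (1 - q ^ (m + 1))).re +
        1 / ((m : ℝ) + 1) * ((q / p) ^ (m + 1) / (1 - q ^ (m + 1))).re := by
    funext m
    rw [Complex.add_re, mul_add]
  rw [h4]
  exact h1.add h2

end Fermat.Agent.Cor.Kron
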