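import Mathlib

/-!
# A bound for `∑ exp (2 π i n v) ((n + a) ^ 2 + b ^ 2) ^ (-s)`, `0 < v < 1`, by partial summation
-/

set_option autoImplicit false

noncomputable section

namespace Fermat.Agent.Cor.Kron

open Complex Filter Topology
open scoped Real

namespace Var

/-- a decreasing summable sequence against the powers of a number of absolute value one -/
theorem exists_rest {g : ℕ → ℝ} (hg : Summable g) (hmono : ∀ m, g (m + 1) ≤ g m) {ζ : ℂ}
    (hζ : ‖ζ‖ = 1) : ∃ R : ℂ, ‖R‖ ≤ g 0 ∧ (ζ - 1) * ∑' m : ℕ, ζ ^ m * (g m : ℂ) = -(g 0 : ℂ) + R := by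
  have hs1 : Summable fun m : ℕ => ζ ^ m * (g m : ℂ) := by
    refine Summable.of_norm ?_
    have : (fun m : ℕ => ‖ζ ^ m * (g m : ℂ)‖) = fun m => ‖g m‖ := by
      funext m
      rw [norm_mul, norm_pow, hζ, one_pow, one_mul, Complex.norm_real]
    rw [this]
    exact hg.norm
  have hg1 : Summable fun m => g (m + 1) := (summable_nat_add_iff 1).mpr hg
  have hd : HasSum (fun m => g m - g (m + 1)) (g 0) := by
    have h := hg.hasSum.sub hg1.hasSum
    have e := hg.tsum_eq_zero_add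
    rwa [e, add_sub_cancel_right] at h
  have hs2 : Summable fun m : ℕ => ζ ^ (m + 1) * ((g m - g (m + 1) : ℝ) : ℂ) := by
    refine Summable.of_norm ?_
    have : (fun m : ℕ => ‖ζ ^ (m + 1) * ((g m - g (m + 1) : ℝ) : ℂ)‖) =
        fun m => g m - g (m + 1) := by
      funext m
      rw [norm_mul, norm_pow, hζ, one_pow, one_mul, Complex.norm_real,
        Real.norm_of_nonneg (sub_nonneg.mpr (hmono m))]
    rw [this]
    exact hd.summable
  refine ⟨∑' m : ℕ, ζ ^ (m + 1) * ((g m - g (m + 1) : ℝ) : ℂ), ?_, ?_⟩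
  · refine tsum_of_norm_bounded hd fun m => ?_
    rw [norm_mul, norm_pow, hζ, one_pow, one_mul, Complex.norm_real,
      Real.norm_of_nonneg (sub_nonneg.mpr (hmono m))]
  · have hs3 : Summable fun m : ℕ => ζ ^ (m + 1) * (g (m + 1) : ℂ) := (summable_nat_add_iff 1).mpr hs1
    have e1 := hs1.tsum_eq_zero_add
    have e2 : ∑' m : ℕ, ζ ^ (m + 1) * ((g m - g (m + 1) : ℝ) : ℂ) =
        ζ * ∑' m : ℕ, ζ ^ m * (g m : ℂ) - ∑' m : ℕ, ζ ^ (m + 1) * (g (m + 1) : ℂ) := by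
      rw [← tsum_mul_left, ← (hs1.mul_left ζ).tsum_sub hs3]
      refine tsum_congr fun m => ?_
      push_cast
      ring
    rw [e2]
    have e3 : ∑' m : ℕ, ζ ^ (m + 1) * (g (m + 1) : ℂ) =
        ∑' m : ℕ, ζ ^ m * (g m : ℂ) - (g 0 : ℂ) := by
      rw [e1]
      simp
    rw [e3]
    ring

/-- the terms -/
def f (s b a : ℝ) (n : ℤ) : ℝ := (((n : ℝ) + a) ^ 2 + b ^ 2) ^ (-s)

theorem base_pos {b : ℝ} (hb : 0 < b) (x : ℝ) : 0 < x ^ 2 + b ^ 2 := by positivity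

theorem f_nonneg {s b : ℝ} (hb : 0 < b) (a : ℝ) (n : ℤ) : 0 ≤ f s b a n :=
  Real.rpow_nonneg (base_pos hb _).le _

theorem f_le {s b : ℝ} (hs : 0 ≤ s) (hb : 0 < b) (a : ℝ) (n : ℤ) : f s b a n ≤ (b ^ 2) ^ (-s) := by
  refine Real.rpow_le_rpow_of_nonpos (by positivity) ?_ (by linarith)
  nlinarith [sq_nonneg ((n : ℝ) + a)]

theorem summable_f {s b : ℝ} (hs : 1 / 2 < s) (hb : 0 < b) (a : ℝ) : Summable (f s b a) := by
  have h := (Real.summable_one_div_int_add_rpow a (2 * s)).mpr (by linarith)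
  refine Summable.of_norm_bounded_eventually
    (g := fun n : ℤ => 1 / |(n : ℝ) + a| ^ (2 * s)) h ?_
  have hfin : {n : ℤ | (n : ℝ) + a = 0}.Finite := by
    refine Set.Subsingleton.finite fun n hn m hm => ?_
    have hn' : (n : ℝ) + a = 0 := hn
    have hm' : (m : ℝ) + a = 0 := hm
    have : (n : ℝ) = m := by linarith
    exact_mod_cast this
  filter_upwards [hfin.compl_mem_cofinite] with n hn
  have hn' : (n : ℝ) + a ≠ 0 := hn
  have hpos : 0 < |(n : ℝ) + a| := abs_pos.mpr hn'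
  rw [Real.norm_of_nonneg (f_nonneg hb a n), one_div, ← Real.rpow_neg hpos.le,
    show -(2 * s) = 2 * (-s) by ring, Real.rpow_mul hpos.le, Real.rpow_two, sq_abs]
  refine Real.rpow_le_rpow_of_nonpos (by positivity) ?_ (by linarith)
  nlinarith [sq_nonneg b]

theorem tsum_split {G : ℤ → ℂ} (hG : Summable G) (N : ℤ) :
    ∑' n : ℤ, G n = ∑' m : ℕ, G ((m : ℤ) + (N + 1)) + ∑' m : ℕ, G (-((m : ℤ) + 1) + (N + 1)) := by
  have h1 : ∑' n : ℤ, G n = ∑' n : ℤ, G (n + (N + 1)) :=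
    ((Equiv.addRight (N + 1)).tsum_eq G).symm
  have hs : Summable fun n : ℤ => G (n + (N + 1)) :=
    hG.comp_injective (Equiv.addRight (N + 1)).injective
  have hs1 : Summable fun m : ℕ => G ((m : ℤ) + (N + 1)) :=
    hs.comp_injective (i := fun m : ℕ => (m : ℤ)) Nat.cast_injective
  have hs2 : Summable fun m : ℕ => G (-((m : ℤ) + 1) + (N + 1)) :=
    hs.comp_injective (i := fun m : ℕ => -((m : ℤ) + 1)) fun x y hxy => by simpa using hxy
  rw [h1, tsum_of_nat_of_neg_add_one (f := fun n : ℤ => G (n + (N + 1))) hs1 hs2]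

end Var

open Var in
/-- the sum over `ℤ` of `exp (2 π i n v) ((n + a) ^ 2 + b ^ 2) ^ (-s)` -/
theorem norm_sum_char_le {s b : ℝ} (hs : 1 / 2 < s) (hb : 0 < b) (a : ℝ) {v : ℝ} (h0 : 0 < v)
    (h1 : v < 1) : ‖∑' n : ℤ, Complex.exp (2 * π * I * (n * v)) *
      ((((n : ℝ) + a) ^ 2 + b ^ 2) ^ (-s) : ℝ)‖ ≤
        2 * (b ^ 2) ^ (-s) / ‖Complex.exp (2 * π * I * v) - 1‖ := by
  set ζ : ℂ := Complex.exp (2 * π * I * v) with hζdef
  have hζ : ‖ζ‖ = 1 := by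
    rw [hζdef, Complex.norm_exp]
    simp
  have hζ0 : ζ ≠ 0 := Complex.exp_ne_zero _
  have hζ1 : ζ - 1 ≠ 0 := by
    intro h
    have h' : Complex.exp (2 * π * I * v) = 1 := sub_eq_zero.mp h
    rw [Complex.exp_eq_one_iff] at h'
    obtain ⟨n, hn⟩ := h'
    have hpi : (π : ℂ) ≠ 0 := by exact_mod_cast Real.pi_ne_zero
    have h2 : (v : ℂ) = n := by
      have h3 : (2 * π * I : ℂ) ≠ 0 := by simp [hpi]
      apply mul_left_cancel₀ h3
      rw [hn]
      ring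
    have h4 : v = n := by exact_mod_cast h2
    rw [h4] at h0 h1
    have h5 : (0 : ℤ) < n := by exact_mod_cast h0
    have h6 : n < (1 : ℤ) := by exact_mod_cast h1
    omega
  have hterm : ∀ n : ℤ, Complex.exp (2 * π * I * (n * v)) *
      ((((n : ℝ) + a) ^ 2 + b ^ 2) ^ (-s) : ℝ) = ζ ^ n * (f s b a n : ℂ) := by
    intro n
    rw [hζdef, ← Complex.exp_int_mul, f]
    congr 2
    ring
  simp_rw [hterm]
  set N : ℤ := ⌊-a⌋ with hN
  have hf := summable_f hs hb a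
  have hF : Summable fun n : ℤ => ζ ^ n * (f s b a n : ℂ) := by
    refine Summable.of_norm ?_
    have : (fun n : ℤ => ‖ζ ^ n * (f s b a n : ℂ)‖) = fun n => ‖f s b a n‖ := by
      funext n
      rw [norm_mul, norm_zpow, hζ, one_zpow, one_mul, Complex.norm_real]
    rw [this]
    exact hf.norm
  let g : ℕ → ℝ := fun m => f s b a ((m : ℤ) + (N + 1))
  let h : ℕ → ℝ := fun m => f s b a (-((m : ℤ) + 1) + (N + 1))
  have hinj1 : Function.Injective fun m : ℕ => (m : ℤ) + (N + 1) := fun x y hxy => by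
    simpa using hxy
  have hinj2 : Function.Injective fun m : ℕ => -((m : ℤ) + 1) + (N + 1) := fun x y hxy => by
    simpa using hxy
  have hgs : Summable g := hf.comp_injective hinj1
  have hhs : Summable h := hf.comp_injective hinj2
  have hN1 : (N : ℝ) ≤ -a := Int.floor_le _
  have hN2 : -a < N + 1 := Int.lt_floor_add_one _
  have hgm : ∀ m, g (m + 1) ≤ g m := by
    intro m
    refine Real.rpow_le_rpow_of_nonpos (base_pos hb _) ?_ (by linarith)
    push_cast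
    have : (0 : ℝ) ≤ m := Nat.cast_nonneg m
    nlinarith
  have hhm : ∀ m, h (m + 1) ≤ h m := by
    intro m
    refine Real.rpow_le_rpow_of_nonpos (base_pos hb _) ?_ (by linarith)
    push_cast
    have : (0 : ℝ) ≤ m := Nat.cast_nonneg m
    nlinarith
  have hζi : ‖ζ⁻¹‖ = 1 := by rw [norm_inv, hζ, inv_one]
  obtain ⟨R, hR, hRe⟩ := exists_rest hgs hgm hζ
  obtain ⟨R', hR', hRe'⟩ := exists_rest hhs hhm hζi
  -- the sum over `ℤ` as two sums over `ℕ`
  have hsplit : ∑' n : ℤ, ζ ^ n * (f s b a n : ℂ) =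
      ζ ^ (N + 1) * ∑' m : ℕ, ζ ^ m * (g m : ℂ) +
        ζ ^ N * ∑' m : ℕ, ζ⁻¹ ^ m * (h m : ℂ) := by
    rw [tsum_split hF N, ← tsum_mul_left, ← tsum_mul_left]
    congr 1
    · refine tsum_congr fun m => ?_
      rw [zpow_add₀ hζ0, zpow_natCast]
      simp only [g]
      ring
    · refine tsum_congr fun m => ?_
      have : ζ ^ (-((m : ℤ) + 1) + (N + 1)) = ζ ^ N * ζ⁻¹ ^ m := by
        rw [show -((m : ℤ) + 1) + (N + 1) = N + -(m : ℤ) by ring, zpow_add₀ hζ0, zpow_neg,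
          zpow_natCast, inv_pow]
      rw [this]
      simp only [h]
      ring
  rw [hsplit, le_div_iff₀ (norm_pos_iff.mpr hζ1), ← norm_mul]
  have hkey : (ζ ^ (N + 1) * ∑' m : ℕ, ζ ^ m * (g m : ℂ) +
      ζ ^ N * ∑' m : ℕ, ζ⁻¹ ^ m * (h m : ℂ)) * (ζ - 1) =
        ζ ^ (N + 1) * (((h 0 - g 0 : ℝ) : ℂ) + R - R') := by
    have e1 : ζ - 1 = -ζ * (ζ⁻¹ - 1) := by
      field_simp
      ring
    have e2 : (ζ ^ (N + 1) * ∑' m : ℕ, ζ ^ m * (g m : ℂ)) * (ζ - 1) =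
        ζ ^ (N + 1) * (-(g 0 : ℂ) + R) := by
      rw [← hRe]
      ring
    have e3 : (ζ ^ N * ∑' m : ℕ, ζ⁻¹ ^ m * (h m : ℂ)) * (ζ - 1) =
        -ζ ^ (N + 1) * (-(h 0 : ℂ) + R') := by
      rw [← hRe', e1, zpow_add_one₀ hζ0]
      ring
    rw [add_mul, e2, e3]
    push_cast
    ring
  rw [hkey, norm_mul, norm_zpow, hζ, one_zpow, one_mul]
  have hg0 : g 0 ≤ (b ^ 2) ^ (-s) := f_le (by linarith) hb a _
  have hh0 : h 0 ≤ (b ^ 2) ^ (-s) := f_le (by linarith) hb a _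
  have hg00 : 0 ≤ g 0 := f_nonneg hb a _
  have hh00 : 0 ≤ h 0 := f_nonneg hb a _
  have hn1 : ‖((h 0 - g 0 : ℝ) : ℂ) + R - R'‖ ≤ |h 0 - g 0| + g 0 + h 0 := by
    calc ‖((h 0 - g 0 : ℝ) : ℂ) + R - R'‖ ≤ ‖((h 0 - g 0 : ℝ) : ℂ) + R‖ + ‖R'‖ := norm_sub_le _ _
      _ ≤ ‖((h 0 - g 0 : ℝ) : ℂ)‖ + ‖R‖ + ‖R'‖ := by gcongr; exact norm_add_le _ _
      _ ≤ |h 0 - g 0| + g 0 + h 0 := by
        rw [Complex.norm_real, Real.norm_eq_abs]
        gcongr
  refine hn1.trans ?_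
  rcases abs_cases (h 0 - g 0) with ⟨hc, -⟩ | ⟨hc, -⟩ <;> rw [hc] <;> linarith

end Fermat.Agent.Cor.Kron
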