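import Fermat.Agent.Corollaries.Kron.Lim
import Fermat.Agent.Corollaries.Kron.Cot2
import Fermat.Agent.Corollaries.Kron.Var
import Fermat.Agent.Corollaries.Kron.SiegelProd

/-!
# Kronecker's second limit formula

For `0 < v < 1`, `u` real, `τ` in the upper half plane, `y = im τ`, and `s → 1+`,

`∑_{(m, n) ≠ (0, 0)} cos (2 π (m u + n v)) y^s / |m τ + n|^(2 s) → - 2 π log |g(τ)|`,

`g` the Siegel function `siegelG v u`.
-/

set_option autoImplicit false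

noncomputable section

open Filter Topology Complex
open scoped ComplexConjugate

namespace Fermat.Agent.Cor.Kron

/-- `∑_n e(n v) ((n + a)² + b²)^(-s)` -/
def TT (v a b s : ℝ) : ℂ :=
  ∑' n : ℤ, cexp (2 * Real.pi * I * (n * v)) * ((((n : ℝ) + a) ^ 2 + b ^ 2) ^ (-s) : ℝ)

theorem norm_cexp_int_mul (n : ℤ) (v : ℝ) : ‖cexp (2 * Real.pi * I * (n * v))‖ = 1 := by
  rw [show 2 * (Real.pi : ℂ) * I * (n * v) = ((2 * Real.pi * (n * v) : ℝ) : ℂ) * I by
    push_cast; ring, norm_exp_ofReal_mul_I]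

theorem tendsto_TT (v a : ℝ) {b : ℝ} (hb : 0 < b) :
    Tendsto (fun s : ℝ => TT v a b s) (𝓝[>] 1) (𝓝 (TT v a b 1)) := by
  refine tendsto_tsum_of_dominated_convergence
    (bound := fun n : ℤ => (((n : ℝ) + a) ^ 2 + b ^ 2) ^ (-1 : ℝ) +
      (((n : ℝ) + a) ^ 2 + b ^ 2) ^ (-2 : ℝ))
    ((summable_sq (by norm_num) hb a).add (summable_sq (by norm_num) hb a)) (fun n => ?_) ?_
  · have h : Tendsto (fun s : ℝ => -s) (𝓝[>] 1) (𝓝 (-1)) :=
      (continuous_neg.tendsto 1).mono_left nhdsWithin_le_nhds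
    have h2 : Tendsto (fun s : ℝ => (((n : ℝ) + a) ^ 2 + b ^ 2) ^ (-s)) (𝓝[>] 1)
        (𝓝 ((((n : ℝ) + a) ^ 2 + b ^ 2) ^ (-1 : ℝ))) :=
      tendsto_const_nhds.rpow h (Or.inl (sq_add_sq_pos hb _).ne')
    exact ((continuous_ofReal.tendsto _).comp h2).const_mul _
  · filter_upwards [eventually_mem] with s hs n
    rw [norm_mul, norm_cexp_int_mul, one_mul, norm_real, Real.norm_eq_abs,
      abs_of_nonneg (Real.rpow_nonneg (sq_add_sq_pos hb _).le _)]
    exact rpow_neg_le (sq_add_sq_pos hb _) hs.1.le hs.2.le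

/-- the value at `s = 1` -/
theorem TT_one {z : ℂ} (hz : 0 < z.im) {v : ℝ} (h0 : 0 < v) (h1 : v < 1) :
    TT v z.re z.im 1 = Real.pi / z.im * (conj (cexp (2 * Real.pi * I * (v * z))) /
        (1 - conj (cexp (2 * Real.pi * I * z))) +
        cexp (2 * Real.pi * I * ((1 - v) * z)) / (1 - cexp (2 * Real.pi * I * z))) := by
  rw [← (hasSum_char hz h0 h1).tsum_eq, TT]
  refine tsum_congr fun n => ?_
  rw [div_eq_mul_inv, ← ofReal_inv]
  congr 2
  rw [Real.rpow_neg_one, ← Complex.normSq_eq_norm_sq, Complex.normSq_apply]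
  simp only [add_re, intCast_re, add_im, intCast_im, zero_add]
  ring_nf

variable {τ : ℂ}

/-- a row with the character -/
def CR (τ : ℂ) (u v s : ℝ) (m : ℤ) : ℝ :=
  ∑' n : ℤ, Real.cos (2 * Real.pi * (m * u + n * v)) * KS τ s (m, n)

theorem CR_neg (u v s : ℝ) (m : ℤ) : CR τ u v s (-m) = CR τ u v s m := by
  rw [CR, CR, ← (Equiv.neg ℤ).tsum_eq]
  refine tsum_congr fun n => ?_
  rw [Equiv.neg_apply, KS_neg, ← Real.cos_neg]
  congr 2
  push_cast
  ring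

theorem abs_cos_mul_KS_le (hτ : 0 < τ.im) (u v s : ℝ) (p : ℤ × ℤ) :
    ‖Real.cos (2 * Real.pi * (p.1 * u + p.2 * v)) * KS τ s p‖ ≤ KS τ s p := by
  rw [norm_mul, Real.norm_eq_abs, Real.norm_eq_abs, abs_of_nonneg (KS_nonneg hτ s p)]
  exact mul_le_of_le_one_left (KS_nonneg hτ s p) (Real.abs_cos_le_one _)

theorem summable_cos (hτ : 0 < τ.im) (u v : ℝ) {s : ℝ} (hs : 1 < s) :
    Summable fun p : ℤ × ℤ => Real.cos (2 * Real.pi * (p.1 * u + p.2 * v)) * KS τ s p :=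
  Summable.of_norm_bounded (summable_KS hτ hs) fun p => abs_cos_mul_KS_le hτ u v s p

theorem tsum_cos (hτ : 0 < τ.im) (u v : ℝ) {s : ℝ} (hs : 1 < s) :
    ∑' p : ℤ × ℤ, Real.cos (2 * Real.pi * (p.1 * u + p.2 * v)) * KS τ s p =
      ∑' m : ℤ, CR τ u v s m :=
  (summable_cos hτ u v hs).tsum_prod

theorem tsum_subtype_cos (u v : ℝ) {s : ℝ} (hs : 0 < s) :
    ∑' p : {p : ℤ × ℤ // p ≠ 0}, Real.cos (2 * Real.pi * (p.1.1 * u + p.1.2 * v)) *
      (τ.im / ‖(p.1.1 : ℂ) * τ + p.1.2‖ ^ 2) ^ s =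
      ∑' p : ℤ × ℤ, Real.cos (2 * Real.pi * (p.1 * u + p.2 * v)) * KS τ s p := by
  refine tsum_subtype_eq_of_support_subset
    (f := fun p : ℤ × ℤ => Real.cos (2 * Real.pi * (p.1 * u + p.2 * v)) * KS τ s p)
    (s := {p : ℤ × ℤ | p ≠ 0}) ?_
  intro p hp hp0
  subst hp0
  apply hp
  have : KS τ s 0 = 0 := KS_zero_zero hs
  simp only [this, mul_zero]

theorem summable_CR (hτ : 0 < τ.im) (u v : ℝ) {s : ℝ} (hs : 1 < s) :
    Summable (CR τ u v s) :=
  (summable_cos hτ u v hs).prod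

theorem CR_pos (hτ : 0 < τ.im) (u v : ℝ) {s : ℝ} (hs : 1 / 2 < s) (m : ℕ) :
    CR τ u v s ((m : ℤ) + 1) = τ.im ^ s * (cexp (2 * Real.pi * I * ((m + 1) * u)) *
      TT v (((m : ℝ) + 1) * τ.re) (((m : ℝ) + 1) * τ.im) s).re := by
  have hb : 0 < ((m : ℝ) + 1) * τ.im := by positivity
  have hsum : Summable fun n : ℤ => cexp (2 * Real.pi * I * (n * v)) *
      ((((n : ℝ) + ((m : ℝ) + 1) * τ.re) ^ 2 + (((m : ℝ) + 1) * τ.im) ^ 2) ^ (-s) : ℝ) := by
    refine Summable.of_norm_bounded (summable_sq hs hb (((m : ℝ) + 1) * τ.re)) fun n => ?_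
    rw [norm_mul, norm_cexp_int_mul, one_mul, norm_real, Real.norm_eq_abs,
      abs_of_nonneg (Real.rpow_nonneg (sq_add_sq_pos hb _).le _)]
  have h := hasSum_re (hsum.hasSum.mul_left (cexp (2 * Real.pi * I * ((m + 1) * u))))
  have h2 := h.mul_left (τ.im ^ s)
  rw [CR, TT, ← h2.tsum_eq]
  refine tsum_congr fun n => ?_
  rw [KS_eq hτ, ← mul_assoc (cexp _), ← exp_add, re_mul_ofReal]
  have e1 : 2 * (Real.pi : ℂ) * I * ((m + 1) * u) + 2 * Real.pi * I * (n * v) =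
      ((2 * Real.pi * ((((m : ℤ) + 1 : ℤ) : ℝ) * u + n * v) : ℝ) : ℂ) * I := by
    push_cast
    ring
  rw [e1, exp_ofReal_mul_I_re]
  push_cast
  ring

/-- the bound of a row -/
theorem abs_CR_pos_le (hτ : 0 < τ.im) (u : ℝ) {v s : ℝ} (h0 : 0 < v) (h1 : v < 1)
    (hs : 1 / 2 < s) (m : ℕ) : ‖(cexp (2 * Real.pi * I * ((m + 1) * u)) *
      TT v (((m : ℝ) + 1) * τ.re) (((m : ℝ) + 1) * τ.im) s).re‖ ≤
      2 / ‖cexp (2 * Real.pi * I * v) - 1‖ * ((((m : ℝ) + 1) * τ.im) ^ 2) ^ (-s) := by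
  have hb : 0 < ((m : ℝ) + 1) * τ.im := by positivity
  have h := norm_sum_char_le hs hb (((m : ℝ) + 1) * τ.re) h0 h1
  rw [Real.norm_eq_abs]
  refine (abs_re_le_norm _).trans ?_
  have e1 : ‖cexp (2 * Real.pi * I * ((m + 1) * u))‖ = 1 := by
    rw [show 2 * (Real.pi : ℂ) * I * ((m + 1) * u) =
      ((2 * Real.pi * ((m + 1) * u) : ℝ) : ℂ) * I by push_cast; ring, norm_exp_ofReal_mul_I]
  rw [norm_mul, e1, one_mul]
  refine h.trans (le_of_eq ?_)
  ring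

/-- the limit of a row -/
theorem tendsto_row (hτ : 0 < τ.im) (u : ℝ) {v : ℝ} (h0 : 0 < v) (h1 : v < 1) (m : ℕ) :
    Tendsto (fun s : ℝ => (cexp (2 * Real.pi * I * ((m + 1) * u)) *
      TT v (((m : ℝ) + 1) * τ.re) (((m : ℝ) + 1) * τ.im) s).re) (𝓝[>] 1)
      (𝓝 (Real.pi / τ.im * (1 / ((m : ℝ) + 1) *
        (cexp (2 * Real.pi * I * (v * τ - u)) ^ (m + 1) / (1 - cexp (2 * Real.pi * I * τ) ^ (m + 1)) +
        (cexp (2 * Real.pi * I * τ) / cexp (2 * Real.pi * I * (v * τ - u))) ^ (m + 1) /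
          (1 - cexp (2 * Real.pi * I * τ) ^ (m + 1))).re))) := by
  have hm : (0 : ℝ) < (m : ℝ) + 1 := by positivity
  have hz : 0 < (((m : ℂ) + 1) * τ).im := by
    rw [mul_im']
    positivity
  have hT := TT_one hz h0 h1
  rw [mul_im', mul_re'] at hT
  have hlim := (tendsto_TT v (((m : ℝ) + 1) * τ.re) (b := ((m : ℝ) + 1) * τ.im)
    (by positivity)).const_mul (cexp (2 * Real.pi * I * ((m + 1) * u)))
  have hlim2 := (continuous_re.tendsto _).comp hlim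
  rw [hT] at hlim2
  -- the real part of the value
  set q := cexp (2 * Real.pi * I * τ) with hq
  set p := cexp (2 * Real.pi * I * (v * τ - u)) with hp
  have hqm : cexp (2 * Real.pi * I * ((m + 1) * τ)) = q ^ (m + 1) := by
    rw [hq, ← exp_nat_mul]
    congr 1
    push_cast
    ring
  have hpm : conj (cexp (2 * Real.pi * I * ((m + 1) * u))) *
      cexp (2 * Real.pi * I * (v * ((m + 1) * τ))) = p ^ (m + 1) := by
    have e1 : conj (cexp (2 * Real.pi * I * ((m + 1) * u))) =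
        cexp (-(2 * Real.pi * I * ((m + 1) * u))) := by
      rw [← exp_conj, show 2 * (Real.pi : ℂ) * I * ((m + 1) * u) =
        ((2 * Real.pi * ((m + 1) * u) : ℝ) : ℂ) * I by push_cast; ring, map_mul, conj_ofReal,
        conj_I, mul_neg]
    rw [e1, ← exp_add, hp, ← exp_nat_mul]
    congr 1
    push_cast
    ring
  have hqp : cexp (2 * Real.pi * I * ((m + 1) * u)) *
      cexp (2 * Real.pi * I * ((1 - v) * ((m + 1) * τ))) = (q / p) ^ (m + 1) := by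
    rw [hq, hp, ← exp_sub, ← exp_add, ← exp_nat_mul]
    congr 1
    push_cast
    ring
  have e2 : cexp (2 * Real.pi * I * ((m + 1) * u)) *
      ((Real.pi : ℂ) / (((m : ℝ) + 1) * τ.im : ℝ) *
      (conj (cexp (2 * Real.pi * I * (v * ((m + 1) * τ)))) /
        (1 - conj (cexp (2 * Real.pi * I * ((m + 1) * τ)))) +
      cexp (2 * Real.pi * I * ((1 - v) * ((m + 1) * τ))) /
        (1 - cexp (2 * Real.pi * I * ((m + 1) * τ))))) =
      ((Real.pi / τ.im * (1 / ((m : ℝ) + 1)) : ℝ) : ℂ) *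
        (conj (p ^ (m + 1) / (1 - q ^ (m + 1))) + (q / p) ^ (m + 1) / (1 - q ^ (m + 1))) := by
    rw [← hpm, ← hqp, ← hqm]
    simp only [map_div₀, map_mul, map_sub, map_one, conj_conj]
    push_cast
    field_simp
  rw [e2, re_ofReal_mul, add_re, conj_re, ← add_re, mul_assoc (Real.pi / τ.im)] at hlim2
  exact hlim2

/-! ### The rows `m ≠ 0` -/

/-- the term of the product -/
def pq (τ : ℂ) (u v : ℝ) (m : ℕ) : ℝ := 1 / ((m : ℝ) + 1) *
  (cexp (2 * Real.pi * I * (v * τ - u)) ^ (m + 1) / (1 - cexp (2 * Real.pi * I * τ) ^ (m + 1)) +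
    (cexp (2 * Real.pi * I * τ) / cexp (2 * Real.pi * I * (v * τ - u))) ^ (m + 1) /
      (1 - cexp (2 * Real.pi * I * τ) ^ (m + 1))).re

/-- `∑_{m ≥ 1}` of the rows, without the factor `y^s` -/
def BB (τ : ℂ) (u v s : ℝ) : ℝ :=
  ∑' m : ℕ, (cexp (2 * Real.pi * I * ((m + 1) * u)) *
    TT v (((m : ℝ) + 1) * τ.re) (((m : ℝ) + 1) * τ.im) s).re

theorem summable_BB (hτ : 0 < τ.im) (u : ℝ) {v s : ℝ} (h0 : 0 < v) (h1 : v < 1) (hs : 1 < s) :
    Summable fun m : ℕ => (cexp (2 * Real.pi * I * ((m + 1) * u)) *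
      TT v (((m : ℝ) + 1) * τ.re) (((m : ℝ) + 1) * τ.im) s).re :=
  Summable.of_norm_bounded ((summable_bound hτ s hs.le).mul_left _) fun m =>
    abs_CR_pos_le hτ u h0 h1 (by linarith) m

theorem tendsto_BB (hτ : 0 < τ.im) (u : ℝ) {v : ℝ} (h0 : 0 < v) (h1 : v < 1) :
    Tendsto (fun s : ℝ => BB τ u v s) (𝓝[>] 1) (𝓝 (Real.pi / τ.im * ∑' m : ℕ, pq τ u v m)) := by
  rw [← tsum_mul_left]
  refine tendsto_tsum_of_dominated_convergence
    (bound := fun m : ℕ => 2 / ‖cexp (2 * Real.pi * I * v) - 1‖ *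
      (((((m : ℝ) + 1) * τ.im) ^ 2) ^ (-1 : ℝ) + ((((m : ℝ) + 1) * τ.im) ^ 2) ^ (-2 : ℝ)))
    (((summable_bound hτ 1 le_rfl).add (summable_bound hτ 2 one_le_two)).mul_left _)
    (fun m => tendsto_row hτ u h0 h1 m) ?_
  filter_upwards [eventually_mem] with s hs m
  have hb : 0 < ((m : ℝ) + 1) * τ.im := by positivity
  refine (abs_CR_pos_le hτ u h0 h1 (by linarith [hs.1]) m).trans ?_
  refine mul_le_mul_of_nonneg_left ?_ (by positivity)
  exact rpow_neg_le (by positivity) hs.1.le hs.2.le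

theorem hasSum_CR (hτ : 0 < τ.im) (u : ℝ) {v s : ℝ} (h0 : 0 < v) (h1 : v < 1) (hs : 1 < s) :
    HasSum (CR τ u v s) (τ.im ^ s * BB τ u v s + CR τ u v s 0 + τ.im ^ s * BB τ u v s) := by
  have h : HasSum (fun m : ℕ => CR τ u v s ((m : ℤ) + 1)) (τ.im ^ s * BB τ u v s) := by
    have h2 := (summable_BB hτ u h0 h1 hs).hasSum.mul_left (τ.im ^ s)
    refine h2.congr_fun ?_
    intro m
    rw [CR_pos hτ u v (by linarith)]
  refine HasSum.of_add_one_of_neg_add_one h ?_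
  simp only [CR_neg]
  exact h

/-! ### The row `m = 0` -/

/-- `∑_{n ≥ 1} cos (2 π n v) n^(-s)` -/
def CZ (v s : ℝ) : ℝ := ∑' n : ℕ, Real.cos (2 * Real.pi * ((n + 1) * v)) / ((n : ℝ) + 1) ^ s

theorem norm_CZ_le (v s : ℝ) (n : ℕ) :
    ‖Real.cos (2 * Real.pi * ((n + 1) * v)) / ((n : ℝ) + 1) ^ s‖ ≤ 1 / ((n : ℝ) + 1) ^ s := by
  have hn : (0 : ℝ) < (n : ℝ) + 1 := by positivity
  rw [norm_div, Real.norm_eq_abs, Real.norm_eq_abs, abs_of_pos (Real.rpow_pos_of_pos hn s)]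
  gcongr
  exact Real.abs_cos_le_one _

theorem summable_CZ (v : ℝ) {s : ℝ} (hs : 1 < s) :
    Summable fun n : ℕ => Real.cos (2 * Real.pi * ((n + 1) * v)) / ((n : ℝ) + 1) ^ s :=
  Summable.of_norm_bounded (summable_ZZ hs) fun n => norm_CZ_le v s n

theorem tendsto_CZ (v : ℝ) : Tendsto (fun s : ℝ => CZ v (2 * s)) (𝓝[>] 1) (𝓝 (CZ v 2)) := by
  refine tendsto_tsum_of_dominated_convergence (bound := fun n : ℕ => 1 / ((n : ℝ) + 1) ^ (2 : ℝ))
    (summable_ZZ one_lt_two) (fun n => ?_) ?_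
  · have hn : (0 : ℝ) < (n : ℝ) + 1 := by positivity
    have h3 : Tendsto (fun s : ℝ => 2 * s) (𝓝[>] 1) (𝓝 2) := by
      have h : Continuous fun s : ℝ => 2 * s := by fun_prop
      have h' := (h.tendsto 1).mono_left (nhdsWithin_le_nhds (s := Set.Ioi 1))
      rwa [mul_one] at h'
    exact tendsto_const_nhds.div (tendsto_const_nhds.rpow h3 (Or.inl hn.ne'))
      (Real.rpow_pos_of_pos hn _).ne'
  · filter_upwards [eventually_mem] with s hs n
    have hn : (1 : ℝ) ≤ (n : ℝ) + 1 := by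
      have := Nat.cast_nonneg (α := ℝ) n
      linarith
    refine (norm_CZ_le v (2 * s) n).trans ?_
    exact one_div_le_one_div_of_le (by positivity)
      (Real.rpow_le_rpow_of_exponent_le hn (by linarith [hs.1]))

theorem eval_bernoulli_two (v : ℝ) :
    (Polynomial.map (algebraMap ℚ ℝ) (Polynomial.bernoulli (2 * 1))).eval v =
      v ^ 2 - v + 1 / 6 := by
  have h : Polynomial.bernoulli 2 = Polynomial.monomial 2 (1 : ℚ) + Polynomial.monomial 1 (-1 : ℚ) +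
      Polynomial.monomial 0 (1 / 6 : ℚ) := by
    rw [Polynomial.bernoulli]
    simp only [Finset.sum_range_succ, Finset.sum_range_zero, zero_add]
    rw [bernoulli_zero, bernoulli_one, bernoulli_two]
    norm_num
  rw [show 2 * 1 = 2 by norm_num, h]
  simp
  ring

theorem CZ_two {v : ℝ} (h0 : 0 < v) (h1 : v < 1) : CZ v 2 = Real.pi ^ 2 * (v ^ 2 - v + 1 / 6) := by
  have h := hasSum_one_div_nat_pow_mul_cos (k := 1) one_ne_zero (x := v) ⟨h0.le, h1.le⟩
  have h2 := h.tsum_eq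
  rw [h.summable.tsum_eq_zero_add, eval_bernoulli_two] at h2
  have e2 : (-1 : ℝ) ^ (1 + 1) * (2 * Real.pi) ^ (2 * 1) / 2 / (2 * 1).factorial *
      (v ^ 2 - v + 1 / 6) = Real.pi ^ 2 * (v ^ 2 - v + 1 / 6) := by
    have e4 : ((Nat.factorial (2 * 1) : ℕ) : ℝ) = 2 := by norm_num [Nat.factorial]
    rw [e4]
    ring
  rw [e2] at h2
  rw [← h2]
  have e3 : 1 / ((0 : ℕ) : ℝ) ^ (2 * 1) * Real.cos (2 * Real.pi * ((0 : ℕ) : ℝ) * v) = 0 := by
    simp
  rw [e3, zero_add, CZ]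
  refine tsum_congr fun n => ?_
  rw [show (2 : ℝ) = ((2 : ℕ) : ℝ) by norm_num, Real.rpow_natCast, mul_one, div_eq_mul_inv,
    mul_comm, one_div]
  congr 2
  · push_cast
    rfl
  · push_cast
    ring

theorem CR_zero (hτ : 0 < τ.im) (u v : ℝ) {s : ℝ} (hs : 1 / 2 < s) :
    CR τ u v s 0 = 2 * τ.im ^ s * CZ v (2 * s) := by
  have hterm : ∀ n : ℕ, Real.cos (2 * Real.pi * (((0 : ℤ) : ℝ) * u + (((n : ℤ) + 1 : ℤ) : ℝ) * v)) *
      KS τ s (0, (n : ℤ) + 1) = τ.im ^ s *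
        (Real.cos (2 * Real.pi * ((n + 1) * v)) / ((n : ℝ) + 1) ^ (2 * s)) := by
    intro n
    rw [KS_zero_pos hτ]
    push_cast
    rw [zero_mul, zero_add]
    ring
  have h : HasSum (fun n : ℕ => Real.cos (2 * Real.pi * (((0 : ℤ) : ℝ) * u +
      (((n : ℤ) + 1 : ℤ) : ℝ) * v)) * KS τ s (0, (n : ℤ) + 1)) (τ.im ^ s * CZ v (2 * s)) := by
    simp only [hterm]
    exact (summable_CZ v (s := 2 * s) (by linarith)).hasSum.mul_left (τ.im ^ s)
  have h' : HasSum (fun n : ℕ => Real.cos (2 * Real.pi * (((0 : ℤ) : ℝ) * u +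
      ((-((n : ℤ) + 1) : ℤ) : ℝ) * v)) * KS τ s (0, -((n : ℤ) + 1)))
      (τ.im ^ s * CZ v (2 * s)) := by
    convert h using 2 with n
    rw [← KS_neg, neg_zero, neg_neg, ← Real.cos_neg]
    congr 2
    push_cast
    ring
  have h2 := (HasSum.of_add_one_of_neg_add_one (f := fun n : ℤ =>
    Real.cos (2 * Real.pi * (((0 : ℤ) : ℝ) * u + (n : ℝ) * v)) * KS τ s (0, n)) h h').tsum_eq
  rw [CR, h2, KS_zero_zero (by linarith)]
  ring

/-! ### The formula -/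

/-- **The Siegel function** `e(B₂(v) τ / 2) (1 - p) ∏_{n ≥ 1} (1 - qⁿ p) (1 - qⁿ / p)`,
`p = e(v τ - u)`, `q = e(τ)`, `e(z) = exp (2 π i z)`, `B₂(v) = v² - v + 1 / 6`. -/
def siegelG (v u : ℝ) (τ : ℂ) : ℂ :=
  cexp (Real.pi * I * ((v ^ 2 - v + 1 / 6 : ℝ) * τ)) *
    ((1 - cexp (2 * Real.pi * I * (v * τ - u))) *
      ∏' n : ℕ, ((1 - cexp (2 * Real.pi * I * τ) ^ (n + 1) * cexp (2 * Real.pi * I * (v * τ - u))) *
        (1 - cexp (2 * Real.pi * I * τ) ^ (n + 1) / cexp (2 * Real.pi * I * (v * τ - u)))))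

theorem norm_cexp_two_pi (z : ℂ) : ‖cexp (2 * Real.pi * I * z)‖ = Real.exp (-(2 * Real.pi * z.im)) := by
  rw [norm_exp]
  congr 1
  simp

theorem tsum_pq (hτ : 0 < τ.im) (u : ℝ) {v : ℝ} (h0 : 0 < v) (h1 : v < 1) :
    ∑' m : ℕ, pq τ u v m = -Real.log ‖(1 - cexp (2 * Real.pi * I * (v * τ - u))) *
      ∏' n : ℕ, ((1 - cexp (2 * Real.pi * I * τ) ^ (n + 1) * cexp (2 * Real.pi * I * (v * τ - u))) *
        (1 - cexp (2 * Real.pi * I * τ) ^ (n + 1) / cexp (2 * Real.pi * I * (v * τ - u))))‖ := by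
  have hp : ‖cexp (2 * Real.pi * I * (v * τ - u))‖ = Real.exp (-(2 * Real.pi * (v * τ.im))) := by
    rw [norm_cexp_two_pi]
    congr 1
    simp
  have hpi := Real.pi_pos
  refine (sum_siegel ?_ ?_ ?_).tsum_eq
  · rw [norm_cexp_two_pi, Real.exp_lt_one_iff]
    have : 0 < 2 * Real.pi * τ.im := by positivity
    linarith
  · rw [hp, Real.exp_lt_one_iff]
    have : 0 < 2 * Real.pi * (v * τ.im) := by positivity
    linarith
  · rw [hp, norm_cexp_two_pi, Real.exp_lt_exp]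
    have h3 : v * τ.im < 1 * τ.im := mul_lt_mul_of_pos_right h1 hτ
    have h4 : 2 * Real.pi * (v * τ.im) < 2 * Real.pi * (1 * τ.im) :=
      mul_lt_mul_of_pos_left h3 (by positivity)
    rw [one_mul] at h4
    linarith

/-- the product does not vanish -/
theorem siegelProd_ne_zero {p q : ℂ} (hq : ‖q‖ < 1) (hp : ‖p‖ < 1) (hqp : ‖q‖ < ‖p‖) :
    (1 - p) * ∏' n : ℕ, ((1 - q ^ (n + 1) * p) * (1 - q ^ (n + 1) / p)) ≠ 0 := by
  have hp0 : 0 < ‖p‖ := (norm_nonneg q).trans_lt hqp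
  have key : ∀ w : ℂ, ‖w‖ < 1 → 1 - w ≠ 0 := by
    intro w hw h
    rw [sub_eq_zero] at h
    rw [← h, norm_one] at hw
    exact lt_irrefl _ hw
  have hle : ∀ n : ℕ, ‖q‖ ^ (n + 1) ≤ ‖q‖ := fun n =>
    pow_le_of_le_one (norm_nonneg _) hq.le (Nat.succ_ne_zero n)
  refine mul_ne_zero (key p hp) ?_
  have h1 : ∀ n : ℕ, (1 - q ^ (n + 1) * p) * (1 - q ^ (n + 1) / p) =
      1 + ((q ^ 2) ^ (n + 1) - q ^ (n + 1) * p - q ^ (n + 1) * p⁻¹) := by
    intro n
    have hpp : p ≠ 0 := norm_pos_iff.mp hp0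
    field_simp
    ring
  simp only [h1]
  refine tprod_one_add_ne_zero_of_summable (fun n => ?_) ?_
  · rw [← h1]
    refine mul_ne_zero (key _ ?_) (key _ ?_)
    · rw [norm_mul, norm_pow]
      calc ‖q‖ ^ (n + 1) * ‖p‖ ≤ 1 * ‖p‖ :=
            mul_le_mul_of_nonneg_right ((hle n).trans hq.le) hp0.le
        _ < 1 := by rw [one_mul]; exact hp
    · rw [norm_div, norm_pow, div_lt_one hp0]
      exact (hle n).trans_lt hqp
  · have hg : Summable fun n : ℕ => q ^ (n + 1) :=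
      (summable_nat_add_iff 1).mpr (summable_geometric_of_norm_lt_one hq)
    have hq2 : ‖q ^ 2‖ < 1 := by
      rw [norm_pow]
      exact pow_lt_one₀ (norm_nonneg _) hq two_ne_zero
    have hg2 : Summable fun n : ℕ => (q ^ 2) ^ (n + 1) :=
      (summable_nat_add_iff 1).mpr (summable_geometric_of_norm_lt_one hq2)
    exact ((hg2.sub (hg.mul_right p)).sub (hg.mul_right p⁻¹)).norm

/-- **Kronecker's second limit formula**: for `0 < v < 1`, `u` real and `τ` in the upper half plane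
`∑_{(m, n) ≠ (0, 0)} cos (2 π (m u + n v)) (y / |m τ + n|²)^s → - 2 π log |g_{v, u}(τ)|` for
`s → 1+`, `g` the Siegel function. -/
theorem kronecker_second_limit (hτ : 0 < τ.im) (u : ℝ) {v : ℝ} (h0 : 0 < v) (h1 : v < 1) :
    Tendsto (fun s : ℝ => ∑' p : {p : ℤ × ℤ // p ≠ 0},
      Real.cos (2 * Real.pi * (p.1.1 * u + p.1.2 * v)) *
        (τ.im / ‖(p.1.1 : ℂ) * τ + p.1.2‖ ^ 2) ^ s) (𝓝[>] 1)
      (𝓝 (-(2 * Real.pi * Real.log ‖siegelG v u τ‖))) := by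
  have hpi := Real.pi_pos
  have hA := ((tendsto_rpow_im hτ).mul (tendsto_BB hτ u h0 h1)).const_mul 2
  have hB := ((tendsto_rpow_im hτ).mul (tendsto_CZ v)).const_mul 2
  have hC := hA.add hB
  have hval : 2 * (τ.im * (Real.pi / τ.im * ∑' m : ℕ, pq τ u v m)) + 2 * (τ.im * CZ v 2) =
      -(2 * Real.pi * Real.log ‖siegelG v u τ‖) := by
    have hp : ‖cexp (2 * Real.pi * I * (v * τ - u))‖ = Real.exp (-(2 * Real.pi * (v * τ.im))) := by
      rw [norm_cexp_two_pi]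
      congr 1
      simp
    have hne : ‖(1 - cexp (2 * Real.pi * I * (v * τ - u))) *
        ∏' n : ℕ, ((1 - cexp (2 * Real.pi * I * τ) ^ (n + 1) * cexp (2 * Real.pi * I * (v * τ - u))) *
        (1 - cexp (2 * Real.pi * I * τ) ^ (n + 1) / cexp (2 * Real.pi * I * (v * τ - u))))‖ ≠ 0 := by
      refine norm_ne_zero_iff.mpr (siegelProd_ne_zero ?_ ?_ ?_)
      · rw [norm_cexp_two_pi, Real.exp_lt_one_iff]
        have : 0 < 2 * Real.pi * τ.im := by positivity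
        linarith
      · rw [hp, Real.exp_lt_one_iff]
        have : 0 < 2 * Real.pi * (v * τ.im) := by positivity
        linarith
      · rw [hp, norm_cexp_two_pi, Real.exp_lt_exp]
        have h3 : v * τ.im < 1 * τ.im := mul_lt_mul_of_pos_right h1 hτ
        have h4 : 2 * Real.pi * (v * τ.im) < 2 * Real.pi * (1 * τ.im) :=
          mul_lt_mul_of_pos_left h3 (by positivity)
        rw [one_mul] at h4
        linarith
    have he : ‖cexp (Real.pi * I * ((v ^ 2 - v + 1 / 6 : ℝ) * τ))‖ =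
        Real.exp (-(Real.pi * ((v ^ 2 - v + 1 / 6) * τ.im))) := by
      rw [norm_exp]
      congr 1
      rw [show (Real.pi : ℂ) * I * ((v ^ 2 - v + 1 / 6 : ℝ) * τ) =
        ((Real.pi * (v ^ 2 - v + 1 / 6) : ℝ) : ℂ) * (I * τ) by push_cast; ring, re_ofReal_mul]
      simp
      ring
    rw [tsum_pq hτ u h0 h1, CZ_two h0 h1, siegelG]
    set P := (1 - cexp (2 * Real.pi * I * (v * τ - u))) *
        ∏' n : ℕ, ((1 - cexp (2 * Real.pi * I * τ) ^ (n + 1) * cexp (2 * Real.pi * I * (v * τ - u))) *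
        (1 - cexp (2 * Real.pi * I * τ) ^ (n + 1) / cexp (2 * Real.pi * I * (v * τ - u)))) with hP
    rw [norm_mul (cexp _) P, Real.log_mul (norm_ne_zero_iff.mpr (exp_ne_zero _)) hne, he,
      Real.log_exp]
    field_simp
    ring
  rw [hval] at hC
  refine hC.congr' ?_
  filter_upwards [eventually_mem] with s hs
  rw [tsum_subtype_cos u v (by linarith [hs.1]), tsum_cos hτ u v hs.1, (hasSum_CR hτ u h0 h1 hs.1).tsum_eq,
    CR_zero hτ u v (by linarith [hs.1])]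
  ring

end Fermat.Agent.Cor.Kron

end
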