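import Fermat.Agent.Corollaries.Kron.Classes
import Fermat.Agent.Corollaries.Kron.QuadConst
import Fermat.Agent.Corollaries.Kron.GenusLoc
import Fermat.Agent.Corollaries.ZetaK.ZetaOne

/-!
# Kronecker's solution of Pell's equation by the eta function

`K` imaginary quadratic, `discr K = d₁ d₂` with coprime discriminants `d₁ > 0`, `d₂ < 0` of
quadratic fields `F₁`, `F₂`; `χ` the genus character. Then (Kronecker 1863)
`∑_C χ(C) log (Im τ_C |η(τ_C)|⁴) = - 4 h(F₁) h(F₂) R(F₁) / w(F₂)`.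
-/

set_option autoImplicit false

noncomputable section

namespace Fermat.Agent.Cor.Kron

open NumberField Module Fermat.Agent.Classic.Zeta Filter Topology NumberField.Units
open NumberField.InfinitePlace
open scoped nonZeroDivisors

universe u v w

section Residue

variable {F : Type u} [Field F] [NumberField F]

theorem residue_real (h2 : finrank ℚ F = 2) (hd : 0 < discr F) :
    dedekindZeta_residue F = 2 * classNumber F * regulator F / √|(discr F : ℝ)| := by
  have hc := Diri.nrComplexPlaces_eq_zero_of_discr_pos h2 hd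
  have h1 := card_add_two_mul_card_eq_rank F
  have hr : nrRealPlaces F = 2 := by
    rw [hc, h2] at h1
    omega
  have hw : torsionOrder F = 2 := Diri.torsionOrder_of_real (by rw [hr]; norm_num)
  rw [dedekindZeta_residue_def, hr, hc, hw]
  push_cast
  ring

theorem residue_imag (h2 : finrank ℚ F = 2) (hd : discr F < 0) :
    dedekindZeta_residue F =
      2 * Real.pi * classNumber F / (torsionOrder F * √|(discr F : ℝ)|) := by
  have hc := Diri.nrComplexPlaces_ne_zero_of_discr_neg hd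
  have h1 := card_add_two_mul_card_eq_rank F
  have hr : nrRealPlaces F = 0 := by
    rw [h2] at h1
    omega
  have hc1 : nrComplexPlaces F = 1 := by
    rw [h2] at h1
    omega
  have hrk := Diri.rank_eq_zero_of_imag h2 hc
  rw [dedekindZeta_residue_def, hr, hc1, regulator_of_rank_eq_zero F hrk]
  push_cast
  ring

end Residue

section Main

variable {K : Type u} [Field K] [NumberField K]

/-- a genus character is not trivial -/
theorem ne_one_of_LK_eq (h2 : finrank ℚ K = 2) {φ : K →+* ℂ} (hφ : ¬ ComplexEmbedding.IsReal φ)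
    {χ : ClassGroup (𝓞 K) →* ℂˣ} {N₁ N₂ : ℕ} [NeZero N₁] [NeZero N₂]
    {ψ₁ : DirichletCharacter ℂ N₁} {ψ₂ : DirichletCharacter ℂ N₂} (hψ₁ : ψ₁ ≠ 1) (hψ₂ : ψ₂ ≠ 1)
    (hL : ∀ s : ℂ, 1 < s.re → LK χ s = ψ₁.LFunction s * ψ₂.LFunction s) : χ ≠ 1 := by
  rintro rfl
  choose τ hτ using fun C : ClassGroup (𝓞 K) => exists_isTau h2 hφ C⁻¹
  have h1 := tendsto_zetaK h2 hφ hτ
  have hcont : Continuous fun s : ℂ => ψ₁.LFunction s * ψ₂.LFunction s :=
    (ψ₁.differentiable_LFunction hψ₁).continuous.mul (ψ₂.differentiable_LFunction hψ₂).continuous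
  have h3 : Tendsto (fun s : ℝ => ψ₁.LFunction (s : ℂ) * ψ₂.LFunction (s : ℂ)) (𝓝[>] 1)
      (𝓝 (ψ₁.LFunction ((1 : ℝ) : ℂ) * ψ₂.LFunction ((1 : ℝ) : ℂ))) :=
    ((hcont.comp Complex.continuous_ofReal).tendsto 1).mono_left nhdsWithin_le_nhds
  have h4 := residue_const_unique (Z := fun s : ℝ => zetaK K s)
    (a := (classNumber K : ℂ) * kap K)
    (b := ((kap K * (classNumber K * cst K - ∑ C, leta (τ C)) : ℝ) : ℂ)) (c := 0) ?_ ?_
      (d := ψ₁.LFunction ((1 : ℝ) : ℂ) * ψ₂.LFunction ((1 : ℝ) : ℂ))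
  · have hk : (kap K : ℂ) ≠ 0 := by
      rw [Complex.ofReal_ne_zero, kap]
      have := discr_pos' (K := K)
      have : (0 : ℝ) < torsionOrder K := Nat.cast_pos.mpr (torsionOrder_pos K)
      positivity
    exact mul_ne_zero (Nat.cast_ne_zero.mpr (classNumber_pos K).ne') hk h4.1
  · refine h1.congr fun s => ?_
    push_cast
    ring
  · refine h3.congr' ?_
    filter_upwards [self_mem_nhdsWithin] with s hs
    have hs1 : 1 < ((s : ℝ) : ℂ).re := hs
    rw [zero_div, sub_zero, ← hL _ hs1, Fermat.Agent.Cor.LK_one]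

/-- **Kronecker's formula**, for the genus character. -/
theorem sum_genus_char (h2 : finrank ℚ K = 2) {φ : K →+* ℂ} (hφ : ¬ ComplexEmbedding.IsReal φ)
    {τ : ClassGroup (𝓞 K) → ℂ} (hτ : ∀ C, IsTau φ C⁻¹ (τ C)) {χ : ClassGroup (𝓞 K) →* ℂˣ}
    (hχ : χ ≠ 1) {F₁ : Type v} [Field F₁] [NumberField F₁] {F₂ : Type w} [Field F₂]
    [NumberField F₂] (h₁ : finrank ℚ F₁ = 2) (h₂ : finrank ℚ F₂ = 2) (hd₁ : 0 < discr F₁)
    (hd₂ : discr F₂ < 0) (hd : discr K = discr F₁ * discr F₂)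
    (hL : LK χ 1 = (dedekindZeta_residue F₁ : ℂ) * (dedekindZeta_residue F₂ : ℂ)) :
    ∑ C, ((χ C : ℂˣ) : ℂ) *
        ((Real.log ((τ C).im * ‖ModularForm.eta (τ C)‖ ^ 4) : ℝ) : ℂ) =
      -((2 * torsionOrder K * classNumber F₁ * classNumber F₂ * regulator F₁ /
        torsionOrder F₂ : ℝ) : ℂ) := by
  have h := LK_one h2 hφ hτ hχ
  rw [hL, residue_real h₁ hd₁, residue_imag h₂ hd₂] at h
  have hk : ((2 * Real.pi / (torsionOrder K * √|(discr K : ℝ)|) : ℝ) : ℂ) ≠ 0 := by
    rw [Complex.ofReal_ne_zero]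
    have := discr_pos' (K := K)
    have : (0 : ℝ) < torsionOrder K := Nat.cast_pos.mpr (torsionOrder_pos K)
    positivity
  refine mul_left_cancel₀ (neg_ne_zero.mpr hk) ?_
  rw [← h, ← Complex.ofReal_mul, ← Complex.ofReal_neg, ← Complex.ofReal_neg,
    ← Complex.ofReal_mul]
  congr 1
  have e1 : √|(discr K : ℝ)| = √|(discr F₁ : ℝ)| * √|(discr F₂ : ℝ)| := by
    rw [hd, Int.cast_mul, abs_mul, Real.sqrt_mul (abs_nonneg _)]
  have w1 : (torsionOrder K : ℝ) ≠ 0 := Nat.cast_ne_zero.mpr (torsionOrder_ne_zero K)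
  have w2 : (torsionOrder F₂ : ℝ) ≠ 0 := Nat.cast_ne_zero.mpr (torsionOrder_ne_zero F₂)
  have s1 := (discr_pos' (K := F₁)).ne'
  have s2 := (discr_pos' (K := F₂)).ne'
  rw [e1]
  field_simp

end Main

end Fermat.Agent.Cor.Kron

end
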