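import Fermat.Agent.Corollaries.Kron.SiegelEdge

/-!
# The product of the Siegel functions of level `N`

`∏ |g_{a/N, b/N}(τ)| = N`, the product over the pairs `(a, b) ≠ (0, 0)` modulo `N`
(`prod_norm_siegelG`): the sum of the zeta functions of the second limit formula over the
characters of level `N` is `N^(2 - 2 s)` times the Epstein zeta function (`sum_ES`), and the
difference at `s = 1` comes from the pole.
-/

set_option autoImplicit false

noncomputable section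

open Filter Topology Complex

namespace Fermat.Agent.Cor.Kron

variable {τ : ℂ}

theorem sum_exp_range {N : ℕ} (hN : 0 < N) (m : ℤ) :
    ∑ b ∈ Finset.range N, cexp (2 * Real.pi * I * (m * (b / N))) =
      if (N : ℤ) ∣ m then (N : ℂ) else 0 := by
  have hN' : (N : ℂ) ≠ 0 := by exact_mod_cast hN.ne'
  have e : ∀ b : ℕ, cexp (2 * Real.pi * I * (m * (b / N))) =
      cexp (2 * Real.pi * I * (m / N)) ^ b := by
    intro b
    rw [← Complex.exp_nat_mul]
    congr 1
    ring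
  simp only [e]
  have hpi : (2 * Real.pi * I : ℂ) ≠ 0 := Complex.two_pi_I_ne_zero
  split_ifs with h
  · obtain ⟨k, rfl⟩ := h
    have : cexp (2 * Real.pi * I * (((N : ℤ) * k : ℤ) / N)) = 1 := by
      rw [Complex.exp_eq_one_iff]
      refine ⟨k, ?_⟩
      push_cast
      field_simp
    simp only [this, one_pow, Finset.sum_const, Finset.card_range, nsmul_eq_mul, mul_one]
  · have h1 : cexp (2 * Real.pi * I * (m / N)) ≠ 1 := by
      intro h1
      rw [Complex.exp_eq_one_iff] at h1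
      obtain ⟨k, hk⟩ := h1
      apply h
      refine ⟨k, ?_⟩
      have h2 : (m : ℂ) / N = k := by
        apply mul_left_cancel₀ hpi
        rw [hk]
        ring
      rw [div_eq_iff hN'] at h2
      have h3 : (m : ℂ) = ((N * k : ℤ) : ℂ) := by
        rw [h2]
        push_cast
        ring
      exact_mod_cast h3
    have h2 : cexp (2 * Real.pi * I * (m / N)) ^ N = 1 := by
      rw [← Complex.exp_nat_mul, Complex.exp_eq_one_iff]
      refine ⟨m, ?_⟩
      field_simp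
    rw [geom_sum_eq h1, h2, sub_self, zero_div]

theorem sum_cos_range {N : ℕ} (hN : 0 < N) (m n : ℤ) :
    ∑ a ∈ Finset.range N, ∑ b ∈ Finset.range N,
      Real.cos (2 * Real.pi * (m * ((b : ℝ) / N) + n * ((a : ℝ) / N))) =
      if (N : ℤ) ∣ m ∧ (N : ℤ) ∣ n then (N : ℝ) ^ 2 else 0 := by
  have h1 := sum_exp_range hN m
  have h2 := sum_exp_range hN n
  have h3 : ∑ a ∈ Finset.range N, ∑ b ∈ Finset.range N,
      cexp (2 * Real.pi * I * (m * (b / N))) * cexp (2 * Real.pi * I * (n * (a / N))) =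
      (if (N : ℤ) ∣ m then (N : ℂ) else 0) * (if (N : ℤ) ∣ n then (N : ℂ) else 0) := by
    rw [← h1, ← h2, Finset.mul_sum]
    refine Finset.sum_congr rfl fun a _ => ?_
    rw [Finset.sum_mul]
  have h4 := congrArg Complex.re h3
  rw [Complex.re_sum] at h4
  have e : ∀ a b : ℕ, (cexp (2 * Real.pi * I * (m * (b / N))) *
      cexp (2 * Real.pi * I * (n * (a / N)))).re =
      Real.cos (2 * Real.pi * (m * ((b : ℝ) / N) + n * ((a : ℝ) / N))) := by
    intro a b
    rw [← Complex.exp_add, ← Complex.exp_ofReal_mul_I_re]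
    congr 2
    push_cast
    ring
  simp only [Complex.re_sum, e] at h4
  rw [h4]
  by_cases ha : (N : ℤ) ∣ m <;> by_cases hb : (N : ℤ) ∣ n <;> simp [ha, hb, sq]

theorem KS_mul (hτ : 0 < τ.im) (N : ℕ) (s : ℝ) (p : ℤ × ℤ) :
    KS τ s ((N : ℤ) * p.1, (N : ℤ) * p.2) = (((N : ℝ) ^ 2)⁻¹) ^ s * KS τ s p := by
  have h : ((((N : ℤ) * p.1 : ℤ) : ℂ) * τ + (((N : ℤ) * p.2 : ℤ) : ℂ)) =
      (N : ℂ) * ((p.1 : ℂ) * τ + p.2) := by
    push_cast
    ring
  change (τ.im / ‖(((N : ℤ) * p.1 : ℤ) : ℂ) * τ + (((N : ℤ) * p.2 : ℤ) : ℂ)‖ ^ 2) ^ s = _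
  rw [h, norm_mul, Complex.norm_natCast, mul_pow, KS, ← Real.mul_rpow (by positivity)
    (by positivity)]
  congr 1
  rw [div_mul_eq_div_div, div_eq_mul_inv τ.im ((N : ℝ) ^ 2)]
  ring

/-- The sum of the zeta functions over the characters of level `N`. -/
theorem sum_ES (hτ : 0 < τ.im) {N : ℕ} (hN : 0 < N) {s : ℝ} (hs : 1 < s) :
    ∑ a ∈ Finset.range N, ∑ b ∈ Finset.range N, ES τ ((b : ℝ) / N) ((a : ℝ) / N) s =
      (N : ℝ) ^ (2 - 2 * s) * ES τ 0 0 s := by
  have hN' : (0 : ℝ) < N := by exact_mod_cast hN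
  have h1 : ∑ a ∈ Finset.range N, ∑ b ∈ Finset.range N, ES τ ((b : ℝ) / N) ((a : ℝ) / N) s =
      ∑' p : ℤ × ℤ, (∑ a ∈ Finset.range N, ∑ b ∈ Finset.range N,
        Real.cos (2 * Real.pi * (p.1 * ((b : ℝ) / N) + p.2 * ((a : ℝ) / N)))) * KS τ s p := by
    simp only [ES]
    have e : ∀ a ∈ Finset.range N, ∑ b ∈ Finset.range N, ∑' p : ℤ × ℤ,
        Real.cos (2 * Real.pi * (p.1 * ((b : ℝ) / N) + p.2 * ((a : ℝ) / N))) * KS τ s p =
        ∑' p : ℤ × ℤ, ∑ b ∈ Finset.range N,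
          Real.cos (2 * Real.pi * (p.1 * ((b : ℝ) / N) + p.2 * ((a : ℝ) / N))) * KS τ s p :=
      fun a _ => (Summable.tsum_finsetSum fun b _ => summable_cos hτ _ _ hs).symm
    rw [Finset.sum_congr rfl e, ← Summable.tsum_finsetSum fun a _ =>
      summable_sum fun b _ => summable_cos hτ _ _ hs]
    refine tsum_congr fun p => ?_
    rw [Finset.sum_mul]
    refine Finset.sum_congr rfl fun a _ => ?_
    rw [Finset.sum_mul]
  rw [h1]
  simp only [sum_cos_range hN]
  have hinj : Function.Injective fun p : ℤ × ℤ => ((N : ℤ) * p.1, (N : ℤ) * p.2) := by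
    rintro ⟨x, y⟩ ⟨x', y'⟩ h
    have h2 := congrArg Prod.fst h
    have h3 := congrArg Prod.snd h
    have hNz : (N : ℤ) ≠ 0 := by exact_mod_cast hN.ne'
    simp only at h2 h3
    rw [mul_left_cancel₀ hNz h2, mul_left_cancel₀ hNz h3]
  have h2 := hinj.tsum_eq (f := fun p : ℤ × ℤ =>
    (if (N : ℤ) ∣ p.1 ∧ (N : ℤ) ∣ p.2 then (N : ℝ) ^ 2 else 0) * KS τ s p) (by
    intro p hp
    by_cases h : (N : ℤ) ∣ p.1 ∧ (N : ℤ) ∣ p.2
    · obtain ⟨⟨x, hx⟩, y, hy⟩ := h
      exact ⟨(x, y), Prod.ext hx.symm hy.symm⟩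
    · simp [h] at hp)
  rw [← h2, ES, ← tsum_mul_left]
  refine tsum_congr fun p => ?_
  have h3 := KS_mul hτ N s p
  rw [if_pos ⟨Dvd.intro _ rfl, Dvd.intro _ rfl⟩, h3]
  have h4 : (N : ℝ) ^ 2 * (((N : ℝ) ^ 2)⁻¹) ^ s = (N : ℝ) ^ (2 - 2 * s) := by
    rw [Real.inv_rpow (by positivity), ← Real.rpow_natCast, ← Real.rpow_mul hN'.le,
      ← Real.rpow_neg hN'.le, ← Real.rpow_add hN']
    congr 1
  rw [← mul_assoc, h4]
  simp

theorem tendsto_pole (hτ : 0 < τ.im) {N : ℕ} (hN : 0 < N) :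
    Tendsto (fun s : ℝ => ((N : ℝ) ^ (2 - 2 * s) - 1) * ES τ 0 0 s) (𝓝[>] 1)
      (𝓝 (-(2 * Real.pi * Real.log N))) := by
  have hN' : (0 : ℝ) < N := by exact_mod_cast hN
  have hder : HasDerivAt (fun s : ℝ => (N : ℝ) ^ (2 - 2 * s)) (-(2 * Real.log N)) 1 := by
    have h1 : HasDerivAt (fun s : ℝ => 2 - 2 * s) (-2) 1 := by
      have := ((hasDerivAt_id (1 : ℝ)).const_mul 2).const_sub 2
      simpa using this
    have h2 := h1.const_rpow hN'
    convert h2 using 1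
    norm_num
    ring
  have h1 : Tendsto (fun s : ℝ => ((N : ℝ) ^ (2 - 2 * s) - 1) / (s - 1)) (𝓝[>] 1)
      (𝓝 (-(2 * Real.log N))) := by
    have h2 := hder.tendsto_slope
    have h3 : Tendsto (slope (fun s : ℝ => (N : ℝ) ^ (2 - 2 * s)) 1) (𝓝[>] 1)
        (𝓝 (-(2 * Real.log N))) :=
      h2.mono_left (nhdsWithin_mono _ fun x hx => (Set.mem_Ioi.mp hx).ne')
    refine h3.congr fun s => ?_
    rw [slope_def_field]
    norm_num
  have h4 : Tendsto (fun s : ℝ => (N : ℝ) ^ (2 - 2 * s) - 1) (𝓝[>] 1) (𝓝 0) := by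
    have h5 := hder.continuousAt.tendsto.mono_left (nhdsWithin_le_nhds (s := Set.Ioi 1))
    have h6 := h5.sub_const 1
    norm_num at h6
    exact h6
  have h5 := (h4.mul (tendsto_tsum_KS hτ)).add (h1.const_mul Real.pi)
  have h6 : 0 * (2 * Real.pi * (Real.eulerMascheroniConstant - Real.log 2 -
        Real.log (√τ.im * ‖ModularForm.eta τ‖ ^ 2))) + Real.pi * -(2 * Real.log N) =
      -(2 * Real.pi * Real.log N) := by ring
  rw [h6] at h5
  refine h5.congr' ?_
  filter_upwards [eventually_mem] with s hs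
  have h7 : ES τ 0 0 s = ∑' p : ℤ × ℤ, KS τ s p := by
    rw [ES]
    refine tsum_congr fun p => ?_
    simp
  have h8 : s - 1 ≠ 0 := by linarith [hs.1]
  rw [h7]
  field_simp
  ring

/-- **The product of the Siegel functions of level `N`**:
`∏ |g_{a/N, b/N}(τ)| = N`, `(a, b) ≠ (0, 0)` modulo `N`. -/
theorem prod_norm_siegelG (hτ : 0 < τ.im) {N : ℕ} (hN : 0 < N) :
    ∏ x ∈ (Finset.range N ×ˢ Finset.range N).erase (0, 0),
      ‖siegelG ((x.1 : ℝ) / N) ((x.2 : ℝ) / N) τ‖ = N := by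
  have hN' : (0 : ℝ) < N := by exact_mod_cast hN
  have hpi := Real.pi_pos
  have hmem : ((0 : ℕ), (0 : ℕ)) ∈ Finset.range N ×ˢ Finset.range N := by
    simp [hN]
  have hx : ∀ x ∈ (Finset.range N ×ˢ Finset.range N).erase (0, 0),
      ¬ ((∃ k : ℤ, (x.2 : ℝ) / N = k) ∧ ∃ k : ℤ, (x.1 : ℝ) / N = k) ∧
        Int.fract ((x.1 : ℝ) / N) = (x.1 : ℝ) / N := by
    rintro ⟨x, y⟩ hxy
    rw [Finset.mem_erase, Finset.mem_product, Finset.mem_range, Finset.mem_range] at hxy
    obtain ⟨h0, h1, h2⟩ := hxy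
    simp only at h1 h2 ⊢
    have key : ∀ {z : ℕ}, z < N → (∃ k : ℤ, (z : ℝ) / N = k) → z = 0 := by
      rintro z hz ⟨k, hk⟩
      have h3 : (z : ℝ) / N < 1 := by
        rw [div_lt_one hN']
        exact_mod_cast hz
      have h4 : (0 : ℝ) ≤ (z : ℝ) / N := by positivity
      rw [hk] at h3 h4
      have h5 : k < 1 := by exact_mod_cast h3
      have h6 : 0 ≤ k := by exact_mod_cast h4
      have h7 : k = 0 := by omega
      rw [h7, Int.cast_zero, div_eq_zero_iff] at hk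
      rcases hk with hk | hk
      · exact_mod_cast hk
      · exact absurd hk hN'.ne'
    refine ⟨fun ⟨ha, hb⟩ => h0 ?_, ?_⟩
    · rw [key h1 hb, key h2 ha]
    · rw [Int.fract_eq_self]
      refine ⟨by positivity, ?_⟩
      rw [div_lt_one hN']
      exact_mod_cast h1
  have hlim : Tendsto (fun s : ℝ => ∑ x ∈ (Finset.range N ×ˢ Finset.range N).erase (0, 0),
      ES τ ((x.2 : ℝ) / N) ((x.1 : ℝ) / N) s) (𝓝[>] 1)
      (𝓝 (∑ x ∈ (Finset.range N ×ˢ Finset.range N).erase (0, 0),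
        -(2 * Real.pi * Real.log ‖siegelG ((x.1 : ℝ) / N) ((x.2 : ℝ) / N) τ‖))) := by
    refine tendsto_finsetSum _ fun x hx' => ?_
    have h := kronecker_second_limit_all hτ (hx x hx').1
    rw [tendsto_ES_iff, (hx x hx').2] at h
    exact h
  have hlim2 : Tendsto (fun s : ℝ => ∑ x ∈ (Finset.range N ×ˢ Finset.range N).erase (0, 0),
      ES τ ((x.2 : ℝ) / N) ((x.1 : ℝ) / N) s) (𝓝[>] 1) (𝓝 (-(2 * Real.pi * Real.log N))) := by
    refine (tendsto_pole hτ hN).congr' ?_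
    filter_upwards [eventually_mem] with s hs
    have h := sum_ES hτ hN hs.1
    rw [← Finset.sum_product' (f := fun a b : ℕ => ES τ ((b : ℝ) / N) ((a : ℝ) / N) s),
      ← Finset.add_sum_erase _ _ hmem] at h
    simp only [Nat.cast_zero, zero_div] at h
    linarith
  have h := tendsto_nhds_unique hlim hlim2
  rw [Finset.sum_neg_distrib, ← Finset.mul_sum] at h
  have h2 : ∑ x ∈ (Finset.range N ×ˢ Finset.range N).erase (0, 0),
      Real.log ‖siegelG ((x.1 : ℝ) / N) ((x.2 : ℝ) / N) τ‖ = Real.log N := by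
    have h3 : 2 * Real.pi ≠ 0 := by positivity
    exact mul_left_cancel₀ h3 (neg_injective h)
  have hpos : ∀ x ∈ (Finset.range N ×ˢ Finset.range N).erase (0, 0),
      0 < ‖siegelG ((x.1 : ℝ) / N) ((x.2 : ℝ) / N) τ‖ := by
    intro x hx'
    have h3 := siegelG_ne_zero_all hτ (hx x hx').1
    rw [(hx x hx').2] at h3
    exact norm_pos_iff.mpr h3
  rw [← Real.log_prod fun x hx' => (hpos x hx').ne'] at h2
  exact Real.log_injOn_pos (Finset.prod_pos hpos) hN' h2

end Fermat.Agent.Cor.Kron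

end
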