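import Fermat.Agent.Corollaries.Kron.SiegelMod

/-!
# The Siegel functions `g_{0, u}`, the second limit formula for all the characters

The absolute value of the Siegel function is continuous in its index, also at the boundary, so that
`|g_{0, u}(τ)| = |g_{u, 0}(-1 / τ)|`; the second limit formula and the modularity of the absolute
values of the Siegel functions hold for every `(u, v)` outside `ℤ²`.
-/

set_option autoImplicit false

noncomputable section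

open Filter Topology Complex

namespace Fermat.Agent.Cor.Kron

/-- `∏_{n ≥ 0} (1 - qⁿ c)` -/
def PP (q c : ℂ) : ℂ := ∏' n : ℕ, (1 - q ^ n * c)

theorem multipliable_PP {q : ℂ} (hq : ‖q‖ < 1) (c : ℂ) :
    Multipliable fun n : ℕ => 1 - q ^ n * c := by
  have h := (summable_geometric_of_norm_lt_one hq).mul_right c
  have h2 := multipliable_one_add_of_summable (f := fun n : ℕ => -(q ^ n * c)) (by
    simpa using h.norm)
  simpa only [← sub_eq_add_neg] using h2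

theorem PP_eq {q : ℂ} (hq : ‖q‖ < 1) (c : ℂ) : PP q c = (1 - c) * PP q (q * c) := by
  have h := multipliable_PP hq (q * c)
  have e : ∀ n : ℕ, 1 - q ^ n * (q * c) = 1 - q ^ (n + 1) * c := fun n => by ring
  rw [PP, PP, tprod_eq_zero_mul' (f := fun n : ℕ => 1 - q ^ n * c) (by
    simpa only [← e] using h)]
  simp only [e, pow_zero, one_mul]

theorem norm_PP {q c : ℂ} (hq : ‖q‖ < 1) (hc : ‖c‖ < 1) : ‖PP q c‖ = Real.exp
    (-∑' m : ℕ, 1 / ((m : ℝ) + 1) * (c ^ (m + 1) / (1 - q ^ (m + 1))).re) := by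
  obtain ⟨h1, -⟩ := SiegelProd.hasSum_one hc hq
  have hs : Summable fun n : ℕ => q ^ n * c := (summable_geometric_of_norm_lt_one hq).mul_right c
  have h0 : ∀ n : ℕ, 1 - q ^ n * c ≠ 0 := fun n =>
    SiegelProd.one_sub_ne (SiegelProd.norm_mul_lt_one hc hq n)
  obtain ⟨-, h3, h4⟩ := SiegelProd.log_norm_tprod_one_sub hs h0
  rw [h1.tsum_eq, neg_neg, ← h4, Real.exp_log (norm_pos_iff.mpr h3)]
  rfl

theorem PP_ne_zero {q c : ℂ} (hq : ‖q‖ < 1) (hc : ‖c‖ < 1) : PP q c ≠ 0 := by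
  rw [← norm_pos_iff, norm_PP hq hc]
  exact Real.exp_pos _

theorem tendsto_norm_PP {q c₀ : ℂ} (hq : ‖q‖ < 1) (h0 : ‖c₀‖ < 1) :
    Tendsto (fun c => ‖PP q c‖) (𝓝 c₀) (𝓝 ‖PP q c₀‖) := by
  obtain ⟨r, hr0, hr1⟩ := exists_between h0
  have hrpos : 0 ≤ r := (norm_nonneg _).trans hr0.le
  have hev : ∀ᶠ c in 𝓝 c₀, ‖c‖ < r := (continuous_norm.tendsto c₀).eventually (gt_mem_nhds hr0)
  have hb : Summable fun m : ℕ => r ^ (m + 1) / (1 - ‖q‖) :=
    ((summable_nat_add_iff 1).mpr (summable_geometric_of_lt_one hrpos hr1)).div_const _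
  have h := tendsto_tsum_of_dominated_convergence (𝓕 := 𝓝 c₀)
    (f := fun (c : ℂ) (m : ℕ) => 1 / ((m : ℝ) + 1) * (c ^ (m + 1) / (1 - q ^ (m + 1))).re)
    (g := fun m : ℕ => 1 / ((m : ℝ) + 1) * (c₀ ^ (m + 1) / (1 - q ^ (m + 1))).re) hb
    (fun m => by
      have hc : Continuous fun c : ℂ => 1 / ((m : ℝ) + 1) * (c ^ (m + 1) / (1 - q ^ (m + 1))).re := by
        fun_prop
      exact hc.tendsto c₀)
    (by
      filter_upwards [hev] with c hc m
      have h1 : (1 : ℝ) - ‖q‖ ≤ ‖1 - q ^ (m + 1)‖ := by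
        have h2 := norm_sub_norm_le (1 : ℂ) (q ^ (m + 1))
        rw [norm_one, norm_pow] at h2
        have h3 : ‖q‖ ^ (m + 1) ≤ ‖q‖ := by
          calc ‖q‖ ^ (m + 1) ≤ ‖q‖ ^ 1 :=
                pow_le_pow_of_le_one (norm_nonneg _) hq.le (by omega)
            _ = _ := pow_one _
        linarith
      have h4 : (0 : ℝ) < 1 - ‖q‖ := by linarith
      have h5 : |1 / ((m : ℝ) + 1)| ≤ 1 := by
        rw [abs_of_nonneg (by positivity)]
        have : (0 : ℝ) ≤ m := Nat.cast_nonneg m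
        rw [div_le_one (by positivity)]
        linarith
      rw [norm_mul, Real.norm_eq_abs, Real.norm_eq_abs]
      calc |1 / ((m : ℝ) + 1)| * |(c ^ (m + 1) / (1 - q ^ (m + 1))).re| ≤
            1 * ‖c ^ (m + 1) / (1 - q ^ (m + 1))‖ :=
            mul_le_mul h5 (abs_re_le_norm _) (abs_nonneg _) zero_le_one
        _ = ‖c‖ ^ (m + 1) / ‖1 - q ^ (m + 1)‖ := by rw [one_mul, norm_div, norm_pow]
        _ ≤ r ^ (m + 1) / (1 - ‖q‖) :=
            div_le_div₀ (pow_nonneg hrpos _) (pow_le_pow_left₀ (norm_nonneg _) hc.le _) h4 h1)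
  have h2 := (Real.continuous_exp.tendsto _).comp h.neg
  rw [norm_PP hq h0]
  refine h2.congr' ?_
  filter_upwards [hev] with c hc
  rw [norm_PP hq (hc.trans hr1)]
  rfl

variable {τ : ℂ} {a b c d : ℤ}

/-- the nome -/
theorem norm_nome_lt_one (hτ : 0 < τ.im) : ‖cexp (2 * Real.pi * I * τ)‖ < 1 := by
  have hpi := Real.pi_pos
  rw [norm_cexp_two_pi, Real.exp_lt_one_iff]
  have : 0 < 2 * Real.pi * τ.im := by positivity
  linarith

theorem norm_p (τ : ℂ) (v u : ℝ) :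
    ‖cexp (2 * Real.pi * I * (v * τ - u))‖ = Real.exp (-(2 * Real.pi * (v * τ.im))) := by
  rw [norm_cexp_two_pi]
  congr 1
  simp

/-- The absolute value of the Siegel function. -/
theorem norm_siegelG_eq (hτ : 0 < τ.im) (v u : ℝ) : ‖siegelG v u τ‖ =
    Real.exp (-(Real.pi * ((v ^ 2 - v + 1 / 6) * τ.im))) *
      (‖1 - cexp (2 * Real.pi * I * (v * τ - u))‖ *
        (‖PP (cexp (2 * Real.pi * I * τ)) (cexp (2 * Real.pi * I * τ) *
          cexp (2 * Real.pi * I * (v * τ - u)))‖ *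
        ‖PP (cexp (2 * Real.pi * I * τ)) (cexp (2 * Real.pi * I * τ) /
          cexp (2 * Real.pi * I * (v * τ - u)))‖)) := by
  have hq := norm_nome_lt_one hτ
  have he : ‖cexp (Real.pi * I * ((v ^ 2 - v + 1 / 6 : ℝ) * τ))‖ =
      Real.exp (-(Real.pi * ((v ^ 2 - v + 1 / 6) * τ.im))) := by
    rw [norm_exp]
    congr 1
    rw [show (Real.pi : ℂ) * I * ((v ^ 2 - v + 1 / 6 : ℝ) * τ) =
      ((Real.pi * (v ^ 2 - v + 1 / 6) : ℝ) : ℂ) * (I * τ) by push_cast; ring, re_ofReal_mul]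
    simp
    ring
  rw [siegelG, norm_mul, norm_mul, he]
  generalize cexp (2 * Real.pi * I * τ) = q at *
  generalize cexp (2 * Real.pi * I * (v * τ - u)) = p at *
  have h1 := multipliable_PP hq (q * p)
  have h2 := multipliable_PP hq (q / p)
  have h3 := h1.tprod_mul h2
  have e : ∀ n : ℕ, (1 - q ^ (n + 1) * p) * (1 - q ^ (n + 1) / p) =
      (1 - q ^ n * (q * p)) * (1 - q ^ n * (q / p)) := fun n => by ring
  simp only [e]
  rw [h3, norm_mul]
  rfl

theorem tendsto_norm_siegelG (hτ : 0 < τ.im) {v₀ u₀ : ℝ} (h0 : -1 < v₀) (h1 : v₀ < 2) :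
    Tendsto (fun x : ℝ × ℝ => ‖siegelG x.1 x.2 τ‖) (𝓝 (v₀, u₀)) (𝓝 ‖siegelG v₀ u₀ τ‖) := by
  have hq := norm_nome_lt_one hτ
  have hpi := Real.pi_pos
  have hp : Continuous fun x : ℝ × ℝ => cexp (2 * Real.pi * I * (x.1 * τ - x.2)) := by fun_prop
  have hform : ∀ v u : ℝ, ‖siegelG v u τ‖ =
      Real.exp (-(Real.pi * ((v ^ 2 - v + 1 / 6) * τ.im))) *
      (‖1 - cexp (2 * Real.pi * I * (v * τ - u))‖ *
        (‖PP (cexp (2 * Real.pi * I * τ)) (cexp (2 * Real.pi * I * τ) *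
          cexp (2 * Real.pi * I * (v * τ - u)))‖ *
        (‖1 - cexp (2 * Real.pi * I * τ) / cexp (2 * Real.pi * I * (v * τ - u))‖ *
        ‖PP (cexp (2 * Real.pi * I * τ)) (cexp (2 * Real.pi * I * τ) *
          (cexp (2 * Real.pi * I * τ) / cexp (2 * Real.pi * I * (v * τ - u))))‖))) := by
    intro v u
    rw [norm_siegelG_eq hτ, PP_eq hq (cexp (2 * Real.pi * I * τ) / _), norm_mul]
  have hn1 : ‖cexp (2 * Real.pi * I * τ) * cexp (2 * Real.pi * I * (v₀ * τ - u₀))‖ < 1 := by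
    rw [norm_mul, norm_p, norm_cexp_two_pi, ← Real.exp_add, Real.exp_lt_one_iff]
    have : 0 < 2 * Real.pi * ((1 + v₀) * τ.im) := by
      have : 0 < 1 + v₀ := by linarith
      positivity
    linarith
  have hn2 : ‖cexp (2 * Real.pi * I * τ) * (cexp (2 * Real.pi * I * τ) /
      cexp (2 * Real.pi * I * (v₀ * τ - u₀)))‖ < 1 := by
    rw [norm_mul, norm_div, norm_p, norm_cexp_two_pi, ← Real.exp_sub, ← Real.exp_add,
      Real.exp_lt_one_iff]
    have : 0 < 2 * Real.pi * ((2 - v₀) * τ.im) := by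
      have : 0 < 2 - v₀ := by linarith
      positivity
    linarith
  have t1 : Tendsto (fun x : ℝ × ℝ => Real.exp (-(Real.pi * ((x.1 ^ 2 - x.1 + 1 / 6) * τ.im))))
      (𝓝 (v₀, u₀)) (𝓝 (Real.exp (-(Real.pi * ((v₀ ^ 2 - v₀ + 1 / 6) * τ.im))))) := by
    have hc : Continuous fun x : ℝ × ℝ =>
      Real.exp (-(Real.pi * ((x.1 ^ 2 - x.1 + 1 / 6) * τ.im))) := by fun_prop
    exact hc.tendsto (v₀, u₀)
  have hpt := hp.tendsto (v₀, u₀)
  have t2 : Tendsto (fun x : ℝ × ℝ => ‖1 - cexp (2 * Real.pi * I * (x.1 * τ - x.2))‖)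
      (𝓝 (v₀, u₀)) (𝓝 ‖1 - cexp (2 * Real.pi * I * (v₀ * τ - u₀))‖) :=
    (hpt.const_sub 1).norm
  have t3 := (tendsto_norm_PP hq hn1).comp (hpt.const_mul (cexp (2 * Real.pi * I * τ)))
  have hdiv : Tendsto (fun x : ℝ × ℝ => cexp (2 * Real.pi * I * τ) /
      cexp (2 * Real.pi * I * (x.1 * τ - x.2))) (𝓝 (v₀, u₀))
      (𝓝 (cexp (2 * Real.pi * I * τ) / cexp (2 * Real.pi * I * (v₀ * τ - u₀)))) :=
    tendsto_const_nhds.div hpt (exp_ne_zero _)
  have t4 := (hdiv.const_sub 1).norm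
  have t5 := (tendsto_norm_PP hq hn2).comp (hdiv.const_mul (cexp (2 * Real.pi * I * τ)))
  have t := t1.mul (t2.mul (t3.mul (t4.mul t5)))
  simp only [hform]
  exact t

theorem tendsto_norm_siegelG_comp (hτ : 0 < τ.im) {v₀ u₀ : ℝ} (h0 : -1 < v₀) (h1 : v₀ < 2)
    {l : Filter ℝ} {f g : ℝ → ℝ} (hf : Tendsto f l (𝓝 v₀)) (hg : Tendsto g l (𝓝 u₀)) :
    Tendsto (fun ε => ‖siegelG (f ε) (g ε) τ‖) l (𝓝 ‖siegelG v₀ u₀ τ‖) := by
  have h := Tendsto.comp (tendsto_norm_siegelG (v₀ := v₀) (u₀ := u₀) hτ h0 h1)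
    (hf.prodMk_nhds hg)
  simp only [Function.comp_def] at h
  exact h

/-- the two edges -/
theorem norm_siegelG_one (hτ : 0 < τ.im) (u : ℝ) : ‖siegelG 1 u τ‖ = ‖siegelG 0 u τ‖ := by
  have hq := norm_nome_lt_one hτ
  rw [norm_siegelG_eq hτ, norm_siegelG_eq hτ]
  have e1 : cexp (2 * Real.pi * I * (((1 : ℝ) : ℂ) * τ - u)) = cexp (2 * Real.pi * I * τ) *
      cexp (2 * Real.pi * I * (((0 : ℝ) : ℂ) * τ - u)) := by
    rw [← exp_add]
    congr 1
    push_cast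
    ring
  have hw : ‖cexp (2 * Real.pi * I * (((0 : ℝ) : ℂ) * τ - u))‖ = 1 := by
    rw [norm_p]
    simp
  have hq0 : cexp (2 * Real.pi * I * τ) ≠ 0 := exp_ne_zero _
  have hw0 : cexp (2 * Real.pi * I * (((0 : ℝ) : ℂ) * τ - u)) ≠ 0 := exp_ne_zero _
  rw [e1]
  generalize cexp (2 * Real.pi * I * (((0 : ℝ) : ℂ) * τ - u)) = w at *
  generalize cexp (2 * Real.pi * I * τ) = q at *
  have e2 : q / (q * w) = w⁻¹ := by
    field_simp
  have e3 : ‖1 - w⁻¹‖ = ‖1 - w‖ := by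
    have : 1 - w⁻¹ = -(1 - w) / w := by
      field_simp
      ring
    rw [this, norm_div, norm_neg, hw, div_one]
  rw [e2, PP_eq hq w⁻¹, norm_mul, e3, PP_eq hq (q * w), norm_mul, ← div_eq_mul_inv]
  norm_num
  ring

/-- `|g_{0, u}(τ)| = |g_{u, 0}(-1 / τ)|` -/
theorem norm_siegelG_zero (hτ : 0 < τ.im) {u : ℝ} (hu : ∀ k : ℤ, u ≠ k) :
    ‖siegelG (Int.fract u) 0 (-1 / τ)‖ = ‖siegelG 0 u τ‖ := by
  have hS : (((0 : ℤ) : ℂ) * τ + ((-1 : ℤ) : ℂ)) / (((1 : ℤ) : ℂ) * τ + ((0 : ℤ) : ℂ)) =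
      -1 / τ := by simp
  have hτ' : 0 < (-1 / τ).im := by
    have := im_smul_pos (a := 0) (b := -1) (c := 1) (d := 0) hτ (by norm_num)
    rwa [hS] at this
  obtain ⟨h0, h1⟩ := fract_mem hu
  have key : ∀ ε : ℝ, 0 < ε → ε < 1 →
      ‖siegelG (Int.fract u) ε (-1 / τ)‖ = ‖siegelG (1 - ε) u τ‖ := by
    intro ε hε hε'
    have hf : Int.fract (-ε) = 1 - ε := by
      rw [Int.fract_eq_iff]
      exact ⟨by linarith, by linarith, -1, by push_cast; ring⟩
    have h2 := norm_siegelG_smul (a := 0) (b := -1) (c := 1) (d := 0) hτ (by norm_num) (u := ε)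
      (v := u) hu (fun k hk => by
        have hk' : -ε = k := by
          rw [← hk]
          push_cast
          ring
        have h3 : ((-1 : ℤ) : ℝ) < k := by
          rw [← hk']
          push_cast
          linarith
        have h4 : (k : ℝ) < ((0 : ℤ) : ℝ) := by
          rw [← hk']
          push_cast
          linarith
        rw [Int.cast_lt] at h3 h4
        omega)
    rw [hS] at h2
    have e1 : (((0 : ℤ) : ℝ) * u - ((1 : ℤ) : ℝ) * ε) = -ε := by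
      push_cast
      ring
    have e2 : (((0 : ℤ) : ℝ) * ε - ((-1 : ℤ) : ℝ) * u) = u := by
      push_cast
      ring
    rw [e1, e2, hf] at h2
    exact h2
  have hid : Tendsto (fun ε : ℝ => ε) (𝓝[>] 0) (𝓝 (0 : ℝ)) :=
    tendsto_id.mono_left nhdsWithin_le_nhds
  have h4 : Tendsto (fun ε : ℝ => 1 - ε) (𝓝[>] 0) (𝓝 (1 : ℝ)) := by
    have h5 := hid.const_sub 1
    rwa [sub_zero] at h5
  have l1 := tendsto_norm_siegelG_comp hτ' (f := fun _ : ℝ => Int.fract u) (g := fun ε => ε)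
    (l := 𝓝[>] 0) (v₀ := Int.fract u) (u₀ := 0) (by linarith) (by linarith) tendsto_const_nhds hid
  have l2 := tendsto_norm_siegelG_comp hτ (f := fun ε : ℝ => 1 - ε) (g := fun _ => u)
    (l := 𝓝[>] 0) (v₀ := 1) (u₀ := u) (by norm_num) (by norm_num) h4 tendsto_const_nhds
  have hmem : ∀ᶠ ε : ℝ in 𝓝[>] 0, ε ∈ Set.Ioo (0 : ℝ) 1 := Ioo_mem_nhdsGT one_pos
  have l3 : Tendsto (fun ε : ℝ => ‖siegelG (Int.fract u) ε (-1 / τ)‖) (𝓝[>] 0)
      (𝓝 ‖siegelG 1 u τ‖) := by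
    refine l2.congr' ?_
    filter_upwards [hmem] with ε hε
    exact (key ε hε.1 hε.2).symm
  rw [tendsto_nhds_unique l1 l3, norm_siegelG_one hτ]

/-- **Kronecker's second limit formula** for every `(u, v)` outside `ℤ²`. -/
theorem kronecker_second_limit_all (hτ : 0 < τ.im) {u v : ℝ}
    (h : ¬ ((∃ k : ℤ, u = k) ∧ ∃ k : ℤ, v = k)) :
    Tendsto (fun s : ℝ => ∑' p : {p : ℤ × ℤ // p ≠ 0},
      Real.cos (2 * Real.pi * (p.1.1 * u + p.1.2 * v)) *
        (τ.im / ‖(p.1.1 : ℂ) * τ + p.1.2‖ ^ 2) ^ s) (𝓝[>] 1)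
      (𝓝 (-(2 * Real.pi * Real.log ‖siegelG (Int.fract v) u τ‖))) := by
  by_cases hv : ∃ k : ℤ, v = k
  · have hu : ∀ k : ℤ, u ≠ k := fun k hk => h ⟨⟨k, hk⟩, hv⟩
    obtain ⟨k, rfl⟩ := hv
    rw [Int.fract_intCast, ← norm_siegelG_zero hτ hu]
    exact kronecker_second_limit_int hτ k hu
  · exact kronecker_second_limit_fract hτ u fun k hk => hv ⟨k, hk⟩

/-- The Siegel functions `g_{v, u}`, `(u, v)` outside `ℤ²`, have no zeros. -/
theorem siegelG_ne_zero_all (hτ : 0 < τ.im) {u v : ℝ}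
    (h : ¬ ((∃ k : ℤ, u = k) ∧ ∃ k : ℤ, v = k)) : siegelG (Int.fract v) u τ ≠ 0 := by
  by_cases hv : ∃ k : ℤ, v = k
  · have hu : ∀ k : ℤ, u ≠ k := fun k hk => h ⟨⟨k, hk⟩, hv⟩
    obtain ⟨k, rfl⟩ := hv
    have hS : (((0 : ℤ) : ℂ) * τ + ((-1 : ℤ) : ℂ)) / (((1 : ℤ) : ℂ) * τ + ((0 : ℤ) : ℂ)) =
      -1 / τ := by simp
    have hτ' : 0 < (-1 / τ).im := by
      have := im_smul_pos (a := 0) (b := -1) (c := 1) (d := 0) hτ (by norm_num)
      rwa [hS] at this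
    rw [Int.fract_intCast, ← norm_ne_zero_iff, ← norm_siegelG_zero hτ hu, norm_ne_zero_iff]
    exact siegelG_ne_zero hτ' 0 (fract_mem hu).1 (fract_mem hu).2
  · have hv' : ∀ k : ℤ, v ≠ k := fun k hk => hv ⟨k, hk⟩
    exact siegelG_ne_zero hτ u (fract_mem hv').1 (fract_mem hv').2

/-- **The modularity of the Siegel functions** (absolute values), every `(u, v)` outside `ℤ²`. -/
theorem norm_siegelG_smul_all (hτ : 0 < τ.im) (h : a * d - b * c = 1) {u v : ℝ}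
    (huv : ¬ ((∃ k : ℤ, u = k) ∧ ∃ k : ℤ, v = k)) :
    ‖siegelG (Int.fract v) u (((a : ℂ) * τ + b) / (c * τ + d))‖ =
      ‖siegelG (Int.fract (a * v - c * u)) (d * u - b * v) τ‖ := by
  have hτ' := im_smul_pos hτ h
  have huv' : ¬ ((∃ k : ℤ, d * u - b * v = k) ∧ ∃ k : ℤ, a * v - c * u = k) := by
    rintro ⟨⟨k, hk⟩, l, hl⟩
    have h' : (a : ℝ) * d - b * c = 1 := by exact_mod_cast h
    refine huv ⟨⟨a * k + b * l, ?_⟩, c * k + d * l, ?_⟩
    · push_cast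
      rw [← hk, ← hl]
      linear_combination -u * h'
    · push_cast
      rw [← hk, ← hl]
      linear_combination -v * h'
  have h1 := kronecker_second_limit_all hτ' huv
  have h2 := kronecker_second_limit_all hτ huv'
  rw [tendsto_ES_iff] at h1 h2
  rw [ES_smul hτ h] at h1
  have h3 := tendsto_nhds_unique h1 h2
  have hpi := Real.pi_pos
  have h4 : Real.log ‖siegelG (Int.fract v) u (((a : ℂ) * τ + b) / (c * τ + d))‖ =
      Real.log ‖siegelG (Int.fract (a * v - c * u)) (d * u - b * v) τ‖ := by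
    have h5 : 2 * Real.pi ≠ 0 := by positivity
    exact mul_left_cancel₀ h5 (neg_injective h3)
  exact Real.log_injOn_pos (norm_pos_iff.mpr (siegelG_ne_zero_all hτ' huv))
    (norm_pos_iff.mpr (siegelG_ne_zero_all hτ huv')) h4

end Fermat.Agent.Cor.Kron

end
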