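import Fermat.Agent.Corollaries.Kron.LimTwo
import Fermat.Agent.Corollaries.Kron.EtaMod

/-!
# Kronecker's second limit formula for all characters, modularity of the Siegel functions

* `kronecker_second_limit_fract`, `kronecker_second_limit_int`: the second limit formula for all
  `(u, v)` which are not in `ℤ²`;
* `norm_siegelG_smul`: the transformation of the absolute values of the Siegel functions under
  `SL₂(ℤ)`.
-/

set_option autoImplicit false

noncomputable section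

open Filter Topology Complex

namespace Fermat.Agent.Cor.Kron

variable {τ : ℂ} {a b c d : ℤ}

/-- `∑ cos (2 π (m u + n v)) (y / |m τ + n|²)^s` -/
def ES (τ : ℂ) (u v s : ℝ) : ℝ :=
  ∑' p : ℤ × ℤ, Real.cos (2 * Real.pi * (p.1 * u + p.2 * v)) * KS τ s p

theorem tendsto_ES_iff (τ : ℂ) (u v A : ℝ) :
    Tendsto (fun s : ℝ => ∑' p : {p : ℤ × ℤ // p ≠ 0},
      Real.cos (2 * Real.pi * (p.1.1 * u + p.1.2 * v)) *
        (τ.im / ‖(p.1.1 : ℂ) * τ + p.1.2‖ ^ 2) ^ s) (𝓝[>] 1) (𝓝 A) ↔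
      Tendsto (ES τ u v) (𝓝[>] 1) (𝓝 A) := by
  refine tendsto_congr' ?_
  filter_upwards [eventually_mem] with s hs
  exact tsum_subtype_cos u v (by linarith [hs.1])

theorem ES_eq_of_cos {u v u' v' : ℝ} (h : ∀ m n : ℤ, Real.cos (2 * Real.pi * (m * u + n * v)) =
    Real.cos (2 * Real.pi * (m * u' + n * v'))) : ES τ u v = ES τ u' v' := by
  funext s
  exact tsum_congr fun p => by rw [h]

theorem ES_smul (hτ : 0 < τ.im) (h : a * d - b * c = 1) (u v : ℝ) :
    ES (((a : ℂ) * τ + b) / (c * τ + d)) u v = ES τ (d * u - b * v) (a * v - c * u) := by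
  funext s
  rw [ES, ES, ← (actEquiv h).tsum_eq fun p : ℤ × ℤ =>
    Real.cos (2 * Real.pi * (p.1 * (d * u - b * v) + p.2 * (a * v - c * u))) * KS τ s p]
  refine tsum_congr fun p => ?_
  have e1 := KS_smul hτ h s p.1 p.2
  have h' : (a : ℝ) * d - b * c = 1 := by exact_mod_cast h
  have e2 : ((actEquiv h p).1 : ℝ) * (d * u - b * v) + ((actEquiv h p).2 : ℝ) * (a * v - c * u) =
      p.1 * u + p.2 * v := by
    change ((p.1 * a + p.2 * c : ℤ) : ℝ) * (d * u - b * v) +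
      ((p.1 * b + p.2 * d : ℤ) : ℝ) * (a * v - c * u) = _
    push_cast
    linear_combination (p.1 * u + p.2 * v : ℝ) * h'
  have e3 : KS (((a : ℂ) * τ + b) / (c * τ + d)) s p = KS τ s (actEquiv h p) := e1
  rw [e2, e3]

theorem fract_mem {v : ℝ} (hv : ∀ k : ℤ, v ≠ k) : 0 < Int.fract v ∧ Int.fract v < 1 := by
  refine ⟨lt_of_le_of_ne (Int.fract_nonneg v) fun h => hv ⌊v⌋ ?_, Int.fract_lt_one v⟩
  have := Int.floor_add_fract v
  rw [← h, add_zero] at this
  exact this.symm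

theorem cos_fract (u v : ℝ) (m n : ℤ) : Real.cos (2 * Real.pi * (m * u + n * v)) =
    Real.cos (2 * Real.pi * (m * u + n * Int.fract v)) := by
  have h : 2 * Real.pi * (m * u + n * v) = 2 * Real.pi * (m * u + n * Int.fract v) +
      ((n * ⌊v⌋ : ℤ) : ℝ) * (2 * Real.pi) := by
    have := Int.floor_add_fract v
    push_cast
    linear_combination (-(2 * Real.pi * n)) * this
  rw [h, Real.cos_add_int_mul_two_pi]

/-- **The second limit formula**, `v` not an integer. -/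
theorem kronecker_second_limit_fract (hτ : 0 < τ.im) (u : ℝ) {v : ℝ} (hv : ∀ k : ℤ, v ≠ k) :
    Tendsto (fun s : ℝ => ∑' p : {p : ℤ × ℤ // p ≠ 0},
      Real.cos (2 * Real.pi * (p.1.1 * u + p.1.2 * v)) *
        (τ.im / ‖(p.1.1 : ℂ) * τ + p.1.2‖ ^ 2) ^ s) (𝓝[>] 1)
      (𝓝 (-(2 * Real.pi * Real.log ‖siegelG (Int.fract v) u τ‖))) := by
  obtain ⟨h0, h1⟩ := fract_mem hv
  rw [tendsto_ES_iff, ES_eq_of_cos (cos_fract u v), ← tendsto_ES_iff]
  exact kronecker_second_limit hτ u h0 h1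

/-- **The second limit formula**, `v` an integer, `u` not an integer. -/
theorem kronecker_second_limit_int (hτ : 0 < τ.im) {u : ℝ} (v : ℤ) (hu : ∀ k : ℤ, u ≠ k) :
    Tendsto (fun s : ℝ => ∑' p : {p : ℤ × ℤ // p ≠ 0},
      Real.cos (2 * Real.pi * (p.1.1 * u + p.1.2 * v)) *
        (τ.im / ‖(p.1.1 : ℂ) * τ + p.1.2‖ ^ 2) ^ s) (𝓝[>] 1)
      (𝓝 (-(2 * Real.pi * Real.log ‖siegelG (Int.fract u) 0 (-1 / τ)‖))) := by
  have hS : (((0 : ℤ) : ℂ) * τ + ((-1 : ℤ) : ℂ)) / (((1 : ℤ) : ℂ) * τ + ((0 : ℤ) : ℂ)) =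
      -1 / τ := by simp
  have hτ' : 0 < (-1 / τ).im := by
    have := im_smul_pos (a := 0) (b := -1) (c := 1) (d := 0) hτ (by norm_num)
    rwa [hS] at this
  have h1 := kronecker_second_limit_fract hτ' 0 hu
  rw [tendsto_ES_iff] at h1 ⊢
  have h2 := ES_smul (a := 0) (b := -1) (c := 1) (d := 0) hτ (by norm_num) 0 u
  rw [hS] at h2
  rw [h2] at h1
  have h3 : ES τ u v = ES τ (((0 : ℤ) : ℝ) * 0 - ((-1 : ℤ) : ℝ) * u)
      (((0 : ℤ) : ℝ) * u - ((1 : ℤ) : ℝ) * 0) := by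
    refine ES_eq_of_cos fun m n => ?_
    have h4 : 2 * Real.pi * (m * u + n * v) = 2 * Real.pi * (m * (((0 : ℤ) : ℝ) * 0 -
        ((-1 : ℤ) : ℝ) * u) + n * (((0 : ℤ) : ℝ) * u - ((1 : ℤ) : ℝ) * 0)) +
        ((n * v : ℤ) : ℝ) * (2 * Real.pi) := by
      push_cast
      ring
    rw [h4, Real.cos_add_int_mul_two_pi]
  rw [h3]
  exact h1

theorem siegelG_ne_zero (hτ : 0 < τ.im) (u : ℝ) {v : ℝ} (h0 : 0 < v) (h1 : v < 1) :
    siegelG v u τ ≠ 0 := by
  have hpi := Real.pi_pos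
  have hp : ‖cexp (2 * Real.pi * I * (v * τ - u))‖ = Real.exp (-(2 * Real.pi * (v * τ.im))) := by
    rw [norm_cexp_two_pi]
    congr 1
    simp
  refine mul_ne_zero (exp_ne_zero _) (siegelProd_ne_zero ?_ ?_ ?_)
  · rw [norm_cexp_two_pi, Real.exp_lt_one_iff]
    have : 0 < 2 * Real.pi * τ.im := by positivity
    linarith
  · rw [hp, Real.exp_lt_one_iff]
    have : 0 < 2 * Real.pi * (v * τ.im) := by positivity
    linarith
  · rw [hp, norm_cexp_two_pi, Real.exp_lt_exp]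
    have h3 : v * τ.im < 1 * τ.im := mul_lt_mul_of_pos_right h1 hτ
    have h4 : 2 * Real.pi * (v * τ.im) < 2 * Real.pi * (1 * τ.im) :=
      mul_lt_mul_of_pos_left h3 (by positivity)
    rw [one_mul] at h4
    linarith

/-- **The modularity of the Siegel functions** (absolute values): for `a d - b c = 1`,
`|g_{v, u}(γ τ)| = |g_{v', u'}(τ)|`, `v' = a v - c u`, `u' = d u - b v`. -/
theorem norm_siegelG_smul (hτ : 0 < τ.im) (h : a * d - b * c = 1) {u v : ℝ}
    (hv : ∀ k : ℤ, v ≠ k) (hv' : ∀ k : ℤ, a * v - c * u ≠ k) :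
    ‖siegelG (Int.fract v) u (((a : ℂ) * τ + b) / (c * τ + d))‖ =
      ‖siegelG (Int.fract (a * v - c * u)) (d * u - b * v) τ‖ := by
  have hτ' := im_smul_pos hτ h
  have h1 := kronecker_second_limit_fract hτ' u hv
  have h2 := kronecker_second_limit_fract hτ (d * u - b * v) hv'
  rw [tendsto_ES_iff] at h1 h2
  rw [ES_smul hτ h] at h1
  have h3 := tendsto_nhds_unique h1 h2
  have hpi := Real.pi_pos
  have h4 : Real.log ‖siegelG (Int.fract v) u (((a : ℂ) * τ + b) / (c * τ + d))‖ =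
      Real.log ‖siegelG (Int.fract (a * v - c * u)) (d * u - b * v) τ‖ := by
    have h5 : 2 * Real.pi ≠ 0 := by positivity
    exact mul_left_cancel₀ h5 (neg_injective h3)
  exact Real.log_injOn_pos
    (norm_pos_iff.mpr (siegelG_ne_zero hτ' u (fract_mem hv).1 (fract_mem hv).2))
    (norm_pos_iff.mpr (siegelG_ne_zero hτ _ (fract_mem hv').1 (fract_mem hv').2)) h4

end Fermat.Agent.Cor.Kron

end
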