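import Fermat.Agent.Corollaries.Kron.SiegelDist

/-!
# The distribution relations of the Siegel functions

`∏_{a, b mod N} |g_{(v + a)/N, (u + b)/N}(τ)| = |g_{v, u}(τ)|` for `(u, v)` outside `ℤ²`
(`prod_norm_siegelG_shift`).
-/

set_option autoImplicit false

noncomputable section

open Filter Topology Complex

namespace Fermat.Agent.Cor.Kron

variable {τ : ℂ}

theorem sum_cos_shift {N : ℕ} (hN : 0 < N) (u v : ℝ) (m n : ℤ) :
    ∑ a ∈ Finset.range N, ∑ b ∈ Finset.range N,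
      Real.cos (2 * Real.pi * (m * ((u + b) / N) + n * ((v + a) / N))) =
      (if (N : ℤ) ∣ m ∧ (N : ℤ) ∣ n then (N : ℝ) ^ 2 else 0) *
        Real.cos (2 * Real.pi * (m / N * u + n / N * v)) := by
  have h1 := sum_exp_range hN m
  have h2 := sum_exp_range hN n
  have h3 : ∑ a ∈ Finset.range N, ∑ b ∈ Finset.range N,
      cexp (2 * Real.pi * I * (m / N * u + n / N * v)) *
      (cexp (2 * Real.pi * I * (m * (b / N))) * cexp (2 * Real.pi * I * (n * (a / N)))) =
      cexp (2 * Real.pi * I * (m / N * u + n / N * v)) *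
      ((if (N : ℤ) ∣ m then (N : ℂ) else 0) * (if (N : ℤ) ∣ n then (N : ℂ) else 0)) := by
    rw [← h1, ← h2, Finset.mul_sum, Finset.mul_sum]
    refine Finset.sum_congr rfl fun a _ => ?_
    rw [Finset.sum_mul, Finset.mul_sum]
  have h4 := congrArg Complex.re h3
  have e : ∀ a b : ℕ, (cexp (2 * Real.pi * I * (m / N * u + n / N * v)) *
      (cexp (2 * Real.pi * I * (m * (b / N))) * cexp (2 * Real.pi * I * (n * (a / N))))).re =
      Real.cos (2 * Real.pi * (m * ((u + b) / N) + n * ((v + a) / N))) := by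
    intro a b
    rw [← Complex.exp_add, ← Complex.exp_add, ← Complex.exp_ofReal_mul_I_re]
    congr 2
    push_cast
    ring
  have e2 : (cexp (2 * Real.pi * I * (m / N * u + n / N * v))).re =
      Real.cos (2 * Real.pi * (m / N * u + n / N * v)) := by
    rw [← Complex.exp_ofReal_mul_I_re]
    congr 2
    push_cast
    ring
  simp only [Complex.re_sum, e] at h4
  rw [h4, mul_comm]
  by_cases ha : (N : ℤ) ∣ m <;> by_cases hb : (N : ℤ) ∣ n
  · rw [if_pos ha, if_pos hb, if_pos ⟨ha, hb⟩, ← e2]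
    have : (N : ℂ) * N = (((N : ℝ) ^ 2 : ℝ) : ℂ) := by
      push_cast
      ring
    rw [this, Complex.re_ofReal_mul]
  · simp [hb]
  · simp [ha]
  · simp [ha]

/-- The sum over the points of level `N` above `(u, v)`. -/
theorem sum_ES_shift (hτ : 0 < τ.im) {N : ℕ} (hN : 0 < N) (u v : ℝ) {s : ℝ} (hs : 1 < s) :
    ∑ a ∈ Finset.range N, ∑ b ∈ Finset.range N, ES τ ((u + b) / N) ((v + a) / N) s =
      (N : ℝ) ^ (2 - 2 * s) * ES τ u v s := by
  have hN' : (0 : ℝ) < N := by exact_mod_cast hN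
  have h1 : ∑ a ∈ Finset.range N, ∑ b ∈ Finset.range N, ES τ ((u + b) / N) ((v + a) / N) s =
      ∑' p : ℤ × ℤ, (∑ a ∈ Finset.range N, ∑ b ∈ Finset.range N,
        Real.cos (2 * Real.pi * (p.1 * ((u + b) / N) + p.2 * ((v + a) / N)))) * KS τ s p := by
    simp only [ES]
    have e : ∀ a ∈ Finset.range N, ∑ b ∈ Finset.range N, ∑' p : ℤ × ℤ,
        Real.cos (2 * Real.pi * (p.1 * ((u + b) / N) + p.2 * ((v + a) / N))) * KS τ s p =
        ∑' p : ℤ × ℤ, ∑ b ∈ Finset.range N,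
          Real.cos (2 * Real.pi * (p.1 * ((u + b) / N) + p.2 * ((v + a) / N))) * KS τ s p :=
      fun a _ => (Summable.tsum_finsetSum fun b _ => summable_cos hτ _ _ hs).symm
    rw [Finset.sum_congr rfl e, ← Summable.tsum_finsetSum fun a _ =>
      summable_sum fun b _ => summable_cos hτ _ _ hs]
    refine tsum_congr fun p => ?_
    rw [Finset.sum_mul]
    refine Finset.sum_congr rfl fun a _ => ?_
    rw [Finset.sum_mul]
  rw [h1]
  simp only [sum_cos_shift hN]
  have hinj : Function.Injective fun p : ℤ × ℤ => ((N : ℤ) * p.1, (N : ℤ) * p.2) := by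
    rintro ⟨x, y⟩ ⟨x', y'⟩ h
    have h2 := congrArg Prod.fst h
    have h3 := congrArg Prod.snd h
    have hNz : (N : ℤ) ≠ 0 := by exact_mod_cast hN.ne'
    simp only at h2 h3
    rw [mul_left_cancel₀ hNz h2, mul_left_cancel₀ hNz h3]
  have h2 := hinj.tsum_eq (f := fun p : ℤ × ℤ =>
    (if (N : ℤ) ∣ p.1 ∧ (N : ℤ) ∣ p.2 then (N : ℝ) ^ 2 else 0) *
      Real.cos (2 * Real.pi * (p.1 / N * u + p.2 / N * v)) * KS τ s p) (by
    intro p hp
    by_cases h : (N : ℤ) ∣ p.1 ∧ (N : ℤ) ∣ p.2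
    · obtain ⟨⟨x, hx⟩, y, hy⟩ := h
      exact ⟨(x, y), Prod.ext hx.symm hy.symm⟩
    · simp [h] at hp)
  rw [← h2, ES, ← tsum_mul_left]
  refine tsum_congr fun p => ?_
  have h3 := KS_mul hτ N s p
  rw [if_pos ⟨Dvd.intro _ rfl, Dvd.intro _ rfl⟩, h3]
  have h4 : (N : ℝ) ^ 2 * (((N : ℝ) ^ 2)⁻¹) ^ s = (N : ℝ) ^ (2 - 2 * s) := by
    rw [Real.inv_rpow (by positivity), ← Real.rpow_natCast, ← Real.rpow_mul hN'.le,
      ← Real.rpow_neg hN'.le, ← Real.rpow_add hN']
    congr 1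
  have h5 : (((N : ℤ) * p.1 : ℤ) : ℝ) / N * u + (((N : ℤ) * p.2 : ℤ) : ℝ) / N * v =
      p.1 * u + p.2 * v := by
    push_cast
    field_simp
  rw [h5, ← h4]
  ring

/-- **The distribution relations of the Siegel functions** (absolute values): for `(u, v)` outside
`ℤ²` and `N ≥ 1`, `∏_{a, b mod N} |g_{(v + a)/N, (u + b)/N}(τ)| = |g_{v, u}(τ)|`. -/
theorem prod_norm_siegelG_shift (hτ : 0 < τ.im) {N : ℕ} (hN : 0 < N) {u v : ℝ}
    (h : ¬ ((∃ k : ℤ, u = k) ∧ ∃ k : ℤ, v = k)) :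
    ∏ a ∈ Finset.range N, ∏ b ∈ Finset.range N,
      ‖siegelG (Int.fract ((v + a) / N)) ((u + b) / N) τ‖ = ‖siegelG (Int.fract v) u τ‖ := by
  have hN' : (0 : ℝ) < N := by exact_mod_cast hN
  have hpi := Real.pi_pos
  have hx : ∀ a b : ℕ, ¬ ((∃ k : ℤ, (u + b) / N = k) ∧ ∃ k : ℤ, (v + a) / N = k) := by
    rintro a b ⟨⟨k, hk⟩, l, hl⟩
    rw [div_eq_iff hN'.ne'] at hk hl
    refine h ⟨⟨k * N - b, ?_⟩, l * N - a, ?_⟩
    · push_cast
      linarith
    · push_cast
      linarith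
  have hlim : Tendsto (fun s : ℝ => ∑ a ∈ Finset.range N, ∑ b ∈ Finset.range N,
      ES τ ((u + b) / N) ((v + a) / N) s) (𝓝[>] 1)
      (𝓝 (∑ a ∈ Finset.range N, ∑ b ∈ Finset.range N,
        -(2 * Real.pi * Real.log ‖siegelG (Int.fract ((v + a) / N)) ((u + b) / N) τ‖))) := by
    refine tendsto_finsetSum _ fun a _ => tendsto_finsetSum _ fun b _ => ?_
    have h1 := kronecker_second_limit_all hτ (hx a b)
    rw [tendsto_ES_iff] at h1
    exact h1
  have hlim2 : Tendsto (fun s : ℝ => ∑ a ∈ Finset.range N, ∑ b ∈ Finset.range N,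
      ES τ ((u + b) / N) ((v + a) / N) s) (𝓝[>] 1)
      (𝓝 (-(2 * Real.pi * Real.log ‖siegelG (Int.fract v) u τ‖))) := by
    have h1 := kronecker_second_limit_all hτ h
    rw [tendsto_ES_iff] at h1
    have h2 : Tendsto (fun s : ℝ => (N : ℝ) ^ (2 - 2 * s)) (𝓝[>] 1) (𝓝 1) := by
      have hc : Continuous fun s : ℝ => (N : ℝ) ^ (2 - 2 * s) :=
        Continuous.rpow continuous_const (by fun_prop) fun s => Or.inl hN'.ne'
      have h3 := (hc.tendsto 1).mono_left (nhdsWithin_le_nhds (s := Set.Ioi 1))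
      norm_num at h3
      exact h3
    have h3 := h2.mul h1
    rw [one_mul] at h3
    refine h3.congr' ?_
    filter_upwards [eventually_mem] with s hs
    exact (sum_ES_shift hτ hN u v hs.1).symm
  have h1 := tendsto_nhds_unique hlim hlim2
  simp only [Finset.sum_neg_distrib, ← Finset.mul_sum] at h1
  have h3 : 2 * Real.pi ≠ 0 := by positivity
  have h2 := mul_left_cancel₀ h3 (neg_injective h1)
  have hpos : ∀ a b : ℕ, 0 < ‖siegelG (Int.fract ((v + a) / N)) ((u + b) / N) τ‖ :=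
    fun a b => norm_pos_iff.mpr (siegelG_ne_zero_all hτ (hx a b))
  have h4 : ∑ a ∈ Finset.range N, ∑ b ∈ Finset.range N,
      Real.log ‖siegelG (Int.fract ((v + a) / N)) ((u + b) / N) τ‖ =
      Real.log (∏ a ∈ Finset.range N, ∏ b ∈ Finset.range N,
        ‖siegelG (Int.fract ((v + a) / N)) ((u + b) / N) τ‖) := by
    rw [Real.log_prod fun a _ => (Finset.prod_pos fun b _ => hpos a b).ne']
    exact Finset.sum_congr rfl fun a _ => (Real.log_prod fun b _ => (hpos a b).ne').symm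
  rw [h4] at h2
  exact Real.log_injOn_pos (Finset.prod_pos fun a _ => Finset.prod_pos fun b _ => hpos a b)
    (norm_pos_iff.mpr (siegelG_ne_zero_all hτ h)) h2

end Fermat.Agent.Cor.Kron

end
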