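import Fermat.Agent.Corollaries.Kron.Two
import Fermat.Agent.Corollaries.Kron.EtaHeegner
import Fermat.Agent.Corollaries.Kro.Final
import Fermat.Agent.Corollaries.Sch.Gamma

/-!
# Transcendence of the Chowla-Selberg products

Schneider's theorem on the periods of elliptic curves and the algebraicity of the singular moduli:
`π η(τ)²` is transcendental at every point with complex multiplication
(`transcendental_pi_mul_eta_sq`). With the Chowla-Selberg formula:

* `transcendental_one`: for an imaginary quadratic field of class number one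
  `π ∏_{0 < a < |d|} Γ(a / |d|)^(w (d/a) / 2)` is transcendental;
* `transcendental_gamma_prime`: `∏_{(a/p) = 1} Γ(a / p) / π^((p - 3) / 4)` is transcendental for
  `p = 7, 11, 19, 43, 67, 163`; in particular `Γ(1/7) Γ(2/7) Γ(4/7) / π`;
* class number two: `Γ(1/15) Γ(2/15) Γ(4/15) Γ(8/15) / π`, `Γ(1/20) Γ(3/20) Γ(7/20) Γ(9/20) / π` and
  `Γ(1/24) Γ(5/24) Γ(7/24) Γ(11/24) / π` are transcendental.
-/

set_option autoImplicit false

noncomputable section

namespace Fermat.Agent.Cor.Kron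

open NumberField Module Fermat.Agent.Classic.Zeta NumberField.Units
open UpperHalfPlane hiding I
open scoped nonZeroDivisors
open Fermat.Agent.Cor.Diri (kron Frame)
open Fermat.Agent.JLevelOne (jFun)

universe u

/-- singular moduli are algebraic -/
theorem isAlgebraic_jFun {τ : ℍ} {a b c : ℤ} (ha : a ≠ 0)
    (h : (a : ℂ) * (τ : ℂ) ^ 2 + b * (τ : ℂ) + c = 0) : IsAlgebraic ℚ (jFun τ) := by
  have h1 : IsIntegral ℤ (jFun τ) := Kro.isIntegral_jinv ha h
  exact (h1.tower_top (A := ℚ)).isAlgebraic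

/-- **`π η(τ)²` is transcendental at every point with complex multiplication.** -/
theorem transcendental_pi_mul_eta_sq {τ : ℍ} {a b c : ℤ} (ha : a ≠ 0)
    (h : (a : ℂ) * (τ : ℂ) ^ 2 + b * (τ : ℂ) + c = 0) :
    Transcendental ℚ ((Real.pi : ℂ) * ModularForm.eta τ ^ 2) :=
  Sch.pi_mul_eta_sq τ (isAlgebraic_jFun ha h)

/-- **`π² |η(z)|⁴` is transcendental** at the points with complex multiplication and
`2 Re z ∈ ℤ`. -/
theorem transcendental_pi_sq_mul {z : ℂ} (hz : 0 < z.im) {a b c : ℤ} (ha : a ≠ 0)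
    (h : (a : ℂ) * z ^ 2 + b * z + c = 0) {m : ℤ} (hm : 2 * z.re = m) :
    Transcendental ℚ (Real.pi ^ 2 * ‖ModularForm.eta z‖ ^ 4) := by
  let τ : ℍ := ⟨z, hz⟩
  have h1 := Sch.pi_mul_norm_eta_sq τ (isAlgebraic_jFun (τ := τ) ha h) (m := m) hm
  intro h2
  refine h1 (IsAlgebraic.of_pow (n := 2) (by norm_num) ?_)
  have h3 : (Real.pi * ‖ModularForm.eta (τ : ℂ)‖ ^ 2) ^ 2 =
      Real.pi ^ 2 * ‖ModularForm.eta z‖ ^ 4 := by
    show (Real.pi * ‖ModularForm.eta z‖ ^ 2) ^ 2 = _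
    ring
  rw [h3]
  exact h2

theorem transcendental_of_eq {x y c : ℝ} (hx : Transcendental ℚ x) (hc : IsAlgebraic ℚ c)
    (h : x = c * y) : Transcendental ℚ y := fun hy => hx (by rw [h]; exact hc.mul hy)

theorem isAlgebraic_sqrt (n : ℕ) : IsAlgebraic ℚ √(n : ℝ) := by
  refine IsAlgebraic.of_pow (n := 2) (by norm_num) ?_
  rw [Real.sq_sqrt (Nat.cast_nonneg n)]
  exact isAlgebraic_natCast n

theorem isAlgebraic_sin (q : ℚ) : IsAlgebraic ℚ (Real.sin (q * Real.pi)) := by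
  have h := ((Real.isIntegral_two_mul_sin_rat_mul_pi q).tower_top (A := ℚ)).isAlgebraic
  have h2 := h.mul (isAlgebraic_natCast (R := ℚ) (A := ℝ) 2).inv
  have h3 : 2 * Real.sin (q * Real.pi) * (((2 : ℕ) : ℝ))⁻¹ = Real.sin (q * Real.pi) := by
    push_cast
    ring
  rwa [h3] at h2

/-! ### Class number one -/

section One

variable {K : Type u} [Field K] [NumberField K]

/-- **Transcendence in the Chowla-Selberg formula, class number one.** -/
theorem transcendental_one (h2 : finrank ℚ K = 2) (hd : discr K < 0) (h1 : classNumber K = 1) :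
    Transcendental ℚ (Real.pi * ∏ a ∈ Finset.Ioo 0 (discr K).natAbs,
      Real.Gamma (a / (discr K).natAbs) ^
        (((torsionOrder K / 2 : ℕ) : ℤ) * kron (discr K) a)) := by
  obtain ⟨F⟩ := Diri.exists_frame h2
  obtain ⟨φ, hφ, -⟩ := exists_phi F hd
  obtain ⟨t, k, hk⟩ : ∃ t k : ℤ, t ^ 2 + |discr K| = 4 * k := by
    rw [abs_of_neg hd]
    rcases Diri.discr_mod_four h2 with h | h
    · exact ⟨0, -discr K / 4, by omega⟩
    · exact ⟨1, (1 - discr K) / 4, by omega⟩
  have h := chowla_selberg_one h2 hφ h1 (t := t) ⟨k, hk⟩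
  have hD : 0 < √|(discr K : ℝ)| := discr_pos'
  have hD2 : √|(discr K : ℝ)| ^ 2 = |(discr K : ℝ)| := Real.sq_sqrt (abs_nonneg _)
  have hkR : (t : ℝ) ^ 2 + √|(discr K : ℝ)| ^ 2 = 4 * k := by
    rw [hD2]
    exact_mod_cast hk
  set D : ℝ := √|(discr K : ℝ)| with hDdef
  have him : ((t + D * Complex.I) / 2 : ℂ).im = D / 2 := by
    simp
  have hre : ((t + D * Complex.I) / 2 : ℂ).re = t / 2 := by
    simp
  have hq : ((1 : ℤ) : ℂ) * ((t + D * Complex.I) / 2) ^ 2 + ((-t : ℤ) : ℂ) *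
      ((t + D * Complex.I) / 2) + (k : ℂ) = 0 := by
    have hkC : (t : ℂ) ^ 2 + (D : ℂ) ^ 2 = 4 * k := by exact_mod_cast hkR
    push_cast
    linear_combination (-1 / 4 : ℂ) * hkC + (D : ℂ) ^ 2 / 4 * Complex.I_sq
  have htr := transcendental_pi_sq_mul (by rw [him]; positivity) one_ne_zero hq (m := t)
    (by rw [hre]; ring)
  refine transcendental_of_eq htr (c := (((2 * (discr K).natAbs : ℕ) : ℝ))⁻¹)
    (isAlgebraic_natCast _).inv ?_
  have hn : ((discr K).natAbs : ℝ) = D ^ 2 := by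
    rw [hD2, Nat.cast_natAbs]
    push_cast
    rfl
  have hp := Real.pi_pos
  generalize ‖ModularForm.eta ((t + D * Complex.I) / 2)‖ ^ 4 = X at h ⊢
  generalize ∏ a ∈ Finset.Ioo 0 (discr K).natAbs, Real.Gamma (a / (discr K).natAbs) ^
    (((torsionOrder K / 2 : ℕ) : ℤ) * kron (discr K) a) = P at h ⊢
  have hX : X = 2 / D * ((4 * Real.pi * D)⁻¹ * P) := by
    rw [← h]
    field_simp
  rw [hX]
  push_cast
  rw [hn]
  field_simp
  ring

end One

/-! ### Prime discriminants -/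

section Prime

variable {p : ℕ}

/-- `π ∏ Γ(a / p)^(a / p)` is transcendental (the exponents are Legendre symbols) -/
theorem transcendental_prod_jacobi (hp : p ∈ ({7, 11, 19, 43, 67, 163} : Set ℕ)) :
    Transcendental ℚ (Real.pi *
      ∏ a ∈ Finset.Ioo 0 p, Real.Gamma (a / p) ^ jacobiSym a p) := by
  have h := norm_eta_heegner hp
  obtain ⟨k, hk⟩ : ∃ k : ℤ, 1 + (p : ℤ) = 4 * k := by
    rcases hp with rfl | rfl | rfl | rfl | rfl | rfl
    exacts [⟨2, rfl⟩, ⟨3, rfl⟩, ⟨5, rfl⟩, ⟨11, rfl⟩, ⟨17, rfl⟩, ⟨41, rfl⟩]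
  have hp0 : (0 : ℝ) < p := by
    have : 0 < p := by
      rcases hp with rfl | rfl | rfl | rfl | rfl | rfl <;> norm_num
    exact_mod_cast this
  have hD : 0 < √(p : ℝ) := Real.sqrt_pos.mpr hp0
  have hD2 : √(p : ℝ) ^ 2 = p := Real.sq_sqrt hp0.le
  have him : ((1 + √p * Complex.I) / 2 : ℂ).im = √p / 2 := by
    simp
  have hre : ((1 + √p * Complex.I) / 2 : ℂ).re = 1 / 2 := by
    simp
  have hq : ((1 : ℤ) : ℂ) * ((1 + √p * Complex.I) / 2) ^ 2 + ((-1 : ℤ) : ℂ) *
      ((1 + √p * Complex.I) / 2) + (k : ℂ) = 0 := by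
    have hkC : (1 : ℂ) + ((√p : ℝ) : ℂ) ^ 2 = 4 * k := by
      have : (1 : ℝ) + √(p : ℝ) ^ 2 = 4 * k := by
        rw [hD2]
        exact_mod_cast hk
      exact_mod_cast this
    push_cast
    linear_combination (-1 / 4 : ℂ) * hkC + ((√p : ℝ) : ℂ) ^ 2 / 4 * Complex.I_sq
  have htr := transcendental_pi_sq_mul (by rw [him]; positivity) one_ne_zero hq (m := 1)
    (by rw [hre]; norm_num)
  refine transcendental_of_eq htr (c := (((2 * p : ℕ) : ℝ))⁻¹)
    (isAlgebraic_natCast _).inv ?_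
  rw [h]
  have hpi := Real.pi_pos
  push_cast
  field_simp

/-- **`∏_{(a/p) = 1} Γ(a / p) / π^((p - 3) / 4)` is transcendental** for
`p = 7, 11, 19, 43, 67, 163`. -/
theorem transcendental_gamma_prime (hp : p ∈ ({7, 11, 19, 43, 67, 163} : Set ℕ)) :
    Transcendental ℚ ((∏ a ∈ (Finset.Ioo 0 p).filter fun a : ℕ => jacobiSym a p = 1,
      Real.Gamma (a / p)) / Real.pi ^ ((p - 3) / 4)) := by
  have hprime : p.Prime := by
    rcases hp with rfl | rfl | rfl | rfl | rfl | rfl <;> norm_num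
  obtain ⟨m, hm⟩ : ∃ m : ℕ, p = 4 * m + 3 := by
    rcases hp with rfl | rfl | rfl | rfl | rfl | rfl
    exacts [⟨1, rfl⟩, ⟨2, rfl⟩, ⟨4, rfl⟩, ⟨10, rfl⟩, ⟨16, rfl⟩, ⟨40, rfl⟩]
  have hm' : (p - 3) / 4 = m := by omega
  have hodd : Odd p := ⟨2 * m + 1, by omega⟩
  have hp0 : (0 : ℝ) < p := by exact_mod_cast hprime.pos
  have hpi := Real.pi_pos
  -- the symbol at `p - a`
  have hneg : ∀ a ∈ Finset.Ioo 0 p, jacobiSym ((p - a : ℕ) : ℤ) p = -jacobiSym a p := by
    intro a ha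
    obtain ⟨h1, h2⟩ := Finset.mem_Ioo.mp ha
    have h3 : (((p - a : ℕ) : ℤ)) % p = (-(a : ℤ)) % p := by
      rw [Nat.cast_sub h2.le]
      have : (p : ℤ) - a = -(a : ℤ) + p * 1 := by ring
      rw [this, Int.add_mul_emod_self_left]
    rw [jacobiSym.mod_left, h3, ← jacobiSym.mod_left, jacobiSym.neg _ hodd]
    have h4 : ZMod.χ₄ (p : ZMod 4) = -1 := ZMod.χ₄_nat_three_mod_four (by omega)
    rw [h4, neg_one_mul]
  have hval : ∀ a ∈ Finset.Ioo 0 p, jacobiSym a p ≠ 1 → jacobiSym a p = -1 := by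
    intro a ha h1
    obtain ⟨h2, h3⟩ := Finset.mem_Ioo.mp ha
    rcases jacobiSym.trichotomy (a : ℤ) p with h | h | h
    · exfalso
      have : NeZero p := ⟨hprime.ne_zero⟩
      rw [jacobiSym.eq_zero_iff_not_coprime] at h
      apply h
      rw [Int.gcd_natCast_natCast]
      exact (hprime.coprime_iff_not_dvd.mpr (Nat.not_dvd_of_pos_of_lt h2 h3)).symm
    · exact absurd h h1
    · exact h
  set R := (Finset.Ioo 0 p).filter fun a : ℕ => jacobiSym a p = 1 with hR
  set N := (Finset.Ioo 0 p).filter fun a : ℕ => ¬ jacobiSym a p = 1 with hN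
  have hRN : ∀ a ∈ R, p - a ∈ N := by
    intro a ha
    obtain ⟨h1, h2⟩ := Finset.mem_filter.mp ha
    obtain ⟨h3, h4⟩ := Finset.mem_Ioo.mp h1
    refine Finset.mem_filter.mpr ⟨Finset.mem_Ioo.mpr ⟨by omega, by omega⟩, ?_⟩
    rw [hneg a h1, h2]
    norm_num
  have hNR : ∀ a ∈ N, p - a ∈ R := by
    intro a ha
    obtain ⟨h1, h2⟩ := Finset.mem_filter.mp ha
    obtain ⟨h3, h4⟩ := Finset.mem_Ioo.mp h1
    refine Finset.mem_filter.mpr ⟨Finset.mem_Ioo.mpr ⟨by omega, by omega⟩, ?_⟩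
    rw [hneg a h1, hval a h1 h2]
    norm_num
  have hlt : ∀ a ∈ Finset.Ioo 0 p, p - (p - a) = a := by
    intro a ha
    obtain ⟨h3, h4⟩ := Finset.mem_Ioo.mp ha
    omega
  have hlt' : ∀ a ∈ R, a ∈ Finset.Ioo 0 p := fun a ha => (Finset.mem_filter.mp ha).1
  have hlt'' : ∀ a ∈ N, a ∈ Finset.Ioo 0 p := fun a ha => (Finset.mem_filter.mp ha).1
  have hcard : R.card = N.card :=
    Finset.card_nbij' (fun a => p - a) (fun a => p - a) hRN hNR
      (fun a ha => hlt a (hlt' a ha)) (fun a ha => hlt a (hlt'' a ha))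
  have hcard2 : R.card + N.card = p - 1 := by
    rw [hR, hN, Finset.card_filter_add_card_filter_not, Nat.card_Ioo]
    omega
  have hRc : R.card = 2 * m + 1 := by omega
  set A := ∏ a ∈ R, Real.Gamma (a / p) with hA
  set S := ∏ a ∈ R, Real.sin (((a : ℚ) / p : ℚ) * Real.pi) with hS
  have hcast : ∀ a : ℕ, (((a : ℚ) / p : ℚ) : ℝ) = (a : ℝ) / p := fun a => by push_cast; rfl
  have hB : ∏ a ∈ N, Real.Gamma (a / p) = ∏ a ∈ R, Real.Gamma (1 - a / p) := by
    refine Finset.prod_nbij' (fun a => p - a) (fun a => p - a) hNR hRN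
      (fun a ha => hlt a (hlt'' a ha)) (fun a ha => hlt a (hlt' a ha)) fun a ha => ?_
    obtain ⟨h3, h4⟩ := Finset.mem_Ioo.mp (hlt'' a ha)
    rw [Nat.cast_sub h4.le, sub_div, div_self hp0.ne', sub_sub_cancel]
  have hAB : A * ∏ a ∈ N, Real.Gamma (a / p) = Real.pi ^ (2 * m + 1) / S := by
    rw [hB, hA, hS, ← Finset.prod_mul_distrib, ← hRc, ← Finset.prod_const,
      ← Finset.prod_div_distrib]
    refine Finset.prod_congr rfl fun a _ => ?_
    rw [Real.Gamma_mul_Gamma_one_sub, hcast, mul_comm Real.pi]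
  have hSpos : 0 < S := by
    refine Finset.prod_pos fun a ha => ?_
    obtain ⟨h3, h4⟩ := Finset.mem_Ioo.mp (hlt' a ha)
    have h5 : (0 : ℝ) < a := by exact_mod_cast h3
    have h6 : (a : ℝ) < p := by exact_mod_cast h4
    rw [hcast]
    refine Real.sin_pos_of_pos_of_lt_pi (by positivity) ?_
    have : (a : ℝ) / p < 1 := (div_lt_one hp0).mpr h6
    nlinarith
  have hApos : 0 < A := Finset.prod_pos fun a ha => gamma_pos (hlt' a ha)
  have hBpos : 0 < ∏ a ∈ N, Real.Gamma (a / p) :=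
    Finset.prod_pos fun a ha => gamma_pos (hlt'' a ha)
  have hP : ∏ a ∈ Finset.Ioo 0 p, Real.Gamma (a / p) ^ jacobiSym a p =
      A * (∏ a ∈ N, Real.Gamma (a / p))⁻¹ := by
    rw [← Finset.prod_filter_mul_prod_filter_not (Finset.Ioo 0 p) fun a : ℕ => jacobiSym a p = 1,
      ← Finset.prod_inv_distrib]
    congr 1
    · refine Finset.prod_congr rfl fun a ha => ?_
      rw [(Finset.mem_filter.mp ha).2, zpow_one]
    · refine Finset.prod_congr rfl fun a ha => ?_
      obtain ⟨h1, h2⟩ := Finset.mem_filter.mp ha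
      rw [hval a h1 h2, zpow_neg_one]
  have hSalg : IsAlgebraic ℚ S := by
    rw [hS]
    refine Finset.prod_induction _ (fun x : ℝ => IsAlgebraic ℚ x) (fun _ _ => IsAlgebraic.mul)
      isAlgebraic_one fun a _ => isAlgebraic_sin _
  intro halg
  refine transcendental_prod_jacobi hp ?_
  rw [hP]
  have h7 : Real.pi * (A * (∏ a ∈ N, Real.Gamma (a / p))⁻¹) =
      S * (A / Real.pi ^ ((p - 3) / 4)) ^ 2 := by
    rw [hm']
    generalize ∏ a ∈ N, Real.Gamma (a / p) = B at hAB hBpos ⊢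
    rw [eq_div_iff hSpos.ne'] at hAB
    have h8 : Real.pi ^ (2 * m + 1) = Real.pi * (Real.pi ^ m) ^ 2 := by
      rw [← pow_mul, mul_comm m 2, pow_succ']
    rw [h8] at hAB
    have h9 : 0 < Real.pi ^ m := by positivity
    generalize Real.pi ^ m = Q at hAB h9 ⊢
    field_simp
    linear_combination -hAB
  rw [h7]
  exact hSalg.mul (halg.pow 2)

/-- **`Γ(1/7) Γ(2/7) Γ(4/7) / π` is transcendental.** -/
theorem transcendental_gamma_seven :
    Transcendental ℚ (Real.Gamma (1 / 7) * Real.Gamma (2 / 7) * Real.Gamma (4 / 7) / Real.pi) := by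
  have h := transcendental_gamma_prime (p := 7) (by simp)
  have e : (Finset.Ioo 0 7).filter (fun a : ℕ => jacobiSym a 7 = 1) = {1, 2, 4} := by
    have j1 : jacobiSym (1 : ℕ) 7 = 1 := by norm_num
    have j2 : jacobiSym (2 : ℕ) 7 = 1 := by norm_num
    have j3 : jacobiSym (3 : ℕ) 7 = -1 := by norm_num
    have j4 : jacobiSym (4 : ℕ) 7 = 1 := by norm_num
    have j5 : jacobiSym (5 : ℕ) 7 = -1 := by norm_num
    have j6 : jacobiSym (6 : ℕ) 7 = -1 := by norm_num
    ext a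
    rw [Finset.mem_filter, Finset.mem_Ioo]
    constructor
    · rintro ⟨⟨h1, h2⟩, h3⟩
      interval_cases a
      · decide
      · decide
      · rw [j3] at h3
        norm_num at h3
      · decide
      · rw [j5] at h3
        norm_num at h3
      · rw [j6] at h3
        norm_num at h3
    · intro h1
      simp only [Finset.mem_insert, Finset.mem_singleton] at h1
      rcases h1 with rfl | rfl | rfl
      · exact ⟨by decide, j1⟩
      · exact ⟨by decide, j2⟩
      · exact ⟨by decide, j4⟩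
  rw [e, Finset.prod_insert (by decide), Finset.prod_insert (by decide), Finset.prod_singleton] at h
  norm_num at h
  convert h using 2
  ring

end Prime

/-! ### The other examples -/

theorem isAlgebraic_rpow {x : ℝ} (hx0 : 0 < x) (hx : IsAlgebraic ℚ x) {n : ℕ} (hn : 0 < n) :
    IsAlgebraic ℚ (x ^ (1 / n : ℝ)) := by
  refine IsAlgebraic.of_pow (n := n) hn ?_
  have hn' : (n : ℝ) ≠ 0 := by exact_mod_cast hn.ne'
  rw [← Real.rpow_natCast, ← Real.rpow_mul hx0.le, one_div, inv_mul_cancel₀ hn', Real.rpow_one]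
  exact hx

theorem isAlgebraic_golden : IsAlgebraic ℚ ((1 + √5) / 2 : ℝ) := by
  have h := (isAlgebraic_one.add (isAlgebraic_sqrt 5)).mul
    (isAlgebraic_natCast (R := ℚ) (A := ℝ) 2).inv
  have e : (1 + √((5 : ℕ) : ℝ)) * (((2 : ℕ) : ℝ))⁻¹ = (1 + √5) / 2 := by
    push_cast
    ring
  rwa [e] at h

theorem isAlgebraic_silver : IsAlgebraic ℚ (1 + √2 : ℝ) := by
  have h := isAlgebraic_one.add (isAlgebraic_sqrt 2)
  have e : (1 + √((2 : ℕ) : ℝ)) = 1 + √2 := by
    push_cast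
    ring
  rwa [e] at h

/-- **`(Γ(1/8) Γ(3/8))² / π` is transcendental.** -/
theorem transcendental_gamma_eight :
    Transcendental ℚ ((Real.Gamma (1 / 8) * Real.Gamma (3 / 8)) ^ 2 / Real.pi) := by
  have him : (√2 * Complex.I : ℂ).im = √2 := by simp
  have hre : (√2 * Complex.I : ℂ).re = 0 := by simp
  have h2 : ((√2 : ℝ) : ℂ) ^ 2 = 2 := by
    have : √2 ^ 2 = (2 : ℝ) := Real.sq_sqrt (by norm_num)
    exact_mod_cast congrArg (fun x : ℝ => (x : ℂ)) this
  have htr := transcendental_pi_sq_mul (z := √2 * Complex.I) (by rw [him]; positivity)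
    (a := 1) (b := 0) (c := 2) one_ne_zero (by
      push_cast
      linear_combination (Complex.I ^ 2) * h2 + 2 * Complex.I_sq) (m := 0) (by rw [hre]; norm_num)
  refine transcendental_of_eq htr (c := ((2 ^ (11 / 2 : ℝ) : ℝ))⁻¹) ?_ ?_
  · refine IsAlgebraic.inv (IsAlgebraic.of_pow (n := 2) (by norm_num) ?_)
    have h11 : ((2 ^ (11 / 2 : ℝ) : ℝ)) ^ 2 = ((2048 : ℕ) : ℝ) := by
      rw [← Real.rpow_natCast, ← Real.rpow_mul (by norm_num)]
      norm_num
    rw [h11]
    exact isAlgebraic_natCast _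
  · rw [norm_eta_sqrt_neg_two]
    have hG : 0 < Real.Gamma (1 / 8) * Real.Gamma (3 / 8) :=
      mul_pos (Real.Gamma_pos_of_pos (by norm_num)) (Real.Gamma_pos_of_pos (by norm_num))
    have hpi := Real.pi_pos
    have h8 : ((2 ^ (11 / 8 : ℝ) : ℝ)) ^ 4 = 2 ^ (11 / 2 : ℝ) := by
      rw [← Real.rpow_natCast, ← Real.rpow_mul (by norm_num)]
      norm_num
    have h34 : (Real.pi ^ (3 / 4 : ℝ)) ^ 4 = Real.pi ^ 3 := by
      rw [← Real.rpow_natCast, ← Real.rpow_mul hpi.le, ← Real.rpow_natCast Real.pi 3]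
      norm_num
    have hs : (√(Real.Gamma (1 / 8) * Real.Gamma (3 / 8))) ^ 4 =
        (Real.Gamma (1 / 8) * Real.Gamma (3 / 8)) ^ 2 := by
      rw [show (4 : ℕ) = 2 * 2 from rfl, pow_mul, Real.sq_sqrt hG.le]
    have hq : (0 : ℝ) < 2 ^ (11 / 2 : ℝ) := by positivity
    rw [div_pow, mul_pow, h8, h34, hs]
    generalize (2 : ℝ) ^ (11 / 2 : ℝ) = q at hq ⊢
    field_simp

/-- **`Γ(1/15) Γ(2/15) Γ(4/15) Γ(8/15) / π` is transcendental.** -/
theorem transcendental_gamma_fifteen :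
    Transcendental ℚ (Real.Gamma (1 / 15) * Real.Gamma (2 / 15) * Real.Gamma (4 / 15) *
      Real.Gamma (8 / 15) / Real.pi) := by
  have him : ((-1 + √15 * Complex.I) / 2 : ℂ).im = √15 / 2 := by simp
  have hre : ((-1 + √15 * Complex.I) / 2 : ℂ).re = -1 / 2 := by simp
  have h2 : ((√15 : ℝ) : ℂ) ^ 2 = 15 := by
    have : √15 ^ 2 = (15 : ℝ) := Real.sq_sqrt (by norm_num)
    exact_mod_cast congrArg (fun x : ℝ => (x : ℂ)) this
  have htr := transcendental_pi_sq_mul (z := (-1 + √15 * Complex.I) / 2)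
    (by rw [him]; positivity) (a := 1) (b := 1) (c := 4) one_ne_zero (by
      push_cast
      linear_combination (Complex.I ^ 2 / 4) * h2 + 15 / 4 * Complex.I_sq) (m := -1)
    (by rw [hre]; norm_num)
  have hq : 0 < ((1 + √5) / 2) ^ (1 / 3 : ℝ) := Real.rpow_pos_of_pos (by positivity) _
  refine transcendental_of_eq htr (c := (((120 : ℕ) : ℝ) * ((1 + √5) / 2) ^ (1 / 3 : ℝ))⁻¹)
    ?_ ?_
  · refine ((isAlgebraic_natCast 120).mul ?_).inv
    exact_mod_cast isAlgebraic_rpow (by positivity) isAlgebraic_golden (n := 3) (by norm_num)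
  · rw [norm_eta_half_sqrt_neg_fifteen]
    have hpi := Real.pi_pos
    generalize ((1 + √5) / 2) ^ (1 / 3 : ℝ) = q at hq ⊢
    push_cast
    field_simp

/-- **`Γ(1/20) Γ(3/20) Γ(7/20) Γ(9/20) / π` is transcendental.** -/
theorem transcendental_gamma_twenty :
    Transcendental ℚ (Real.Gamma (1 / 20) * Real.Gamma (3 / 20) * Real.Gamma (7 / 20) *
      Real.Gamma (9 / 20) / Real.pi) := by
  have him : (√5 * Complex.I : ℂ).im = √5 := by simp
  have hre : (√5 * Complex.I : ℂ).re = 0 := by simp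
  have h2 : ((√5 : ℝ) : ℂ) ^ 2 = 5 := by
    have : √5 ^ 2 = (5 : ℝ) := Real.sq_sqrt (by norm_num)
    exact_mod_cast congrArg (fun x : ℝ => (x : ℂ)) this
  have htr := transcendental_pi_sq_mul (z := √5 * Complex.I) (by rw [him]; positivity)
    (a := 1) (b := 0) (c := 5) one_ne_zero (by
      push_cast
      linear_combination (Complex.I ^ 2) * h2 + 5 * Complex.I_sq) (m := 0) (by rw [hre]; norm_num)
  have hq : 0 < √((1 + √5) / 2) := Real.sqrt_pos.mpr (by positivity)
  refine transcendental_of_eq htr (c := (((160 : ℕ) : ℝ) * √((1 + √5) / 2))⁻¹) ?_ ?_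
  · refine ((isAlgebraic_natCast 160).mul (IsAlgebraic.of_pow (n := 2) (by norm_num) ?_)).inv
    rw [Real.sq_sqrt (by positivity)]
    exact isAlgebraic_golden
  · rw [norm_eta_sqrt_neg_five]
    have hpi := Real.pi_pos
    generalize √((1 + √5) / 2) = q at hq ⊢
    push_cast
    field_simp

/-- **`Γ(1/24) Γ(5/24) Γ(7/24) Γ(11/24) / π` is transcendental.** -/
theorem transcendental_gamma_twentyfour :
    Transcendental ℚ (Real.Gamma (1 / 24) * Real.Gamma (5 / 24) * Real.Gamma (7 / 24) *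
      Real.Gamma (11 / 24) / Real.pi) := by
  have him : (√6 * Complex.I : ℂ).im = √6 := by simp
  have hre : (√6 * Complex.I : ℂ).re = 0 := by simp
  have h2 : ((√6 : ℝ) : ℂ) ^ 2 = 6 := by
    have : √6 ^ 2 = (6 : ℝ) := Real.sq_sqrt (by norm_num)
    exact_mod_cast congrArg (fun x : ℝ => (x : ℂ)) this
  have htr := transcendental_pi_sq_mul (z := √6 * Complex.I) (by rw [him]; positivity)
    (a := 1) (b := 0) (c := 6) one_ne_zero (by
      push_cast
      linear_combination (Complex.I ^ 2) * h2 + 6 * Complex.I_sq) (m := 0) (by rw [hre]; norm_num)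
  have hq : 0 < (1 + √2) ^ (1 / 3 : ℝ) := Real.rpow_pos_of_pos (by positivity) _
  refine transcendental_of_eq htr (c := (((192 : ℕ) : ℝ) * (1 + √2) ^ (1 / 3 : ℝ))⁻¹) ?_ ?_
  · refine ((isAlgebraic_natCast 192).mul ?_).inv
    exact_mod_cast isAlgebraic_rpow (by positivity) isAlgebraic_silver (n := 3) (by norm_num)
  · rw [norm_eta_sqrt_neg_six]
    have hpi := Real.pi_pos
    generalize (1 + √2) ^ (1 / 3 : ℝ) = q at hq ⊢
    push_cast
    field_simp

end Fermat.Agent.Cor.Kron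

end
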