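import Fermat.Agent.Corollaries.Kron.Fifteen
import Fermat.Agent.Corollaries.Diri.Quarter

/-!
# The Chowla-Selberg formula for class number two

`K` imaginary quadratic of class number two, `discr K = d₁ d₂` with coprime discriminants
`d₁ > 0 > d₂` of quadratic fields. The Chowla-Selberg formula and Kronecker's solution of Pell's
equation give the value of `√|d| / (2 a) |η((-b + √d) / (2 a))|⁴` at each of the two reduced forms:
`(4 π √|d|)⁻¹ √(∏ Γ(m / |d|)^(d/m)) ε ^ (∓ 2 h(d₁) h(d₂) / w(d₂))`.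

Examples: the values `|η(√-5)|`, `|η((-1 + √-5) / 2)|`, `|η(√-6)|`, `|η(√-6 / 2)|`,
`|η((-1 + √-15) / 2)|`, `|η((-1 + √-15) / 4)|` by `Γ(m / |d|)`, `π` and fundamental units.
-/

set_option autoImplicit false

noncomputable section

namespace Fermat.Agent.Cor.Kron

open NumberField Module Fermat.Agent.Classic.Zeta NumberField.Units
open scoped nonZeroDivisors
open Fermat.Agent.Cor.Diri (kron Frame)
open Fermat.Agent.Cor.Ray (BForm)

universe u v w

section General

variable {K : Type u} [Field K] [NumberField K]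

/-- the ideal of a form `x² + b x y + c y²` is principal -/
theorem cls_eq_one (F : Frame K) (f : BForm.PForm (discr K)) (h : f.1.a = 1) : F.cls f = 1 := by
  have htop : F.idl f.2.2.1 = ⊤ := by
    rw [Ideal.eq_top_iff_one]
    have h1 := (F.intCast_mem_idl f.2.2.1 (n := 1)).mpr (by rw [h])
    simpa using h1
  show ClassGroup.mk0 ⟨F.idl f.2.2.1, _⟩ = 1
  rw [ClassGroup.mk0_eq_one_iff, htop]
  exact top_isPrincipal

theorem term_pos (f : BForm.PForm (discr K)) :
    0 < √|(discr K : ℝ)| / (2 * f.1.a) * ‖ModularForm.eta (root (discr K) f.1)‖ ^ 4 := by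
  have ha : (0 : ℝ) < f.1.a := by exact_mod_cast f.2.2.2
  have h1 := discr_pos' (K := K)
  have h2 : 0 < ‖ModularForm.eta (root (discr K) f.1)‖ := by
    refine norm_pos_iff.mpr (ModularForm.eta_ne_zero ?_)
    show 0 < Complex.im _
    rw [root_im]
    positivity
  positivity

theorem prod_gamma_pos (d : ℤ) :
    0 < ∏ a ∈ Finset.Ioo 0 d.natAbs, Real.Gamma (a / d.natAbs) ^ kron d a :=
  Finset.prod_pos fun _ ha => zpow_pos (gamma_pos ha) _

/-- **The Chowla-Selberg formula for two reduced forms.** -/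
theorem values_two (h2 : finrank ℚ K = 2) {F₁ : Type v} [Field F₁] [NumberField F₁]
    {F₂ : Type w} [Field F₂] [NumberField F₂] (h₁ : finrank ℚ F₁ = 2) (h₂ : finrank ℚ F₂ = 2)
    (hd₁ : 0 < discr F₁) (hd₂ : discr F₂ < 0)
    (hd : discr K = discr F₁ * discr F₂) (hcop : IsCoprime (discr F₁) (discr F₂))
    {f₀ f₁ : BForm.RForm (discr K)} (ha : f₀.1.1.a = 1) (hne : f₀ ≠ f₁)
    (hall : ∀ f, f = f₀ ∨ f = f₁) :
    √|(discr K : ℝ)| / (2 * f₀.1.1.a) * ‖ModularForm.eta (root (discr K) f₀.1.1)‖ ^ 4 =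
        (4 * Real.pi * √|(discr K : ℝ)|)⁻¹ *
          √(∏ a ∈ Finset.Ioo 0 (discr K).natAbs,
            Real.Gamma (a / (discr K).natAbs) ^ kron (discr K) a) *
          Real.exp (regulator F₁) ^ (-(2 * classNumber F₁ * classNumber F₂ / torsionOrder F₂ : ℝ)) ∧
    √|(discr K : ℝ)| / (2 * f₁.1.1.a) * ‖ModularForm.eta (root (discr K) f₁.1.1)‖ ^ 4 =
        (4 * Real.pi * √|(discr K : ℝ)|)⁻¹ *
          √(∏ a ∈ Finset.Ioo 0 (discr K).natAbs,
            Real.Gamma (a / (discr K).natAbs) ^ kron (discr K) a) *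
          Real.exp (regulator F₁) ^ (2 * classNumber F₁ * classNumber F₂ / torsionOrder F₂ : ℝ) := by
  classical
  have hneg : discr K < 0 := by
    rw [hd]
    exact mul_neg_of_pos_of_neg hd₁ hd₂
  have hw : torsionOrder K = 2 := by
    refine Diri.torsionOrder_eq_two h2 ?_
    have h3 := abs_discr_gt_two (K := F₁) (by rw [h₁]; norm_num)
    have h4 := abs_discr_gt_two (K := F₂) (by rw [h₂]; norm_num)
    rw [hd, Int.natAbs_mul]
    rw [Int.abs_eq_natAbs] at h3 h4
    have h5 : 3 ≤ (discr F₁).natAbs := by omega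
    have h6 : 3 ≤ (discr F₂).natAbs := by omega
    calc 4 < 3 * 3 := by norm_num
      _ ≤ _ := Nat.mul_le_mul h5 h6
  obtain ⟨F⟩ := Diri.exists_frame h2
  obtain ⟨e, hne', -, hsum⟩ := kronecker_pell_forms h2 h₁ h₂ hd₁ hd₂ hd hcop F
  have hprod := chowla_selberg_forms (K := K) h2 hneg
  have : Finite (BForm.RForm (discr K)) := Finite.of_equiv _ (redEquiv F h2 hneg).symm
  have : Fintype (BForm.RForm (discr K)) := Fintype.ofFinite _
  have huniv : (Finset.univ : Finset (BForm.RForm (discr K))) = {f₀, f₁} := by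
    ext f
    simpa using hall f
  have hcl : classNumber K = 2 := by
    have h3 : Fintype.card (BForm.RForm (discr K)) = 2 := by
      rw [← Finset.card_univ, huniv, Finset.card_pair hne]
    rw [← h3, classNumber]
    exact (Fintype.card_congr (redEquiv F h2 hneg)).symm
  rw [finsum_eq_sum_of_fintype, huniv, Finset.sum_pair hne] at hsum
  rw [finprod_eq_prod_of_fintype, huniv, Finset.prod_pair hne, hcl, hw] at hprod
  have e1 : e (F.cls f₀.1) = 1 := by rw [cls_eq_one F f₀.1 ha, map_one]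
  have e2 : e (F.cls f₁.1) = -1 := by
    rcases Int.units_eq_one_or (e (F.cls f₁.1)) with h | h
    · exfalso
      apply hne'
      refine MonoidHom.ext fun C => ?_
      obtain ⟨f, rfl⟩ := (redEquiv F h2 hneg).surjective C
      rw [redEquiv_apply]
      rcases hall f with rfl | rfl
      · rw [e1]; rfl
      · rw [h]; rfl
    · exact h
  rw [e1, e2] at hsum
  have hP : (∏ a ∈ Finset.Ioo 0 (discr K).natAbs, Real.Gamma (a / (discr K).natAbs) ^
      (((2 / 2 : ℕ) : ℤ) * kron (discr K) a)) = ∏ a ∈ Finset.Ioo 0 (discr K).natAbs,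
        Real.Gamma (a / (discr K).natAbs) ^ kron (discr K) a := by
    simp
  rw [hP] at hprod
  have h3 := prod_gamma_pos (discr K)
  have h4 := term_pos f₀.1
  have h5 := term_pos f₁.1
  have h6 : 0 < 4 * Real.pi * √|(discr K : ℝ)| := by
    have := discr_pos' (K := K)
    positivity
  generalize (∏ a ∈ Finset.Ioo 0 (discr K).natAbs,
        Real.Gamma (a / (discr K).natAbs) ^ kron (discr K) a) = P at hprod h3 ⊢
  generalize √|(discr K : ℝ)| / (2 * f₀.1.1.a) *
    ‖ModularForm.eta (root (discr K) f₀.1.1)‖ ^ 4 = X at hprod hsum h4 ⊢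
  generalize √|(discr K : ℝ)| / (2 * f₁.1.1.a) *
    ‖ModularForm.eta (root (discr K) f₁.1.1)‖ ^ 4 = Y at hprod hsum h5 ⊢
  generalize 4 * Real.pi * √|(discr K : ℝ)| = c at hprod h6 ⊢
  have h7 := congrArg Real.log hprod
  rw [Real.log_mul h4.ne' h5.ne', Real.log_mul (by positivity) h3.ne', Real.log_inv,
    Real.log_pow] at h7
  push_cast at hsum h7
  have hx : ∀ x : ℝ, Real.log (c⁻¹ * √P * Real.exp (regulator F₁) ^ x) =
      -Real.log c + Real.log P / 2 + x * regulator F₁ := by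
    intro x
    have := Real.exp_pos (regulator F₁)
    rw [Real.log_mul (by positivity) (by positivity), Real.log_mul (by positivity) (by positivity),
      Real.log_inv, Real.log_sqrt h3.le, Real.log_rpow this, Real.log_exp]
  constructor
  · refine Real.log_injOn_pos (Set.mem_Ioi.mpr h4) (Set.mem_Ioi.mpr ?_) ?_
    · have := Real.exp_pos (regulator F₁)
      positivity
    · rw [hx]
      linear_combination h7 / 2 + hsum / 2
  · refine Real.log_injOn_pos (Set.mem_Ioi.mpr h5) (Set.mem_Ioi.mpr ?_) ?_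
    · have := Real.exp_pos (regulator F₁)
      positivity
    · rw [hx]
      linear_combination h7 / 2 - hsum / 2

/-- **The Chowla-Selberg formula for class number two**: `f₀` is the principal form, `f₁` the other
reduced form. -/
theorem chowla_selberg_two (h2 : finrank ℚ K = 2) (hcl : classNumber K = 2) {F₁ : Type v}
    [Field F₁] [NumberField F₁] {F₂ : Type w} [Field F₂] [NumberField F₂]
    (h₁ : finrank ℚ F₁ = 2) (h₂ : finrank ℚ F₂ = 2) (hd₁ : 0 < discr F₁) (hd₂ : discr F₂ < 0)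
    (hd : discr K = discr F₁ * discr F₂) (hcop : IsCoprime (discr F₁) (discr F₂))
    {f₀ f₁ : BForm.RForm (discr K)} (ha : f₀.1.1.a = 1) (ha' : f₁.1.1.a ≠ 1) :
    √|(discr K : ℝ)| / (2 * f₀.1.1.a) * ‖ModularForm.eta (root (discr K) f₀.1.1)‖ ^ 4 =
        (4 * Real.pi * √|(discr K : ℝ)|)⁻¹ *
          √(∏ a ∈ Finset.Ioo 0 (discr K).natAbs,
            Real.Gamma (a / (discr K).natAbs) ^ kron (discr K) a) *
          Real.exp (regulator F₁) ^ (-(2 * classNumber F₁ * classNumber F₂ / torsionOrder F₂ : ℝ)) ∧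
    √|(discr K : ℝ)| / (2 * f₁.1.1.a) * ‖ModularForm.eta (root (discr K) f₁.1.1)‖ ^ 4 =
        (4 * Real.pi * √|(discr K : ℝ)|)⁻¹ *
          √(∏ a ∈ Finset.Ioo 0 (discr K).natAbs,
            Real.Gamma (a / (discr K).natAbs) ^ kron (discr K) a) *
          Real.exp (regulator F₁) ^ (2 * classNumber F₁ * classNumber F₂ / torsionOrder F₂ : ℝ) := by
  classical
  have hneg : discr K < 0 := by
    rw [hd]
    exact mul_neg_of_pos_of_neg hd₁ hd₂
  have hne : f₀ ≠ f₁ := by
    rintro rfl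
    exact ha' ha
  refine values_two h2 h₁ h₂ hd₁ hd₂ hd hcop ha hne fun f => ?_
  obtain ⟨F⟩ := Diri.exists_frame h2
  have : Finite (BForm.RForm (discr K)) := Finite.of_equiv _ (redEquiv F h2 hneg).symm
  have : Fintype (BForm.RForm (discr K)) := Fintype.ofFinite _
  have h3 : Fintype.card (BForm.RForm (discr K)) = 2 := by
    rw [← hcl, classNumber]
    exact Fintype.card_congr (redEquiv F h2 hneg)
  by_contra hcon
  rw [not_or] at hcon
  have h4 : ({f₀, f₁, f} : Finset (BForm.RForm (discr K))).card = 3 := by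
    rw [Finset.card_insert_of_notMem (by simp [hne, Ne.symm hcon.1]), Finset.card_pair
      (Ne.symm hcon.2)]
  have h5 := Finset.card_le_univ ({f₀, f₁, f} : Finset (BForm.RForm (discr K)))
  omega

end General

/-! ### Class numbers -/

/-- `4 h = w` for the field of discriminant `-4` -/
theorem four_mul_classNumber {F : Type u} [Field F] [NumberField F] (h2 : finrank ℚ F = 2)
    (hd : discr F = -4) : 4 * classNumber F = torsionOrder F := by
  have h := Diri.class_number_kron h2 (by rw [hd]; norm_num)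
  rw [hd] at h
  have e1 : kron (-4) 1 = 1 := by
    rw [Diri.kron_odd _ (by decide), jacobiSym.one_right]
  have e2 : kron (-4) 2 = 0 := Diri.kron_even (by decide) (by decide) (by decide)
  have e4 : kron (-4) 3 = -1 := by
    rw [Diri.kron_odd _ (by decide)]
    norm_num
  have e3 : ∑ a ∈ Finset.range (-4 : ℤ).natAbs, (a : ℤ) * kron (-4) a = -2 := by
    have : (-4 : ℤ).natAbs = 4 := rfl
    rw [this, Finset.sum_range_succ, Finset.sum_range_succ, Finset.sum_range_succ,
      Finset.sum_range_succ, Finset.sum_range_zero]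
    push_cast
    rw [e1, e2, e4]
    norm_num
  rw [e3] at h
  have h3 : |(-4 : ℤ)| = 4 := by norm_num
  rw [h3] at h
  have h4 : (4 : ℤ) * classNumber F = torsionOrder F := by linarith
  exact_mod_cast h4

/-- `h R = log (1 + √2)` for the field of discriminant `8` -/
theorem classNumber_mul_regulator_eight {F : Type u} [Field F] [NumberField F]
    (h2 : finrank ℚ F = 2) (hd : discr F = 8) :
    (classNumber F : ℝ) * regulator F = Real.log (1 + √2) := by
  have h := Diri.class_number_regulator_kron h2 (by rw [hd]; norm_num)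
  rw [hd] at h
  have e1 : kron 8 1 = 1 := by
    rw [Diri.kron_odd _ (by decide), jacobiSym.one_right]
  have e2 : kron 8 2 = 0 := Diri.kron_even (by decide) (by decide) (by decide)
  have e4 : kron 8 4 = 0 := Diri.kron_even (by decide) (by decide) (by decide)
  have e6 : kron 8 6 = 0 := Diri.kron_even (by decide) (by decide) (by decide)
  have e3 : kron 8 3 = -1 := by
    rw [Diri.kron_odd _ (by decide)]
    norm_num
  have e5 : kron 8 5 = -1 := by
    rw [Diri.kron_odd _ (by decide)]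
    norm_num
  have e7 : kron 8 7 = 1 := by
    rw [Diri.kron_odd _ (by decide)]
    norm_num
  have e0 : (Finset.range (8 : ℤ).natAbs).erase 0 = {1, 2, 3, 4, 5, 6, 7} := by decide
  rw [e0] at h
  have s7 : Real.sin (Real.pi * 7 / 8) = Real.sin (Real.pi / 8) := by
    rw [← Real.sin_pi_sub]
    congr 1
    ring
  have s5 : Real.sin (Real.pi * 5 / 8) = Real.cos (Real.pi / 8) := by
    rw [← Real.sin_pi_div_two_sub, ← Real.sin_pi_sub]
    congr 1
    ring
  have s3 : Real.sin (Real.pi * 3 / 8) = Real.cos (Real.pi / 8) := by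
    rw [← Real.sin_pi_div_two_sub]
    congr 1
    ring
  have e9 : 0 < Real.sin (Real.pi / 8) :=
    Real.sin_pos_of_pos_of_lt_pi (by positivity) (by linarith [Real.pi_pos])
  have e10 : Real.log (Real.cos (Real.pi / 8)) =
      Real.log (1 + √2) + Real.log (Real.sin (Real.pi / 8)) := by
    rw [← Real.log_mul (by positivity) e9.ne']
    congr 1
    have hs : √2 ^ 2 = 2 := Real.sq_sqrt (by norm_num)
    have h1 : √2 ≤ 2 := by
      rw [Real.sqrt_le_left (by norm_num)]
      norm_num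
    refine (pow_left_inj₀ (Real.cos_nonneg_of_mem_Icc ⟨by linarith [Real.pi_pos],
      by linarith [Real.pi_pos]⟩) (by positivity) two_ne_zero).mp ?_
    rw [mul_pow, Real.cos_pi_div_eight, Real.sin_pi_div_eight, div_pow, div_pow,
      Real.sq_sqrt (by positivity), Real.sq_sqrt (by linarith)]
    linear_combination (1 / 4 : ℝ) * √2 * hs
  rw [h, Finset.sum_insert (by decide), Finset.sum_insert (by decide),
    Finset.sum_insert (by decide), Finset.sum_insert (by decide), Finset.sum_insert (by decide),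
    Finset.sum_insert (by decide), Finset.sum_singleton, e1, e2, e3, e4, e5, e6, e7]
  push_cast
  rw [s7, s5, s3, e10, mul_one]
  ring

/-! ### The forms -/

section Twenty

variable {D : ℤ} (hD : D = -20)

/-- the form `x² + 5 y²` -/
def r₁ : BForm.RForm D :=
  ⟨⟨⟨1, 0, 5⟩, by
    rw [BForm.prim_iff]
    decide, by rw [hD]; simp [BForm.disc], by norm_num⟩, by
    refine ⟨by norm_num, by norm_num, fun _ => by norm_num⟩⟩

/-- the form `2 x² + 2 x y + 3 y²` -/
def r₂ : BForm.RForm D :=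
  ⟨⟨⟨2, 2, 3⟩, by
    rw [BForm.prim_iff]
    decide, by rw [hD]; simp [BForm.disc], by norm_num⟩, by
    refine ⟨by norm_num, by norm_num, fun _ => by norm_num⟩⟩

theorem r_ne : r₁ hD ≠ r₂ hD := fun h => by
  have h3 := congrArg (fun f : BForm.RForm D => f.1.1.a) h
  simp [r₁, r₂] at h3

theorem eq_r (f : BForm.RForm D) : f = r₁ hD ∨ f = r₂ hD := by
  subst hD
  obtain ⟨⟨⟨a, b, c⟩, hp, hd, ha⟩, hr⟩ := f
  have h3 := BForm.Red.three_mul_sq_le hr
  obtain ⟨h4, h5, h6⟩ := hr
  simp only at h3 h4 h5 h6 ha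
  rw [hd] at h3
  simp only [BForm.disc] at hd
  have ha2 : a ≤ 2 := by nlinarith
  rw [abs_le] at h4
  have hb : -2 ≤ b ∧ b ≤ 2 := ⟨by omega, by omega⟩
  obtain ⟨hb1, hb2⟩ := hb
  interval_cases a <;> interval_cases b <;> first | (exfalso; omega) | skip
  all_goals first
    | (have hc : c = 5 := by omega
       subst hc
       exact Or.inl rfl)
    | (have hc : c = 3 := by omega
       subst hc
       exact Or.inr rfl)
    | (exfalso
       have h7 := h6 (Or.inl (by norm_num))
       omega)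

theorem term_r₁ : √|(D : ℝ)| / (2 * (r₁ hD).1.1.a) * ‖ModularForm.eta (root D (r₁ hD).1.1)‖ ^ 4 =
    √5 * ‖ModularForm.eta (√5 * Complex.I)‖ ^ 4 := by
  subst hD
  have h20 : √20 = 2 * √5 := by
    rw [show (20 : ℝ) = 2 ^ 2 * 5 by norm_num, Real.sqrt_mul (by norm_num),
      Real.sqrt_sq (by norm_num)]
  have h : root (-20) (r₁ rfl).1.1 = √5 * Complex.I := by
    simp only [root, r₁]
    norm_num
    rw [h20]
    push_cast
    ring
  rw [h]
  simp only [r₁]
  norm_num
  left
  rw [h20]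
  ring

theorem term_r₂ : √|(D : ℝ)| / (2 * (r₂ hD).1.1.a) * ‖ModularForm.eta (root D (r₂ hD).1.1)‖ ^ 4 =
    √5 / 2 * ‖ModularForm.eta ((-1 + √5 * Complex.I) / 2)‖ ^ 4 := by
  subst hD
  have h20 : √20 = 2 * √5 := by
    rw [show (20 : ℝ) = 2 ^ 2 * 5 by norm_num, Real.sqrt_mul (by norm_num),
      Real.sqrt_sq (by norm_num)]
  have h : root (-20) (r₂ rfl).1.1 = (-1 + √5 * Complex.I) / 2 := by
    simp only [root, r₂]
    norm_num
    rw [h20]
    push_cast
    ring
  rw [h]
  simp only [r₂]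
  norm_num
  left
  rw [h20]
  ring

end Twenty

section TwentyFour

variable {D : ℤ} (hD : D = -24)

/-- the form `x² + 6 y²` -/
def s₁ : BForm.RForm D :=
  ⟨⟨⟨1, 0, 6⟩, by
    rw [BForm.prim_iff]
    decide, by rw [hD]; simp [BForm.disc], by norm_num⟩, by
    refine ⟨by norm_num, by norm_num, fun _ => by norm_num⟩⟩

/-- the form `2 x² + 3 y²` -/
def s₂ : BForm.RForm D :=
  ⟨⟨⟨2, 0, 3⟩, by
    rw [BForm.prim_iff]
    decide, by rw [hD]; simp [BForm.disc], by norm_num⟩, by
    refine ⟨by norm_num, by norm_num, fun _ => by norm_num⟩⟩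

theorem s_ne : s₁ hD ≠ s₂ hD := fun h => by
  have h3 := congrArg (fun f : BForm.RForm D => f.1.1.a) h
  simp [s₁, s₂] at h3

theorem eq_s (f : BForm.RForm D) : f = s₁ hD ∨ f = s₂ hD := by
  subst hD
  obtain ⟨⟨⟨a, b, c⟩, hp, hd, ha⟩, hr⟩ := f
  have h3 := BForm.Red.three_mul_sq_le hr
  obtain ⟨h4, h5, h6⟩ := hr
  simp only at h3 h4 h5 h6 ha
  rw [hd] at h3
  simp only [BForm.disc] at hd
  have ha2 : a ≤ 2 := by nlinarith
  rw [abs_le] at h4
  have hb : -2 ≤ b ∧ b ≤ 2 := ⟨by omega, by omega⟩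
  obtain ⟨hb1, hb2⟩ := hb
  interval_cases a <;> interval_cases b <;> first | (exfalso; omega) | skip
  all_goals first
    | (have hc : c = 6 := by omega
       subst hc
       exact Or.inl rfl)
    | (have hc : c = 3 := by omega
       subst hc
       exact Or.inr rfl)

theorem term_s₁ : √|(D : ℝ)| / (2 * (s₁ hD).1.1.a) * ‖ModularForm.eta (root D (s₁ hD).1.1)‖ ^ 4 =
    √6 * ‖ModularForm.eta (√6 * Complex.I)‖ ^ 4 := by
  subst hD
  have h20 : √24 = 2 * √6 := by
    rw [show (24 : ℝ) = 2 ^ 2 * 6 by norm_num, Real.sqrt_mul (by norm_num),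
      Real.sqrt_sq (by norm_num)]
  have h : root (-24) (s₁ rfl).1.1 = √6 * Complex.I := by
    simp only [root, s₁]
    norm_num
    rw [h20]
    push_cast
    ring
  rw [h]
  simp only [s₁]
  norm_num
  left
  rw [h20]
  ring

theorem term_s₂ : √|(D : ℝ)| / (2 * (s₂ hD).1.1.a) * ‖ModularForm.eta (root D (s₂ hD).1.1)‖ ^ 4 =
    √6 / 2 * ‖ModularForm.eta (√6 / 2 * Complex.I)‖ ^ 4 := by
  subst hD
  have h20 : √24 = 2 * √6 := by
    rw [show (24 : ℝ) = 2 ^ 2 * 6 by norm_num, Real.sqrt_mul (by norm_num),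
      Real.sqrt_sq (by norm_num)]
  have h : root (-24) (s₂ rfl).1.1 = √6 / 2 * Complex.I := by
    simp only [root, s₂]
    norm_num
    rw [h20]
    push_cast
    ring
  rw [h]
  simp only [s₂]
  norm_num
  left
  rw [h20]
  ring

end TwentyFour

/-! ### The products of gamma values -/

theorem prod_twenty : ∏ a ∈ Finset.Ioo (0 : ℕ) 20, Real.Gamma (a / (20 : ℕ)) ^ kron (-20) a =
    Real.Gamma (1 / 20) * Real.Gamma (3 / 20) * Real.Gamma (7 / 20) * Real.Gamma (9 / 20) /
      (Real.Gamma (11 / 20) * Real.Gamma (13 / 20) * Real.Gamma (17 / 20) *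
        Real.Gamma (19 / 20)) := by
  have hz : ∀ a : ℕ, 0 < a → a % 2 = 0 → kron (-20) a = 0 := fun a h0 h =>
    Diri.kron_even (by decide) h0.ne' h
  have e1 : kron (-20) 1 = 1 := by
    rw [Diri.kron_odd _ (by decide), jacobiSym.one_right]
  have e3 : kron (-20) 3 = 1 := by rw [Diri.kron_odd _ (by decide)]; norm_num
  have e5 : kron (-20) 5 = 0 := by rw [Diri.kron_odd _ (by decide)]; norm_num
  have e7 : kron (-20) 7 = 1 := by rw [Diri.kron_odd _ (by decide)]; norm_num
  have e9 : kron (-20) 9 = 1 := by rw [Diri.kron_odd _ (by decide)]; norm_num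
  have e11 : kron (-20) 11 = -1 := by rw [Diri.kron_odd _ (by decide)]; norm_num
  have e13 : kron (-20) 13 = -1 := by rw [Diri.kron_odd _ (by decide)]; norm_num
  have e15 : kron (-20) 15 = 0 := by rw [Diri.kron_odd _ (by decide)]; norm_num
  have e17 : kron (-20) 17 = -1 := by rw [Diri.kron_odd _ (by decide)]; norm_num
  have e19 : kron (-20) 19 = -1 := by rw [Diri.kron_odd _ (by decide)]; norm_num
  have e0 : ({1, 3, 7, 9, 11, 13, 17, 19} : Finset ℕ) ⊆ Finset.Ioo 0 20 := by decide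
  rw [← Finset.prod_subset e0]
  · rw [Finset.prod_insert (by decide), Finset.prod_insert (by decide),
      Finset.prod_insert (by decide), Finset.prod_insert (by decide),
      Finset.prod_insert (by decide), Finset.prod_insert (by decide),
      Finset.prod_insert (by decide), Finset.prod_singleton, e1, e3, e7, e9, e11, e13, e17, e19]
    push_cast
    simp only [zpow_one, zpow_neg_one]
    ring
  · intro a ha hna
    obtain ⟨h1, h2⟩ := Finset.mem_Ioo.mp ha
    have : kron (-20) a = 0 := by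
      rcases Nat.even_or_odd a with h | h
      · exact hz a h1 (Nat.even_iff.mp h)
      · rw [Nat.odd_iff] at h
        have : a = 5 ∨ a = 15 := by
          simp only [Finset.mem_insert, Finset.mem_singleton] at hna
          omega
        rcases this with rfl | rfl
        · exact e5
        · exact e15
    rw [this, zpow_zero]

theorem prod_twentyfour : ∏ a ∈ Finset.Ioo (0 : ℕ) 24, Real.Gamma (a / (24 : ℕ)) ^ kron (-24) a =
    Real.Gamma (1 / 24) * Real.Gamma (5 / 24) * Real.Gamma (7 / 24) * Real.Gamma (11 / 24) /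
      (Real.Gamma (13 / 24) * Real.Gamma (17 / 24) * Real.Gamma (19 / 24) *
        Real.Gamma (23 / 24)) := by
  have hz : ∀ a : ℕ, 0 < a → a % 2 = 0 → kron (-24) a = 0 := fun a h0 h =>
    Diri.kron_even (by decide) h0.ne' h
  have e1 : kron (-24) 1 = 1 := by
    rw [Diri.kron_odd _ (by decide), jacobiSym.one_right]
  have e5 : kron (-24) 5 = 1 := by rw [Diri.kron_odd _ (by decide)]; norm_num
  have e3 : kron (-24) 3 = 0 := by rw [Diri.kron_odd _ (by decide)]; norm_num
  have e7 : kron (-24) 7 = 1 := by rw [Diri.kron_odd _ (by decide)]; norm_num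
  have e9 : kron (-24) 9 = 0 := by rw [Diri.kron_odd _ (by decide)]; norm_num
  have e11 : kron (-24) 11 = 1 := by rw [Diri.kron_odd _ (by decide)]; norm_num
  have e13 : kron (-24) 13 = -1 := by rw [Diri.kron_odd _ (by decide)]; norm_num
  have e15 : kron (-24) 15 = 0 := by rw [Diri.kron_odd _ (by decide)]; norm_num
  have e17 : kron (-24) 17 = -1 := by rw [Diri.kron_odd _ (by decide)]; norm_num
  have e19 : kron (-24) 19 = -1 := by rw [Diri.kron_odd _ (by decide)]; norm_num
  have e21 : kron (-24) 21 = 0 := by rw [Diri.kron_odd _ (by decide)]; norm_num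
  have e23 : kron (-24) 23 = -1 := by rw [Diri.kron_odd _ (by decide)]; norm_num
  have e0 : ({1, 5, 7, 11, 13, 17, 19, 23} : Finset ℕ) ⊆ Finset.Ioo 0 24 := by decide
  rw [← Finset.prod_subset e0]
  · rw [Finset.prod_insert (by decide), Finset.prod_insert (by decide),
      Finset.prod_insert (by decide), Finset.prod_insert (by decide),
      Finset.prod_insert (by decide), Finset.prod_insert (by decide),
      Finset.prod_insert (by decide), Finset.prod_singleton, e1, e5, e7, e11, e13, e17, e19, e23]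
    push_cast
    simp only [zpow_one, zpow_neg_one]
    ring
  · intro a ha hna
    obtain ⟨h1, h2⟩ := Finset.mem_Ioo.mp ha
    have : kron (-24) a = 0 := by
      rcases Nat.even_or_odd a with h | h
      · exact hz a h1 (Nat.even_iff.mp h)
      · rw [Nat.odd_iff] at h
        have : a = 3 ∨ a = 9 ∨ a = 15 ∨ a = 21 := by
          simp only [Finset.mem_insert, Finset.mem_singleton] at hna
          omega
        rcases this with rfl | rfl | rfl | rfl
        · exact e3
        · exact e9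
        · exact e15
        · exact e21
    rw [this, zpow_zero]

theorem sin_twenty : Real.sin (Real.pi * (1 / 20)) * Real.sin (Real.pi * (9 / 20)) *
    (Real.sin (Real.pi * (3 / 20)) * Real.sin (Real.pi * (7 / 20))) = 1 / 16 := by
  have h9 : Real.sin (Real.pi * (9 / 20)) = Real.cos (Real.pi * (1 / 20)) := by
    rw [← Real.sin_pi_div_two_sub]
    congr 1
    ring
  have h7 : Real.sin (Real.pi * (7 / 20)) = Real.cos (Real.pi * (3 / 20)) := by
    rw [← Real.sin_pi_div_two_sub]
    congr 1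
    ring
  have h1 : Real.sin (Real.pi * (1 / 20)) * Real.cos (Real.pi * (1 / 20)) =
      Real.cos (2 * (Real.pi / 5)) / 2 := by
    rw [← Real.sin_pi_div_two_sub (2 * (Real.pi / 5))]
    have : Real.pi / 2 - 2 * (Real.pi / 5) = 2 * (Real.pi * (1 / 20)) := by ring
    rw [this, Real.sin_two_mul]
    ring
  have h3 : Real.sin (Real.pi * (3 / 20)) * Real.cos (Real.pi * (3 / 20)) =
      Real.cos (Real.pi / 5) / 2 := by
    rw [← Real.sin_pi_div_two_sub (Real.pi / 5)]
    have : Real.pi / 2 - Real.pi / 5 = 2 * (Real.pi * (3 / 20)) := by ring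
    rw [this, Real.sin_two_mul]
    ring
  rw [h9, h7, h1, h3, Real.cos_two_mul, Real.cos_pi_div_five]
  have hs : √5 ^ 2 = 5 := Real.sq_sqrt (by norm_num)
  linear_combination (1 / 128 * √5 + 3 / 128) * hs

theorem sin_twentyfour : Real.sin (Real.pi * (1 / 24)) * Real.sin (Real.pi * (11 / 24)) *
    (Real.sin (Real.pi * (5 / 24)) * Real.sin (Real.pi * (7 / 24))) = 1 / 16 := by
  have h9 : Real.sin (Real.pi * (11 / 24)) = Real.cos (Real.pi * (1 / 24)) := by
    rw [← Real.sin_pi_div_two_sub]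
    congr 1
    ring
  have h7 : Real.sin (Real.pi * (7 / 24)) = Real.cos (Real.pi * (5 / 24)) := by
    rw [← Real.sin_pi_div_two_sub]
    congr 1
    ring
  have h1 : Real.sin (Real.pi * (1 / 24)) * Real.cos (Real.pi * (1 / 24)) =
      Real.sin (Real.pi / 12) / 2 := by
    have : Real.pi / 12 = 2 * (Real.pi * (1 / 24)) := by ring
    rw [this, Real.sin_two_mul]
    ring
  have h3 : Real.sin (Real.pi * (5 / 24)) * Real.cos (Real.pi * (5 / 24)) =
      Real.cos (Real.pi / 12) / 2 := by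
    rw [← Real.sin_pi_div_two_sub (Real.pi / 12)]
    have : Real.pi / 2 - Real.pi / 12 = 2 * (Real.pi * (5 / 24)) := by ring
    rw [this, Real.sin_two_mul]
    ring
  have h5 : Real.sin (Real.pi / 6) = 2 * Real.sin (Real.pi / 12) * Real.cos (Real.pi / 12) := by
    rw [← Real.sin_two_mul]
    congr 1
    ring
  rw [Real.sin_pi_div_six] at h5
  rw [h9, h7, h1, h3]
  linear_combination -h5 / 8

theorem kron_two_mul (d : ℤ) {a : ℕ} (ha : a ≠ 0) :
    kron d (2 * a) = ZMod.χ₈ (d : ZMod 8) * kron d a := by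
  have h : (2 * a).factorization 2 = a.factorization 2 + 1 := by
    rw [Nat.factorization_mul two_ne_zero ha, Finsupp.add_apply,
      Nat.prime_two.factorization_self, add_comm]
  rw [Diri.kron, Diri.kron, h, pow_succ', pow_succ', Nat.mul_div_mul_left _ _ two_pos, mul_assoc]

theorem prod_fifteen : ∏ a ∈ Finset.Ioo (0 : ℕ) 15, Real.Gamma (a / (15 : ℕ)) ^ kron (-15) a =
    Real.Gamma (1 / 15) * Real.Gamma (2 / 15) * Real.Gamma (4 / 15) * Real.Gamma (8 / 15) /
      (Real.Gamma (7 / 15) * Real.Gamma (11 / 15) * Real.Gamma (13 / 15) *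
        Real.Gamma (14 / 15)) := by
  have h8 : ZMod.χ₈ ((-15 : ℤ) : ZMod 8) = 1 := by decide
  have e1 : kron (-15) 1 = 1 := by
    rw [Diri.kron_odd _ (by decide), jacobiSym.one_right]
  have e2 : kron (-15) 2 = 1 := by
    rw [show 2 = 2 * 1 from rfl, kron_two_mul _ one_ne_zero, h8, e1, mul_one]
  have e3 : kron (-15) 3 = 0 := by rw [Diri.kron_odd _ (by decide)]; norm_num
  have e4 : kron (-15) 4 = 1 := by
    rw [show 4 = 2 * 2 from rfl, kron_two_mul _ two_ne_zero, h8, e2, mul_one]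
  have e5 : kron (-15) 5 = 0 := by rw [Diri.kron_odd _ (by decide)]; norm_num
  have e6 : kron (-15) 6 = 0 := by
    rw [show 6 = 2 * 3 from rfl, kron_two_mul _ (by decide), h8, e3, mul_zero]
  have e7 : kron (-15) 7 = -1 := by rw [Diri.kron_odd _ (by decide)]; norm_num
  have e8 : kron (-15) 8 = 1 := by
    rw [show 8 = 2 * 4 from rfl, kron_two_mul _ (by decide), h8, e4, mul_one]
  have e9 : kron (-15) 9 = 0 := by rw [Diri.kron_odd _ (by decide)]; norm_num
  have e10 : kron (-15) 10 = 0 := by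
    rw [show 10 = 2 * 5 from rfl, kron_two_mul _ (by decide), h8, e5, mul_zero]
  have e11 : kron (-15) 11 = -1 := by rw [Diri.kron_odd _ (by decide)]; norm_num
  have e12 : kron (-15) 12 = 0 := by
    rw [show 12 = 2 * 6 from rfl, kron_two_mul _ (by decide), h8, e6, mul_zero]
  have e13 : kron (-15) 13 = -1 := by rw [Diri.kron_odd _ (by decide)]; norm_num
  have e14 : kron (-15) 14 = -1 := by
    rw [show 14 = 2 * 7 from rfl, kron_two_mul _ (by decide), h8, e7, one_mul]
  have e0 : ({1, 2, 4, 8, 7, 11, 13, 14} : Finset ℕ) ⊆ Finset.Ioo 0 15 := by decide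
  rw [← Finset.prod_subset e0]
  · rw [Finset.prod_insert (by decide), Finset.prod_insert (by decide),
      Finset.prod_insert (by decide), Finset.prod_insert (by decide),
      Finset.prod_insert (by decide), Finset.prod_insert (by decide),
      Finset.prod_insert (by decide), Finset.prod_singleton, e1, e2, e4, e8, e7, e11, e13, e14]
    push_cast
    simp only [zpow_one, zpow_neg_one]
    ring
  · intro a ha hna
    obtain ⟨h1, h2⟩ := Finset.mem_Ioo.mp ha
    have : a = 3 ∨ a = 5 ∨ a = 6 ∨ a = 9 ∨ a = 10 ∨ a = 12 := by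
      simp only [Finset.mem_insert, Finset.mem_singleton] at hna
      omega
    have : kron (-15) a = 0 := by
      rcases this with rfl | rfl | rfl | rfl | rfl | rfl
      exacts [e3, e5, e6, e9, e10, e12]
    rw [this, zpow_zero]

theorem sin_fifteen : Real.sin (Real.pi * (1 / 15)) * Real.sin (Real.pi * (4 / 15)) *
    (Real.sin (Real.pi * (2 / 15)) * Real.sin (Real.pi * (8 / 15))) = 1 / 16 := by
  have key : ∀ x y : ℝ, Real.sin x * Real.sin y = (Real.cos (y - x) - Real.cos (x + y)) / 2 := by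
    intro x y
    rw [Real.cos_sub, Real.cos_add]
    ring
  have a1 : Real.pi * (4 / 15) - Real.pi * (1 / 15) = Real.pi / 5 := by ring
  have a2 : Real.pi * (1 / 15) + Real.pi * (4 / 15) = Real.pi / 3 := by ring
  have a3 : Real.pi * (8 / 15) - Real.pi * (2 / 15) = 2 * (Real.pi / 5) := by ring
  have a4 : Real.pi * (2 / 15) + Real.pi * (8 / 15) = Real.pi - Real.pi / 3 := by ring
  rw [key, key, a1, a2, a3, a4, Real.cos_pi_sub, Real.cos_pi_div_three, Real.cos_two_mul,
    Real.cos_pi_div_five]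
  have hs : √5 ^ 2 = 5 := Real.sq_sqrt (by norm_num)
  linear_combination (1 / 128 * √5 + 1 / 128) * hs

/-- the reflection formula for four values -/
theorem sqrt_reflection {A B : ℝ} (hA : 0 < A) (hB : 0 < B) (h : A * B = 16 * Real.pi ^ 4) :
    √(A / B) = A / (4 * Real.pi ^ 2) := by
  have hp := Real.pi_pos
  rw [Real.sqrt_eq_iff_mul_self_eq_of_pos (by positivity)]
  field_simp
  linear_combination h

theorem refl_mul {s t u v : ℝ} (h : Real.sin (Real.pi * s) * Real.sin (Real.pi * t) *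
    (Real.sin (Real.pi * u) * Real.sin (Real.pi * v)) = 1 / 16) :
    Real.Gamma s * Real.Gamma t * Real.Gamma u * Real.Gamma v *
      (Real.Gamma (1 - v) * Real.Gamma (1 - u) * Real.Gamma (1 - t) * Real.Gamma (1 - s)) =
      16 * Real.pi ^ 4 := by
  have h1 := Real.Gamma_mul_Gamma_one_sub s
  have h2 := Real.Gamma_mul_Gamma_one_sub t
  have h3 := Real.Gamma_mul_Gamma_one_sub u
  have h4 := Real.Gamma_mul_Gamma_one_sub v
  calc _ = (Real.Gamma s * Real.Gamma (1 - s)) * (Real.Gamma t * Real.Gamma (1 - t)) *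
      (Real.Gamma u * Real.Gamma (1 - u)) * (Real.Gamma v * Real.Gamma (1 - v)) := by ring
    _ = Real.pi ^ 4 / (Real.sin (Real.pi * s) * Real.sin (Real.pi * t) *
      (Real.sin (Real.pi * u) * Real.sin (Real.pi * v))) := by
        rw [h1, h2, h3, h4]
        ring
    _ = 16 * Real.pi ^ 4 := by rw [h]; ring

/-! ### The examples -/

theorem exp_regulator_rpow {R h h' w c x : ℝ} (h1 : h * R = x) (h2 : c * h' = w) (h0 : h' ≠ 0)
    (hc : c ≠ 0) : Real.exp R ^ (-(2 * h * h' / w)) = Real.exp (-(2 / c * x)) := by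
  rw [← Real.exp_mul, ← h1, ← h2]
  congr 1
  field_simp

theorem exp_mul_log {x : ℝ} (hx : 0 < x) (c : ℝ) :
    Real.exp (-(c * Real.log x)) = (x ^ c)⁻¹ := by
  rw [Real.exp_neg, Real.rpow_def_of_pos hx, mul_comm]

/-- the products of gamma values for the discriminant `-20` -/
theorem sqrt_prod_twenty : √(∏ a ∈ Finset.Ioo (0 : ℕ) 20,
    Real.Gamma (a / (20 : ℕ)) ^ kron (-20) a) =
    Real.Gamma (1 / 20) * Real.Gamma (3 / 20) * Real.Gamma (7 / 20) * Real.Gamma (9 / 20) /
      (4 * Real.pi ^ 2) := by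
  have hG : ∀ x : ℝ, 0 < x → 0 < Real.Gamma x := fun x hx => Real.Gamma_pos_of_pos hx
  have g1 := hG (1 / 20) (by norm_num)
  have g3 := hG (3 / 20) (by norm_num)
  have g7 := hG (7 / 20) (by norm_num)
  have g9 := hG (9 / 20) (by norm_num)
  have g11 := hG (11 / 20) (by norm_num)
  have g13 := hG (13 / 20) (by norm_num)
  have g17 := hG (17 / 20) (by norm_num)
  have g19 := hG (19 / 20) (by norm_num)
  have hrefl := refl_mul sin_twenty
  norm_num at hrefl
  rw [prod_twenty, sqrt_reflection (by positivity) (by positivity) (by linear_combination hrefl)]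

/-- the products of gamma values for the discriminant `-24` -/
theorem sqrt_prod_twentyfour : √(∏ a ∈ Finset.Ioo (0 : ℕ) 24,
    Real.Gamma (a / (24 : ℕ)) ^ kron (-24) a) =
    Real.Gamma (1 / 24) * Real.Gamma (5 / 24) * Real.Gamma (7 / 24) * Real.Gamma (11 / 24) /
      (4 * Real.pi ^ 2) := by
  have hG : ∀ x : ℝ, 0 < x → 0 < Real.Gamma x := fun x hx => Real.Gamma_pos_of_pos hx
  have g1 := hG (1 / 24) (by norm_num)
  have g5 := hG (5 / 24) (by norm_num)
  have g7 := hG (7 / 24) (by norm_num)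
  have g11 := hG (11 / 24) (by norm_num)
  have g13 := hG (13 / 24) (by norm_num)
  have g17 := hG (17 / 24) (by norm_num)
  have g19 := hG (19 / 24) (by norm_num)
  have g23 := hG (23 / 24) (by norm_num)
  have hrefl := refl_mul sin_twentyfour
  norm_num at hrefl
  rw [prod_twentyfour, sqrt_reflection (by positivity) (by positivity)
    (by linear_combination hrefl)]

/-- the products of gamma values for the discriminant `-15` -/
theorem sqrt_prod_fifteen : √(∏ a ∈ Finset.Ioo (0 : ℕ) 15,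
    Real.Gamma (a / (15 : ℕ)) ^ kron (-15) a) =
    Real.Gamma (1 / 15) * Real.Gamma (2 / 15) * Real.Gamma (4 / 15) * Real.Gamma (8 / 15) /
      (4 * Real.pi ^ 2) := by
  have hG : ∀ x : ℝ, 0 < x → 0 < Real.Gamma x := fun x hx => Real.Gamma_pos_of_pos hx
  have g1 := hG (1 / 15) (by norm_num)
  have g2 := hG (2 / 15) (by norm_num)
  have g4 := hG (4 / 15) (by norm_num)
  have g8 := hG (8 / 15) (by norm_num)
  have g7 := hG (7 / 15) (by norm_num)
  have g11 := hG (11 / 15) (by norm_num)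
  have g13 := hG (13 / 15) (by norm_num)
  have g14 := hG (14 / 15) (by norm_num)
  have hrefl := refl_mul sin_fifteen
  norm_num at hrefl
  rw [prod_fifteen, sqrt_reflection (by positivity) (by positivity) (by linear_combination hrefl)]

/-- discriminant `-15` -/
theorem eta_minus_fifteen : √15 / 2 * ‖ModularForm.eta ((-1 + √15 * Complex.I) / 2)‖ ^ 4 =
      (4 * Real.pi * √15)⁻¹ *
      (Real.Gamma (1 / 15) * Real.Gamma (2 / 15) * Real.Gamma (4 / 15) * Real.Gamma (8 / 15) /
        (4 * Real.pi ^ 2)) * (((1 + √5) / 2) ^ (1 / 3 : ℝ))⁻¹ ∧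
    √15 / 4 * ‖ModularForm.eta ((-1 + √15 * Complex.I) / 4)‖ ^ 4 = (4 * Real.pi * √15)⁻¹ *
      (Real.Gamma (1 / 15) * Real.Gamma (2 / 15) * Real.Gamma (4 / 15) * Real.Gamma (8 / 15) /
        (4 * Real.pi ^ 2)) * ((1 + √5) / 2) ^ (1 / 3 : ℝ) := by
  obtain ⟨K, _, _, -, h2, -, hdK⟩ := Diri.exists_quadratic_field (m := -15)
    (by rw [← Int.squarefree_natAbs]; decide +kernel) (by norm_num)
  obtain ⟨F₁, _, _, -, h₁, -, hd₁⟩ := Diri.exists_quadratic_field (m := 5)
    (by rw [← Int.squarefree_natAbs]; decide +kernel) (by norm_num)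
  obtain ⟨F₂, _, _, -, h₂, -, hd₂⟩ := Diri.exists_quadratic_field (m := -3)
    (by rw [← Int.squarefree_natAbs]; decide +kernel) (by norm_num)
  norm_num at hdK hd₁ hd₂
  obtain ⟨h, h'⟩ := values_two h2 h₁ h₂ (by rw [hd₁]; norm_num) (by rw [hd₂]; norm_num)
    (by rw [hdK, hd₁, hd₂]; norm_num) (by
      rw [hd₁, hd₂, Int.isCoprime_iff_gcd_eq_one]
      decide) (f₀ := q₁ hdK) (f₁ := q₂ hdK) rfl (q_ne hdK) (eq_q hdK)
  have hε : (0 : ℝ) < (1 + √5) / 2 := by positivity
  have hw : (6 : ℝ) * (classNumber F₂ : ℝ) = (torsionOrder F₂ : ℝ) := by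
    exact_mod_cast six_mul_classNumber h₂ hd₂
  have hR := exp_regulator_rpow (classNumber_mul_regulator_five h₁ hd₁) hw
    (Nat.cast_ne_zero.mpr (classNumber_pos F₂).ne') (by norm_num)
  rw [exp_mul_log hε] at hR
  have hR' := congrArg (fun x : ℝ => x⁻¹) hR
  simp only [inv_inv] at hR'
  rw [← Real.rpow_neg (Real.exp_pos _).le, neg_neg] at hR'
  have hn : (-15 : ℤ).natAbs = 15 := rfl
  have h13 : (2 / 6 : ℝ) = 1 / 3 := by norm_num
  have habs : √|((-15 : ℤ) : ℝ)| = √15 := by norm_num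
  rw [hR, h13, term₁ hdK, hdK, hn, sqrt_prod_fifteen, habs] at h
  rw [hR', h13, term₂ hdK, hdK, hn, sqrt_prod_fifteen, habs] at h'
  exact ⟨h, h'⟩

/-- discriminant `-20` -/
theorem eta_twenty : √5 * ‖ModularForm.eta (√5 * Complex.I)‖ ^ 4 = (8 * Real.pi * √5)⁻¹ *
      (Real.Gamma (1 / 20) * Real.Gamma (3 / 20) * Real.Gamma (7 / 20) * Real.Gamma (9 / 20) /
        (4 * Real.pi ^ 2)) * (√((1 + √5) / 2))⁻¹ ∧
    √5 / 2 * ‖ModularForm.eta ((-1 + √5 * Complex.I) / 2)‖ ^ 4 = (8 * Real.pi * √5)⁻¹ *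
      (Real.Gamma (1 / 20) * Real.Gamma (3 / 20) * Real.Gamma (7 / 20) * Real.Gamma (9 / 20) /
        (4 * Real.pi ^ 2)) * √((1 + √5) / 2) := by
  obtain ⟨K, _, _, -, h2, -, hdK⟩ := Diri.exists_quadratic_field (m := -5)
    (by rw [← Int.squarefree_natAbs]; decide +kernel) (by norm_num)
  obtain ⟨F₁, _, _, -, h₁, -, hd₁⟩ := Diri.exists_quadratic_field (m := 5)
    (by rw [← Int.squarefree_natAbs]; decide +kernel) (by norm_num)
  obtain ⟨F₂, _, _, -, h₂, -, hd₂⟩ := Diri.exists_quadratic_field (m := -1)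
    (by rw [← Int.squarefree_natAbs]; decide +kernel) (by norm_num)
  norm_num at hdK hd₁ hd₂
  obtain ⟨h, h'⟩ := values_two h2 h₁ h₂ (by rw [hd₁]; norm_num) (by rw [hd₂]; norm_num)
    (by rw [hdK, hd₁, hd₂]; norm_num) (by
      rw [hd₁, hd₂, Int.isCoprime_iff_gcd_eq_one]
      decide) (f₀ := r₁ hdK) (f₁ := r₂ hdK) rfl (r_ne hdK) (eq_r hdK)
  have hε : (0 : ℝ) < (1 + √5) / 2 := by positivity
  have hw : (4 : ℝ) * (classNumber F₂ : ℝ) = (torsionOrder F₂ : ℝ) := by
    exact_mod_cast four_mul_classNumber h₂ hd₂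
  have hR := exp_regulator_rpow (classNumber_mul_regulator_five h₁ hd₁) hw
    (Nat.cast_ne_zero.mpr (classNumber_pos F₂).ne') (by norm_num)
  rw [exp_mul_log hε] at hR
  have hR' := congrArg (fun x : ℝ => x⁻¹) hR
  simp only [inv_inv] at hR'
  rw [← Real.rpow_neg (Real.exp_pos _).le, neg_neg] at hR'
  have hn : (-20 : ℤ).natAbs = 20 := rfl
  have h24 : ((1 + √5) / 2) ^ (2 / 4 : ℝ) = √((1 + √5) / 2) := by
    rw [Real.sqrt_eq_rpow ((1 + √5) / 2)]
    norm_num
  have habs : 4 * Real.pi * √|((-20 : ℤ) : ℝ)| = 8 * Real.pi * √5 := by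
    have h20 : √20 = 2 * √5 := by
      rw [show (20 : ℝ) = 2 ^ 2 * 5 by norm_num, Real.sqrt_mul (by norm_num),
        Real.sqrt_sq (by norm_num)]
    have : √|((-20 : ℤ) : ℝ)| = √20 := by norm_num
    rw [this, h20]
    ring
  rw [hR, h24, term_r₁ hdK, hdK, hn, sqrt_prod_twenty, habs] at h
  rw [hR', h24, term_r₂ hdK, hdK, hn, sqrt_prod_twenty, habs] at h'
  exact ⟨h, h'⟩

/-- discriminant `-24` -/
theorem eta_twentyfour : √6 * ‖ModularForm.eta (√6 * Complex.I)‖ ^ 4 = (8 * Real.pi * √6)⁻¹ *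
      (Real.Gamma (1 / 24) * Real.Gamma (5 / 24) * Real.Gamma (7 / 24) * Real.Gamma (11 / 24) /
        (4 * Real.pi ^ 2)) * ((1 + √2) ^ (1 / 3 : ℝ))⁻¹ ∧
    √6 / 2 * ‖ModularForm.eta (√6 / 2 * Complex.I)‖ ^ 4 = (8 * Real.pi * √6)⁻¹ *
      (Real.Gamma (1 / 24) * Real.Gamma (5 / 24) * Real.Gamma (7 / 24) * Real.Gamma (11 / 24) /
        (4 * Real.pi ^ 2)) * (1 + √2) ^ (1 / 3 : ℝ) := by
  obtain ⟨K, _, _, -, h2, -, hdK⟩ := Diri.exists_quadratic_field (m := -6)
    (by rw [← Int.squarefree_natAbs]; decide +kernel) (by norm_num)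
  obtain ⟨F₁, _, _, -, h₁, -, hd₁⟩ := Diri.exists_quadratic_field (m := 2)
    (by rw [← Int.squarefree_natAbs]; decide +kernel) (by norm_num)
  obtain ⟨F₂, _, _, -, h₂, -, hd₂⟩ := Diri.exists_quadratic_field (m := -3)
    (by rw [← Int.squarefree_natAbs]; decide +kernel) (by norm_num)
  norm_num at hdK hd₁ hd₂
  obtain ⟨h, h'⟩ := values_two h2 h₁ h₂ (by rw [hd₁]; norm_num) (by rw [hd₂]; norm_num)
    (by rw [hdK, hd₁, hd₂]; norm_num) (by
      rw [hd₁, hd₂, Int.isCoprime_iff_gcd_eq_one]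
      decide) (f₀ := s₁ hdK) (f₁ := s₂ hdK) rfl (s_ne hdK) (eq_s hdK)
  have hε : (0 : ℝ) < 1 + √2 := by positivity
  have hw : (6 : ℝ) * (classNumber F₂ : ℝ) = (torsionOrder F₂ : ℝ) := by
    exact_mod_cast six_mul_classNumber h₂ hd₂
  have hR := exp_regulator_rpow (classNumber_mul_regulator_eight h₁ hd₁) hw
    (Nat.cast_ne_zero.mpr (classNumber_pos F₂).ne') (by norm_num)
  rw [exp_mul_log hε] at hR
  have hR' := congrArg (fun x : ℝ => x⁻¹) hR
  simp only [inv_inv] at hR'
  rw [← Real.rpow_neg (Real.exp_pos _).le, neg_neg] at hR'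
  have hn : (-24 : ℤ).natAbs = 24 := rfl
  have h13 : (2 / 6 : ℝ) = 1 / 3 := by norm_num
  have habs : 4 * Real.pi * √|((-24 : ℤ) : ℝ)| = 8 * Real.pi * √6 := by
    have h20 : √24 = 2 * √6 := by
      rw [show (24 : ℝ) = 2 ^ 2 * 6 by norm_num, Real.sqrt_mul (by norm_num),
        Real.sqrt_sq (by norm_num)]
    have : √|((-24 : ℤ) : ℝ)| = √24 := by norm_num
    rw [this, h20]
    ring
  rw [hR, h13, term_s₁ hdK, hdK, hn, sqrt_prod_twentyfour, habs] at h
  rw [hR', h13, term_s₂ hdK, hdK, hn, sqrt_prod_twentyfour, habs] at h'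
  exact ⟨h, h'⟩

/-- **The value of Dedekind's eta function at `(-1 + √-15) / 2`.** -/
theorem norm_eta_half_sqrt_neg_fifteen : ‖ModularForm.eta ((-1 + √15 * Complex.I) / 2)‖ ^ 4 =
    Real.Gamma (1 / 15) * Real.Gamma (2 / 15) * Real.Gamma (4 / 15) * Real.Gamma (8 / 15) /
      (120 * Real.pi ^ 3 * ((1 + √5) / 2) ^ (1 / 3 : ℝ)) := by
  have h := eta_minus_fifteen.1
  have hp := Real.pi_pos
  have p5 : (0 : ℝ) < √15 := by positivity
  have hs : √15 ^ 2 = 15 := Real.sq_sqrt (by norm_num)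
  have hq : 0 < ((1 + √5) / 2) ^ (1 / 3 : ℝ) := Real.rpow_pos_of_pos (by positivity) _
  generalize ‖ModularForm.eta ((-1 + √15 * Complex.I) / 2)‖ ^ 4 = X at h ⊢
  generalize ((1 + √5) / 2) ^ (1 / 3 : ℝ) = q at h hq ⊢
  rw [eq_div_iff (by positivity)]
  have h5 : X * (120 * Real.pi ^ 3 * q) = √15 / 2 * X * (16 * Real.pi ^ 3 * √15 * q) := by
    linear_combination (-(8 * Real.pi ^ 3 * q * X)) * hs
  rw [h5, h]
  field_simp
  ring

/-- **The value of Dedekind's eta function at `(-1 + √-15) / 4`.** -/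
theorem norm_eta_quarter_sqrt_neg_fifteen : ‖ModularForm.eta ((-1 + √15 * Complex.I) / 4)‖ ^ 4 =
    Real.Gamma (1 / 15) * Real.Gamma (2 / 15) * Real.Gamma (4 / 15) * Real.Gamma (8 / 15) *
      ((1 + √5) / 2) ^ (1 / 3 : ℝ) / (60 * Real.pi ^ 3) := by
  have h := eta_minus_fifteen.2
  have hp := Real.pi_pos
  have p5 : (0 : ℝ) < √15 := by positivity
  have hs : √15 ^ 2 = 15 := Real.sq_sqrt (by norm_num)
  generalize ‖ModularForm.eta ((-1 + √15 * Complex.I) / 4)‖ ^ 4 = X at h ⊢
  generalize ((1 + √5) / 2) ^ (1 / 3 : ℝ) = q at h ⊢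
  rw [eq_div_iff (by positivity)]
  have h5 : X * (60 * Real.pi ^ 3) = √15 / 4 * X * (16 * Real.pi ^ 3 * √15) := by
    linear_combination (-(4 * Real.pi ^ 3 * X)) * hs
  rw [h5, h]
  field_simp
  ring

/-- **The value of Dedekind's eta function at `√-5`.** -/
theorem norm_eta_sqrt_neg_five : ‖ModularForm.eta (√5 * Complex.I)‖ ^ 4 =
    Real.Gamma (1 / 20) * Real.Gamma (3 / 20) * Real.Gamma (7 / 20) * Real.Gamma (9 / 20) /
      (160 * Real.pi ^ 3 * √((1 + √5) / 2)) := by
  have h := eta_twenty.1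
  have hp := Real.pi_pos
  have p5 : (0 : ℝ) < √5 := by positivity
  have hs : √5 ^ 2 = 5 := Real.sq_sqrt (by norm_num)
  have hq : 0 < √((1 + √5) / 2) := Real.sqrt_pos.mpr (by positivity)
  generalize ‖ModularForm.eta (√5 * Complex.I)‖ ^ 4 = X at h ⊢
  generalize √((1 + √5) / 2) = q at h hq ⊢
  rw [eq_div_iff (by positivity)]
  have h5 : X * (160 * Real.pi ^ 3 * q) = √5 * X * (32 * Real.pi ^ 3 * √5 * q) := by
    linear_combination (-(32 * Real.pi ^ 3 * q * X)) * hs
  rw [h5, h]
  field_simp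
  ring

/-- **The value of Dedekind's eta function at `(-1 + √-5) / 2`.** -/
theorem norm_eta_half_sqrt_neg_five : ‖ModularForm.eta ((-1 + √5 * Complex.I) / 2)‖ ^ 4 =
    Real.Gamma (1 / 20) * Real.Gamma (3 / 20) * Real.Gamma (7 / 20) * Real.Gamma (9 / 20) *
      √((1 + √5) / 2) / (80 * Real.pi ^ 3) := by
  have h := eta_twenty.2
  have hp := Real.pi_pos
  have p5 : (0 : ℝ) < √5 := by positivity
  have hs : √5 ^ 2 = 5 := Real.sq_sqrt (by norm_num)
  generalize ‖ModularForm.eta ((-1 + √5 * Complex.I) / 2)‖ ^ 4 = X at h ⊢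
  generalize √((1 + √5) / 2) = q at h ⊢
  rw [eq_div_iff (by positivity)]
  have h5 : X * (80 * Real.pi ^ 3) = √5 / 2 * X * (32 * Real.pi ^ 3 * √5) := by
    linear_combination (-(16 * Real.pi ^ 3 * X)) * hs
  rw [h5, h]
  field_simp
  ring

/-- **The value of Dedekind's eta function at `√-6`.** -/
theorem norm_eta_sqrt_neg_six : ‖ModularForm.eta (√6 * Complex.I)‖ ^ 4 =
    Real.Gamma (1 / 24) * Real.Gamma (5 / 24) * Real.Gamma (7 / 24) * Real.Gamma (11 / 24) /
      (192 * Real.pi ^ 3 * (1 + √2) ^ (1 / 3 : ℝ)) := by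
  have h := eta_twentyfour.1
  have hp := Real.pi_pos
  have p5 : (0 : ℝ) < √6 := by positivity
  have hs : √6 ^ 2 = 6 := Real.sq_sqrt (by norm_num)
  have hq : 0 < (1 + √2) ^ (1 / 3 : ℝ) := Real.rpow_pos_of_pos (by positivity) _
  generalize ‖ModularForm.eta (√6 * Complex.I)‖ ^ 4 = X at h ⊢
  generalize (1 + √2) ^ (1 / 3 : ℝ) = q at h hq ⊢
  rw [eq_div_iff (by positivity)]
  have h5 : X * (192 * Real.pi ^ 3 * q) = √6 * X * (32 * Real.pi ^ 3 * √6 * q) := by
    linear_combination (-(32 * Real.pi ^ 3 * q * X)) * hs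
  rw [h5, h]
  field_simp
  ring

/-- **The value of Dedekind's eta function at `√-6 / 2`.** -/
theorem norm_eta_half_sqrt_neg_six : ‖ModularForm.eta (√6 / 2 * Complex.I)‖ ^ 4 =
    Real.Gamma (1 / 24) * Real.Gamma (5 / 24) * Real.Gamma (7 / 24) * Real.Gamma (11 / 24) *
      (1 + √2) ^ (1 / 3 : ℝ) / (96 * Real.pi ^ 3) := by
  have h := eta_twentyfour.2
  have hp := Real.pi_pos
  have p5 : (0 : ℝ) < √6 := by positivity
  have hs : √6 ^ 2 = 6 := Real.sq_sqrt (by norm_num)
  generalize ‖ModularForm.eta (√6 / 2 * Complex.I)‖ ^ 4 = X at h ⊢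
  generalize (1 + √2) ^ (1 / 3 : ℝ) = q at h ⊢
  rw [eq_div_iff (by positivity)]
  have h5 : X * (96 * Real.pi ^ 3) = √6 / 2 * X * (32 * Real.pi ^ 3 * √6) := by
    linear_combination (-(16 * Real.pi ^ 3 * X)) * hs
  rw [h5, h]
  field_simp
  ring

end Fermat.Agent.Cor.Kron

end
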